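/-
FFJ (S19), chapter Model, file 3 (helper17).  Mathlib only.

Polynomial rings over a "DVR in elementary form" (`R` a domain with fraction field `K`, every
nonzero element a unit times a power of `π`): `K = R[1/π]`, `(π)` maximal, `R[X]/(π)` and
`R[X][1/π]` are principal ideal domains; torsion-free modules have flat localizations at
multiplicative sets whose localization is a PID.
-/
import Mathlib.RingTheory.Flat.TorsionFree
import Mathlib.RingTheory.Flat.Localization
import Mathlib.RingTheory.Flat.Stability
import Mathlib.Algebra.Module.LocalizedModule.Basic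
import Mathlib.RingTheory.Localization.Algebra
import Mathlib.RingTheory.Polynomial.Quotient
import Mathlib.RingTheory.PrincipalIdealDomain
import Mathlib.RingTheory.Localization.FractionRing
import Mathlib.RingTheory.Polynomial.Basic

namespace Fermat.Agent.FFJ.Model.PolyLocal17

open Polynomial

section Generic

variable {P M : Type*} [CommRing P] [IsDomain P] [AddCommGroup M] [Module P M]

/-- The localization of a torsion-free module over a domain is torsion-free over the
localized ring. -/
theorem isTorsionFree_localizedModule [Module.IsTorsionFree P M] (S : Submonoid P)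
    (hS : S ≤ nonZeroDivisors P) [IsDomain (Localization S)] :
    Module.IsTorsionFree (Localization S) (LocalizedModule S M) := by
  refine Module.IsTorsionFree.of_smul_eq_zero fun q x hqx => ?_
  induction x using LocalizedModule.induction_on with
  | h m s =>
    obtain ⟨p, s', hq⟩ := IsLocalization.exists_mk'_eq S q
    rw [← Localization.mk_eq_mk'] at hq
    subst hq
    rw [LocalizedModule.mk_smul_mk, ← LocalizedModule.zero_mk (s' * s),
      LocalizedModule.mk_eq] at hqx
    obtain ⟨u, hu⟩ := hqx
    rw [smul_zero, smul_zero] at hu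
    have hu' : ((u : P) * ((s' * s : S) : P) * p) • m = 0 := by
      rw [mul_smul, mul_smul]; exact hu
    rcases (Module.isTorsionFree_iff_smul_eq_zero.mp ‹_›) _ _ hu' with h | h
    · left
      have hne : ((u : P) * ((s' * s : S) : P)) ≠ 0 :=
        mul_ne_zero (nonZeroDivisors.ne_zero (hS u.2)) (nonZeroDivisors.ne_zero (hS (s' * s).2))
      have hp : p = 0 := (mul_eq_zero.mp h).resolve_left hne
      rw [hp, Localization.mk_zero]
    · right
      rw [h, LocalizedModule.zero_mk]

/-- A torsion-free module over a domain `P` whose localization ring at `S` is a principal ideal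
domain has flat `S`-localization (over `P`). -/
theorem flat_localizedModule_of_isPrincipalIdealRing [Module.IsTorsionFree P M] (S : Submonoid P)
    (hS : S ≤ nonZeroDivisors P) [IsDomain (Localization S)]
    [IsPrincipalIdealRing (Localization S)] : Module.Flat P (LocalizedModule S M) := by
  have h1 : Module.IsTorsionFree (Localization S) (LocalizedModule S M) :=
    isTorsionFree_localizedModule S hS
  have h2 : Module.Flat (Localization S) (LocalizedModule S M) := by
    rw [Module.Flat.flat_iff_torsion_eq_bot_of_isBezout, ← Submodule.isTorsionFree_iff_torsion_eq_bot]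
    exact h1
  have h3 : Module.Flat P (Localization S) := IsLocalization.flat _ S
  exact Module.Flat.trans P (Localization S) _

end Generic

section DVR

variable {R K : Type*} [CommRing R] [IsDomain R] [Field K] [Algebra R K] [IsFractionRing R K]

/-- A "discrete valuation ring" in elementary form: `K = R[1/π]`. -/
theorem isLocalization_away_of_dvr (π : R)
    (hdvr : ∀ r : R, r ≠ 0 → ∃ (k : ℕ) (v : Rˣ), r = π ^ k * v) (hπ0 : π ≠ 0) :
    IsLocalization.Away π K := by
  have hinj : Function.Injective (algebraMap R K) := IsFractionRing.injective R K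
  refine ⟨?_, ?_, ?_⟩
  · rintro ⟨_, n, rfl⟩
    rw [map_pow]
    exact (IsUnit.mk0 _ (by rw [Ne, map_eq_zero_iff _ hinj]; exact hπ0)).pow n
  · intro z
    obtain ⟨a, b, hb, rfl⟩ := IsFractionRing.div_surjective (A := R) z
    have hb0 : b ≠ 0 := nonZeroDivisors.ne_zero hb
    obtain ⟨k, v, hv⟩ := hdvr b hb0
    refine ⟨(a * ((v⁻¹ : Rˣ) : R), ⟨π ^ k, k, rfl⟩), ?_⟩
    have hbK : algebraMap R K b ≠ 0 := by rw [Ne, map_eq_zero_iff _ hinj]; exact hb0
    rw [div_mul_eq_mul_div, div_eq_iff hbK]
    simp only [← map_mul]
    congr 1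
    rw [hv]
    have : ((v⁻¹ : Rˣ) : R) * (v : R) = 1 := Units.inv_mul v
    calc a * π ^ k = a * π ^ k * (((v⁻¹ : Rˣ) : R) * (v : R)) := by rw [this, mul_one]
      _ = a * ((v⁻¹ : Rˣ) : R) * (π ^ k * v) := by ring
  · intro x y hxy
    exact ⟨1, by rw [hinj hxy]⟩

/-- `(π)` is a maximal ideal. -/
theorem isMaximal_span_of_dvr (π : R)
    (hdvr : ∀ r : R, r ≠ 0 → ∃ (k : ℕ) (v : Rˣ), r = π ^ k * v) (hπu : ¬ IsUnit π) :
    (Ideal.span {π} : Ideal R).IsMaximal := by
  rw [Ideal.isMaximal_iff]
  refine ⟨?_, ?_⟩
  · rw [Ideal.mem_span_singleton]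
    exact fun h => hπu (isUnit_of_dvd_one h)
  · intro J x hIJ hxI hxJ
    have hx0 : x ≠ 0 := fun h => hxI (h ▸ zero_mem _)
    obtain ⟨k, v, hv⟩ := hdvr x hx0
    have hk : k = 0 := by
      by_contra hk
      apply hxI
      rw [Ideal.mem_span_singleton, hv]
      exact Dvd.dvd.mul_right (dvd_pow_self π hk) _
    rw [hk, pow_zero, one_mul] at hv
    have : (1 : R) = ((v⁻¹ : Rˣ) : R) * x := by rw [hv]; exact (Units.inv_mul v).symm
    rw [this]
    exact J.mul_mem_left _ hxJ

/-- `R[X]/(π)` is a principal ideal domain. -/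
theorem isPrincipalIdealRing_quotient_C (π : R) (hmax : (Ideal.span {π} : Ideal R).IsMaximal) :
    IsDomain (R[X] ⧸ (Ideal.span {C π} : Ideal R[X])) ∧
      IsPrincipalIdealRing (R[X] ⧸ (Ideal.span {C π} : Ideal R[X])) := by
  let _ : Field (R ⧸ (Ideal.span {π} : Ideal R)) := Ideal.Quotient.field _
  have hmap : (Ideal.span {π} : Ideal R).map (C : R →+* R[X]) = Ideal.span {C π} := by
    rw [Ideal.map_span, Set.image_singleton]
  let e1 : (R ⧸ (Ideal.span {π} : Ideal R))[X] ≃+*
      R[X] ⧸ ((Ideal.span {π} : Ideal R).map (C : R →+* R[X])) :=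
    Ideal.polynomialQuotientEquivQuotientPolynomial _
  let e2 : (R[X] ⧸ ((Ideal.span {π} : Ideal R).map (C : R →+* R[X]))) ≃+*
      R[X] ⧸ (Ideal.span {C π} : Ideal R[X]) := Ideal.quotEquivOfEq hmap
  let e := e1.trans e2
  refine ⟨?_, ?_⟩
  · exact MulEquiv.isDomain _ e.symm.toMulEquiv
  · exact IsPrincipalIdealRing.of_surjective e.toRingHom
      (show Function.Surjective e.toRingHom from e.surjective)

/-- `R[X][1/π] ≅ K[X]` is a principal ideal domain. -/
theorem isPrincipalIdealRing_localization_C (π : R) [IsLocalization.Away π K] :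
    IsDomain (Localization (Submonoid.powers (C π : R[X]))) ∧
      IsPrincipalIdealRing (Localization (Submonoid.powers (C π : R[X]))) := by
  let _ := Polynomial.algebra R K
  have h1 : IsLocalization ((Submonoid.powers π).map (C : R →+* R[X])) K[X] :=
    Polynomial.isLocalization (Submonoid.powers π) K
  have h2 : (Submonoid.powers π).map (C : R →+* R[X]) = Submonoid.powers (C π : R[X]) :=
    Submonoid.map_powers _ π
  rw [h2] at h1
  let e : Localization (Submonoid.powers (C π : R[X])) ≃ₐ[R[X]] K[X] :=
    IsLocalization.algEquiv (Submonoid.powers (C π : R[X])) _ _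
  refine ⟨?_, ?_⟩
  · exact MulEquiv.isDomain _ e.toMulEquiv
  · exact IsPrincipalIdealRing.of_surjective (e.symm : K[X] →+* _) e.symm.surjective

end DVR

end Fermat.Agent.FFJ.Model.PolyLocal17
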