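/-
FFJ (S19), chapter Model, file 1 (helper17).  Mathlib only.

Projectivity of a finite torsion-free module `M` over a noetherian domain `P` from a basis modulo a
prime element `π`:
* `projective_of_two_lattices`: `aM ⊆ N`, `bM ⊆ N'`, `ua + vb = 1`, `N, N'` projective ⇒ `M` projective;
* `linearIndependent_of_mod`: independence modulo `π` lifts (Krull intersection);
* `exists_smul_mem_span`: Nakayama near `V(π)`;
* `projective_of_basis_mod`: `M` free near `V(π)` and flat on `D(π)` ⇒ projective.
-/
import Mathlib.Algebra.Module.Projective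
import Mathlib.RingTheory.Filtration
import Mathlib.RingTheory.Finiteness.Nakayama
import Mathlib.LinearAlgebra.LinearIndependent.Defs
import Mathlib.LinearAlgebra.Basis.Basic
import Mathlib.LinearAlgebra.FreeModule.Basic
import Mathlib.RingTheory.Flat.Localization
import Mathlib.RingTheory.Flat.EquationalCriterion
import Mathlib.RingTheory.Flat.Stability
import Mathlib.Algebra.Module.FinitePresentation

namespace Fermat.Agent.FFJ.Model.ProjLift17

variable {P M : Type*} [CommRing P] [AddCommGroup M] [Module P M]

/-- **Two lattices.** If `a M ⊆ N`, `b M ⊆ N'` with `N, N'` projective submodules and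
`u a + v b = 1`, then `M` is a direct summand of `N × N'`, hence projective. -/
theorem projective_of_two_lattices (N N' : Submodule P M) [Module.Projective P N]
    [Module.Projective P N'] (a b u v : P) (hab : u * a + v * b = 1)
    (ha : ∀ m : M, a • m ∈ N) (hb : ∀ m : M, b • m ∈ N') : Module.Projective P M := by
  let i : M →ₗ[P] (N × N') :=
    LinearMap.prod
      (LinearMap.codRestrict N ((u * a) • LinearMap.id) (fun m => by
        simp only [LinearMap.smul_apply, LinearMap.id_coe, id_eq, mul_smul]
        exact N.smul_mem u (ha m)))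
      (LinearMap.codRestrict N' ((v * b) • LinearMap.id) (fun m => by
        simp only [LinearMap.smul_apply, LinearMap.id_coe, id_eq, mul_smul]
        exact N'.smul_mem v (hb m)))
  let p : (N × N') →ₗ[P] M := LinearMap.coprod N.subtype N'.subtype
  refine Module.Projective.of_split i p ?_
  ext m
  change (u * a) • m + (v * b) • m = m
  rw [← add_smul, hab, one_smul]

/-- **Independence of lifts.** A family which is independent modulo a prime element `π`
of a noetherian domain, in a `π`-torsion-free module, is linearly independent. -/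
theorem linearIndependent_of_mod [IsDomain P] [IsNoetherianRing P] (π : P) (hπ : ¬ IsUnit π)
    (hπM : ∀ m : M, π • m = 0 → m = 0) {r : ℕ} (e : Fin r → M)
    (hind : ∀ c : Fin r → P, (∃ m', ∑ i, c i • e i = π • m') → ∀ i, π ∣ c i) :
    LinearIndependent P e := by
  rw [Fintype.linearIndependent_iff]
  have key : ∀ n : ℕ, ∀ c : Fin r → P, ∑ i, c i • e i = 0 → ∀ i, π ^ n ∣ c i := by
    intro n
    induction n with
    | zero => intro c _ i; simp
    | succ n ih =>
      intro c hc i
      have h1 : ∀ i, π ∣ c i := hind c ⟨0, by rw [hc, smul_zero]⟩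
      choose d hd using h1
      have h2 : ∑ i, d i • e i = 0 := by
        apply hπM
        rw [Finset.smul_sum, ← hc]
        refine Finset.sum_congr rfl fun j _ => ?_
        rw [smul_smul, ← hd j]
      have := ih d h2 i
      rw [hd i, pow_succ']
      exact mul_dvd_mul_left π this
  intro c hc i
  have hmem : c i ∈ (⨅ n : ℕ, (Ideal.span {π} : Ideal P) ^ n) := by
    rw [Ideal.mem_iInf]
    intro n
    rw [Ideal.span_singleton_pow, Ideal.mem_span_singleton]
    exact key n c hc i
  have hne : (Ideal.span {π} : Ideal P) ≠ ⊤ := by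
    rw [Ne, Ideal.span_singleton_eq_top]; exact hπ
  rw [Ideal.iInf_pow_eq_bot_of_isDomain _ hne] at hmem
  exact hmem

/-- **Nakayama near `π`.** If `e` spans `M` modulo `π` and `M` is finite, some `a ≡ 1 mod π`
multiplies `M` into the span of `e`. -/
theorem exists_smul_mem_span [Module.Finite P M] (π : P) {r : ℕ} (e : Fin r → M)
    (hspan : ∀ m : M, ∃ (c : Fin r → P) (m' : M), m = ∑ i, c i • e i + π • m') :
    ∃ a : P, a - 1 ∈ Ideal.span {π} ∧ ∀ m : M, a • m ∈ Submodule.span P (Set.range e) := by
  set N₀ : Submodule P M := Submodule.span P (Set.range e) with hN₀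
  have hfg : (⊤ : Submodule P (M ⧸ N₀)).FG := Module.Finite.fg_top
  have hle : (⊤ : Submodule P (M ⧸ N₀)) ≤ (Ideal.span {π} : Ideal P) • ⊤ := by
    intro q _
    obtain ⟨m, rfl⟩ := Submodule.Quotient.mk_surjective N₀ q
    obtain ⟨c, m', hm⟩ := hspan m
    have h0 : (Submodule.Quotient.mk (∑ i, c i • e i) : M ⧸ N₀) = 0 := by
      rw [Submodule.Quotient.mk_eq_zero]
      exact Submodule.sum_mem _ fun i _ =>
        Submodule.smul_mem _ _ (Submodule.subset_span ⟨i, rfl⟩)
    rw [hm, Submodule.Quotient.mk_add, h0, zero_add, Submodule.Quotient.mk_smul]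
    exact Submodule.smul_mem_smul (Ideal.subset_span rfl) trivial
  obtain ⟨a, ha1, ha⟩ :=
    Submodule.exists_sub_one_mem_and_smul_eq_zero_of_fg_of_le_smul _ _ hfg hle
  refine ⟨a, ha1, fun m => ?_⟩
  have := ha (Submodule.Quotient.mk m) trivial
  rwa [← Submodule.Quotient.mk_smul, Submodule.Quotient.mk_eq_zero] at this

/-- If `φ : N →ₗ M` is injective and `a M ⊆ range φ`, then `M[1/a]` is the localization of `N`
at `a`. -/
theorem isLocalizedModule_of_smul_mem_range {N : Type*} [AddCommGroup N] [Module P N]
    (φ : N →ₗ[P] M) (hφ : Function.Injective φ) (a : P) (ha : ∀ m : M, a • m ∈ LinearMap.range φ) :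
    IsLocalizedModule (Submonoid.powers a)
      ((LocalizedModule.mkLinearMap (Submonoid.powers a) M).comp φ) := by
  refine ⟨IsLocalizedModule.map_units (LocalizedModule.mkLinearMap (Submonoid.powers a) M),
    ?_, ?_⟩
  · intro y
    obtain ⟨⟨m, s⟩, hms⟩ :=
      IsLocalizedModule.surj (Submonoid.powers a) (LocalizedModule.mkLinearMap _ M) y
    obtain ⟨n, hn⟩ := ha m
    refine ⟨(n, ⟨a, Submonoid.mem_powers a⟩ * s), ?_⟩
    rw [mul_smul, hms, LinearMap.comp_apply, hn, Submonoid.smul_def, ← map_smul]
  · intro x₁ x₂ h
    rw [LinearMap.comp_apply, LinearMap.comp_apply] at h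
    obtain ⟨c, hc⟩ := IsLocalizedModule.exists_of_eq (S := Submonoid.powers a) h
    refine ⟨c, hφ ?_⟩
    rw [Submonoid.smul_def, Submonoid.smul_def, map_smul, map_smul]
    exact hc

/-- **Projectivity from a basis modulo a prime element.** -/
theorem projective_of_basis_mod [IsDomain P] [IsNoetherianRing P] [Module.Finite P M]
    (π : P) (hπ : ¬ IsUnit π) (hπM : ∀ m : M, π • m = 0 → m = 0) {r : ℕ} (e : Fin r → M)
    (hspan : ∀ m : M, ∃ (c : Fin r → P) (m' : M), m = ∑ i, c i • e i + π • m')
    (hind : ∀ c : Fin r → P, (∃ m', ∑ i, c i • e i = π • m') → ∀ i, π ∣ c i)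
    (hloc : Module.Flat P (LocalizedModule.Away π M)) : Module.Projective P M := by
  have hli := linearIndependent_of_mod π hπ hπM e hind
  obtain ⟨a, ha1, ha⟩ := exists_smul_mem_span π e hspan
  let φ : (Fin r → P) →ₗ[P] M := Fintype.linearCombination P e
  have hφinj : Function.Injective φ := by
    rw [injective_iff_map_eq_zero]
    intro c hc
    rw [show φ c = ∑ i, c i • e i from Fintype.linearCombination_apply P e c] at hc
    funext i
    exact Fintype.linearIndependent_iff.mp hli c hc i
  have hφrange : LinearMap.range φ = Submodule.span P (Set.range e) :=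
    Fintype.range_linearCombination P e
  have hloca : IsLocalizedModule (Submonoid.powers a)
      ((LocalizedModule.mkLinearMap (Submonoid.powers a) M).comp φ) :=
    isLocalizedModule_of_smul_mem_range φ hφinj a (fun m => by rw [hφrange]; exact ha m)
  have hflata : Module.Flat P (LocalizedModule.Away a M) := by
    have h1 : Module.Flat (Localization (Submonoid.powers a)) (LocalizedModule.Away a M) :=
      Module.Flat.of_isLocalizedModule (Localization (Submonoid.powers a)) (Submonoid.powers a)
        ((LocalizedModule.mkLinearMap (Submonoid.powers a) M).comp φ)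
    have h2 : Module.Flat P (Localization (Submonoid.powers a)) :=
      IsLocalization.flat _ (Submonoid.powers a)
    exact Module.Flat.trans P (Localization (Submonoid.powers a)) _
  have hspn : Ideal.span ({a, π} : Set P) = ⊤ := by
    rw [Ideal.eq_top_iff_one]
    have h1 : (1 : P) = a - (a - 1) := by ring
    rw [h1]
    refine sub_mem (Ideal.subset_span (by simp)) ?_
    exact Ideal.span_mono (by simp) ha1
  have hflat : Module.Flat P M := by
    refine Module.flat_of_localized_span P M ({a, π} : Set P) hspn ?_
    rintro ⟨x, hx⟩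
    rcases hx with rfl | hx
    · exact hflata
    · rw [Set.mem_singleton_iff] at hx
      subst hx
      exact hloc
  have : Module.FinitePresentation P M := Module.finitePresentation_of_finite P M
  exact Module.Flat.projective_of_finitePresentation

end Fermat.Agent.FFJ.Model.ProjLift17
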