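/-
FFJ (S19), chapter Model, file 4 (helper17).  Mathlib only.

`ChartHyp R K F π s B Ov`: the hypotheses on ONE chart `B ∋ s` of a smooth two-chart model over a
DVR `R` with uniformiser `π` (the fields are literally those of `RED/CORE/CoreIface24.TwoChartModel`
for the chart `B0 ∋ t`, plus transcendence of `s` modulo `π`).
`ChartHyp.finite_projective`: `B` is a FINITE PROJECTIVE module over `R[X]` acting through `X ↦ s`.
-/
import Fermat.Agent.FFJ.Model.ProjLift17
import Fermat.Agent.FFJ.Model.BasisMod17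
import Fermat.Agent.FFJ.Model.PolyLocal17
import Mathlib.RingTheory.Valuation.ValuationSubring
import Mathlib.RingTheory.Polynomial.Tower

namespace Fermat.Agent.FFJ.Model.ChartProj17

open Polynomial
open Fermat.Agent.FFJ.Model.ProjLift17 Fermat.Agent.FFJ.Model.BasisMod17
open Fermat.Agent.FFJ.Model.PolyLocal17

variable (R K F : Type*) [CommRing R] [Field K] [Field F] [Algebra R K] [Algebra K F]
  [Algebra R F] [IsScalarTower R K F]

/-- The hypotheses on ONE chart `B ∋ s` of a two-chart model over the "DVR" `R` (uniformiser `π`),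
inside the function field `F`, with Gauss valuation ring `Ov`. -/
structure ChartHyp (π : R) (s : F) (B : Subalgebra R F) (Ov : ValuationSubring F) : Prop where
  noethR : IsNoetherianRing R
  fracR : IsFractionRing R K
  dvrR : ∀ r : R, r ≠ 0 → ∃ (k : ℕ) (v : Rˣ), r = π ^ k * v
  s_mem : s ∈ B
  fin : ∃ (r : ℕ) (e : Fin r → F), (∀ i, e i ∈ B) ∧
    ∀ x ∈ B, ∃ P : Fin r → R[X], x = ∑ i, aeval s (P i) * e i
  le_Ov : ∀ x ∈ B, x ∈ Ov
  pi_ne : algebraMap R F π ≠ 0
  pi_nonunit : (algebraMap R F π)⁻¹ ∉ Ov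
  unif : ∀ x ∈ Ov, x⁻¹ ∉ Ov → ∃ c ∈ Ov, x = algebraMap R F π * c
  sat : ∀ b ∈ B, ∀ c ∈ Ov, b = algebraMap R F π * c → c ∈ B
  trans : ∀ p : R[X], (∃ c ∈ Ov, aeval s p = algebraMap R F π * c) → C π ∣ p

variable {R K F}

namespace ChartHyp

variable {π : R} {s : F} {B : Subalgebra R F} {Ov : ValuationSubring F}

theorem isDomain (h : ChartHyp R K F π s B Ov) : IsDomain R :=
  haveI := h.fracR
  Function.Injective.isDomain (algebraMap R K) (IsFractionRing.injective R K)

theorem pi_ne_zero (h : ChartHyp R K F π s B Ov) : π ≠ 0 := by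
  rintro rfl
  exact h.pi_ne (map_zero _)

theorem algebraMap_mem_Ov (h : ChartHyp R K F π s B Ov) (r : R) : algebraMap R F r ∈ Ov :=
  h.le_Ov _ (B.algebraMap_mem r)

theorem not_isUnit_pi (h : ChartHyp R K F π s B Ov) : ¬ IsUnit π := by
  intro hu
  obtain ⟨u, hu⟩ := hu
  apply h.pi_nonunit
  have h1 : algebraMap R F π * algebraMap R F ((u⁻¹ : Rˣ) : R) = 1 := by
    rw [← map_mul, ← hu, Units.mul_inv, map_one]
  rw [inv_eq_of_mul_eq_one_right h1]
  exact h.algebraMap_mem_Ov _

theorem aeval_mem (h : ChartHyp R K F π s B Ov) (p : R[X]) : aeval s p ∈ B := by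
  have := (aeval (⟨s, h.s_mem⟩ : B) p).2
  rwa [aeval_subalgebra_coe] at this

/-- `s` is transcendental over `R`: `p(s) = 0` forces `p = 0`. -/
theorem aeval_eq_zero (h : ChartHyp R K F π s B Ov) (p : R[X]) (hp : aeval s p = 0) : p = 0 := by
  haveI := h.isDomain
  haveI := h.noethR
  have key : ∀ n : ℕ, ∀ q : R[X], aeval s q = 0 → (C π) ^ n ∣ q := by
    intro n
    induction n with
    | zero => intro q _; simp
    | succ n ih =>
      intro q hq
      obtain ⟨q', rfl⟩ := h.trans q ⟨0, zero_mem _, by rw [hq, mul_zero]⟩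
      rw [map_mul, aeval_C, mul_eq_zero] at hq
      have hq' := ih q' (hq.resolve_left h.pi_ne)
      rw [pow_succ']
      exact mul_dvd_mul_left _ hq'
  have hmem : p ∈ (⨅ n : ℕ, (Ideal.span {C π} : Ideal R[X]) ^ n) := by
    rw [Ideal.mem_iInf]
    intro n
    rw [Ideal.span_singleton_pow, Ideal.mem_span_singleton]
    exact key n p hp
  have hne : (Ideal.span {C π} : Ideal R[X]) ≠ ⊤ := by
    rw [Ne, Ideal.span_singleton_eq_top, Polynomial.isUnit_C]
    exact h.not_isUnit_pi
  rw [Ideal.iInf_pow_eq_bot_of_isDomain _ hne] at hmem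
  exact hmem

/-- **The chart is a finite projective module over `R[X]`** (acting through `X ↦ s`). -/
theorem finite_projective (h : ChartHyp R K F π s B Ov) :
    letI : Algebra R[X] B := (aeval (⟨s, h.s_mem⟩ : B)).toRingHom.toAlgebra
    Module.Finite R[X] B ∧ Module.Projective R[X] B := by
  classical
  letI : Algebra R[X] B := (aeval (⟨s, h.s_mem⟩ : B)).toRingHom.toAlgebra
  haveI := h.isDomain
  haveI := h.noethR
  haveI := h.fracR
  have hsmul : ∀ (p : R[X]) (b : B), ((p • b : B) : F) = aeval s p * (b : F) := by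
    intro p b
    rw [Algebra.smul_def]
    show ((aeval (⟨s, h.s_mem⟩ : B) p : B) : F) * (b : F) = _
    rw [aeval_subalgebra_coe]
  -- finiteness
  have hfin : Module.Finite R[X] B := by
    obtain ⟨r, e, he, hgen⟩ := h.fin
    refine ⟨⟨Finset.univ.image fun i => (⟨e i, he i⟩ : B), ?_⟩⟩
    rw [eq_top_iff]
    rintro ⟨x, hx⟩ -
    obtain ⟨P, hP⟩ := hgen x hx
    have : (⟨x, hx⟩ : B) = ∑ i, P i • (⟨e i, he i⟩ : B) := by
      apply Subtype.ext
      rw [AddSubmonoidClass.coe_finsetSum]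
      simp only [hsmul]
      exact hP
    rw [this]
    refine Submodule.sum_mem _ fun i _ => Submodule.smul_mem _ _ (Submodule.subset_span ?_)
    simp
  -- torsion-freeness
  have htf0 : Module.IsTorsionFree R[X] B := by
    refine Module.IsTorsionFree.of_smul_eq_zero fun p b hpb => ?_
    have h1 : aeval s p * (b : F) = 0 := by rw [← hsmul, hpb]; rfl
    rcases mul_eq_zero.mp h1 with h2 | h2
    · exact Or.inl (h.aeval_eq_zero p h2)
    · exact Or.inr (Subtype.ext h2)
  have hCπ0 : (C π : R[X]) ≠ 0 := by rw [Ne, C_eq_zero]; exact h.pi_ne_zero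
  have hCπu : ¬ IsUnit (C π : R[X]) := by rw [Polynomial.isUnit_C]; exact h.not_isUnit_pi
  have hπM : ∀ b : B, (C π : R[X]) • b = 0 → b = 0 := fun b hb =>
    ((Module.isTorsionFree_iff_smul_eq_zero.mp htf0) _ _ hb).resolve_left hCπ0
  -- torsion-freeness modulo `π`
  have htf : ∀ (p : R[X]) (b : B), ¬ (C π) ∣ p → (∃ b', p • b = (C π : R[X]) • b') →
      ∃ b'', b = (C π : R[X]) • b'' := by
    rintro p b hp ⟨b', hb'⟩
    have h1 : aeval s p * (b : F) = algebraMap R F π * (b' : F) := by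
      rw [← hsmul, hb', hsmul, aeval_C]
    have hpOv : aeval s p ∈ Ov := h.le_Ov _ (h.aeval_mem p)
    have hpinv : (aeval s p)⁻¹ ∈ Ov := by
      by_contra hcon
      obtain ⟨c, hc, hpc⟩ := h.unif _ hpOv hcon
      exact hp (h.trans p ⟨c, hc, hpc⟩)
    have hp0 : aeval s p ≠ 0 := by
      intro h0
      exact hp (h.trans p ⟨0, zero_mem _, by rw [h0, mul_zero]⟩)
    have h2 : (b : F) = algebraMap R F π * ((aeval s p)⁻¹ * (b' : F)) := by
      field_simp
      rw [mul_comm, h1]
    have hc : (aeval s p)⁻¹ * (b' : F) ∈ B :=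
      h.sat _ b.2 _ (Ov.mul_mem _ _ hpinv (h.le_Ov _ b'.2)) h2
    refine ⟨⟨_, hc⟩, Subtype.ext ?_⟩
    rw [hsmul, aeval_C]
    exact h2
  -- a basis modulo `π`
  have hmax := isMaximal_span_of_dvr π h.dvrR h.not_isUnit_pi
  obtain ⟨hdomQ, hpidQ⟩ := isPrincipalIdealRing_quotient_C π hmax
  obtain ⟨r, e, hspan, hind⟩ := exists_basis_mod (P := R[X]) (M := B) (C π) htf
  -- generic fibre
  haveI : IsLocalization.Away π K := isLocalization_away_of_dvr π h.dvrR h.pi_ne_zero
  obtain ⟨hdomL, hpidL⟩ := isPrincipalIdealRing_localization_C (K := K) π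
  have hS : Submonoid.powers (C π : R[X]) ≤ nonZeroDivisors R[X] :=
    Submonoid.powers_le.mpr (mem_nonZeroDivisors_of_ne_zero hCπ0)
  have hloc : Module.Flat R[X] (LocalizedModule.Away (C π : R[X]) B) :=
    flat_localizedModule_of_isPrincipalIdealRing (Submonoid.powers (C π : R[X])) hS
  exact ⟨hfin, projective_of_basis_mod (C π) hCπu hπM e hspan hind hloc⟩

end ChartHyp

end Fermat.Agent.FFJ.Model.ChartProj17
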