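/-
FFJ (S19), chapter Model (CURVE), brick C-A (helper17).  Mathlib only.

**Seshadri's theorem over a discrete valuation ring, elementary form.**
`P` a domain with a prime element `π` such that `P/(π) ≅ κ[X]` (`κ` a field), `M` a noetherian
`P`-module on which `π` is regular, with `M/πM` torsion-free over `κ[X]`, containing a free
sublattice `Λ₀` with `M/Λ₀` of `π`-power torsion.  Then `M` is free (of the same rank).

* `improve`     : the Euclidean step: a free lattice `Λ ⊆ M` with `Λ ∩ πM ≠ πΛ` can be enlarged;
* `exists_basis_of_lattice` : the theorem, by noetherian maximality.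
-/
import Mathlib
import Fermat.Agent.FFJ.Model.PolyLocal17

set_option autoImplicit false

namespace Fermat.Agent.FFJ.Model.PolyFree17

open Polynomial Fermat.Agent.FFJ.Model.PolyLocal17

variable {P κ M : Type*} [CommRing P] [IsDomain P] [Field κ] [AddCommGroup M] [Module P M]

open Classical in
/-- The Euclidean weight of a polynomial: `0` for `0`, `natDegree + 1` otherwise. -/
noncomputable def wt (f : κ[X]) : ℕ := if f = 0 then 0 else f.natDegree + 1

theorem wt_zero : wt (0 : κ[X]) = 0 := by
  classical
  exact if_pos rfl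

theorem wt_of_ne {f : κ[X]} (hf : f ≠ 0) : wt f = f.natDegree + 1 := by
  classical
  exact if_neg hf

theorem wt_mod_lt {f g : κ[X]} (hf : f ≠ 0) (hg : g ≠ 0) (hfg : f.natDegree ≤ g.natDegree) :
    wt (g % f) < wt g := by
  rw [wt_of_ne hg]
  by_cases h : g % f = 0
  · rw [h, wt_zero]; omega
  · rw [wt_of_ne h]
    have h1 : (g % f).degree < f.degree := degree_mod_lt g hf
    have h2 : (g % f).natDegree < f.natDegree := natDegree_lt_natDegree h h1
    omega

section Step

variable (φ : P →+* κ[X]) (hφ : Function.Surjective φ) (π : P) (hπ0 : π ≠ 0)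
  (hker : ∀ a : P, φ a = 0 ↔ π ∣ a)
  (htf : ∀ (a : P) (m : M), ¬ π ∣ a → (∃ m', a • m = π • m') → ∃ m'', m = π • m'')

include hπ0 hker htf in
/-- Final step: only one coefficient is nonzero modulo `π`. -/
theorem improve_one {n : ℕ} (b : Fin n → M) (c : Fin n → P) (hb : LinearIndependent P b)
    (hc : ∃ m', ∑ i, c i • b i = π • m') (i₀ : Fin n) (hi₀ : ¬ π ∣ c i₀)
    (hrest : ∀ j, j ≠ i₀ → π ∣ c j) :
    ∃ b' : Fin n → M, LinearIndependent P b' ∧
      Submodule.span P (Set.range b) < Submodule.span P (Set.range b') := by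
  classical
  obtain ⟨m', hm'⟩ := hc
  -- write `c j = π d j` for `j ≠ i₀`
  have hd : ∀ j, ∃ d : P, j ≠ i₀ → c j = π * d := by
    intro j
    by_cases hj : j = i₀
    · exact ⟨0, fun h => absurd hj h⟩
    · obtain ⟨d, hd⟩ := hrest j hj
      exact ⟨d, fun _ => hd⟩
  choose d hd using hd
  have hsplit : ∑ i, c i • b i = c i₀ • b i₀ + π • ∑ i ∈ Finset.univ.erase i₀, d i • b i := by
    rw [← Finset.add_sum_erase Finset.univ _ (Finset.mem_univ i₀), Finset.smul_sum]
    congr 1
    refine Finset.sum_congr rfl fun j hj => ?_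
    rw [hd j (Finset.ne_of_mem_erase hj), mul_smul]
  have h1 : c i₀ • b i₀ = π • (m' - ∑ i ∈ Finset.univ.erase i₀, d i • b i) := by
    rw [smul_sub, ← hm', hsplit]; abel
  obtain ⟨m, hm⟩ := htf (c i₀) (b i₀) hi₀ ⟨_, h1⟩
  refine ⟨Function.update b i₀ m, ?_, ?_⟩
  · refine hb.update i₀ m ⟨π, mem_nonZeroDivisors_of_ne_zero hπ0, Finsupp.single i₀ 1, ?_, ?_⟩
    · rw [Finsupp.single_eq_same]; exact one_mem _
    · rw [Finsupp.linearCombination_single, one_smul, hm]
  · have hle : Submodule.span P (Set.range b) ≤
        Submodule.span P (Set.range (Function.update b i₀ m)) := by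
      rw [Submodule.span_le]
      rintro _ ⟨j, rfl⟩
      by_cases hj : j = i₀
      · subst hj
        rw [hm]
        refine Submodule.smul_mem _ _ (Submodule.subset_span ⟨j, ?_⟩)
        rw [Function.update_self]
      · exact Submodule.subset_span ⟨j, by rw [Function.update_of_ne hj]⟩
    refine lt_of_le_of_ne hle fun heq => ?_
    have hmem : m ∈ Submodule.span P (Set.range b) := by
      rw [heq]
      exact Submodule.subset_span ⟨i₀, by rw [Function.update_self]⟩
    obtain ⟨a, ha⟩ := (Submodule.mem_span_range_iff_exists_fun P).1 hmem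
    have hrel : ∑ i, (π * a i - if i = i₀ then 1 else 0) • b i = 0 := by
      simp only [sub_smul, Finset.sum_sub_distrib, ite_smul, one_smul, zero_smul,
        Finset.sum_ite_eq', Finset.mem_univ, if_true, mul_smul]
      rw [← Finset.smul_sum, ha, ← hm, sub_self]
    have := (Fintype.linearIndependent_iff.1 hb) _ hrel i₀
    rw [if_pos rfl, sub_eq_zero] at this
    have hunit : π ∣ 1 := ⟨a i₀, this.symm⟩
    have : φ 1 = 0 := (hker 1).2 hunit
    rw [map_one] at this
    exact one_ne_zero this

include hφ hπ0 hker htf in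
/-- **The Euclidean step.** If a free lattice `Λ = ⟨b⟩` has an element of `πM` whose coefficient
vector is nonzero modulo `π`, then `Λ` is strictly contained in a free lattice of the same rank. -/
theorem improve {n : ℕ} : ∀ (k : ℕ) (b : Fin n → M) (c : Fin n → P), LinearIndependent P b →
    (∑ i, wt (φ (c i))) ≤ k → (∃ m', ∑ i, c i • b i = π • m') → (∃ i, ¬ π ∣ c i) →
    ∃ b' : Fin n → M, LinearIndependent P b' ∧
      Submodule.span P (Set.range b) < Submodule.span P (Set.range b') := by
  classical
  intro k
  induction k with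
  | zero =>
    intro b c _ hk _ ⟨i, hi⟩
    exfalso
    have h0 : wt (φ (c i)) = 0 := by
      have := Finset.single_le_sum (f := fun i => wt (φ (c i))) (fun _ _ => Nat.zero_le _)
        (Finset.mem_univ i)
      omega
    have hne : φ (c i) ≠ 0 := fun h => hi ((hker _).1 h)
    rw [wt_of_ne hne] at h0
    omega
  | succ k ih =>
    intro b c hb hk hc ⟨i₀, hi₀⟩
    by_cases h2 : ∃ j, j ≠ i₀ ∧ ¬ π ∣ c j
    · -- two nonzero coefficients: one Euclidean division
      obtain ⟨j₀, hj₀, hcj₀⟩ := h2
      -- order them by degree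
      obtain ⟨i, j, hij, hci, hcj, hdeg⟩ : ∃ i j : Fin n, i ≠ j ∧ ¬ π ∣ c i ∧ ¬ π ∣ c j ∧
          (φ (c i)).natDegree ≤ (φ (c j)).natDegree := by
        rcases le_total (φ (c i₀)).natDegree (φ (c j₀)).natDegree with h | h
        · exact ⟨i₀, j₀, hj₀.symm, hi₀, hcj₀, h⟩
        · exact ⟨j₀, i₀, hj₀, hcj₀, hi₀, h⟩
      have hfi : φ (c i) ≠ 0 := fun h => hci ((hker _).1 h)
      have hfj : φ (c j) ≠ 0 := fun h => hcj ((hker _).1 h)
      obtain ⟨q, hq⟩ := hφ (φ (c j) / φ (c i))
      set c' : Fin n → P := Function.update c j (c j - q * c i) with hc'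
      set b' : Fin n → M := Function.update b i (b i + q • b j) with hb'
      have hc'j : c' j = c j - q * c i := Function.update_self _ _ _
      have hc'ne : ∀ l, l ≠ j → c' l = c l := fun l hl => Function.update_of_ne hl _ _
      have hb'i : b' i = b i + q • b j := Function.update_self _ _ _
      have hb'ne : ∀ l, l ≠ i → b' l = b l := fun l hl => Function.update_of_ne hl _ _
      -- same linear combination
      have key : ∀ l, c' l • b' l = c l • b l + (if l = i then (c i * q) • b j else 0) -
          (if l = j then (q * c i) • b j else 0) := by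
        intro l
        by_cases hli : l = i
        · subst hli
          rw [hc'ne l hij, hb'i, if_pos rfl, if_neg hij, sub_zero, smul_add, mul_smul]
        · by_cases hlj : l = j
          · subst hlj
            rw [hc'j, hb'ne l hli, if_neg hli, if_pos rfl, add_zero, sub_smul]
          · rw [hc'ne l hlj, hb'ne l hli, if_neg hli, if_neg hlj, add_zero, sub_zero]
      have hsum : ∑ l, c' l • b' l = ∑ l, c l • b l := by
        simp only [key, Finset.sum_sub_distrib, Finset.sum_add_distrib, Finset.sum_ite_eq',
          Finset.mem_univ, if_true]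
        rw [mul_comm (c i) q]; abel
      -- the new basis
      have hb'ind : LinearIndependent P b' := by
        refine hb.update i _ ⟨1, one_mem _, Finsupp.single i 1 + Finsupp.single j q, ?_, ?_⟩
        · rw [Finsupp.add_apply, Finsupp.single_eq_same, Finsupp.single_eq_of_ne hij, add_zero]
          exact one_mem _
        · rw [one_smul, map_add, Finsupp.linearCombination_single,
            Finsupp.linearCombination_single, one_smul]
      have hspan : Submodule.span P (Set.range b') = Submodule.span P (Set.range b) := by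
        apply le_antisymm
        · rw [Submodule.span_le]
          rintro _ ⟨l, rfl⟩
          by_cases hli : l = i
          · subst hli
            rw [hb'i]
            exact add_mem (Submodule.subset_span ⟨l, rfl⟩)
              (Submodule.smul_mem _ _ (Submodule.subset_span ⟨j, rfl⟩))
          · rw [hb'ne l hli]; exact Submodule.subset_span ⟨l, rfl⟩
        · rw [Submodule.span_le]
          rintro _ ⟨l, rfl⟩
          by_cases hli : l = i
          · subst hli
            have : b l = b' l - q • b' j := by rw [hb'i, hb'ne j (Ne.symm hij)]; abel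
            rw [this]
            exact sub_mem (Submodule.subset_span ⟨l, rfl⟩)
              (Submodule.smul_mem _ _ (Submodule.subset_span ⟨j, rfl⟩))
          · rw [← hb'ne l hli]; exact Submodule.subset_span ⟨l, rfl⟩
      -- the weight drops
      have hφc'j : φ (c' j) = φ (c j) % φ (c i) := by
        rw [hc'j, map_sub, map_mul, hq, EuclideanDomain.mod_eq_sub_mul_div, mul_comm]
      have hwt : ∑ l, wt (φ (c' l)) < ∑ l, wt (φ (c l)) := by
        apply Finset.sum_lt_sum
        · intro l _
          by_cases hlj : l = j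
          · subst hlj
            rw [hφc'j]; exact (wt_mod_lt hfi hfj hdeg).le
          · rw [hc'ne l hlj]
        · exact ⟨j, Finset.mem_univ j, by rw [hφc'j]; exact wt_mod_lt hfi hfj hdeg⟩
      obtain ⟨b'', hb''ind, hb''⟩ := ih b' c' hb'ind (by omega) (by rw [hsum]; exact hc)
        ⟨i, by rw [hc'ne i hij]; exact hci⟩
      exact ⟨b'', hb''ind, by rw [← hspan]; exact hb''⟩
    · -- only one nonzero coefficient
      have hrest : ∀ j, j ≠ i₀ → π ∣ c j := by
        intro j hj
        by_contra hcj
        exact h2 ⟨j, hj, hcj⟩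
      exact improve_one φ π hπ0 hker htf b c hb hc i₀ hi₀ hrest

include hφ hπ0 hker htf in
/-- **Seshadri over a DVR, lattice form.** A noetherian module `M`, `π`-regular, with `M/πM`
torsion-free over `P/(π) = κ[X]`, which contains a free lattice `⟨b₀⟩` of rank `n` with
`π`-power-torsion cokernel, is free of rank `n`. -/
theorem exists_basis_of_lattice [IsNoetherian P M] (hreg : ∀ m : M, π • m = 0 → m = 0)
    {n : ℕ} (b₀ : Fin n → M) (hb₀ : LinearIndependent P b₀)
    (hpow : ∀ x : M, ∃ k : ℕ, π ^ k • x ∈ Submodule.span P (Set.range b₀)) :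
    ∃ b : Fin n → M, LinearIndependent P b ∧ Submodule.span P (Set.range b) = ⊤ := by
  classical
  let S : Set (Submodule P M) := {Λ | Submodule.span P (Set.range b₀) ≤ Λ ∧
    ∃ b : Fin n → M, LinearIndependent P b ∧ Submodule.span P (Set.range b) = Λ}
  have hne : S.Nonempty := ⟨_, le_rfl, b₀, hb₀, rfl⟩
  obtain ⟨Λ, ⟨hΛ₀, b, hb, hbΛ⟩, hmax⟩ :=
    (wellFounded_gt (α := Submodule P M)).has_min S hne
  -- (A) `Λ ∩ πM = πΛ`
  have hA : ∀ c : Fin n → P, (∃ m', ∑ i, c i • b i = π • m') → ∀ i, π ∣ c i := by
    intro c hc
    by_contra hcon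
    rw [not_forall] at hcon
    obtain ⟨b', hb', hlt⟩ := improve φ hφ π hπ0 hker htf _ b c hb le_rfl hc hcon
    rw [hbΛ] at hlt
    exact hmax _ ⟨hΛ₀.trans hlt.le, b', hb', rfl⟩ hlt
  -- (B) `M/Λ` has no `π`-torsion
  have hB : ∀ y : M, π • y ∈ Λ → y ∈ Λ := by
    intro y hy
    rw [← hbΛ] at hy ⊢
    obtain ⟨c, hc⟩ := (Submodule.mem_span_range_iff_exists_fun P).1 hy
    have hdvd := hA c ⟨y, hc⟩
    choose d hd using hdvd
    have : π • (y - ∑ i, d i • b i) = 0 := by
      rw [smul_sub, ← hc, Finset.smul_sum, sub_eq_zero]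
      refine Finset.sum_congr rfl fun i _ => ?_
      rw [hd i, mul_smul]
    have hy' : y = ∑ i, d i • b i := sub_eq_zero.1 (hreg _ this)
    rw [hy']
    exact Submodule.sum_mem _ fun i _ =>
      Submodule.smul_mem _ _ (Submodule.subset_span ⟨i, rfl⟩)
  have hC : ∀ (k : ℕ) (x : M), π ^ k • x ∈ Λ → x ∈ Λ := by
    intro k
    induction k with
    | zero => intro x hx; simpa using hx
    | succ k ih =>
      intro x hx
      apply ih
      apply hB
      rwa [smul_smul, ← pow_succ']
  refine ⟨b, hb, ?_⟩
  rw [hbΛ, eq_top_iff]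
  rintro x -
  obtain ⟨k, hk⟩ := hpow x
  exact hC k x (hΛ₀ hk)

end Step

section Lattice

variable {P M : Type*} [CommRing P] [IsDomain P] [AddCommGroup M] [Module P M]

/-- **The initial lattice.** If `P[1/π]` is a principal ideal domain and `M` is a finite torsion-free
`P`-module, then `M` contains a free lattice with `π`-power-torsion cokernel. -/
theorem exists_lattice (π : P) (hπ0 : π ≠ 0)
    [IsDomain (Localization (Submonoid.powers π))]
    [IsPrincipalIdealRing (Localization (Submonoid.powers π))]
    [Module.Finite P M] [Module.IsTorsionFree P M] :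
    ∃ (n : ℕ) (b₀ : Fin n → M), LinearIndependent P b₀ ∧
      ∀ x : M, ∃ k : ℕ, π ^ k • x ∈ Submodule.span P (Set.range b₀) := by
  classical
  set S : Submonoid P := Submonoid.powers π with hS
  have hSle : S ≤ nonZeroDivisors P := powers_le_nonZeroDivisors_of_noZeroDivisors hπ0
  let f : M →ₗ[P] LocalizedModule S M := LocalizedModule.mkLinearMap S M
  have : Module.IsTorsionFree (Localization S) (LocalizedModule S M) :=
    isTorsionFree_localizedModule S hSle
  have : Module.Finite (Localization S) (LocalizedModule S M) :=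
    Module.Finite.of_isLocalizedModule S f
  obtain ⟨n, v⟩ : Σ n : ℕ, Module.Basis (Fin n) (Localization S) (LocalizedModule S M) :=
    Module.basisOfFiniteTypeTorsionFree'
  choose sec hsec using fun i => IsLocalizedModule.surj S f (v i)
  refine ⟨n, fun i => (sec i).1, ?_, ?_⟩
  · -- independence
    have hunit : ∀ i, IsUnit (algebraMap P (Localization S) ((sec i).2 : P)) :=
      fun i => IsLocalization.map_units _ (sec i).2
    let w : Fin n → (Localization S)ˣ := fun i => (hunit i).unit
    have h1 : LinearIndependent (Localization S) (w • (v : Fin n → LocalizedModule S M)) :=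
      v.linearIndependent.units_smul w
    have h2 : (w • (v : Fin n → LocalizedModule S M)) = f ∘ fun i => (sec i).1 := by
      funext i
      rw [Function.comp_apply, ← hsec i, Pi.smul_apply', Units.smul_def, IsUnit.unit_spec,
        Submonoid.smul_def, algebraMap_smul]
    rw [h2] at h1
    have h3 : LinearIndependent P (f ∘ fun i => (sec i).1) :=
      h1.restrict_scalars (by
        intro a b hab
        simp only [Algebra.smul_def, mul_one] at hab
        exact IsLocalization.injective _ hSle hab)
    exact h3.of_comp f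
  · intro x
    have htop : (Submodule.span P (Set.range fun i => (sec i).1)).localized' (Localization S) S f
        = ⊤ := by
      rw [Submodule.localized'_span, eq_top_iff, ← v.span_eq, Submodule.span_le]
      rintro _ ⟨i, rfl⟩
      have hu : IsUnit (algebraMap P (Localization S) ((sec i).2 : P)) :=
        IsLocalization.map_units _ (sec i).2
      have hmem : f (sec i).1 ∈ Submodule.span (Localization S)
          (f '' Set.range fun i => (sec i).1) :=
        Submodule.subset_span ⟨_, ⟨i, rfl⟩, rfl⟩
      rw [← hsec i, Submonoid.smul_def, ← algebraMap_smul (Localization S)] at hmem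
      have := Submodule.smul_mem _ (hu.unit⁻¹ : (Localization S)ˣ).1 hmem
      rwa [smul_smul, hu.val_inv_mul, one_smul] at this
    have hx : f x ∈ (Submodule.span P (Set.range fun i => (sec i).1)).localized'
        (Localization S) S f := by rw [htop]; trivial
    obtain ⟨y, hy, s, hys⟩ := (Submodule.mem_localized' _ _ _ _ _).1 hx
    have h1 : f y = f ((s : P) • x) := by
      rw [map_smul, ← hys, ← Submonoid.smul_def, IsLocalizedModule.mk'_cancel']
    obtain ⟨s', hs'⟩ := (IsLocalizedModule.eq_iff_exists S f).1 h1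
    obtain ⟨k, hk⟩ := (s' * s).2
    refine ⟨k, ?_⟩
    have : π ^ k • x = (s' : P) • y := by
      have h2 : π ^ k • x = ((s' : P) * (s : P)) • x := by
        rw [← Submonoid.coe_mul, ← hk]
      rw [h2, mul_smul, ← Submonoid.smul_def s', ← hs', Submonoid.smul_def]
    rw [this]
    exact Submodule.smul_mem _ _ hy

end Lattice

section Poly

variable {R : Type*} [CommRing R] [IsDomain R]
variable {M : Type*} [AddCommGroup M] [Module R[X] M]

/-- **Seshadri's theorem over a discrete valuation ring**, coordinate form: a finite torsion-free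
`R[X]`-module `M` with `M/πM` torsion-free over `(R/π)[X]` is free. -/
theorem exists_basis_polynomial (K : Type*) [Field K] [Algebra R K] [IsFractionRing R K]
    [IsNoetherianRing R] (π : R)
    (hdvr : ∀ r : R, r ≠ 0 → ∃ (k : ℕ) (v : Rˣ), r = π ^ k * v) (hπ0 : π ≠ 0) (hπu : ¬ IsUnit π)
    [Module.Finite R[X] M] [Module.IsTorsionFree R[X] M]
    (htf : ∀ (a : R[X]) (m : M), ¬ C π ∣ a → (∃ m', a • m = (C π : R[X]) • m') →
      ∃ m'', m = (C π : R[X]) • m'') :
    ∃ (n : ℕ) (b : Fin n → M),
      Function.Bijective (fun p : Fin n → R[X] => ∑ j, p j • b j) := by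
  classical
  have hmax : (Ideal.span {π} : Ideal R).IsMaximal := isMaximal_span_of_dvr π hdvr hπu
  let _ : Field (R ⧸ (Ideal.span {π} : Ideal R)) := Ideal.Quotient.field _
  let φ : R[X] →+* (R ⧸ (Ideal.span {π} : Ideal R))[X] :=
    Polynomial.mapRingHom (Ideal.Quotient.mk _)
  have hφ : Function.Surjective φ := Polynomial.map_surjective _ Ideal.Quotient.mk_surjective
  have hker : ∀ a : R[X], φ a = 0 ↔ C π ∣ a := by
    intro a
    rw [Polynomial.C_dvd_iff_dvd_coeff, Polynomial.ext_iff]
    refine forall_congr' fun i => ?_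
    rw [Polynomial.coe_mapRingHom, Polynomial.coeff_map, Polynomial.coeff_zero,
      Ideal.Quotient.eq_zero_iff_mem, Ideal.mem_span_singleton]
  have hCπ0 : (C π : R[X]) ≠ 0 := by rw [Ne, C_eq_zero]; exact hπ0
  have hloc : IsLocalization.Away π K := isLocalization_away_of_dvr π hdvr hπ0
  obtain ⟨hdom, hpid⟩ := isPrincipalIdealRing_localization_C (K := K) π
  obtain ⟨n, b₀, hb₀, hpow⟩ := exists_lattice (M := M) (C π : R[X]) hCπ0
  have hreg : ∀ m : M, (C π : R[X]) • m = 0 → m = 0 := fun m hm =>
    ((Module.isTorsionFree_iff_smul_eq_zero.mp ‹_›) _ _ hm).resolve_left hCπ0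
  obtain ⟨b, hb, hspan⟩ := exists_basis_of_lattice φ hφ (C π) hCπ0 hker htf hreg b₀ hb₀ hpow
  refine ⟨n, b, ?_, ?_⟩
  · intro p q hpq
    have h0 : ∑ j, (p j - q j) • b j = 0 := by
      simp only [sub_smul, Finset.sum_sub_distrib]
      exact sub_eq_zero.2 hpq
    funext j
    exact sub_eq_zero.1 ((Fintype.linearIndependent_iff.1 hb) _ h0 j)
  · intro x
    have hx : x ∈ Submodule.span R[X] (Set.range b) := by rw [hspan]; trivial
    exact (Submodule.mem_span_range_iff_exists_fun R[X]).1 hx

end Poly

end Fermat.Agent.FFJ.Model.PolyFree17
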