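/-
FFJ (S19), chapter Model (CURVE), brick C-A, file 2 (helper17).

`ChartHyp.free`: the chart `B ∋ s` of a smooth two-chart model over the DVR `R` is a finite FREE
`R[X]`-module (`X ↦ s`), in the coordinate form consumed by `FFJ/Spec/Spec35.CurveHypR.free0/free1`
(= the `hb0/hb1` shape of `JAC/Frame`).
-/
import Fermat.Agent.FFJ.Model.ChartProj17
import Fermat.Agent.FFJ.Model.PolyFree17

set_option autoImplicit false
set_option linter.style.haveILetI false
set_option linter.unusedSectionVars false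

namespace Fermat.Agent.FFJ.Model.ChartFree17

open Polynomial
open Fermat.Agent.FFJ.Model.ChartProj17 Fermat.Agent.FFJ.Model.PolyFree17

variable {R K F : Type*} [CommRing R] [Field K] [Field F] [Algebra R K] [Algebra K F]
  [Algebra R F] [IsScalarTower R K F]
variable {π : R} {s : F} {B : Subalgebra R F} {Ov : ValuationSubring F}

/-- The `R[X]`-algebra structure `X ↦ s` on a chart. -/
@[reducible] noncomputable def polyAlgebra (hs : s ∈ B) : Algebra R[X] B :=
  (aeval (⟨s, hs⟩ : B)).toRingHom.toAlgebra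

theorem coe_smul (h : ChartHyp R K F π s B Ov) (p : R[X]) (b : B) :
    letI := polyAlgebra h.s_mem
    ((p • b : B) : F) = aeval s p * (b : F) := by
  letI := polyAlgebra h.s_mem
  rw [Algebra.smul_def]
  show ((aeval (⟨s, h.s_mem⟩ : B) p : B) : F) * (b : F) = _
  rw [aeval_subalgebra_coe]

theorem smul_eq (h : ChartHyp R K F π s B Ov) (p : R[X]) (b : B) :
    letI := polyAlgebra h.s_mem
    (p • b : B) = aeval (⟨s, h.s_mem⟩ : B) p * b := by
  letI := polyAlgebra h.s_mem
  rw [Algebra.smul_def]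
  rfl

/-- The chart is a torsion-free `R[X]`-module. -/
theorem isTorsionFree (h : ChartHyp R K F π s B Ov) :
    letI := polyAlgebra h.s_mem
    Module.IsTorsionFree R[X] B := by
  letI := polyAlgebra h.s_mem
  haveI := h.isDomain
  refine Module.IsTorsionFree.of_smul_eq_zero fun p b hpb => ?_
  have h1 : aeval s p * (b : F) = 0 := by rw [← coe_smul h, hpb]; rfl
  rcases mul_eq_zero.mp h1 with h2 | h2
  · exact Or.inl (h.aeval_eq_zero p h2)
  · exact Or.inr (Subtype.ext h2)

/-- The special fibre of the chart is torsion-free over `(R/π)[X]`. -/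
theorem torsionFree_mod (h : ChartHyp R K F π s B Ov) :
    letI := polyAlgebra h.s_mem
    ∀ (p : R[X]) (b : B), ¬ (C π) ∣ p → (∃ b', p • b = (C π : R[X]) • b') →
      ∃ b'', b = (C π : R[X]) • b'' := by
  letI := polyAlgebra h.s_mem
  rintro p b hp ⟨b', hb'⟩
  have h1 : aeval s p * (b : F) = algebraMap R F π * (b' : F) := by
    rw [← coe_smul h, hb', coe_smul h, aeval_C]
  have hpOv : aeval s p ∈ Ov := h.le_Ov _ (h.aeval_mem p)
  have hpinv : (aeval s p)⁻¹ ∈ Ov := by
    by_contra hcon
    obtain ⟨c, hc, hpc⟩ := h.unif _ hpOv hcon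
    exact hp (h.trans p ⟨c, hc, hpc⟩)
  have hp0 : aeval s p ≠ 0 := by
    intro h0
    exact hp (h.trans p ⟨0, zero_mem _, by rw [h0, mul_zero]⟩)
  have h2 : (b : F) = algebraMap R F π * ((aeval s p)⁻¹ * (b' : F)) := by
    field_simp
    rw [mul_comm, h1]
  have hc : (aeval s p)⁻¹ * (b' : F) ∈ B :=
    h.sat _ b.2 _ (Ov.mul_mem _ _ hpinv (h.le_Ov _ b'.2)) h2
  refine ⟨⟨_, hc⟩, Subtype.ext ?_⟩
  rw [coe_smul h, aeval_C]
  exact h2

/-- **The chart is a finite free `R[X]`-module**, coordinate form. -/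
theorem free (h : ChartHyp R K F π s B Ov) :
    ∃ (n : ℕ) (a : Fin n → B), Function.Bijective
      (fun p : Fin n → R[X] => ∑ j, aeval (⟨s, h.s_mem⟩ : B) (p j) * a j) := by
  letI := polyAlgebra h.s_mem
  haveI := h.isDomain
  haveI := h.noethR
  haveI := h.fracR
  haveI : Module.Finite R[X] B := (ChartHyp.finite_projective h).1
  haveI := isTorsionFree h
  obtain ⟨n, a, ha⟩ := exists_basis_polynomial (M := B) K π h.dvrR h.pi_ne_zero h.not_isUnit_pi
    (torsionFree_mod h)
  refine ⟨n, a, ?_⟩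
  have : (fun p : Fin n → R[X] => ∑ j, aeval (⟨s, h.s_mem⟩ : B) (p j) * a j) =
      fun p : Fin n → R[X] => ∑ j, p j • a j := by
    funext p
    exact Finset.sum_congr rfl fun j _ => (smul_eq h (p j) (a j)).symm
  rw [this]
  exact ha

end Fermat.Agent.FFJ.Model.ChartFree17
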