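/-
FFJ (S19), chapter Model (CURVE), brick C-B2a (helper17).  Mathlib only.

`Trans π Ov s`: "the reduction of `s` modulo `π` is transcendental over `R/π`", in the elementary form
of `ChartProj17.ChartHyp.trans`.  Stability under affine substitutions with unit leading coefficient
(`Trans.affine`) and under inversion (`Trans.inv`); a `Trans` element of `Ov` is a unit of `Ov`.
-/
import Mathlib

set_option autoImplicit false

namespace Fermat.Agent.FFJ.Model.TransLemmas17

open Polynomial

variable {R F : Type*} [CommRing R] [Field F] [Algebra R F]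

/-- The reduction of `s` modulo `π` is transcendental over `R/π` (elementary form). -/
def Trans (π : R) (Ov : ValuationSubring F) (s : F) : Prop :=
  ∀ p : R[X], (∃ c ∈ Ov, aeval s p = algebraMap R F π * c) → C π ∣ p

variable {π : R} {Ov : ValuationSubring F} {s : F}

theorem C_dvd_comp {p : R[X]} (q : R[X]) (h : C π ∣ p) : C π ∣ p.comp q := by
  obtain ⟨p', rfl⟩ := h
  exact ⟨p'.comp q, by rw [mul_comp, C_comp]⟩

/-- Affine substitution with invertible leading coefficient. -/
theorem Trans.affine (h : Trans π Ov s) (a a' b : R) (ha : a * a' = 1) :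
    Trans π Ov (algebraMap R F a * s + algebraMap R F b) := by
  intro p hp
  set q : R[X] := C a * X + C b with hq
  set q' : R[X] := C a' * (X - C b) with hq'
  have hqs : aeval s q = algebraMap R F a * s + algebraMap R F b := by
    rw [hq, map_add, map_mul, aeval_C, aeval_X, aeval_C]
  have h1 : aeval s (p.comp q) = aeval (algebraMap R F a * s + algebraMap R F b) p := by
    rw [aeval_comp, hqs]
  have h2 : C π ∣ p.comp q := h _ (by rw [h1]; exact hp)
  have hqq' : q.comp q' = X := by
    rw [hq, hq', add_comp, mul_comp, C_comp, X_comp, C_comp, ← mul_assoc, ← C_mul, ha, C_1, one_mul]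
    ring
  have h3 : (p.comp q).comp q' = p := by rw [comp_assoc, hqq', comp_X]
  rw [← h3]
  exact C_dvd_comp q' h2

theorem Trans.sub_one (h : Trans π Ov s) : Trans π Ov (s - 1) := by
  have := h.affine 1 1 (-1) (by ring)
  simpa [sub_eq_add_neg] using this

theorem Trans.one_add (h : Trans π Ov s) : Trans π Ov (1 + s) := by
  have := h.affine 1 1 1 (by ring)
  simpa [add_comm] using this

theorem Trans.one_sub (h : Trans π Ov s) : Trans π Ov (1 - s) := by
  have := h.affine (-1) (-1) 1 (by ring)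
  simpa [sub_eq_add_neg, add_comm] using this

/-- A `Trans` element of `Ov` is a unit of `Ov`. -/
theorem Trans.inv_mem (h : Trans π Ov s) (hπ : ¬ IsUnit π) (hs : s ∈ Ov)
    (unif : ∀ x ∈ Ov, x⁻¹ ∉ Ov → ∃ c ∈ Ov, x = algebraMap R F π * c) : s⁻¹ ∈ Ov := by
  by_contra hcon
  obtain ⟨c, hc, hsc⟩ := unif s hs hcon
  have h1 : C π ∣ (X : R[X]) := h X ⟨c, hc, by rw [aeval_X, hsc]⟩
  rw [C_dvd_iff_dvd_coeff] at h1
  have h2 := h1 1
  rw [coeff_X_one] at h2
  exact hπ (isUnit_of_dvd_one h2)

theorem Trans.ne_zero (h : Trans π Ov s) (hπ : ¬ IsUnit π) : s ≠ 0 := by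
  rintro rfl
  have h1 : C π ∣ (X : R[X]) := h X ⟨0, zero_mem _, by rw [aeval_X, mul_zero]⟩
  rw [C_dvd_iff_dvd_coeff] at h1
  have h2 := h1 1
  rw [coeff_X_one] at h2
  exact hπ (isUnit_of_dvd_one h2)

/-- Inversion. -/
theorem Trans.inv (h : Trans π Ov s) (hπ : ¬ IsUnit π) (hs : s ∈ Ov) : Trans π Ov s⁻¹ := by
  intro p hp
  obtain ⟨c, hc, hpc⟩ := hp
  have hs0 : s ≠ 0 := h.ne_zero hπ
  set N := p.natDegree with hN
  haveI : Invertible (s⁻¹) := invertibleOfNonzero (inv_ne_zero hs0)
  have hinv : ⅟(s⁻¹) = s := by rw [invOf_eq_inv, inv_inv]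
  have h1 := eval₂_reflect_mul_pow (algebraMap R F) (s⁻¹) N p le_rfl
  rw [hinv] at h1
  have h2 : aeval s (reflect N p) = algebraMap R F π * (s ^ N * c) := by
    have h3 : aeval s (reflect N p) = eval₂ (algebraMap R F) s (reflect N p) := rfl
    have h4 : eval₂ (algebraMap R F) s⁻¹ p = aeval s⁻¹ p := rfl
    rw [h3]
    have hsN : (s⁻¹) ^ N * s ^ N = 1 := by rw [← mul_pow, inv_mul_cancel₀ hs0, one_pow]
    calc eval₂ (algebraMap R F) s (reflect N p)
        = eval₂ (algebraMap R F) s (reflect N p) * ((s⁻¹) ^ N * s ^ N) := by rw [hsN, mul_one]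
      _ = (eval₂ (algebraMap R F) s (reflect N p) * (s⁻¹) ^ N) * s ^ N := by ring
      _ = algebraMap R F π * (s ^ N * c) := by rw [h1, h4, hpc]; ring
  have h5 : C π ∣ reflect N p := h _ ⟨s ^ N * c, mul_mem (pow_mem hs N) hc, h2⟩
  rw [C_dvd_iff_dvd_coeff] at h5 ⊢
  intro i
  have := h5 (revAt N i)
  rwa [coeff_reflect, revAt_invol] at this

end Fermat.Agent.FFJ.Model.TransLemmas17
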