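/-
FFJ (S19), chapter Model (CURVE), brick C-B2 (helper17).

From a two-chart model `TwoChartModel R K F π t B0 B1 Ov` (RED/CORE/CoreIface24) and transcendence of
`t` modulo `π` (`TransLemmas17.Trans`):
* `chartHyp0`, `chartHyp1` : the hypotheses `ChartProj17.ChartHyp` for `(t, B0)` and `(t⁻¹, B1)`,
  hence (by `ChartFree17.free`) both charts are finite free over `R[X]` in coordinate form;
* `overlap t B0` : the overlap ring `B0[1/t] = B1[1/t⁻¹]` as a subalgebra of `F`, with the algebra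
  structures `algebra0`, `algebra1`, the scalar towers, `IsLocalization.Away` on both sides and
  `t * t⁻¹ = 1`;
* `finiteType0`, `finiteType1`.
-/
import Mathlib
import Fermat.Agent.RED.CORE.CoreIface24
import Fermat.Agent.FFJ.Model.ChartFree17
import Fermat.Agent.FFJ.Model.TransLemmas17

set_option autoImplicit false
set_option linter.unusedSectionVars false
set_option linter.style.haveILetI false

namespace Fermat.Agent.FFJ.Model.ChartBridge17

open Polynomial
open Fermat.Agent.RED.CORE.CoreIface24 Fermat.Agent.FFJ.Model.ChartProj17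
open Fermat.Agent.FFJ.Model.TransLemmas17

variable {R K F : Type*} [CommRing R] [Field K] [Field F] [Algebra R K] [Algebra K F]
  [Algebra R F] [IsScalarTower R K F]
variable {π : R} {t : F} {B0 B1 : Subalgebra R F} {Ov : ValuationSubring F}

/-- `π` is not a unit of `R`. -/
theorem not_isUnit_pi (h : TwoChartModel R K F π t B0 B1 Ov) : ¬ IsUnit π := by
  intro hu
  obtain ⟨u, hu⟩ := hu
  apply h.pi_nonunit
  have h1 : algebraMap R F π * algebraMap R F ((u⁻¹ : Rˣ) : R) = 1 := by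
    rw [← map_mul, ← hu, Units.mul_inv, map_one]
  rw [inv_eq_of_mul_eq_one_right h1]
  exact h.le_Ov0 _ (Subalgebra.algebraMap_mem _ _)

/-- The first chart satisfies `ChartHyp`. -/
theorem chartHyp0 (h : TwoChartModel R K F π t B0 B1 Ov) (htr : Trans π Ov t) :
    ChartHyp R K F π t B0 Ov :=
  { noethR := h.noethR
    fracR := h.fracR
    dvrR := h.dvrR
    s_mem := h.t_mem
    fin := h.fin0
    le_Ov := h.le_Ov0
    pi_ne := h.pi_ne
    pi_nonunit := h.pi_nonunit
    unif := h.unif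
    sat := h.sat0
    trans := htr }

/-- The second chart satisfies `ChartHyp` (finiteness of `B1` over `R[t⁻¹]` is an extra input,
supplied by `ChartGeneric22.chart_facts`). -/
theorem chartHyp1 (h : TwoChartModel R K F π t B0 B1 Ov)
    (fin1 : ∃ (r : ℕ) (e : Fin r → F), (∀ i, e i ∈ B1) ∧
      ∀ x ∈ B1, ∃ P : Fin r → R[X], x = ∑ i, aeval t⁻¹ (P i) * e i)
    (htr : Trans π Ov t⁻¹) : ChartHyp R K F π t⁻¹ B1 Ov :=
  { noethR := h.noethR
    fracR := h.fracR
    dvrR := h.dvrR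
    s_mem := h.tinv_mem
    fin := fin1
    le_Ov := h.le_Ov1
    pi_ne := h.pi_ne
    pi_nonunit := h.pi_nonunit
    unif := h.unif
    sat := h.sat1
    trans := htr }

/-! ### The overlap ring -/

/-- The overlap `B0[1/t]` as a subalgebra of `F`. -/
def overlap (t : F) (B0 : Subalgebra R F) (ht : t ∈ B0) : Subalgebra R F where
  carrier := {x | ∃ k : ℕ, t ^ k * x ∈ B0}
  mul_mem' := by
    rintro x y ⟨k, hk⟩ ⟨l, hl⟩
    refine ⟨k + l, ?_⟩
    have : t ^ (k + l) * (x * y) = (t ^ k * x) * (t ^ l * y) := by rw [pow_add]; ring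
    rw [this]
    exact mul_mem hk hl
  add_mem' := by
    rintro x y ⟨k, hk⟩ ⟨l, hl⟩
    refine ⟨k + l, ?_⟩
    have : t ^ (k + l) * (x + y) = t ^ l * (t ^ k * x) + t ^ k * (t ^ l * y) := by
      rw [pow_add]; ring
    rw [this]
    exact add_mem (mul_mem (pow_mem ht l) hk) (mul_mem (pow_mem ht k) hl)
  algebraMap_mem' := fun r => ⟨0, by rw [pow_zero, one_mul]; exact B0.algebraMap_mem r⟩

theorem mem_overlap {ht : t ∈ B0} {x : F} : x ∈ overlap t B0 ht ↔ ∃ k : ℕ, t ^ k * x ∈ B0 :=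
  Iff.rfl

theorem le_overlap (ht : t ∈ B0) : B0 ≤ overlap t B0 ht :=
  fun x hx => ⟨0, by rwa [pow_zero, one_mul]⟩

/-- The second chart lies in the overlap. -/
theorem le_overlap1 (h : TwoChartModel R K F π t B0 B1 Ov) : B1 ≤ overlap t B0 h.t_mem :=
  fun x hx => h.ov0 x hx

/-- The overlap is also `B1[1/t⁻¹]`. -/
theorem mem_overlap_iff1 (h : TwoChartModel R K F π t B0 B1 Ov) {x : F} :
    x ∈ overlap t B0 h.t_mem ↔ ∃ k : ℕ, t⁻¹ ^ k * x ∈ B1 := by
  constructor
  · rintro ⟨k, hk⟩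
    obtain ⟨j, hj⟩ := h.ov1 _ hk
    refine ⟨j, ?_⟩
    have hw : t⁻¹ ^ k * t ^ k = 1 := by rw [← mul_pow, inv_mul_cancel₀ h.t_ne, one_pow]
    have e : t⁻¹ ^ j * x = t⁻¹ ^ k * (t⁻¹ ^ j * (t ^ k * x)) := by
      linear_combination (-(t⁻¹ ^ j * x)) * hw
    rw [e]
    exact mul_mem (pow_mem h.tinv_mem k) hj
  · rintro ⟨k, hk⟩
    obtain ⟨j, hj⟩ := h.ov0 _ hk
    refine ⟨j, ?_⟩
    have hw : t ^ k * t⁻¹ ^ k = 1 := by rw [← mul_pow, mul_inv_cancel₀ h.t_ne, one_pow]
    have e : t ^ j * x = t ^ k * (t ^ j * (t⁻¹ ^ k * x)) := by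
      linear_combination (-(t ^ j * x)) * hw
    rw [e]
    exact mul_mem (pow_mem h.t_mem k) hj

/-! ### Algebra structures, localization -/

section Alg

variable (h : TwoChartModel R K F π t B0 B1 Ov)

/-- `B0 → B01`. -/
@[reducible] noncomputable def algebra0 (ht : t ∈ B0) : Algebra B0 (overlap t B0 ht) :=
  (Subalgebra.inclusion (le_overlap ht)).toRingHom.toAlgebra

/-- `B1 → B01`. -/
@[reducible] noncomputable def algebra1 : Algebra B1 (overlap t B0 h.t_mem) :=
  (Subalgebra.inclusion (le_overlap1 h)).toRingHom.toAlgebra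

theorem algebraMap0_coe (ht : t ∈ B0) (x : B0) :
    ((@algebraMap B0 (overlap t B0 ht) _ _ (algebra0 ht) x : overlap t B0 ht) : F) = x := rfl

theorem algebraMap1_coe (x : B1) :
    ((@algebraMap B1 (overlap t B0 h.t_mem) _ _ (algebra1 h) x : overlap t B0 h.t_mem) : F) = x :=
  rfl

theorem isScalarTower0 (ht : t ∈ B0) :
    @IsScalarTower R B0 (overlap t B0 ht) _ (algebra0 ht).toSMul _ := by
  letI := algebra0 (B0 := B0) ht
  exact IsScalarTower.of_algebraMap_eq (fun r => rfl)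

theorem isScalarTower1 :
    @IsScalarTower R B1 (overlap t B0 h.t_mem) _ (algebra1 h).toSMul _ := by
  letI := algebra1 h
  exact IsScalarTower.of_algebraMap_eq (fun r => rfl)

/-- `t * t⁻¹ = 1` on the overlap. -/
theorem ts :
    @algebraMap B0 (overlap t B0 h.t_mem) _ _ (algebra0 h.t_mem) ⟨t, h.t_mem⟩ *
      @algebraMap B1 (overlap t B0 h.t_mem) _ _ (algebra1 h) ⟨t⁻¹, h.tinv_mem⟩ = 1 := by
  apply Subtype.ext
  show t * t⁻¹ = 1
  exact mul_inv_cancel₀ h.t_ne

/-- The overlap is `B0[1/t]`. -/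
theorem isLocalization_away0 :
    @IsLocalization.Away B0 _ (⟨t, h.t_mem⟩ : B0) (overlap t B0 h.t_mem) _ (algebra0 h.t_mem) := by
  letI := algebra0 (B0 := B0) h.t_mem
  refine ⟨?_, ?_, ?_⟩
  · rintro ⟨_, n, rfl⟩
    have hmem : t⁻¹ ^ n ∈ overlap t B0 h.t_mem := by
      refine ⟨n, ?_⟩
      rw [← mul_pow, mul_inv_cancel₀ h.t_ne, one_pow]
      exact one_mem _
    refine IsUnit.of_mul_eq_one (⟨t⁻¹ ^ n, hmem⟩ : overlap t B0 h.t_mem) ?_
    apply Subtype.ext
    show t ^ n * t⁻¹ ^ n = 1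
    rw [← mul_pow, mul_inv_cancel₀ h.t_ne, one_pow]
  · rintro ⟨z, k, hk⟩
    refine ⟨(⟨t ^ k * z, hk⟩, ⟨(⟨t, h.t_mem⟩ : B0) ^ k, k, rfl⟩), ?_⟩
    apply Subtype.ext
    show z * t ^ k = t ^ k * z
    exact mul_comm _ _
  · intro x y hxy
    refine ⟨1, ?_⟩
    have : (x : F) = y := congrArg (fun z : overlap t B0 h.t_mem => (z : F)) hxy
    rw [Subtype.ext this]

/-- The overlap is `B1[1/t⁻¹]`. -/
theorem isLocalization_away1 :
    @IsLocalization.Away B1 _ (⟨t⁻¹, h.tinv_mem⟩ : B1) (overlap t B0 h.t_mem) _ (algebra1 h) := by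
  letI := algebra1 h
  refine ⟨?_, ?_, ?_⟩
  · rintro ⟨_, n, rfl⟩
    have hmem : t ^ n ∈ overlap t B0 h.t_mem := le_overlap h.t_mem (pow_mem h.t_mem n)
    refine IsUnit.of_mul_eq_one (⟨t ^ n, hmem⟩ : overlap t B0 h.t_mem) ?_
    apply Subtype.ext
    show t⁻¹ ^ n * t ^ n = 1
    rw [← mul_pow, inv_mul_cancel₀ h.t_ne, one_pow]
  · rintro ⟨z, hz⟩
    obtain ⟨k, hk⟩ := (mem_overlap_iff1 h).1 hz
    refine ⟨(⟨t⁻¹ ^ k * z, hk⟩, ⟨(⟨t⁻¹, h.tinv_mem⟩ : B1) ^ k, k, rfl⟩), ?_⟩
    apply Subtype.ext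
    show z * t⁻¹ ^ k = t⁻¹ ^ k * z
    exact mul_comm _ _
  · intro x y hxy
    refine ⟨1, ?_⟩
    have : (x : F) = y := congrArg (fun z : overlap t B0 h.t_mem => (z : F)) hxy
    rw [Subtype.ext this]

end Alg

/-! ### Finite type -/

/-- A chart which is a finite module over `R[s]` is an `R`-algebra of finite type. -/
theorem finiteType_of_fin {s : F} {B : Subalgebra R F} (hs : s ∈ B)
    (fin : ∃ (r : ℕ) (e : Fin r → F), (∀ i, e i ∈ B) ∧
      ∀ x ∈ B, ∃ P : Fin r → R[X], x = ∑ i, aeval s (P i) * e i) :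
    Algebra.FiniteType R B := by
  classical
  obtain ⟨r, e, he, hgen⟩ := fin
  rw [← Subalgebra.fg_iff_finiteType]
  refine ⟨insert s (Finset.univ.image e), le_antisymm ?_ ?_⟩
  · apply Algebra.adjoin_le
    intro y hy
    rw [Finset.coe_insert, Set.mem_insert_iff] at hy
    rcases hy with rfl | hy
    · exact hs
    · rw [Finset.coe_image, Set.mem_image] at hy
      obtain ⟨i, -, rfl⟩ := hy
      exact he i
  · intro x hx
    obtain ⟨P, rfl⟩ := hgen x hx
    refine Subalgebra.sum_mem _ fun i _ => Subalgebra.mul_mem _ ?_ ?_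
    · have h1 : Algebra.adjoin R {s} ≤
          Algebra.adjoin R (↑(insert s (Finset.univ.image e)) : Set F) :=
        Algebra.adjoin_mono (by
          intro y hy
          rw [Set.mem_singleton_iff] at hy
          rw [Finset.coe_insert, hy]
          exact Set.mem_insert _ _)
      apply h1
      rw [Algebra.adjoin_singleton_eq_range_aeval]
      exact ⟨P i, rfl⟩
    · apply Algebra.subset_adjoin
      rw [Finset.coe_insert, Finset.coe_image]
      exact Set.mem_insert_of_mem _ ⟨i, by simp, rfl⟩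

end Fermat.Agent.FFJ.Model.ChartBridge17
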