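/-
FFJ (S19), chapter Model (CURVE), brick C-G (helper17).

**The base point: the cusp `q = 0`.**  `K` a field, `O` a valuation subring of `K`,
`E ⊂ K((q))` an intermediate field.
* `compVS O` : the composite valuation subring `{G ∈ K[[q]] | G(0) ∈ O}` of `K((q))`;
* `ev0 O : compVS O →+* O` : the constant term;
* `cuspVS O E` : its trace on `E`; it contains the integral closure of `O[s]` in `E` as soon as it
  contains `s` (`chart_le_cuspVS`);
* `exists_algHom` : if `s` is a power series with constant term `1`, `B1` is integral over `O[s]` and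
  `A` is a subalgebra all of whose elements are of the form `s⁻ᵏ b`, `b ∈ B1`, then the constant term
  is an `O`-algebra homomorphism `e : A →ₐ[O] O`;
* `exists_basePoint` : the case `A = ChartBridge17.overlap t' B0` of a two-chart model `(t', B0, B1)`.
-/
import Mathlib
import Fermat.Agent.RED.CORE.CoreIface24
import Fermat.Agent.RED.PUR.ChartGeneric22
import Fermat.Agent.FFJ.Model.ChartBridge17

set_option autoImplicit false
set_option linter.unusedSectionVars false
set_option linter.style.haveILetI false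

noncomputable section

namespace Fermat.Agent.FFJ.Model.BasePoint17

open Fermat.Agent.RED.CORE.CoreIface24 Fermat.Agent.RED.PUR.ChartGeneric22
open Fermat.Agent.FFJ.Model.ChartBridge17

variable {K : Type*} [Field K] (O : ValuationSubring K)

/-- the inverse of a power series with nonzero constant term -/
theorem exists_inv_powerSeries {G : PowerSeries K} (hG : PowerSeries.constantCoeff G ≠ 0) :
    ∃ H : PowerSeries K, G * H = 1 ∧
      PowerSeries.constantCoeff H = (PowerSeries.constantCoeff G)⁻¹ := by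
  have hu : IsUnit G := PowerSeries.isUnit_iff_constantCoeff.2 (isUnit_iff_ne_zero.2 hG)
  obtain ⟨u, rfl⟩ := hu
  refine ⟨((u⁻¹ : (PowerSeries K)ˣ) : PowerSeries K), by simp, ?_⟩
  have h1 : PowerSeries.constantCoeff ((u : PowerSeries K) * ((u⁻¹ : (PowerSeries K)ˣ) : PowerSeries K))
      = 1 := by simp
  rw [map_mul] at h1
  exact eq_inv_of_mul_eq_one_right h1

/-- The composite valuation subring `{G ∈ K[[q]] | G(0) ∈ O}` of `K((q))`. -/
def compVS : ValuationSubring (LaurentSeries K) where
  carrier := {y | ∃ G : PowerSeries K, (G : LaurentSeries K) = y ∧ PowerSeries.constantCoeff G ∈ O}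
  mul_mem' := by
    rintro _ _ ⟨G, rfl, hG⟩ ⟨H, rfl, hH⟩
    exact ⟨G * H, PowerSeries.coe_mul G H, by rw [map_mul]; exact O.mul_mem _ _ hG hH⟩
  one_mem' := ⟨1, PowerSeries.coe_one, by rw [map_one]; exact O.one_mem⟩
  add_mem' := by
    rintro _ _ ⟨G, rfl, hG⟩ ⟨H, rfl, hH⟩
    exact ⟨G + H, PowerSeries.coe_add G H, by rw [map_add]; exact O.add_mem _ _ hG hH⟩
  zero_mem' := ⟨0, PowerSeries.coe_zero, by rw [map_zero]; exact O.zero_mem⟩
  neg_mem' := by
    rintro _ ⟨G, rfl, hG⟩
    exact ⟨-G, PowerSeries.coe_neg G, by rw [map_neg]; exact O.neg_mem _ hG⟩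
  mem_or_inv_mem' := by
    intro y
    -- a power series whose constant term is outside `O` (or `0`-free) has its inverse in the ring
    have key : ∀ G : PowerSeries K, PowerSeries.constantCoeff G ∉ O →
        ∃ H : PowerSeries K, (H : LaurentSeries K) = ((G : LaurentSeries K))⁻¹ ∧
          PowerSeries.constantCoeff H ∈ O := by
      intro G hG
      have hG0 : PowerSeries.constantCoeff G ≠ 0 := fun h => hG (h ▸ O.zero_mem)
      obtain ⟨H, hGH, hH⟩ := exists_inv_powerSeries hG0
      refine ⟨H, ?_, ?_⟩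
      · have h1 : (G : LaurentSeries K) * (H : LaurentSeries K) = 1 := by
          rw [← PowerSeries.coe_mul, hGH, PowerSeries.coe_one]
        exact eq_inv_of_mul_eq_one_right h1
      · rw [hH]
        exact (O.mem_or_inv_mem _).resolve_left hG
    by_cases hy : ∃ G : PowerSeries K, (G : LaurentSeries K) = y
    · obtain ⟨G, rfl⟩ := hy
      by_cases hG : PowerSeries.constantCoeff G ∈ O
      · exact Or.inl ⟨G, rfl, hG⟩
      · exact Or.inr (key G hG)
    · right
      have hv : ¬ Valued.v y ≤ (1 : WithZero (Multiplicative ℤ)) := fun h =>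
        hy ((LaurentSeries.val_le_one_iff_eq_coe K y).1 h)
      have hy0 : y ≠ 0 := by
        rintro rfl
        exact hy ⟨0, PowerSeries.coe_zero⟩
      have hv' : Valued.v y⁻¹ ≤ (1 : WithZero (Multiplicative ℤ)) := by
        rw [map_inv₀]
        exact inv_le_one_of_one_le₀ (le_of_lt (not_le.1 hv))
      obtain ⟨G', hG'⟩ := (LaurentSeries.val_le_one_iff_eq_coe K y⁻¹).1 hv'
      refine ⟨G', hG', ?_⟩
      by_contra hc
      have hG0 : PowerSeries.constantCoeff G' ≠ 0 := fun h => hc (h ▸ O.zero_mem)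
      obtain ⟨H, hGH, -⟩ := exists_inv_powerSeries hG0
      apply hy
      refine ⟨H, ?_⟩
      have h1 : (G' : LaurentSeries K) * (H : LaurentSeries K) = 1 := by
        rw [← PowerSeries.coe_mul, hGH, PowerSeries.coe_one]
      rw [hG'] at h1
      have := eq_inv_of_mul_eq_one_right h1
      rw [this, inv_inv]

theorem mem_compVS_iff (y : LaurentSeries K) :
    y ∈ compVS O ↔
      ∃ G : PowerSeries K, (G : LaurentSeries K) = y ∧ PowerSeries.constantCoeff G ∈ O :=
  Iff.rfl

theorem coeff_zero_of_coe {y : LaurentSeries K} {G : PowerSeries K}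
    (h : (G : LaurentSeries K) = y) : y.coeff 0 = PowerSeries.constantCoeff G := by
  rw [← h]
  have := LaurentSeries.coeff_coe_powerSeries G 0
  simpa using this

theorem coeff_zero_mem {y : LaurentSeries K} (hy : y ∈ compVS O) : y.coeff 0 ∈ O := by
  obtain ⟨G, hG, hGO⟩ := hy
  rw [coeff_zero_of_coe hG]
  exact hGO

theorem coeff_zero_mul {y z : LaurentSeries K} (hy : y ∈ compVS O) (hz : z ∈ compVS O) :
    (y * z).coeff 0 = y.coeff 0 * z.coeff 0 := by
  obtain ⟨G, hG, -⟩ := hy
  obtain ⟨H, hH, -⟩ := hz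
  have hGH : ((G * H : PowerSeries K) : LaurentSeries K) = y * z := by
    rw [PowerSeries.coe_mul, hG, hH]
  rw [coeff_zero_of_coe hGH, coeff_zero_of_coe hG, coeff_zero_of_coe hH, map_mul]

/-- **The constant term** `compVS O →+* O`. -/
def ev0 : compVS O →+* O where
  toFun y := ⟨(y : LaurentSeries K).coeff 0, coeff_zero_mem O y.2⟩
  map_one' := by
    apply Subtype.ext
    show (1 : LaurentSeries K).coeff 0 = 1
    rw [coeff_zero_of_coe (PowerSeries.coe_one (R := K)), map_one]
  map_mul' y z := Subtype.ext (coeff_zero_mul O y.2 z.2)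
  map_zero' := by
    apply Subtype.ext
    show (0 : LaurentSeries K).coeff 0 = 0
    rfl
  map_add' y z := by
    apply Subtype.ext
    show ((y : LaurentSeries K) + z).coeff 0 = _
    rfl

theorem coe_ev0 (y : compVS O) : ((ev0 O y : O) : K) = (y : LaurentSeries K).coeff 0 := rfl

theorem C_mem_compVS (a : O) : (HahnSeries.C ((a : O) : K) : LaurentSeries K) ∈ compVS O :=
  ⟨PowerSeries.C (a : K), PowerSeries.coe_C _, by
    rw [PowerSeries.constantCoeff_C]; exact a.2⟩

variable (E : IntermediateField K (LaurentSeries K))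

/-- The trace of `compVS O` on `E`. -/
def cuspVS : ValuationSubring E := (compVS O).comap (algebraMap E (LaurentSeries K))

theorem mem_cuspVS_iff (x : E) :
    x ∈ cuspVS O E ↔ ∃ G : PowerSeries K, (G : LaurentSeries K) = (x : LaurentSeries K) ∧
      PowerSeries.constantCoeff G ∈ O := Iff.rfl

theorem coe_algebraMap_OE' (a : O) :
    ((algebraMap ↥O ↥E a : E) : LaurentSeries K) = HahnSeries.C ((a : O) : K) := by
  show algebraMap K (LaurentSeries K) ((a : O) : K) = _
  have h1 : algebraMap K (PowerSeries K) ((a : O) : K) = PowerSeries.C ((a : O) : K) := by simp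
  rw [HahnSeries.algebraMap_apply', h1, HahnSeries.ofPowerSeries_C]

theorem algebraMap_mem_cuspVS (a : O) : algebraMap ↥O ↥E a ∈ cuspVS O E := by
  show ((algebraMap ↥O ↥E a : E) : LaurentSeries K) ∈ compVS O
  rw [coe_algebraMap_OE']
  exact C_mem_compVS O a

/-- `cuspVS` contains the integral closure of `O[s]` as soon as it contains `s`. -/
theorem chart_le_cuspVS {s : E} (hs : s ∈ cuspVS O E) : ∀ x ∈ chart ↥O s, x ∈ cuspVS O E :=
  chart_le_valuationSubring (cuspVS O E) (algebraMap_mem_cuspVS O E) hs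

/-- a series with constant term `1` is a unit of `cuspVS` -/
theorem mem_and_inv_mem {s : E} {U : PowerSeries K} (hU : (U : LaurentSeries K) = (s : LaurentSeries K))
    (hU1 : PowerSeries.constantCoeff U = 1) : s ∈ cuspVS O E ∧ s⁻¹ ∈ cuspVS O E := by
  refine ⟨⟨U, hU, hU1 ▸ O.one_mem⟩, ?_⟩
  have hU0 : PowerSeries.constantCoeff U ≠ 0 := by rw [hU1]; exact one_ne_zero
  obtain ⟨H, hUH, hH⟩ := exists_inv_powerSeries hU0
  refine ⟨H, ?_, ?_⟩
  · have h1 : (U : LaurentSeries K) * (H : LaurentSeries K) = 1 := by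
      rw [← PowerSeries.coe_mul, hUH, PowerSeries.coe_one]
    rw [hU] at h1
    have := eq_inv_of_mul_eq_one_right h1
    rw [this]
    simp
  · rw [hH, hU1, inv_one]
    exact O.one_mem

/-- **The base point, abstract form.** -/
theorem exists_algHom (A B1 : Subalgebra ↥O ↥E) (s : E)
    (hint : ∀ x ∈ B1, IsIntegral (Algebra.adjoin ↥O {s}) x)
    (hA : ∀ x ∈ A, ∃ k : ℕ, s ^ k * x ∈ B1)
    (U : PowerSeries K) (hU : (U : LaurentSeries K) = (s : LaurentSeries K))
    (hU1 : PowerSeries.constantCoeff U = 1) :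
    ∃ e : A →ₐ[↥O] ↥O, ∀ x : A, ((e x : O) : K) = ((x : E) : LaurentSeries K).coeff 0 := by
  obtain ⟨hs, hsinv⟩ := mem_and_inv_mem O E hU hU1
  have hB1 : ∀ x ∈ B1, x ∈ cuspVS O E := fun x hx =>
    chart_le_cuspVS O E hs x ((mem_chart_iff).2 (hint x hx))
  have hs0 : s ≠ 0 := by
    rintro rfl
    have : (U : LaurentSeries K) = ((0 : PowerSeries K) : LaurentSeries K) := by
      rw [hU, PowerSeries.coe_zero]; rfl
    have hU0 : U = 0 := HahnSeries.ofPowerSeries_injective this
    rw [hU0, map_zero] at hU1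
    exact zero_ne_one hU1
  have hAle : ∀ x ∈ A, ((x : E) : LaurentSeries K) ∈ compVS O := by
    intro x hx
    obtain ⟨k, hk⟩ := hA x hx
    have h1 : x = s⁻¹ ^ k * (s ^ k * x) := by
      rw [inv_pow, ← mul_assoc, inv_mul_cancel₀ (pow_ne_zero k hs0), one_mul]
    have h2 : x ∈ cuspVS O E := by
      rw [h1]
      exact (cuspVS O E).mul_mem _ _ ((cuspVS O E).pow_mem hsinv k) (hB1 _ hk)
    exact h2
  refine ⟨{ toFun := fun x => ev0 O ⟨((x : E) : LaurentSeries K), hAle x x.2⟩
            map_one' := ?_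
            map_mul' := ?_
            map_zero' := ?_
            map_add' := ?_
            commutes' := ?_ }, fun x => rfl⟩
  · exact (ev0 O).map_one
  · intro x y
    exact (ev0 O).map_mul ⟨_, hAle x x.2⟩ ⟨_, hAle y y.2⟩
  · exact (ev0 O).map_zero
  · intro x y
    exact (ev0 O).map_add ⟨_, hAle x x.2⟩ ⟨_, hAle y y.2⟩
  · intro a
    apply Subtype.ext
    show (((algebraMap ↥O ↥A a : A) : E) : LaurentSeries K).coeff 0 = (a : K)
    have : (((algebraMap ↥O ↥A a : A) : E) : LaurentSeries K) = HahnSeries.C ((a : O) : K) :=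
      coe_algebraMap_OE' O E a
    rw [this]
    simp

/-- The scalar tower `O → K → E` (typeclass search is too slow to find it). -/
theorem isScalarTower_OE' : IsScalarTower ↥O K ↥E :=
  IsScalarTower.of_algebraMap_eq fun _ => rfl

attribute [local instance] isScalarTower_OE'

/-- **The base point of a two-chart model** whose second coordinate `t'⁻¹` is a power series with
constant term `1`: the constant term `e : B0[1/t'] →ₐ[O] O`. -/
theorem exists_basePoint {π : O} {t' : E} {B0 B1 : Subalgebra ↥O ↥E} {Ov : ValuationSubring ↥E}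
    (h : TwoChartModel ↥O K ↥E π t' B0 B1 Ov)
    (U : PowerSeries K) (hU : (U : LaurentSeries K) = ((t'⁻¹ : E) : LaurentSeries K))
    (hU1 : PowerSeries.constantCoeff U = 1) :
    ∃ e : ↥(overlap t' B0 h.t_mem) →ₐ[↥O] ↥O,
      ∀ x : ↥(overlap t' B0 h.t_mem), ((e x : O) : K) = ((x : E) : LaurentSeries K).coeff 0 :=
  exists_algHom O E (overlap t' B0 h.t_mem) B1 t'⁻¹ h.int1
    (fun _ hx => (mem_overlap_iff1 h).1 hx) U hU hU1

/-- If `t = q⁻¹ · G` with `G(0) ≠ 0`, then `1 - t⁻¹` is a power series with constant term `1`. -/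
theorem exists_one_sub_inv {t : E} {G : PowerSeries K}
    (ht : (t : LaurentSeries K) = HahnSeries.single (-1 : ℤ) (1 : K) * (G : LaurentSeries K))
    (hG : PowerSeries.constantCoeff G ≠ 0) :
    ∃ U : PowerSeries K, (U : LaurentSeries K) = ((1 - t⁻¹ : E) : LaurentSeries K) ∧
      PowerSeries.constantCoeff U = 1 := by
  obtain ⟨H, hGH, -⟩ := exists_inv_powerSeries hG
  refine ⟨1 - PowerSeries.X * H, ?_, by simp⟩
  have h1 : (t : LaurentSeries K) * ((PowerSeries.X * H : PowerSeries K) : LaurentSeries K) = 1 := by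
    rw [ht, PowerSeries.coe_mul, PowerSeries.coe_X]
    calc HahnSeries.single (-1 : ℤ) (1 : K) * (G : LaurentSeries K) *
          (HahnSeries.single (1 : ℤ) (1 : K) * (H : LaurentSeries K))
        = (HahnSeries.single (-1 : ℤ) (1 : K) * HahnSeries.single (1 : ℤ) (1 : K)) *
          ((G : LaurentSeries K) * (H : LaurentSeries K)) := by ring
      _ = 1 := by
        rw [← PowerSeries.coe_mul, hGH, PowerSeries.coe_one, HahnSeries.single_mul_single]
        simp
  have h2 : ((t⁻¹ : E) : LaurentSeries K) = ((PowerSeries.X * H : PowerSeries K) : LaurentSeries K) := by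
    have : ((t⁻¹ : E) : LaurentSeries K) = (t : LaurentSeries K)⁻¹ := by simp
    rw [this]
    exact (eq_inv_of_mul_eq_one_right h1).symm
  have h3 : ((1 - t⁻¹ : E) : LaurentSeries K) = 1 - ((t⁻¹ : E) : LaurentSeries K) := by
    push_cast
    rfl
  rw [h3, h2, PowerSeries.coe_sub, PowerSeries.coe_one]

end Fermat.Agent.FFJ.Model.BasePoint17
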