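/-
Programme FFJ (S19), chapter CURVE, brick C-G (base point via an étale fibre).  Owner: helper39.

**(G2) The fibre `t = c` of a chart which is finite free over `R[t]` and unramified over `R` along
`t = c` has unit discriminant.**  Mathlib + `RED/PUR/DiscrEtale21` (Mathlib only).

`R` a local ring with perfect residue field, `B` an `R`-algebra, `t : B`, `c : R`,
`fibre t c := B ⧸ (t - c)`.

* `isRadical_of_forall_isMaximal` : an ideal `I` such that at every maximal ideal `x ⊇ I` every
  `y ∈ x` has a multiple `d * y ∈ I`, `d ∉ x`, is radical;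
* `fibreBasis`                    : if `b` is an `R[X]`-basis of `B` (`X ↦ t`, coordinate form of
  `CurveHypR.free0`), the images of the `b j` form an `R`-basis of the fibre;
* `isUnit_discr_fibre`            : if moreover every maximal ideal `x ∋ p, t - c` of `B` is locally
  generated by `p` and `t - c` (the (LOC) statement of RED with a polynomial uniformiser), the
  discriminant of the fibre is a unit.
-/
import Mathlib
import Fermat.Agent.RED.PUR.DiscrEtale21

set_option autoImplicit false
set_option linter.style.haveILetI false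

open Polynomial

namespace Fermat.Agent.FFJ.Model.EtaleFibre39

/-- An ideal `I` such that, at every maximal ideal `x ⊇ I`, every element of `x` is carried into `I`
by an element outside `x`, is radical. -/
theorem isRadical_of_forall_isMaximal {S : Type*} [CommRing S] (I : Ideal S)
    (h : ∀ x : Ideal S, x.IsMaximal → I ≤ x → ∀ y ∈ x, ∃ d, d ∉ x ∧ d * y ∈ I) :
    I.IsRadical := by
  intro y hy
  obtain ⟨n, hn⟩ := hy
  by_contra hyI
  let J : Ideal S :=
    { carrier := {d | d * y ∈ I}
      add_mem' := fun {a b} ha hb => by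
        change (a + b) * y ∈ I
        rw [add_mul]
        exact I.add_mem ha hb
      zero_mem' := by
        change (0 : S) * y ∈ I
        rw [zero_mul]
        exact I.zero_mem
      smul_mem' := fun r a ha => by
        change (r • a) * y ∈ I
        rw [smul_eq_mul, mul_assoc]
        exact I.mul_mem_left r ha }
  have hJ : J ≠ ⊤ := by
    intro hJ
    have h1 : (1 : S) ∈ J := by rw [hJ]; trivial
    have h2 : (1 : S) * y ∈ I := h1
    rw [one_mul] at h2
    exact hyI h2
  obtain ⟨x, hx, hJx⟩ := Ideal.exists_le_maximal J hJ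
  have hIJ : I ≤ J := fun d hd => I.mul_mem_right y hd
  have hyx : y ∈ x := hx.isPrime.mem_of_pow_mem n (hJx (hIJ hn))
  obtain ⟨d, hd, hdy⟩ := h x hx (hIJ.trans hJx) y hyx
  exact hd (hJx hdy)

section Fibre

variable {R B : Type*} [CommRing R] [CommRing B] [Algebra R B]

/-- The ideal `(t - c)` of `B`. -/
def fibreIdeal (t : B) (c : R) : Ideal B := Ideal.span {t - algebraMap R B c}

/-- The fibre `t = c` of `B`. -/
abbrev fibre (t : B) (c : R) : Type _ := B ⧸ fibreIdeal t c

theorem aeval_sub_eval_mem (t : B) (c : R) (p : R[X]) :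
    aeval t p - algebraMap R B (p.eval c) ∈ fibreIdeal t c := by
  have h1 : p - C (p.eval c) = (X - C c) * ((p - C (p.eval c)) /ₘ (X - C c)) := by
    have hroot : (p - C (p.eval c)).IsRoot c := by simp [IsRoot.def]
    exact (mul_divByMonic_eq_iff_isRoot.mpr hroot).symm
  have h2 := congrArg (aeval t) h1
  rw [map_sub, aeval_C, map_mul, map_sub, aeval_X, aeval_C] at h2
  rw [h2]
  exact Ideal.mul_mem_right _ _ (Ideal.subset_span rfl)

variable {n : ℕ} (t : B) (c : R) (b : Fin n → B)

/-- The `R`-linear map `v ↦ Σ v j • (b j mod (t - c))`. -/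
noncomputable def fibreMap : (Fin n → R) →ₗ[R] fibre t c where
  toFun v := ∑ j, v j • (Ideal.Quotient.mk (fibreIdeal t c) (b j))
  map_add' v w := by simp [add_smul, Finset.sum_add_distrib]
  map_smul' r v := by simp [mul_smul, Finset.smul_sum]

theorem fibreMap_apply (v : Fin n → R) :
    fibreMap t c b v = Ideal.Quotient.mk (fibreIdeal t c) (∑ j, algebraMap R B (v j) * b j) := by
  simp only [fibreMap, LinearMap.coe_mk, AddHom.coe_mk, map_sum, map_mul, Algebra.smul_def]
  rfl

variable {t c b}

theorem fibreMap_bijective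
    (hb : Function.Bijective fun p : Fin n → R[X] => ∑ j, aeval t (p j) * b j) :
    Function.Bijective (fibreMap t c b) := by
  constructor
  · rw [← LinearMap.ker_eq_bot, LinearMap.ker_eq_bot']
    intro v hv
    rw [fibreMap_apply, Ideal.Quotient.eq_zero_iff_mem, fibreIdeal,
      Ideal.mem_span_singleton'] at hv
    obtain ⟨w, hw⟩ := hv
    obtain ⟨q, hq⟩ := hb.2 w
    have hq' : ∑ j, aeval t (q j) * b j = w := hq
    have h1 : (fun p : Fin n → R[X] => ∑ j, aeval t (p j) * b j) (fun j => C (v j)) =
        (fun p : Fin n → R[X] => ∑ j, aeval t (p j) * b j) (fun j => q j * (X - C c)) := by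
      simp only [aeval_C, map_mul, map_sub, aeval_X]
      rw [← hw, ← hq', Finset.sum_mul]
      refine Finset.sum_congr rfl fun j _ => ?_
      ring
    have h2 := hb.1 h1
    funext j
    have h3 := congrArg (fun p : R[X] => p.eval c) (congrFun h2 j)
    simpa using h3
  · intro z
    obtain ⟨x, rfl⟩ := Ideal.Quotient.mk_surjective z
    obtain ⟨p, hp⟩ := hb.2 x
    have hp' : ∑ j, aeval t (p j) * b j = x := hp
    refine ⟨fun j => (p j).eval c, ?_⟩
    rw [fibreMap_apply, ← hp', ← sub_eq_zero, ← map_sub, Ideal.Quotient.eq_zero_iff_mem,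
      ← Finset.sum_sub_distrib]
    refine Ideal.sum_mem _ fun j _ => ?_
    rw [← sub_mul]
    refine Ideal.mul_mem_right _ _ ?_
    rw [← neg_sub]
    exact Ideal.neg_mem_iff _ |>.mpr (aeval_sub_eval_mem t c (p j))

/-- The `R`-basis of the fibre `t = c` given by an `R[X]`-basis of `B` (coordinate form). -/
noncomputable def fibreBasis
    (hb : Function.Bijective fun p : Fin n → R[X] => ∑ j, aeval t (p j) * b j) :
    Module.Basis (Fin n) R (fibre t c) :=
  Module.Basis.ofEquivFun (LinearEquiv.ofBijective (fibreMap t c b) (fibreMap_bijective hb)).symm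

theorem fibreBasis_apply
    (hb : Function.Bijective fun p : Fin n → R[X] => ∑ j, aeval t (p j) * b j) (j : Fin n) :
    fibreBasis (c := c) hb j = Ideal.Quotient.mk (fibreIdeal t c) (b j) := by
  classical
  have h1 : fibreBasis (c := c) hb j =
      (LinearEquiv.ofBijective (fibreMap t c b) (fibreMap_bijective hb)) (Pi.single j 1) := by
    rw [fibreBasis, Module.Basis.coe_ofEquivFun]
    simp
  rw [h1, LinearEquiv.ofBijective_apply, fibreMap_apply]
  congr 1
  rw [Finset.sum_eq_single j]
  · simp
  · intro i _ hij
    simp [Pi.single_eq_of_ne hij]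
  · intro hj
    exact absurd (Finset.mem_univ j) hj

theorem finite_fibre
    (hb : Function.Bijective fun p : Fin n → R[X] => ∑ j, aeval t (p j) * b j) :
    Module.Finite R (fibre t c) :=
  Module.Finite.of_basis (fibreBasis hb)

theorem free_fibre
    (hb : Function.Bijective fun p : Fin n → R[X] => ∑ j, aeval t (p j) * b j) :
    Module.Free R (fibre t c) :=
  Module.Free.of_basis (fibreBasis hb)

/-- **Unit discriminant of the fibre `t = c`.**  `R` local with perfect residue field, `B` finite
free over `R[X]` (`X ↦ t`, coordinate form); if every maximal ideal `x` of `B` containing the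
maximal ideal of `R` and `t - c` is locally generated by these (for `y ∈ x` there is `d ∉ x` with
`d * y ∈ pB + (t - c)`), then the discriminant of `B ⧸ (t - c)` over `R` is a unit. -/
theorem isUnit_discr_fibre [IsLocalRing R] [PerfectField (IsLocalRing.ResidueField R)]
    (hb : Function.Bijective fun p : Fin n → R[X] => ∑ j, aeval t (p j) * b j)
    (hloc : ∀ x : Ideal B, x.IsMaximal →
      (∀ r ∈ IsLocalRing.maximalIdeal R, algebraMap R B r ∈ x) → t - algebraMap R B c ∈ x →
      ∀ y ∈ x, ∃ d, d ∉ x ∧
        d * y ∈ Ideal.map (algebraMap R B) (IsLocalRing.maximalIdeal R) ⊔ fibreIdeal t c) :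
    IsUnit (Algebra.discr R (fibreBasis (c := c) hb)) := by
  haveI := finite_fibre (c := c) hb
  haveI := free_fibre (c := c) hb
  letI : Field (R ⧸ IsLocalRing.maximalIdeal R) := Ideal.Quotient.field _
  haveI : PerfectField (R ⧸ IsLocalRing.maximalIdeal R) :=
    (inferInstance : PerfectField (IsLocalRing.ResidueField R))
  rw [Fermat.Agent.RED.PUR.DiscrEtale21.isUnit_discr_iff_isRadical_of_perfectField]
  apply isRadical_of_forall_isMaximal
  intro xq hxq hle yq hyq
  obtain ⟨y, rfl⟩ := Ideal.Quotient.mk_surjective yq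
  set mk := Ideal.Quotient.mk (fibreIdeal t c) with hmk
  have hxmax : (xq.comap mk).IsMaximal :=
    Ideal.comap_isMaximal_of_surjective mk Ideal.Quotient.mk_surjective
  have hp : ∀ r ∈ IsLocalRing.maximalIdeal R, algebraMap R B r ∈ xq.comap mk := by
    intro r hr
    rw [Ideal.mem_comap]
    apply hle
    have : mk (algebraMap R B r) = algebraMap R (fibre t c) r := rfl
    rw [this]
    exact Ideal.mem_map_of_mem _ hr
  have ht : t - algebraMap R B c ∈ xq.comap mk := by
    rw [Ideal.mem_comap]
    have : mk (t - algebraMap R B c) = 0 :=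
      Ideal.Quotient.eq_zero_iff_mem.mpr (Ideal.subset_span rfl)
    rw [this]
    exact xq.zero_mem
  obtain ⟨d, hd, hdy⟩ := hloc _ hxmax hp ht y hyq
  refine ⟨mk d, hd, ?_⟩
  rw [← map_mul]
  have h1 : mk (d * y) ∈ Ideal.map mk
      (Ideal.map (algebraMap R B) (IsLocalRing.maximalIdeal R) ⊔ fibreIdeal t c) :=
    Ideal.mem_map_of_mem _ hdy
  rw [Ideal.map_sup, Ideal.map_map] at h1
  have h2 : Ideal.map mk (fibreIdeal t c) = ⊥ := by
    rw [hmk, Ideal.map_quotient_self]
  rw [h2, sup_bot_eq] at h1
  exact h1

end Fibre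

end Fermat.Agent.FFJ.Model.EtaleFibre39
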