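/-
Programme FFJ (S19), chapter CURVE, brick C-G (base point via an étale fibre).  Owner: helper39.

**(G3) Points of the fibre `t = c` with values in an algebraically closed field.**
Mathlib + `EtaleFibre39`.

`R` a domain, `Ω` an algebraically closed field with an injective `R → Ω`.

* `nonempty_algHom_of_isIntegral` : an integral `R`-algebra `E` with `R → E` injective has an
  `R`-algebra map to `Ω` (lying over + `IsAlgClosed.lift`);
* `exists_algHom_fibre`           : if `B` is finite free of positive rank over `R[X]` (`X ↦ t`,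
  coordinate form) there is an `R`-algebra map `φ : B → Ω` with `φ t = c`, all of whose values are
  integral over `R` and lie in the image of the fibre `B ⧸ (t - c)`;
* `exists_algHom_away`            : if `c` is a unit of `R`, `φ` extends to `B[1/t]`, still with
  integral values: the BASE POINT of the two-chart curve, over the ring generated by the values.
-/
import Mathlib
import Fermat.Agent.FFJ.Model.EtaleFibre39

set_option autoImplicit false
set_option linter.style.haveILetI false

open Polynomial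

namespace Fermat.Agent.FFJ.Model.BasePoint39

open Fermat.Agent.FFJ.Model.EtaleFibre39

/-- An integral `R`-algebra `E` with `R → E` injective has an `R`-algebra map to any algebraically
closed field `Ω` containing `R`. -/
theorem nonempty_algHom_of_isIntegral {R E Ω : Type*} [CommRing R] [IsDomain R] [CommRing E]
    [Algebra R E] [Algebra.IsIntegral R E] (hinj : Function.Injective (algebraMap R E))
    [Field Ω] [IsAlgClosed Ω] [Algebra R Ω] (hj : Function.Injective (algebraMap R Ω)) :
    Nonempty (E →ₐ[R] Ω) := by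
  obtain ⟨Q, -, hQ, hQc⟩ := Ideal.exists_ideal_over_prime_of_isIntegral (⊥ : Ideal R) (⊥ : Ideal E)
    (by
      rw [← RingHom.ker_eq_comap_bot, (RingHom.injective_iff_ker_eq_bot _).mp hinj])
  haveI : IsDomain (E ⧸ Q) := Ideal.Quotient.isDomain Q
  have hinjS : Function.Injective (algebraMap R (E ⧸ Q)) := by
    rw [RingHom.injective_iff_ker_eq_bot, ← hQc]
    ext r
    rw [RingHom.mem_ker, Ideal.mem_comap]
    exact Ideal.Quotient.eq_zero_iff_mem
  haveI : FaithfulSMul R (E ⧸ Q) := (faithfulSMul_iff_algebraMap_injective R (E ⧸ Q)).mpr hinjS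
  haveI : FaithfulSMul R Ω := (faithfulSMul_iff_algebraMap_injective R Ω).mpr hj
  haveI : Algebra.IsIntegral R (E ⧸ Q) := inferInstance
  let f : (E ⧸ Q) →ₐ[R] Ω := IsAlgClosed.lift
  exact ⟨f.comp (Ideal.Quotient.mkₐ R Q)⟩

section Fibre

variable {R B Ω : Type*} [CommRing R] [IsDomain R] [CommRing B] [Algebra R B]
  [Field Ω] [IsAlgClosed Ω] [Algebra R Ω]
  {n : ℕ} {t : B} {c : R} {b : Fin n → B}

omit [IsDomain R] in
/-- `R → B ⧸ (t - c)` is injective when `B` is free of positive rank over `R[X]`. -/
theorem algebraMap_fibre_injective (hn : n ≠ 0)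
    (hb : Function.Bijective fun p : Fin n → R[X] => ∑ j, aeval t (p j) * b j) :
    Function.Injective (algebraMap R (fibre t c)) := by
  classical
  rw [injective_iff_map_eq_zero]
  intro r hr
  obtain ⟨j₀⟩ : Nonempty (Fin n) := ⟨⟨0, Nat.pos_of_ne_zero hn⟩⟩
  have h1 : r • (fibreBasis (c := c) hb j₀) = 0 := by
    rw [Algebra.smul_def, hr, zero_mul]
  have h2 := congrArg (fun z => (fibreBasis (c := c) hb).repr z j₀) h1
  simpa using h2

/-- **A point of the fibre `t = c` with values in `Ω`**: an `R`-algebra map `φ : B → Ω` with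
`φ t = c`, integral values, factoring through `B ⧸ (t - c)`. -/
theorem exists_algHom_fibre (hj : Function.Injective (algebraMap R Ω)) (hn : n ≠ 0)
    (hb : Function.Bijective fun p : Fin n → R[X] => ∑ j, aeval t (p j) * b j) :
    ∃ (ε : fibre t c →ₐ[R] Ω) (φ : B →ₐ[R] Ω),
      (∀ x, φ x = ε (Ideal.Quotient.mk (fibreIdeal t c) x)) ∧
      φ t = algebraMap R Ω c ∧ ∀ x, IsIntegral R (φ x) := by
  haveI := finite_fibre (c := c) hb
  haveI : Algebra.IsIntegral R (fibre t c) := Algebra.IsIntegral.of_finite R _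
  obtain ⟨ε⟩ := nonempty_algHom_of_isIntegral (E := fibre t c)
    (algebraMap_fibre_injective hn hb) hj
  refine ⟨ε, ε.comp (Ideal.Quotient.mkₐ R (fibreIdeal t c)), fun x => rfl, ?_, fun x => ?_⟩
  · have h1 : Ideal.Quotient.mk (fibreIdeal t c) t =
        Ideal.Quotient.mk (fibreIdeal t c) (algebraMap R B c) := by
      rw [Ideal.Quotient.eq]
      exact Ideal.subset_span rfl
    show ε (Ideal.Quotient.mk (fibreIdeal t c) t) = _
    rw [h1]
    exact ε.commutes c
  · exact (Algebra.IsIntegral.isIntegral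
      (Ideal.Quotient.mkₐ R (fibreIdeal t c) x)).map ε

/-- **The base point**: if `c` is a unit of `R`, the point of the fibre `t = c` extends to the
overlap `B[1/t]`, with integral values. -/
theorem exists_algHom_away (hj : Function.Injective (algebraMap R Ω)) (hn : n ≠ 0)
    (hb : Function.Bijective fun p : Fin n → R[X] => ∑ j, aeval t (p j) * b j) (hc : IsUnit c)
    (B01 : Type*) [CommRing B01] [Algebra B B01] [Algebra R B01] [IsScalarTower R B B01]
    [IsLocalization.Away t B01] :
    ∃ (ε : fibre t c →ₐ[R] Ω) (φ : B01 →ₐ[R] Ω),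
      (∀ x : B, φ (algebraMap B B01 x) = ε (Ideal.Quotient.mk (fibreIdeal t c) x)) ∧
      φ (algebraMap B B01 t) = algebraMap R Ω c ∧ ∀ z, IsIntegral R (φ z) := by
  obtain ⟨ε, φ, hφε, hφt, hφint⟩ := exists_algHom_fibre (Ω := Ω) (c := c) hj hn hb
  have hunit : ∀ y : Submonoid.powers t, IsUnit (φ y) := by
    rintro ⟨_, k, rfl⟩
    show IsUnit (φ (t ^ k))
    rw [map_pow, hφt]
    exact (hc.map (algebraMap R Ω)).pow k
  let φ01 : B01 →ₐ[R] Ω := IsLocalization.liftAlgHom (M := Submonoid.powers t) (f := φ) hunit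
  have hφ01 : ∀ x : B, φ01 (algebraMap B B01 x) = φ x := fun x =>
    IsLocalization.lift_eq (M := Submonoid.powers t) (g := (φ : B →+* Ω)) hunit x
  refine ⟨ε, φ01, fun x => by rw [hφ01, hφε], by rw [hφ01, hφt], fun z => ?_⟩
  obtain ⟨k, x, hx⟩ := IsLocalization.Away.surj t z
  -- `z * t^k = x`, so `φ01 z = φ x * (c⁻¹)^k`
  obtain ⟨u, rfl⟩ := hc
  have h1 : φ01 z * algebraMap R Ω ((u : R) ^ k) = φ x := by
    rw [← hφ01 x, ← hx, map_mul, map_pow φ01, hφ01, hφt, map_pow]
  have h2 : φ01 z = φ x * algebraMap R Ω (((u⁻¹ : Rˣ) : R) ^ k) := by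
    rw [← h1, mul_assoc, ← map_mul, ← mul_pow, Units.mul_inv, one_pow, map_one, mul_one]
  rw [h2]
  exact (hφint x).mul isIntegral_algebraMap

end Fibre

end Fermat.Agent.FFJ.Model.BasePoint39
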