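/-
FFJ (S19), chapter Model, file 2 (helper17).  Mathlib only.

`exists_basis_mod`: if `P/(π)` is a principal ideal domain and `M/πM` is torsion-free over it
(elementary form), then a finite family of `M` is a basis of `M/πM`.
-/
import Mathlib.Algebra.Module.Torsion.Basic
import Mathlib.LinearAlgebra.FreeModule.PID
import Mathlib.RingTheory.Ideal.Quotient.Operations
import Mathlib.RingTheory.Finiteness.Basic

namespace Fermat.Agent.FFJ.Model.BasisMod17

open scoped Pointwise

variable {P M : Type*} [CommRing P] [AddCommGroup M] [Module P M]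

theorem mem_span_singleton_smul_top (π : P) (m : M) :
    m ∈ ((Ideal.span {π} : Ideal P) • (⊤ : Submodule P M)) ↔ ∃ m' : M, m = π • m' := by
  rw [Submodule.ideal_span_singleton_smul, Submodule.mem_smul_pointwise_iff_exists]
  constructor
  · rintro ⟨n, -, rfl⟩; exact ⟨n, rfl⟩
  · rintro ⟨n, rfl⟩; exact ⟨n, trivial, rfl⟩

/-- **A basis modulo `π`.** If `P/(π)` is a principal ideal domain and `M/πM` is torsion-free
over it, there is a finite family in `M` which is a basis modulo `π`. -/
theorem exists_basis_mod [Module.Finite P M] (π : P)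
    [IsDomain (P ⧸ Ideal.span {π})] [IsPrincipalIdealRing (P ⧸ Ideal.span {π})]
    (htf : ∀ (p : P) (m : M), ¬ π ∣ p → (∃ m', p • m = π • m') → ∃ m'', m = π • m'') :
    ∃ (r : ℕ) (e : Fin r → M),
      (∀ m : M, ∃ (c : Fin r → P) (m' : M), m = ∑ i, c i • e i + π • m') ∧
      (∀ c : Fin r → P, (∃ m', ∑ i, c i • e i = π • m') → ∀ i, π ∣ c i) := by
  classical
  set I : Ideal P := Ideal.span {π} with hI
  let Q := P ⧸ I
  let Mb := M ⧸ (I • ⊤ : Submodule P M)
  have hmk : ∀ (p : P) (m : M), (Ideal.Quotient.mk I p : Q) •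
      (Submodule.Quotient.mk m : Mb) = Submodule.Quotient.mk (p • m) := fun p m => rfl
  have hzero : ∀ m : M, (Submodule.Quotient.mk m : Mb) = 0 ↔ ∃ m', m = π • m' := by
    intro m
    rw [Submodule.Quotient.mk_eq_zero]
    exact mem_span_singleton_smul_top π m
  have hfinP : Module.Finite P Mb := inferInstance
  have hfin : Module.Finite Q Mb := by
    obtain ⟨s, hs⟩ := hfinP.fg_top
    refine ⟨⟨s, ?_⟩⟩
    rw [eq_top_iff]
    rintro x -
    have hx : x ∈ Submodule.span P (s : Set Mb) := by rw [hs]; trivial
    induction hx using Submodule.span_induction with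
    | mem y hy => exact Submodule.subset_span hy
    | zero => exact zero_mem _
    | add y z _ _ hy hz => exact add_mem hy hz
    | smul p y _ hy =>
      obtain ⟨m, rfl⟩ := Submodule.Quotient.mk_surjective _ y
      have : p • (Submodule.Quotient.mk m : Mb) =
          (Ideal.Quotient.mk I p : Q) • (Submodule.Quotient.mk m : Mb) := by
        rw [hmk]; rfl
      rw [this]
      exact Submodule.smul_mem _ _ hy
  have htfQ : Module.IsTorsionFree Q Mb := by
    refine Module.IsTorsionFree.of_smul_eq_zero fun q x hqx => ?_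
    obtain ⟨p, rfl⟩ := Ideal.Quotient.mk_surjective q
    obtain ⟨m, rfl⟩ := Submodule.Quotient.mk_surjective _ x
    rw [hmk, hzero] at hqx
    by_cases hp : π ∣ p
    · left
      rw [Ideal.Quotient.eq_zero_iff_mem, hI, Ideal.mem_span_singleton]
      exact hp
    · right
      rw [hzero]
      exact htf p m hp hqx
  obtain ⟨r, b⟩ : Σ n : ℕ, Module.Basis (Fin n) Q Mb := Module.basisOfFiniteTypeTorsionFree'
  choose e he using fun i => Submodule.Quotient.mk_surjective (I • ⊤ : Submodule P M) (b i)
  have hsum : ∀ c : Fin r → P, (Submodule.Quotient.mk (∑ i, c i • e i) : Mb) =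
      ∑ i, (Ideal.Quotient.mk I (c i) : Q) • b i := by
    intro c
    rw [← Submodule.mkQ_apply, map_sum]
    refine Finset.sum_congr rfl fun i _ => ?_
    rw [Submodule.mkQ_apply, ← he i, hmk]
  refine ⟨r, e, ?_, ?_⟩
  · intro m
    choose c hc using fun i =>
      Ideal.Quotient.mk_surjective (b.repr (Submodule.Quotient.mk m : Mb) i)
    have h0 : (Submodule.Quotient.mk (m - ∑ i, c i • e i) : Mb) = 0 := by
      rw [Submodule.Quotient.mk_sub, hsum, sub_eq_zero]
      conv_lhs => rw [← b.sum_repr (Submodule.Quotient.mk m : Mb)]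
      refine Finset.sum_congr rfl fun i _ => ?_
      rw [hc i]
    obtain ⟨m', hm'⟩ := (hzero _).mp h0
    exact ⟨c, m', by rw [← hm']; abel⟩
  · intro c hc i
    have h0 : (Submodule.Quotient.mk (∑ i, c i • e i) : Mb) = 0 := (hzero _).mpr hc
    rw [hsum] at h0
    have := Fintype.linearIndependent_iff.mp b.linearIndependent _ h0 i
    rw [Ideal.Quotient.eq_zero_iff_mem, hI, Ideal.mem_span_singleton] at this
    exact this

end Fermat.Agent.FFJ.Model.BasisMod17
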