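/-
FFJ (S19), chapter Model (CURVE), brick C-C (helper17).

**`H⁰(X, 𝒪) = R`** for a two-chart model: an element of `F` integral over `R[t]` and over `R[t⁻¹]`
(`t` transcendental over `K = Frac R`, `R` integrally closed) is integral over `R`; if `K` is
algebraically closed in `F` it comes from `R`.

Proof: the minimal polynomial over `K(t)` has coefficients in `R[t] ∩ R[t⁻¹] = R`
(`minpoly.isIntegrallyClosed_eq_field_fractions` for the integrally closed rings `R[t]`, `R[t⁻¹]`).
-/
import Mathlib
import Fermat.Agent.RED.CORE.CoreIface24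
import Fermat.Agent.RED.PUR.ChartGeneric22

set_option autoImplicit false
set_option linter.unusedSectionVars false
set_option linter.style.haveILetI false

namespace Fermat.Agent.FFJ.Model.H0_17

open Polynomial
open Fermat.Agent.RED.CORE.CoreIface24 Fermat.Agent.RED.PUR.ChartGeneric22

variable {R K F : Type*} [CommRing R] [IsDomain R] [Field K] [Field F] [Algebra R K] [Algebra K F]
  [Algebra R F] [IsScalarTower R K F] [IsFractionRing R K]

/-- `R[t] ∩ R[t⁻¹] = R` for `t` transcendental. -/
theorem const_of_aeval_eq {t : F} (htr : Transcendental R t) (p q : R[X])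
    (h : aeval t p = aeval t⁻¹ q) : ∃ r : R, aeval t p = algebraMap R F r := by
  have ht0 : t ≠ 0 := by
    rintro rfl
    exact htr isAlgebraic_zero
  set m := q.natDegree with hm
  haveI : Invertible (t⁻¹) := invertibleOfNonzero (inv_ne_zero ht0)
  have hinv : ⅟(t⁻¹) = t := by rw [invOf_eq_inv, inv_inv]
  have h1 := eval₂_reflect_mul_pow (algebraMap R F) (t⁻¹) m q le_rfl
  rw [hinv] at h1
  have h2 : aeval t (reflect m q) = t ^ m * aeval t⁻¹ q := by
    have hw : (t⁻¹) ^ m * t ^ m = 1 := by rw [← mul_pow, inv_mul_cancel₀ ht0, one_pow]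
    have h3 : aeval t (reflect m q) = eval₂ (algebraMap R F) t (reflect m q) := rfl
    have h4 : eval₂ (algebraMap R F) t⁻¹ q = aeval t⁻¹ q := rfl
    rw [h3, ← h4, ← h1]
    linear_combination (-(eval₂ (algebraMap R F) t (reflect m q))) * hw
  have h5 : aeval t (X ^ m * p) = aeval t (reflect m q) := by
    rw [map_mul, map_pow, aeval_X, h2, h]
  have h6 : X ^ m * p = reflect m q := (transcendental_iff_injective.1 htr) h5
  by_cases hp : p = 0
  · exact ⟨0, by rw [hp, map_zero, map_zero]⟩
  · have h7 : (X ^ m * p).natDegree = m + p.natDegree := by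
      rw [natDegree_X_pow_mul (n := m) hp, add_comm]
    have h8 : (reflect m q).natDegree ≤ m := by
      have := natDegree_reflect_le (N := m) (p := q)
      rwa [← hm, max_self] at this
    have h9 : p.natDegree = 0 := by
      rw [h6] at h7
      omega
    obtain ⟨r, hr⟩ : ∃ r : R, p = C r := ⟨p.coeff 0, eq_C_of_natDegree_eq_zero h9⟩
    exact ⟨r, by rw [hr, aeval_C]⟩

variable [IsIntegrallyClosed R]

/-- An element integral over `R[t]` and over `R[t⁻¹]` is integral over `R`. -/
theorem isIntegral_of_mem_both {t z : F} (htr : Transcendental K t)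
    (h0 : IsIntegral (Algebra.adjoin R {t}) z) (h1 : IsIntegral (Algebra.adjoin R {t⁻¹}) z) :
    IsIntegral R z := by
  classical
  have htrR : Transcendental R t := transcendental_of_field htr
  have htr' : Transcendental K t⁻¹ := fun h => htr (IsAlgebraic.inv_iff.1 h)
  have htrR' : Transcendental R t⁻¹ := transcendental_of_field htr'
  set E : IntermediateField K F := IntermediateField.adjoin K {t} with hE
  have hs0 : t ∈ E := IntermediateField.mem_adjoin_simple_self K t
  have hs1 : t⁻¹ ∈ E := inv_mem hs0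
  have hE1 : E ≤ IntermediateField.adjoin K {t⁻¹} := by
    rw [hE, IntermediateField.adjoin_le_iff, Set.singleton_subset_iff]
    have h2 := inv_mem (IntermediateField.mem_adjoin_simple_self K t⁻¹)
    rwa [inv_inv] at h2
  -- coefficients over `R[t]`
  have hc0 : ∀ i, ∃ a ∈ Algebra.adjoin R {t}, (((minpoly E z).coeff i : E) : F) = a := by
    letI : Algebra (Algebra.adjoin R {t}) E := (adjoinToField E hs0).toAlgebra
    haveI : IsFractionRing (Algebra.adjoin R {t}) E := isFractionRing_adjoin E hs0 le_rfl
    haveI : IsScalarTower (Algebra.adjoin R {t}) E F := IsScalarTower.of_algebraMap_eq (fun _ => rfl)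
    haveI : IsIntegrallyClosed (Algebra.adjoin R {t}) := isIntegrallyClosed_adjoin htrR
    have := minpoly.isIntegrallyClosed_eq_field_fractions' E h0
    intro i
    rw [this, coeff_map]
    exact ⟨_, ((minpoly (Algebra.adjoin R {t}) z).coeff i).2, rfl⟩
  have hc1 : ∀ i, ∃ a ∈ Algebra.adjoin R {t⁻¹}, (((minpoly E z).coeff i : E) : F) = a := by
    letI : Algebra (Algebra.adjoin R {t⁻¹}) E := (adjoinToField E hs1).toAlgebra
    haveI : IsFractionRing (Algebra.adjoin R {t⁻¹}) E := isFractionRing_adjoin E hs1 hE1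
    haveI : IsScalarTower (Algebra.adjoin R {t⁻¹}) E F :=
      IsScalarTower.of_algebraMap_eq (fun _ => rfl)
    haveI : IsIntegrallyClosed (Algebra.adjoin R {t⁻¹}) := isIntegrallyClosed_adjoin htrR'
    have := minpoly.isIntegrallyClosed_eq_field_fractions' E h1
    intro i
    rw [this, coeff_map]
    exact ⟨_, ((minpoly (Algebra.adjoin R {t⁻¹}) z).coeff i).2, rfl⟩
  -- coefficients in `R`
  have hcR : ∀ i, ∃ r : R, (minpoly E z).coeff i = algebraMap R E r := by
    intro i
    obtain ⟨a, ha, hai⟩ := hc0 i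
    obtain ⟨b, hb, hbi⟩ := hc1 i
    rw [Algebra.adjoin_singleton_eq_range_aeval] at ha hb
    obtain ⟨p, rfl⟩ := ha
    obtain ⟨q, rfl⟩ := hb
    obtain ⟨r, hr⟩ := const_of_aeval_eq htrR p q (by
      show aeval t p = aeval t⁻¹ q
      have e1 : (aeval t) p = (((minpoly E z).coeff i : E) : F) := hai.symm
      have e2 : (aeval t⁻¹) q = (((minpoly E z).coeff i : E) : F) := hbi.symm
      rw [e1, e2])
    refine ⟨r, Subtype.ext ?_⟩
    have e1 : (aeval t) p = (((minpoly E z).coeff i : E) : F) := hai.symm
    rw [← e1, hr]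
    rfl
  have hint : IsIntegral E z := by
    letI : Algebra (Algebra.adjoin R {t}) E := (adjoinToField E hs0).toAlgebra
    haveI : IsScalarTower (Algebra.adjoin R {t}) E F := IsScalarTower.of_algebraMap_eq (fun _ => rfl)
    exact h0.tower_top
  have hl : minpoly E z ∈ lifts (algebraMap R E) := by
    rw [lifts_iff_coeff_lifts]
    intro i
    obtain ⟨r, hr⟩ := hcR i
    exact ⟨r, hr.symm⟩
  obtain ⟨P, hP, -, hPm⟩ := lifts_and_natDegree_eq_and_monic hl (minpoly.monic hint)
  refine ⟨P, hPm, ?_⟩
  have h2 : eval₂ (algebraMap R F) z P = aeval z (P.map (algebraMap R E)) := by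
    rw [aeval_def, eval₂_map]
    congr 1
  rw [h2, hP, minpoly.aeval]

/-- **`H⁰ = R`.** -/
theorem h0 {π : R} {t : F} {B0 B1 : Subalgebra R F} {Ov : ValuationSubring F}
    (h : TwoChartModel R K F π t B0 B1 Ov) (htr : Transcendental K t)
    (halg : ∀ x : F, IsIntegral K x → ∃ c : K, algebraMap K F c = x)
    (x : B0) (y : B1) (hxy : (x : F) = (y : F)) :
    ∃ c : R, algebraMap R B0 c = x ∧ algebraMap R B1 c = y := by
  have hz : IsIntegral R (x : F) :=
    isIntegral_of_mem_both htr (h.int0 _ x.2) (hxy ▸ h.int1 _ y.2)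
  obtain ⟨c, hc⟩ := halg _ hz.tower_top
  have hcint : IsIntegral R c := by
    have : IsIntegral R (algebraMap K F c) := hc ▸ hz
    exact (isIntegral_algHom_iff (IsScalarTower.toAlgHom R K F) (algebraMap K F).injective).1 this
  obtain ⟨r, hr⟩ := IsIntegrallyClosed.isIntegral_iff.1 hcint
  have hrF : algebraMap R F r = (x : F) := by
    rw [IsScalarTower.algebraMap_apply R K F, hr, hc]
  exact ⟨r, Subtype.ext hrF, Subtype.ext (hrF.trans hxy)⟩

end Fermat.Agent.FFJ.Model.H0_17
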