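/-
FFJ (S19), chapter Model (CURVE), brick C-B1 (helper17).

**Möbius transfer of the two-chart model.**  From RED's smooth two-chart model for the parameter `t`
(charts `chart R t ∋ t`, `chart R t⁻¹ ∋ t⁻¹`) we get the smooth two-chart model for the parameter
`t' = t/(t-1) = 1 + (t-1)⁻¹` with charts `chart R t'` (functions regular off `t = 1`) and
`chart R t⁻¹` (`t'⁻¹ = 1 - t⁻¹`, so `R[t'⁻¹] = R[t⁻¹]`).  Both new charts contain the point `t = ∞`
(`t' = 1` there), which is the base point of the curve data of FFJ.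

With `v = t - 1`: `(chart t, chart t') = (chart v, chart v⁻¹)` and `(chart t', chart t⁻¹) =
(chart t', chart t'⁻¹)` are standard two-chart pairs, so the overlaps are
`ChartGeneric22.exists_pow_mul_mem_chart` and (LOC) is transferred by `OverlapTransfer18`.
-/
import Mathlib
import Fermat.Agent.RED.CORE.CoreIface24
import Fermat.Agent.RED.PUR.ChartGeneric22
import Fermat.Agent.RED.PUR.OverlapTransfer18

set_option autoImplicit false
set_option linter.unusedSectionVars false
set_option linter.style.haveILetI false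

namespace Fermat.Agent.FFJ.Model.MobiusModel17

open Polynomial
open Fermat.Agent.RED.CORE.CoreIface24 Fermat.Agent.RED.PUR.ChartGeneric22
open Fermat.Agent.RED.PUR.OverlapTransfer18

section Congr

variable {R F : Type*} [CommRing R] [Field F] [Algebra R F]

/-- Two parameters generating the same `R`-algebra have the same chart. -/
theorem chart_congr {a b : F} (hab : a ∈ Algebra.adjoin R {b}) (hba : b ∈ Algebra.adjoin R {a}) :
    chart R a = chart R b := by
  have h : Algebra.adjoin R {a} = Algebra.adjoin R {b} :=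
    le_antisymm (Algebra.adjoin_le (Set.singleton_subset_iff.2 hab))
      (Algebra.adjoin_le (Set.singleton_subset_iff.2 hba))
  ext x
  rw [mem_chart_iff, mem_chart_iff, isIntegral_subalgebra_iff, isIntegral_subalgebra_iff, h]

theorem self_mem_adjoin (a : F) : a ∈ Algebra.adjoin R {a} := Algebra.self_mem_adjoin_singleton R a

theorem chart_sub_one (t : F) : chart R (t - 1) = chart R t :=
  chart_congr (sub_mem (self_mem_adjoin (R := R) t) (one_mem _))
    (by
      have h := add_mem (self_mem_adjoin (R := R) (t - 1)) (one_mem (Algebra.adjoin R {t - 1}))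
      rwa [sub_add_cancel] at h)

theorem chart_one_add (w : F) : chart R (1 + w) = chart R w :=
  chart_congr (add_mem (one_mem _) (self_mem_adjoin (R := R) w))
    (by
      have h := sub_mem (self_mem_adjoin (R := R) (1 + w)) (one_mem (Algebra.adjoin R {1 + w}))
      rwa [add_sub_cancel_left] at h)

theorem chart_one_sub (w : F) : chart R (1 - w) = chart R w :=
  chart_congr (sub_mem (one_mem _) (self_mem_adjoin (R := R) w))
    (by
      have h := sub_mem (one_mem (Algebra.adjoin R {1 - w})) (self_mem_adjoin (R := R) (1 - w))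
      rwa [sub_sub_cancel] at h)

end Congr

section Mobius

variable {F : Type*} [Field F]

/-- The Möbius transform `t' = 1 + (t-1)⁻¹ = t/(t-1)`. -/
noncomputable def mob (t : F) : F := 1 + (t - 1)⁻¹

theorem mob_eq {t : F} (h1 : t - 1 ≠ 0) : mob t = t / (t - 1) := by
  unfold mob; field_simp; ring

theorem mob_inv {t : F} (h0 : t ≠ 0) (h1 : t - 1 ≠ 0) : (mob t)⁻¹ = 1 - t⁻¹ := by
  rw [mob_eq h1]; field_simp

theorem mob_ne_zero {t : F} (h0 : t ≠ 0) (h1 : t - 1 ≠ 0) : mob t ≠ 0 := by
  rw [mob_eq h1]; exact div_ne_zero h0 h1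

theorem mob_sub_one (t : F) : mob t - 1 = (t - 1)⁻¹ := by unfold mob; ring

/-- `t = t'/(t'-1)`. -/
theorem eq_mob_div {t : F} (h1 : t - 1 ≠ 0) : t = mob t / (mob t - 1) := by
  rw [mob_sub_one, mob_eq h1]; field_simp

end Mobius

section Model

variable {R K F : Type*} [CommRing R] [IsDomain R] [Field K] [Field F] [Algebra R K] [Algebra K F]
  [Algebra R F] [IsScalarTower R K F] [IsFractionRing R K] [IsNoetherianRing R]
  [IsIntegrallyClosed R] [CharZero K]

variable {π : R} {t : F} {Ov : ValuationSubring F}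

omit [IsDomain R] [IsFractionRing R K] [IsNoetherianRing R] [IsIntegrallyClosed R] [CharZero K] in
/-- `π` is not a unit of `R`. -/
theorem not_isUnit_pi (h : TwoChartModel R K F π t (chart R t) (chart R t⁻¹) Ov) : ¬ IsUnit π := by
  intro hu
  obtain ⟨u, hu⟩ := hu
  apply h.pi_nonunit
  have h1 : algebraMap R F π * algebraMap R F ((u⁻¹ : Rˣ) : R) = 1 := by
    rw [← map_mul, ← hu, Units.mul_inv, map_one]
  rw [inv_eq_of_mul_eq_one_right h1]
  exact h.le_Ov0 _ (Subalgebra.algebraMap_mem _ _)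

/-- comaximality of `X^j` and `(X-1)^m`, evaluated. -/
theorem mem_of_pow_mul_mem (B : Subalgebra R F) {a c : F} (ha : a ∈ B) {j m : ℕ}
    (h1 : a ^ j * c ∈ B) (h2 : (a - 1) ^ m * c ∈ B) : c ∈ B := by
  have hcop : IsCoprime ((X : R[X]) ^ j) ((X - 1 : R[X]) ^ m) := by
    apply IsCoprime.pow
    exact ⟨1, -1, by ring⟩
  obtain ⟨p, q, hpq⟩ := hcop
  have hev := congrArg (aeval a) hpq
  simp only [map_add, map_mul, map_pow, aeval_X, map_sub, map_one] at hev
  have hmemp : aeval a p ∈ B := by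
    have := (aeval (⟨a, ha⟩ : B) p).2
    rwa [aeval_subalgebra_coe] at this
  have hmemq : aeval a q ∈ B := by
    have := (aeval (⟨a, ha⟩ : B) q).2
    rwa [aeval_subalgebra_coe] at this
  have : c = aeval a p * (a ^ j * c) + aeval a q * ((a - 1) ^ m * c) := by
    linear_combination (-c) * hev
  rw [this]
  exact add_mem (mul_mem hmemp h1) (mul_mem hmemq h2)

/-- **Möbius transfer.** -/
theorem twoChartModel_mob (h : TwoChartModel R K F π t (chart R t) (chart R t⁻¹) Ov)
    [FiniteDimensional (IntermediateField.adjoin K {t}) F] (htr : Transcendental K t)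
    (hv : (t - 1)⁻¹ ∈ Ov) :
    TwoChartModel R K F π (mob t) (chart R (mob t)) (chart R t⁻¹) Ov := by
  have ht0 : t ≠ 0 := h.t_ne
  have h1 : t - 1 ≠ 0 := by
    intro h1
    have : t = algebraMap K F 1 := by rw [map_one]; exact sub_eq_zero.1 h1
    exact htr (this ▸ isAlgebraic_algebraMap (1 : K))
  set t' : F := mob t with ht'
  have ht'0 : t' ≠ 0 := mob_ne_zero ht0 h1
  have ht'inv : t'⁻¹ = 1 - t⁻¹ := mob_inv ht0 h1
  -- the three identifications of charts
  have hE1 : chart R (t - 1) = chart R t := chart_sub_one t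
  have hE2 : chart R (t - 1)⁻¹ = chart R t' := (chart_one_add (R := R) (t - 1)⁻¹).symm
  have hE3 : chart R t'⁻¹ = chart R t⁻¹ := by rw [ht'inv]; exact chart_one_sub t⁻¹
  -- field facts
  have hmemK : t ∈ IntermediateField.adjoin K {t} := IntermediateField.mem_adjoin_simple_self K t
  have ht'K : t' ∈ IntermediateField.adjoin K {t} := by
    rw [ht', mob]
    exact add_mem (one_mem _) (inv_mem (sub_mem hmemK (one_mem _)))
  have hKK : IntermediateField.adjoin K {t} ≤ IntermediateField.adjoin K {t'} := by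
    rw [IntermediateField.adjoin_le_iff, Set.singleton_subset_iff]
    have h2 : t' ∈ IntermediateField.adjoin K {t'} := IntermediateField.mem_adjoin_simple_self K t'
    have h3 : t = t' / (t' - 1) := eq_mob_div h1
    rw [SetLike.mem_coe, h3]
    exact div_mem h2 (sub_mem h2 (one_mem _))
  have htr' : Transcendental K t' := by
    intro halg
    apply htr
    have h3 : t = t' / (t' - 1) := eq_mob_div h1
    rw [h3, div_eq_mul_inv]
    exact halg.mul (halg.sub isAlgebraic_one).inv
  obtain ⟨hn0, hf0, hg0⟩ := chart_facts (R := R) (IntermediateField.adjoin K {t}) ht'K hKK htr'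
  -- valuation ring facts
  have hR_Ov : ∀ r : R, algebraMap R F r ∈ Ov := fun r =>
    h.le_Ov0 _ (Subalgebra.algebraMap_mem _ r)
  have ht_Ov : t ∈ Ov := h.le_Ov0 _ h.t_mem
  have hv_Ov : t - 1 ∈ Ov := sub_mem ht_Ov (one_mem _)
  have ht'_Ov : t' ∈ Ov := add_mem (one_mem _) hv
  have ht'inv_Ov : t'⁻¹ ∈ Ov := by
    rw [ht'inv]; exact sub_mem (one_mem _) h.tinv_mem_Ov
  have hle0 : ∀ x ∈ chart R t', x ∈ Ov := chart_le_valuationSubring Ov hR_Ov ht'_Ov
  -- overlaps
  have hov0 : ∀ x ∈ chart R t⁻¹, ∃ k : ℕ, t' ^ k * x ∈ chart R t' := by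
    intro x hx
    rw [← hE3] at hx
    exact exists_pow_mul_mem_chart ht'0 hx
  have hov1 : ∀ x ∈ chart R t', ∃ k : ℕ, t'⁻¹ ^ k * x ∈ chart R t⁻¹ := by
    intro x hx
    have hx' : x ∈ chart R (t'⁻¹)⁻¹ := by rwa [inv_inv]
    obtain ⟨k, hk⟩ := exists_pow_mul_mem_chart (inv_ne_zero ht'0) hx'
    exact ⟨k, by rwa [hE3] at hk⟩
  -- overlaps for the pair `(v, v⁻¹)`, `v = t - 1`
  have hvov0 : ∀ x ∈ chart R t', ∃ k : ℕ, (t - 1) ^ k * x ∈ chart R t := by
    intro x hx
    rw [← hE2] at hx
    obtain ⟨k, hk⟩ := exists_pow_mul_mem_chart h1 hx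
    exact ⟨k, by rwa [hE1] at hk⟩
  have hvov1 : ∀ x ∈ chart R t, ∃ k : ℕ, (t - 1)⁻¹ ^ k * x ∈ chart R t' := by
    intro x hx
    have hx' : x ∈ chart R ((t - 1)⁻¹)⁻¹ := by rwa [inv_inv, hE1]
    obtain ⟨k, hk⟩ := exists_pow_mul_mem_chart (inv_ne_zero h1) hx'
    exact ⟨k, by rwa [hE2] at hk⟩
  have ht'mem : t' ∈ chart R t' := self_mem_chart t'
  have hvinv_mem : (t - 1)⁻¹ ∈ chart R t' := by
    rw [← hE2]; exact self_mem_chart _
  have hv_mem : t - 1 ∈ chart R t := by
    rw [← hE1]; exact self_mem_chart _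
  have ht'inv_mem : t'⁻¹ ∈ chart R t⁻¹ := by
    rw [← hE3]; exact self_mem_chart _
  -- saturation of the new chart
  have hsat0 : ∀ b ∈ chart R t', ∀ c ∈ Ov, b = algebraMap R F π * c → c ∈ chart R t' := by
    intro b hb c hc hbc
    -- step 1: `(t'-1)^m c ∈ chart t'`
    obtain ⟨k, hk⟩ := hvov0 b hb
    have hk' : (t - 1) ^ k * c ∈ chart R t :=
      h.sat0 _ hk _ (mul_mem (pow_mem hv_Ov k) hc) (by rw [hbc]; ring)
    obtain ⟨j, hj⟩ := hvov1 _ hk'
    have hstep1 : (t' - 1) ^ j * c ∈ chart R t' := by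
      have e : (t' - 1) ^ j * c = (t - 1)⁻¹ ^ k * ((t - 1)⁻¹ ^ j * ((t - 1) ^ k * c)) := by
        have hw : (t - 1)⁻¹ ^ k * (t - 1) ^ k = 1 := by
          rw [← mul_pow, inv_mul_cancel₀ h1, one_pow]
        have hm : t' - 1 = (t - 1)⁻¹ := mob_sub_one t
        rw [hm]
        linear_combination (-((t - 1)⁻¹ ^ j * c)) * hw
      rw [e]
      exact mul_mem (pow_mem hvinv_mem k) hj
    -- step 2: `t'^j c ∈ chart t'`
    obtain ⟨k2, hk2⟩ := hov1 b hb
    have hk2' : t'⁻¹ ^ k2 * c ∈ chart R t⁻¹ :=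
      h.sat1 _ hk2 _ (mul_mem (pow_mem ht'inv_Ov k2) hc) (by rw [hbc]; ring)
    obtain ⟨j2, hj2⟩ := hov0 _ hk2'
    have hstep2 : t' ^ j2 * c ∈ chart R t' := by
      have e : t' ^ j2 * c = t' ^ k2 * (t' ^ j2 * (t'⁻¹ ^ k2 * c)) := by
        have hw : t' ^ k2 * t'⁻¹ ^ k2 = 1 := by
          rw [← mul_pow, mul_inv_cancel₀ ht'0, one_pow]
        linear_combination (-(t' ^ j2 * c)) * hw
      rw [e]
      exact mul_mem (pow_mem ht'mem k2) hj2
    exact mem_of_pow_mul_mem (chart R t') ht'mem hstep2 hstep1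
  have hπmax : (Ideal.span {π} : Ideal R).IsMaximal :=
    isMaximal_span_of_dvr h.dvrR (not_isUnit_pi h)
  -- smoothness of the new chart
  have hsm0 : ∀ x : Ideal (chart R t'), x.IsMaximal → algebraMap R (chart R t') π ∈ x →
      ∃ s ∈ x, ∀ y ∈ x, ∃ d : chart R t', d ∉ x ∧
        d * y ∈ Ideal.span {algebraMap R (chart R t') π, s} := by
    intro x hx hπx
    by_cases hvx : (⟨(t - 1)⁻¹, hvinv_mem⟩ : chart R t') ∈ x
    · -- the points `t = ∞`: there `t' ≡ 1`
      have ht'x : (⟨t', ht'mem⟩ : chart R t') ∉ x := by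
        intro hmem
        have h1x : (1 : chart R t') ∈ x := by
          have : (1 : chart R t') = ⟨t', ht'mem⟩ - ⟨(t - 1)⁻¹, hvinv_mem⟩ := by
            apply Subtype.ext
            show (1 : F) = t' - (t - 1)⁻¹
            rw [ht', mob]; ring
          rw [this]
          exact x.sub_mem hmem hvx
        exact hx.ne_top ((Ideal.eq_top_iff_one _).2 h1x)
      exact smooth0_of_smooth1 π t' (chart R t') (chart R t⁻¹) hπmax ht'0 ht'mem ht'inv_mem
        hov0 hov1 (fun y hy => hy) h.smooth1 x hx hπx ht'x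
    · -- the points `t ≠ ∞`: transfer from `chart R t` along `v = t - 1`
      have hint1 : ∀ y ∈ chart R t', IsIntegral (Algebra.adjoin R {(t - 1)⁻¹}) y := by
        intro y hy
        rw [← hE2] at hy
        exact hy
      have hvinv_inv : ((t - 1)⁻¹)⁻¹ = t - 1 := inv_inv _
      exact smooth1_of_smooth0 π (t - 1) (chart R t) (chart R t') hπmax h1 hv_mem hvinv_mem
        hvov0 hvov1 hint1 h.smooth0 x hx hπx hvx
  exact
    { noethR := h.noethR
      fracR := h.fracR
      dvrR := h.dvrR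
      noeth0 := hn0
      noeth1 := h.noeth1
      t_ne := ht'0
      t_mem := ht'mem
      tinv_mem := ht'inv_mem
      intcl0 := chart_intcl t'
      intcl1 := h.intcl1
      int0 := fun x hx => hx
      int1 := fun x hx => by
        rw [← hE3] at hx
        exact hx
      frac0 := hf0
      frac1 := h.frac1
      fin0 := hg0
      ov0 := hov0
      ov1 := hov1
      le_Ov0 := hle0
      le_Ov1 := h.le_Ov1
      tinv_mem_Ov := ht'inv_Ov
      pi_ne := h.pi_ne
      pi_nonunit := h.pi_nonunit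
      unif := h.unif
      sat0 := hsat0
      sat1 := h.sat1
      smooth0 := hsm0
      smooth1 := h.smooth1 }

end Model

end Fermat.Agent.FFJ.Model.MobiusModel17
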