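/-
FFJ (S19), chapter Model (CURVE), brick C-H (helper17).

**Abstract assembly of the CURVE deliverable.**  From a two-chart model `(t, B0, B1)` over a DVR `R`
(RED's `TwoChartModel`), the transcendence of the reductions of `t`, `t⁻¹`, finiteness of `B1` over
`R[t⁻¹]`, `K` algebraically closed in `F`, and the Dedekind property of the geometric fibres:
`ChartDefR35.CurveHypR R B0 B1 B0[1/t] t t⁻¹`.

Also: `fin1_mob` (the second chart of the Möbius model is finite over `R[1 - t⁻¹]`), the `Trans`
statements for the Möbius coordinates, and `exists_fraction` (BRIDGE's `hfr`).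
-/
import Mathlib
import Fermat.Agent.FFJ.Pic.ChartDefR35
import Fermat.Agent.FFJ.Model.ChartFree17
import Fermat.Agent.FFJ.Model.MobiusModel17
import Fermat.Agent.FFJ.Model.ChartBridge17
import Fermat.Agent.FFJ.Model.H0_17

set_option autoImplicit false
set_option linter.unusedSectionVars false
set_option linter.style.haveILetI false

noncomputable section

namespace Fermat.Agent.FFJ.Model.CurveAsm17

open Polynomial TensorProduct
open Fermat.Agent.RED.CORE.CoreIface24 Fermat.Agent.RED.PUR.ChartGeneric22
open Fermat.Agent.FFJ.Model.ChartProj17 Fermat.Agent.FFJ.Model.ChartBridge17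
open Fermat.Agent.FFJ.Model.MobiusModel17 Fermat.Agent.FFJ.Model.TransLemmas17
open Fermat.Agent.FFJ.Pic.ChartDefR35

universe u

section Asm

variable {R K F : Type u} [CommRing R] [Field K] [Field F] [Algebra R K] [Algebra K F]
  [Algebra R F] [IsScalarTower R K F]
variable {π : R} {t : F} {B0 B1 : Subalgebra R F} {Ov : ValuationSubring F}

/-- **CURVE, abstract assembly.** -/
theorem curveHypR_of_model [IsDomain R] [IsIntegrallyClosed R] (h : TwoChartModel R K F π t B0 B1 Ov)
    (htr0 : Trans π Ov t) (htr1 : Trans π Ov t⁻¹)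
    (fin1 : ∃ (r : ℕ) (e : Fin r → F), (∀ i, e i ∈ B1) ∧
      ∀ x ∈ B1, ∃ P : Fin r → R[X], x = ∑ i, aeval t⁻¹ (P i) * e i)
    (htrK : Transcendental K t)
    (halg : ∀ x : F, IsIntegral K x → ∃ c : K, algebraMap K F c = x)
    (ded0 : ∀ (L : Type u) [Field L] [Algebra R L], IsDedekindDomain (L ⊗[R] B0))
    (ded1 : ∀ (L : Type u) [Field L] [Algebra R L], IsDedekindDomain (L ⊗[R] B1))
    (ded01 : ∀ (L : Type u) [Field L] [Algebra R L],
      IsDedekindDomain (L ⊗[R] ↥(overlap t B0 h.t_mem))) :
    letI := algebra0 (B0 := B0) h.t_mem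
    letI := algebra1 h
    haveI := isScalarTower0 (B0 := B0) h.t_mem
    haveI := isScalarTower1 h
    haveI := isLocalization_away0 h
    haveI := isLocalization_away1 h
    CurveHypR R B0 B1 ↥(overlap t B0 h.t_mem) (⟨t, h.t_mem⟩ : B0) (⟨t⁻¹, h.tinv_mem⟩ : B1) := by
  letI := algebra0 (B0 := B0) h.t_mem
  letI := algebra1 h
  haveI := isScalarTower0 (B0 := B0) h.t_mem
  haveI := isScalarTower1 h
  haveI := isLocalization_away0 h
  haveI := isLocalization_away1 h
  haveI := h.fracR
  exact
    { hts := ts h
      coords0 := ChartFree17.free (chartHyp0 h htr0)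
      coords1 := ChartFree17.free (chartHyp1 h fin1 htr1)
      finiteType0 := finiteType_of_fin h.t_mem h.fin0
      finiteType1 := finiteType_of_fin h.tinv_mem fin1
      dedekind0 := ded0
      dedekind1 := ded1
      dedekind01 := ded01
      h0 := by
        intro a0 a1 h01
        have hxy : (a0 : F) = (a1 : F) := congrArg Subtype.val h01
        obtain ⟨c, hc0, hc1⟩ := H0_17.h0 h htrK halg a0 a1 hxy
        exact ⟨c, hc0.symm, hc1.symm⟩ }

/-- BRIDGE's `hfr`: every element of `F` is a fraction of elements of the overlap ring. -/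
theorem exists_fraction (h : TwoChartModel R K F π t B0 B1 Ov) (f : F) :
    ∃ x y : ↥(overlap t B0 h.t_mem), (y : F) ≠ 0 ∧ f * (y : F) = (x : F) := by
  obtain ⟨a, ha, b, hb, hb0, hab⟩ := h.frac0 f
  exact ⟨⟨a, le_overlap h.t_mem ha⟩, ⟨b, le_overlap h.t_mem hb⟩, hb0, hab⟩

/-- BRIDGE's `hfr`, in the literal shape of `BridgeSubalgebra96.exists_bridge_subalgebra`. -/
theorem exists_fraction' (h : TwoChartModel R K F π t B0 B1 Ov) (f : F) :
    ∃ a ∈ overlap t B0 h.t_mem, ∃ b ∈ overlap t B0 h.t_mem, b ≠ 0 ∧ f * b = a := by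
  obtain ⟨a, ha, b, hb, hb0, hab⟩ := h.frac0 f
  exact ⟨a, le_overlap h.t_mem ha, b, le_overlap h.t_mem hb, hb0, hab⟩

end Asm

section Fields

variable {K F : Type*} [Field K] [Field F] [Algebra K F] {t : F}

theorem sub_one_ne_zero' (htr : Transcendental K t) : t - 1 ≠ 0 := by
  intro h1
  have : t = algebraMap K F 1 := by rw [map_one]; exact sub_eq_zero.1 h1
  exact htr (this ▸ isAlgebraic_algebraMap (1 : K))

theorem ne_zero_of_transcendental (htr : Transcendental K t) : t ≠ 0 := by
  rintro rfl
  exact htr isAlgebraic_zero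

theorem adjoin_inv (t : F) :
    IntermediateField.adjoin K {t⁻¹} = IntermediateField.adjoin K {t} := by
  apply le_antisymm
  · rw [IntermediateField.adjoin_le_iff, Set.singleton_subset_iff]
    exact inv_mem (IntermediateField.mem_adjoin_simple_self K t)
  · rw [IntermediateField.adjoin_le_iff, Set.singleton_subset_iff]
    have := inv_mem (IntermediateField.mem_adjoin_simple_self K t⁻¹)
    rwa [inv_inv] at this

theorem adjoin_mob (htr : Transcendental K t) :
    IntermediateField.adjoin K {mob t} = IntermediateField.adjoin K {t} := by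
  have h1 : t - 1 ≠ 0 := sub_one_ne_zero' htr
  apply le_antisymm
  · rw [IntermediateField.adjoin_le_iff, Set.singleton_subset_iff]
    have hmemK : t ∈ IntermediateField.adjoin K {t} := IntermediateField.mem_adjoin_simple_self K t
    show mob t ∈ IntermediateField.adjoin K {t}
    unfold mob
    exact add_mem (one_mem _) (inv_mem (sub_mem hmemK (one_mem _)))
  · rw [IntermediateField.adjoin_le_iff, Set.singleton_subset_iff]
    have h2 : mob t ∈ IntermediateField.adjoin K {mob t} :=
      IntermediateField.mem_adjoin_simple_self K _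
    have h3 : t = mob t / (mob t - 1) := eq_mob_div h1
    show t ∈ IntermediateField.adjoin K {mob t}
    have h4 : mob t / (mob t - 1) ∈ IntermediateField.adjoin K {mob t} :=
      div_mem h2 (sub_mem h2 (one_mem _))
    rwa [← h3] at h4

theorem finiteDimensional_inv [hfd : FiniteDimensional (IntermediateField.adjoin K {t}) F] :
    FiniteDimensional (IntermediateField.adjoin K {t⁻¹}) F := by
  rw [adjoin_inv]
  exact hfd

theorem finiteDimensional_mob [hfd : FiniteDimensional (IntermediateField.adjoin K {t}) F]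
    (htr : Transcendental K t) : FiniteDimensional (IntermediateField.adjoin K {mob t}) F := by
  rw [adjoin_mob htr]
  exact hfd

theorem transcendental_inv (htr : Transcendental K t) : Transcendental K t⁻¹ := by
  intro halg
  apply htr
  have := halg.inv
  rwa [inv_inv] at this

theorem transcendental_mob (htr : Transcendental K t) : Transcendental K (mob t) := by
  have h1 : t - 1 ≠ 0 := sub_one_ne_zero' htr
  intro halg
  apply htr
  rw [eq_mob_div (t := t) h1, div_eq_mul_inv]
  exact halg.mul (halg.sub isAlgebraic_one).inv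

end Fields

section Mob

variable {R K F : Type*} [CommRing R] [IsDomain R] [Field K] [Field F] [Algebra R K] [Algebra K F]
  [Algebra R F] [IsScalarTower R K F] [IsFractionRing R K] [IsNoetherianRing R]
  [IsIntegrallyClosed R] [CharZero K]
variable {π : R} {t : F} {Ov : ValuationSubring F}

/-- `t - 1 ≠ 0` for a transcendental `t`. -/
theorem sub_one_ne_zero (htr : Transcendental K t) : t - 1 ≠ 0 := by
  intro h1
  have : t = algebraMap K F 1 := by rw [map_one]; exact sub_eq_zero.1 h1
  exact htr (this ▸ isAlgebraic_algebraMap (1 : K))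

/-- The second chart of the Möbius model is finite over `R[s']`, `s' = (mob t)⁻¹ = 1 - t⁻¹`. -/
theorem fin1_mob [FiniteDimensional (IntermediateField.adjoin K {t}) F] (htr : Transcendental K t)
    (ht0 : t ≠ 0) :
    ∃ (r : ℕ) (e : Fin r → F), (∀ i, e i ∈ chart R t⁻¹) ∧
      ∀ x ∈ chart R t⁻¹, ∃ P : Fin r → R[X], x = ∑ i, aeval (mob t)⁻¹ (P i) * e i := by
  have h1 : t - 1 ≠ 0 := sub_one_ne_zero htr
  have hs : (mob t)⁻¹ = 1 - t⁻¹ := mob_inv ht0 h1
  have hE3 : chart R (mob t)⁻¹ = chart R t⁻¹ := by rw [hs]; exact chart_one_sub t⁻¹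
  rw [← hE3]
  generalize (mob t)⁻¹ = s at hs ⊢
  have hmemK : t ∈ IntermediateField.adjoin K {t} := IntermediateField.mem_adjoin_simple_self K t
  have hsK : s ∈ IntermediateField.adjoin K {t} := by
    rw [hs]
    exact sub_mem (one_mem _) (inv_mem hmemK)
  have hts : t = (1 - s)⁻¹ := by
    rw [hs]
    simp
  have hKK : IntermediateField.adjoin K {t} ≤ IntermediateField.adjoin K {s} := by
    rw [IntermediateField.adjoin_le_iff, Set.singleton_subset_iff]
    have h2 : s ∈ IntermediateField.adjoin K {s} :=
      IntermediateField.mem_adjoin_simple_self K _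
    rw [SetLike.mem_coe, hts]
    exact inv_mem (sub_mem (one_mem _) h2)
  have htr' : Transcendental K s := by
    intro halg
    apply htr
    rw [hts]
    exact (isAlgebraic_one.sub halg).inv
  obtain ⟨-, -, hg⟩ := chart_facts (R := R) (IntermediateField.adjoin K {t}) hsK hKK htr'
  exact hg

/-- `Trans` for the Möbius coordinate. -/
theorem trans_mob {R F : Type*} [CommRing R] [Field F] [Algebra R F] {π : R}
    {Ov : ValuationSubring F} {t : F} (h : Trans π Ov t) (hπ : ¬ IsUnit π) (ht : t ∈ Ov) :
    Trans π Ov (mob t) := by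
  unfold mob
  exact ((h.sub_one).inv hπ (sub_mem ht (one_mem _))).one_add

/-- `Trans` for the second Möbius coordinate `(mob t)⁻¹ = 1 - t⁻¹`. -/
theorem trans_mob_inv {R F : Type*} [CommRing R] [Field F] [Algebra R F] {π : R}
    {Ov : ValuationSubring F} {t : F} (h : Trans π Ov t) (hπ : ¬ IsUnit π) (ht : t ∈ Ov)
    (ht0 : t ≠ 0) (h1 : t - 1 ≠ 0) : Trans π Ov (mob t)⁻¹ := by
  rw [mob_inv ht0 h1]
  exact (h.inv hπ ht).one_sub

end Mob

end Fermat.Agent.FFJ.Model.CurveAsm17
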