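/-
Programme FFJ, chapter CURVE, brick C-DE (helper9): **geometric Dedekindness over a perfect
field**.

Let `k` be a perfect field and `A` a Dedekind domain of finite type over `k`, not a field.

* `smooth_of_isDedekindDomain_of_perfectField` : `A` is smooth over `k` (regular ⇒ smooth; the
  residue fields are finite separable over `k`);
* `finrank_kaehler_eq_one_of_isDedekindDomain` : the fraction field `F` of `A` has
  `dim_F Ω[F/k] = 1`;
* `isDedekindDomain_baseChange_of_isDomain` : for every field `Ω ⊇ k` such that
  `Ω̄ ⊗[k] A` is a domain, `Ω ⊗[k] A` is a Dedekind domain;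
* `isDomain_tensor_of_laurentSeries` : if `A` embeds into `k((q))`, then `Ω ⊗[k] A` is a domain
  for every field `Ω ⊇ k`;
* `isDedekindDomain_baseChange_of_laurentSeries` : the combination (GEOM-DED).
-/
import Mathlib
import Fermat.Agent.JAC.FF.DedekindSmooth9
import Fermat.Agent.JAC.FF.ChartGeom9
import Fermat.Agent.JAC.Alg.DedekindDescent69
import Fermat.Agent.JAC.B2.SmoothAlg37
import Fermat.Prelude.Def_ModularCurve_LaurentCoeff

set_option autoImplicit false
set_option linter.unusedSectionVars false
set_option linter.style.haveILetI false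

open Polynomial IsLocalRing TensorProduct KaehlerDifferential

namespace Fermat.Agent.FFJ.Model.GeomDedekind9

/-! ### Étaleness over `k[X]` at a maximal ideal with separable residue field -/

section Local

variable {K A : Type*} [Field K] [CommRing A] [IsDomain A] [Algebra K A] [Algebra K[X] A]
  [IsScalarTower K K[X] A] [Algebra.FiniteType K A]

/-- If `X` maps to a generator of the maximal ideal of `A_m` and the residue field of `m` is
separable over `K`, then `A` is étale over `K[X]` at `m`. -/
theorem isEtaleAt_of_uniformizer (m : Ideal A) [m.IsMaximal]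
    (hinj : Function.Injective (algebraMap K[X] A))
    [hκ : Algebra.IsSeparable K m.ResidueField]
    (hX : Ideal.span {algebraMap K[X] (Localization.AtPrime m) X} =
      maximalIdeal (Localization.AtPrime m)) :
    Algebra.IsEtaleAt K[X] m := by
  have hft : Algebra.FiniteType K[X] A := Algebra.FiniteType.of_restrictScalars_finiteType K K[X] A
  have hfp : Algebra.FinitePresentation K[X] A := Algebra.FinitePresentation.of_finiteType.mp hft
  have hfaith : FaithfulSMul K[X] A := (faithfulSMul_iff_algebraMap_injective _ _).mpr hinj
  have htf : Module.IsTorsionFree K[X] A := inferInstance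
  have hflat : Module.Flat K[X] A := inferInstance
  -- the prime below `m`
  have hp : (m.under K[X]).IsPrime := inferInstance
  have hlies : m.LiesOver (m.under K[X]) := inferInstance
  let _ := Localization.AtPrime.algebraOfLiesOver (m.under K[X]) m
  have hunr : Algebra.IsUnramifiedAt K[X] m := by
    rw [Algebra.isUnramifiedAt_iff_map_eq K[X] (m.under K[X]) m]
    refine ⟨?_, ?_⟩
    · -- the residue field extension is separable
      have htower : IsScalarTower K (m.under K[X]).ResidueField m.ResidueField := inferInstance
      exact Algebra.isSeparable_tower_top_of_isSeparable K (m.under K[X]).ResidueField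
        m.ResidueField
    · apply le_antisymm
      · rw [Ideal.map_le_iff_le_comap]
        intro f hf
        rw [Ideal.mem_comap, IsScalarTower.algebraMap_apply K[X] A (Localization.AtPrime m),
          IsLocalization.AtPrime.to_map_mem_maximal_iff _ m]
        exact hf
      · rw [← hX, Ideal.span_le, Set.singleton_subset_iff]
        apply Ideal.mem_map_of_mem
        show algebraMap K[X] A X ∈ m
        rw [← IsLocalization.AtPrime.to_map_mem_maximal_iff (Localization.AtPrime m) m,
          ← IsScalarTower.algebraMap_apply K[X] A (Localization.AtPrime m), ← hX]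
        exact Ideal.mem_span_singleton_self _
  exact Algebra.IsEtaleAt.of_isUnramifiedAt_of_flat m

end Local

/-! ### Regular ⇒ smooth over a perfect field -/

section Global

variable (k A : Type*) [Field k] [CommRing A] [IsDedekindDomain A] [Algebra k A]
  [Algebra.FiniteType k A]

variable {A} in
/-- A nonzero element of a maximal ideal of a domain over a field is transcendental. -/
theorem transcendental_of_mem_maximal {m : Ideal A} [m.IsMaximal] {y : A} (hym : y ∈ m)
    (hy0 : y ≠ 0) : Transcendental k y := by
  intro halg
  have hu : IsUnit y := halg.isIntegral.isUnit hy0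
  exact (Ideal.IsMaximal.ne_top inferInstance) (Ideal.eq_top_of_isUnit_mem m hym hu)

variable {A} in
/-- The residue field of a maximal ideal of a `k`-algebra of finite type is finite over `k`. -/
theorem finite_residueField (m : Ideal A) [m.IsMaximal] : Module.Finite k m.ResidueField := by
  have : Algebra.FiniteType k m.ResidueField :=
    Algebra.FiniteType.of_surjective (IsScalarTower.toAlgHom k A m.ResidueField)
      m.algebraMap_residueField_surjective
  exact finite_of_finite_type_of_isJacobsonRing k m.ResidueField

variable {A} in
/-- Over a perfect field the residue fields are separable. -/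
theorem isSeparable_residueField [PerfectField k] (m : Ideal A) [m.IsMaximal] :
    Algebra.IsSeparable k m.ResidueField := by
  have := finite_residueField k m
  exact Algebra.IsAlgebraic.isSeparable_of_perfectField

variable {A} in
/-- **Local structure of a regular curve at a point with separable residue field**: for a
uniformizer `y` at `m`, the `k[X]`-algebra `A` (`X ↦ y`) is étale at `m`. -/
theorem exists_isEtaleAt (m : Ideal A) [m.IsMaximal] (hm : m ≠ ⊥)
    [Algebra.IsSeparable k m.ResidueField] :
    ∃ y : A, Transcendental k y ∧
      letI : Algebra k[X] A := (Polynomial.aeval y).toAlgebra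
      Algebra.IsEtaleAt k[X] m := by
  obtain ⟨y, hym, hy⟩ := Fermat.Agent.JAC.FF.DedekindSmooth9.exists_uniformizer m hm
  have hy0 : y ≠ 0 := by
    rintro rfl
    rw [map_zero, Ideal.span_singleton_eq_bot.mpr rfl] at hy
    have : IsDiscreteValuationRing (Localization.AtPrime m) :=
      IsLocalization.AtPrime.isDiscreteValuationRing_of_dedekind_domain A hm _
    exact IsDiscreteValuationRing.not_a_field (Localization.AtPrime m) hy.symm
  have htr : Transcendental k y := transcendental_of_mem_maximal k hym hy0
  refine ⟨y, htr, ?_⟩
  letI : Algebra k[X] A := (Polynomial.aeval y).toAlgebra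
  have hmap : ∀ f : k[X], algebraMap k[X] A f = Polynomial.aeval y f := fun _ => rfl
  have : IsScalarTower k k[X] A := IsScalarTower.of_algebraMap_eq fun c => by
    rw [hmap, Polynomial.algebraMap_apply, Polynomial.aeval_C]
    rfl
  refine isEtaleAt_of_uniformizer (K := k) m ?_ ?_
  · exact transcendental_iff_injective.mp htr
  · rw [IsScalarTower.algebraMap_apply k[X] A (Localization.AtPrime m), hmap, Polynomial.aeval_X]
    exact hy

variable {A} in
/-- The local ring of a Dedekind domain of finite type over a field at a nonzero maximal ideal with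
separable residue field is formally smooth. -/
theorem isSmoothAt_of_isSeparable (m : Ideal A) [m.IsMaximal] (hm : m ≠ ⊥)
    [Algebra.IsSeparable k m.ResidueField] : Algebra.IsSmoothAt k m := by
  obtain ⟨y, -, het⟩ := exists_isEtaleAt k m hm
  letI : Algebra k[X] A := (Polynomial.aeval y).toAlgebra
  have hmap : ∀ f : k[X], algebraMap k[X] A f = Polynomial.aeval y f := fun _ => rfl
  have : IsScalarTower k k[X] A := IsScalarTower.of_algebraMap_eq fun c => by
    rw [hmap, Polynomial.algebraMap_apply, Polynomial.aeval_C]
    rfl
  have het' : Algebra.FormallyEtale k[X] (Localization.AtPrime m) := het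
  have hsm : Algebra.FormallySmooth k[X] (Localization.AtPrime m) := inferInstance
  exact Algebra.FormallySmooth.comp k k[X] (Localization.AtPrime m)

/-- **Regular ⇒ smooth over a perfect field**: a Dedekind domain of finite type over a perfect
field, which is not a field, is smooth. -/
theorem smooth_of_isDedekindDomain_of_perfectField [PerfectField k] (hA : ¬ IsField A) :
    Algebra.Smooth k A := by
  have hfp : Algebra.FinitePresentation k A :=
    Algebra.FinitePresentation.of_finiteType.mp inferInstance
  refine ⟨?_, hfp⟩
  rw [← Algebra.smoothLocus_eq_univ_iff, Set.eq_univ_iff_forall]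
  intro q
  obtain ⟨m, hmax, hqm⟩ := Ideal.exists_le_maximal q.asIdeal q.isPrime.ne_top
  have hm : m ≠ ⊥ := fun h => hA (by
    rw [Ring.isField_iff_maximal_bot]
    exact h ▸ hmax)
  have := isSeparable_residueField k m
  have hmem : (⟨m, hmax.isPrime⟩ : PrimeSpectrum A) ∈ Algebra.smoothLocus k A :=
    isSmoothAt_of_isSeparable k m hm
  have hspec : q ⤳ (⟨m, hmax.isPrime⟩ : PrimeSpectrum A) :=
    (PrimeSpectrum.le_iff_specializes q ⟨m, hmax.isPrime⟩).mp hqm
  exact hspec.mem_open Algebra.isOpen_smoothLocus hmem

/-- The Kähler differentials of the polynomial ring are free of rank one. -/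
theorem finrank_kaehler_polynomial : Module.finrank k[X] Ω[k[X]⁄k] = 1 := by
  rw [(KaehlerDifferential.polynomialEquiv k).finrank_eq, Module.finrank_self]

variable {A} in
/-- If `A` is étale over `k[X]` at one nonzero maximal ideal, the fraction field of `A` has
one-dimensional Kähler differentials. -/
theorem finrank_kaehler_eq_one_of_isEtaleAt (m : Ideal A) [m.IsMaximal] (y : A)
    (het : letI : Algebra k[X] A := (Polynomial.aeval y).toAlgebra
      Algebra.IsEtaleAt k[X] m)
    (F : Type*) [Field F] [Algebra A F] [Algebra k F] [IsScalarTower k A F] [IsFractionRing A F] :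
    Module.finrank F Ω[F⁄k] = 1 := by
  letI : Algebra k[X] A := (Polynomial.aeval y).toAlgebra
  have hmap : ∀ f : k[X], algebraMap k[X] A f = Polynomial.aeval y f := fun _ => rfl
  have : IsScalarTower k k[X] A := IsScalarTower.of_algebraMap_eq fun c => by
    rw [hmap, Polynomial.algebraMap_apply, Polynomial.aeval_C]
    rfl
  have het' : Algebra.FormallyEtale k[X] (Localization.AtPrime m) := het
  -- `F` as an algebra over the local ring
  have hunit : ∀ s : m.primeCompl, IsUnit (algebraMap A F s) := fun s =>
    IsUnit.mk0 _ ((map_ne_zero_iff _ (IsFractionRing.injective A F)).mpr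
      (fun h0 => s.2 (h0 ▸ m.zero_mem)))
  letI : Algebra (Localization.AtPrime m) F :=
    (IsLocalization.lift (M := m.primeCompl) (g := algebraMap A F) hunit).toAlgebra
  have htower : IsScalarTower A (Localization.AtPrime m) F :=
    IsScalarTower.of_algebraMap_eq fun a => (IsLocalization.lift_eq hunit a).symm
  have hfrac : IsFractionRing (Localization.AtPrime m) F :=
    IsFractionRing.isFractionRing_of_isDomain_of_isLocalization m.primeCompl
      (Localization.AtPrime m) F
  have het2 : Algebra.FormallyEtale (Localization.AtPrime m) F :=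
    Algebra.FormallyEtale.of_isLocalization (nonZeroDivisors (Localization.AtPrime m))
  -- `F` as a `k[X]`-algebra
  letI : Algebra k[X] F := ((algebraMap A F).comp (algebraMap k[X] A)).toAlgebra
  have htower2 : IsScalarTower k[X] A F := IsScalarTower.of_algebraMap_eq fun _ => rfl
  have htower3 : IsScalarTower k[X] (Localization.AtPrime m) F :=
    IsScalarTower.of_algebraMap_eq fun f => by
      rw [IsScalarTower.algebraMap_apply k[X] A (Localization.AtPrime m),
        ← IsScalarTower.algebraMap_apply A (Localization.AtPrime m) F]
      rfl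
  have htower4 : IsScalarTower k k[X] F := IsScalarTower.of_algebraMap_eq fun c => by
    rw [IsScalarTower.algebraMap_apply k[X] A F, ← IsScalarTower.algebraMap_apply k k[X] A,
      ← IsScalarTower.algebraMap_apply k A F]
  have het3 : Algebra.FormallyEtale k[X] F :=
    Algebra.FormallyEtale.comp k[X] (Localization.AtPrime m) F
  have e := tensorKaehlerEquivOfFormallyEtale k k[X] F
  have hfree : Module.Free k[X] Ω[k[X]⁄k] :=
    Module.Free.of_equiv (KaehlerDifferential.polynomialEquiv k).symm
  rw [← e.finrank_eq, Module.finrank_baseChange, finrank_kaehler_polynomial]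

/-- **The function field of a regular curve over a perfect field has one-dimensional Kähler
differentials.** -/
theorem finrank_kaehler_eq_one_of_isDedekindDomain [PerfectField k] (hA : ¬ IsField A)
    (F : Type*) [Field F] [Algebra A F] [Algebra k F] [IsScalarTower k A F] [IsFractionRing A F] :
    Module.finrank F Ω[F⁄k] = 1 := by
  obtain ⟨m, hmax⟩ := Ideal.exists_maximal A
  have hm : m ≠ ⊥ := fun h => hA (by
    rw [Ring.isField_iff_maximal_bot]
    exact h ▸ hmax)
  have := isSeparable_residueField k m
  obtain ⟨y, -, het⟩ := exists_isEtaleAt k m hm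
  exact finrank_kaehler_eq_one_of_isEtaleAt k m y het F

end Global

/-! ### Geometric Dedekindness, given that the geometric fibre is a domain -/

section BaseChange

universe u v w

open Fermat.Agent.JAC.Alg.DedekindDescent69

variable (k : Type u) (K : Type v) (A : Type w) [Field k] [Field K] [Algebra k K]
  [CommRing A] [Algebra k A]

/-- `K ⊗[k] A → K̄ ⊗[k] A` is injective. -/
theorem toAlgClosure_injective : Function.Injective (toAlgClosure k K A) := by
  have h := Module.Flat.rTensor_preserves_injective_linearMap (M := A)
    (IsScalarTower.toAlgHom k K (AlgebraicClosure K)).toLinearMap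
    (algebraMap K (AlgebraicClosure K)).injective
  have heq : ∀ z, toAlgClosure k K A z =
      (IsScalarTower.toAlgHom k K (AlgebraicClosure K)).toLinearMap.rTensor A z := by
    intro z
    induction z using TensorProduct.induction_on with
    | zero => simp
    | tmul c a => rw [toAlgClosure_tmul]; rfl
    | add x y hx hy => rw [map_add, map_add, hx, hy]
  intro z z' hzz'
  apply h
  rw [← heq, ← heq, hzz']

/-- If the geometric fibre `K̄ ⊗[k] A` is a domain, so is `K ⊗[k] A`. -/
theorem isDomain_of_isDomain_algClosure (hdom : IsDomain (AlgebraicClosure K ⊗[k] A)) :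
    IsDomain (K ⊗[k] A) :=
  (toAlgClosure_injective k K A).isDomain (toAlgClosure k K A).toRingHom

/-- **Geometric Dedekindness for standard smooth curves** over an arbitrary field `k`: for `A`
standard smooth of relative dimension one over `k` and `K ⊇ k` a field such that `K̄ ⊗[k] A` is a
domain, `K ⊗[k] A` is a Dedekind domain. -/
theorem isDedekindDomain_baseChange_standardSmooth
    [Algebra.IsStandardSmoothOfRelativeDimension 1 k A]
    (hdom : IsDomain (AlgebraicClosure K ⊗[k] A)) : IsDedekindDomain (K ⊗[k] A) := by
  haveI : IsDedekindDomain (AlgebraicClosure K ⊗[k] A) :=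
    Fermat.Agent.JAC.B2.SmoothAlg37.isDedekindDomain_of_isStandardSmoothOfRelativeDimension_one
      (AlgebraicClosure K)
  haveI : Algebra.IsStandardSmooth K (K ⊗[k] A) :=
    Algebra.IsStandardSmoothOfRelativeDimension.isStandardSmooth 1
  haveI : IsNoetherianRing (K ⊗[k] A) := Algebra.FiniteType.isNoetherianRing K _
  -- a `K`-linear retraction of `K → K̄`
  obtain ⟨π, hπ⟩ : ∃ π : AlgebraicClosure K →ₗ[K] K,
      π ∘ₗ (Algebra.linearMap K (AlgebraicClosure K)) = LinearMap.id :=
    LinearMap.exists_leftInverse_of_injective _
      (LinearMap.ker_eq_bot.mpr (algebraMap K (AlgebraicClosure K)).injective)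
  have hπ1 : π 1 = 1 := by
    have := LinearMap.congr_fun hπ 1
    simpa using this
  let ρ : AlgebraicClosure K ⊗[k] A →ₗ[k] K ⊗[k] A :=
    TensorProduct.map (π.restrictScalars k) LinearMap.id
  have hρ_tmul : ∀ (l : AlgebraicClosure K) (a : A), ρ (l ⊗ₜ[k] a) = π l ⊗ₜ[k] a := fun l a => by
    simp [ρ]
  refine isDedekindDomain_of_retraction (toAlgClosure k K A).toRingHom
    (toAlgClosure_isIntegral k K A) ρ ?_ ?_
  · intro r z
    change ρ (toAlgClosure k K A r * z) = r * ρ z
    induction r using TensorProduct.induction_on with
    | zero => simp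
    | add x y hx hy => rw [map_add, add_mul, map_add, hx, hy, add_mul]
    | tmul c a =>
      induction z using TensorProduct.induction_on with
      | zero => simp
      | add x y hx hy => rw [mul_add, map_add, hx, hy, map_add, mul_add]
      | tmul l a' =>
        rw [toAlgClosure_tmul, Algebra.TensorProduct.tmul_mul_tmul, hρ_tmul, hρ_tmul,
          Algebra.TensorProduct.tmul_mul_tmul, ← Algebra.smul_def, map_smul, smul_eq_mul]
  · change ρ ((1 : AlgebraicClosure K) ⊗ₜ[k] (1 : A)) = 1
    rw [hρ_tmul, hπ1]
    rfl

/-- If `L ⊗[k] A` is a domain and `x ≠ 0`, then `L ⊗[k] A[1/x]` is a domain. -/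
theorem isDomain_tensor_away (L : Type v) [Field L] [Algebra k L] [IsDomain A]
    (hdom : IsDomain (L ⊗[k] A)) {x : A} (hx : x ≠ 0) :
    IsDomain (L ⊗[k] Localization.Away x) := by
  let φ : L ⊗[k] A →ₐ[L] L ⊗[k] Localization.Away x :=
    Algebra.TensorProduct.map (AlgHom.id L L) (IsScalarTower.toAlgHom k A (Localization.Away x))
  letI : Algebra (L ⊗[k] A) (L ⊗[k] Localization.Away x) := φ.toRingHom.toAlgebra
  have hloc : IsLocalization ((Submonoid.powers x).map
      (Algebra.TensorProduct.includeRight (R := k) (A := L) (B := A)))
      (L ⊗[k] Localization.Away x) :=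
    IsLocalization.tensorProduct_tensorProduct_right k L (Submonoid.powers x)
      (Localization.Away x) (by
        ext a
        simp [φ, RingHom.algebraMap_toAlgebra])
  refine IsLocalization.isDomain_of_le_nonZeroDivisors (L ⊗[k] Localization.Away x)
    (M := (Submonoid.powers x).map
      (Algebra.TensorProduct.includeRight (R := k) (A := L) (B := A))) ?_
  rintro _ ⟨_, ⟨n, rfl⟩, rfl⟩
  apply mem_nonZeroDivisors_of_ne_zero
  rw [map_pow]
  apply pow_ne_zero
  intro h0
  exact hx (Algebra.TensorProduct.includeRight_injective (R := k) (A := L) (B := A)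
    (algebraMap k L).injective (h0.trans (map_zero _).symm))

variable {F : Type*} [IsDomain A] [Algebra.Smooth k A]
  [Field F] [Algebra k F] [Algebra A F] [IsScalarTower k A F] [IsFractionRing A F]

/-- **Geometric Dedekindness of a smooth curve chart over an arbitrary field.**  Let `A` be a
domain, smooth over a field `k`, whose fraction field `F` has `dim_F Ω[F/k] = 1`.  Then for every
field extension `K` of `k` such that `K̄ ⊗[k] A` is a domain, `K ⊗[k] A` is a Dedekind domain. -/
theorem isDedekindDomain_baseChange_of_smooth_of_isDomain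
    (hΩ : Module.finrank F Ω[F⁄k] = 1) (hdombar : IsDomain (AlgebraicClosure K ⊗[k] A)) :
    IsDedekindDomain (K ⊗[k] A) := by
  have hdom : IsDomain (K ⊗[k] A) := isDomain_of_isDomain_algClosure k K A hdombar
  have hfp : Algebra.FinitePresentation k A := inferInstance
  have hft : Algebra.FiniteType k A := inferInstance
  have hft' : Algebra.FiniteType K (K ⊗[k] A) := inferInstance
  have hnoeth : IsNoetherianRing (K ⊗[k] A) := Algebra.FiniteType.isNoetherianRing K _
  obtain ⟨s, hs, hstd⟩ := Algebra.Smooth.exists_span_eq_top_isStandardSmooth k A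
  apply Fermat.Agent.JAC.B2.Charts37.isDedekindDomain_of_forall_localization
  intro M hM
  -- a member of the cover not in `M`
  obtain ⟨x, hxs, hxM⟩ : ∃ x ∈ s, (1 : K) ⊗ₜ[k] x ∉ M := by
    by_contra hcon
    push Not at hcon
    have h1 : Ideal.map (Algebra.TensorProduct.includeRight (R := k) (A := K) (B := A))
        (Ideal.span s) ≤ M := by
      rw [Ideal.map_span, Ideal.span_le]
      rintro _ ⟨y, hy, rfl⟩
      exact hcon y hy
    rw [hs, Ideal.map_top] at h1
    exact hM.ne_top (top_le_iff.mp h1)
  have hx0 : x ≠ 0 := by
    rintro rfl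
    apply hxM
    rw [TensorProduct.tmul_zero]
    exact zero_mem _
  have := hstd x hxs
  have hrel : Algebra.IsStandardSmoothOfRelativeDimension 1 k (Localization.Away x) :=
    Fermat.Agent.JAC.FF.ChartGeom9.isStandardSmoothOfRelativeDimension_one_away (F := F) hx0 hΩ
  have hle : Submonoid.powers x ≤ nonZeroDivisors A :=
    Submonoid.powers_le.mpr (mem_nonZeroDivisors_of_ne_zero hx0)
  have hdomx : IsDomain (Localization.Away x) := IsLocalization.isDomain_localization hle
  have hD : IsDedekindDomain (K ⊗[k] Localization.Away x) :=
    isDedekindDomain_baseChange_standardSmooth k K (Localization.Away x)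
      (isDomain_tensor_away k A (AlgebraicClosure K) hdombar hx0)
  -- `K ⊗ A[1/x]` is the localization of `K ⊗ A` at the powers of `1 ⊗ x`
  let φ : K ⊗[k] A →ₐ[K] K ⊗[k] Localization.Away x :=
    Algebra.TensorProduct.map (AlgHom.id K K) (IsScalarTower.toAlgHom k A (Localization.Away x))
  let _ : Algebra (K ⊗[k] A) (K ⊗[k] Localization.Away x) := φ.toRingHom.toAlgebra
  have htow : IsScalarTower K (K ⊗[k] A) (K ⊗[k] Localization.Away x) :=
    IsScalarTower.of_algebraMap_eq fun c => (φ.commutes c).symm
  have hloc : IsLocalization ((Submonoid.powers x).map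
      (Algebra.TensorProduct.includeRight (R := k) (A := K) (B := A)))
      (K ⊗[k] Localization.Away x) :=
    IsLocalization.tensorProduct_tensorProduct_right k K (Submonoid.powers x)
      (Localization.Away x) (by
        ext a
        simp [φ, RingHom.algebraMap_toAlgebra])
  -- the prime of `K ⊗ A[1/x]` above `M`
  have hdisj : Disjoint (((Submonoid.powers x).map
      (Algebra.TensorProduct.includeRight (R := k) (A := K) (B := A)) : Submonoid (K ⊗[k] A)) :
      Set (K ⊗[k] A)) (M : Set (K ⊗[k] A)) := by
    rw [Set.disjoint_left]
    rintro _ ⟨_, ⟨n, rfl⟩, rfl⟩ hmem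
    rw [map_pow] at hmem
    exact hxM (hM.isPrime.mem_of_pow_mem n hmem)
  have hp : (Ideal.map (algebraMap (K ⊗[k] A) (K ⊗[k] Localization.Away x)) M).IsPrime :=
    IsLocalization.isPrime_of_isPrime_disjoint _ _ M hM.isPrime hdisj
  have hcomap : Ideal.comap (algebraMap (K ⊗[k] A) (K ⊗[k] Localization.Away x))
      (Ideal.map (algebraMap (K ⊗[k] A) (K ⊗[k] Localization.Away x)) M) = M :=
    IsLocalization.under_map_of_isPrime_disjoint _ _ hM.isPrime hdisj
  have hT : IsLocalization.AtPrime (Localization.AtPrime
      (Ideal.map (algebraMap (K ⊗[k] A) (K ⊗[k] Localization.Away x)) M))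
      (Ideal.comap (algebraMap (K ⊗[k] A) (K ⊗[k] Localization.Away x))
        (Ideal.map (algebraMap (K ⊗[k] A) (K ⊗[k] Localization.Away x)) M)) :=
    IsLocalization.isLocalization_isLocalization_atPrime_isLocalization
      ((Submonoid.powers x).map (Algebra.TensorProduct.includeRight (R := k) (A := K) (B := A)))
      _ _
  refine ⟨Localization.AtPrime
    (Ideal.map (algebraMap (K ⊗[k] A) (K ⊗[k] Localization.Away x)) M), inferInstance,
    inferInstance, ?_, inferInstance⟩
  have key : ∀ (P : Ideal (K ⊗[k] A)) [P.IsPrime], P = M →
      IsLocalization.AtPrime (Localization.AtPrime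
        (Ideal.map (algebraMap (K ⊗[k] A) (K ⊗[k] Localization.Away x)) M)) P →
      IsLocalization.AtPrime (Localization.AtPrime
        (Ideal.map (algebraMap (K ⊗[k] A) (K ⊗[k] Localization.Away x)) M)) M := by
    rintro P _ rfl h
    exact h
  exact key _ hcomap hT

end BaseChange

/-! ### The main theorem, given that the geometric fibre is a domain -/

section Main

/-- **Geometric Dedekindness over a perfect field, domain hypothesis form.**  Let `A` be a Dedekind
domain of finite type over a perfect field `k`, not a field, and `Ω ⊇ k` a field such that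
`Ω̄ ⊗[k] A` is a domain.  Then `Ω ⊗[k] A` is a Dedekind domain. -/
theorem isDedekindDomain_baseChange_of_isDomain (k A : Type*) [Field k] [PerfectField k]
    [CommRing A] [IsDedekindDomain A] [Algebra k A] [Algebra.FiniteType k A] (hA : ¬ IsField A)
    (Ω : Type*) [Field Ω] [Algebra k Ω] (hdom : IsDomain (AlgebraicClosure Ω ⊗[k] A)) :
    IsDedekindDomain (Ω ⊗[k] A) := by
  haveI := smooth_of_isDedekindDomain_of_perfectField k A hA
  have hΩ := finrank_kaehler_eq_one_of_isDedekindDomain k A hA (FractionRing A)
  exact isDedekindDomain_baseChange_of_smooth_of_isDomain k Ω A (F := FractionRing A) hΩ hdom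

end Main

/-! ### Geometric integrality from an embedding into Laurent series -/

section Laurent

/-- **Linear disjointness from coefficient functionals.**  Let `c j : L → k` be a jointly injective
family of `k`-linear functionals and `Ψ : Ω ⊗[k] L → L'` additive such that the additive functionals
`c' j : L' → Ω` satisfy `c' j (Ψ (ω ⊗ f)) = ω * c j f`.  Then `Ψ` is injective. -/
theorem injective_of_functionals {k Ω L L' J : Type*} [Field k] [Field Ω] [Algebra k Ω]
    [AddCommGroup L] [Module k L] [AddCommGroup L']
    (c : J → L →ₗ[k] k) (c' : J → L' →+ Ω)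
    (hc : ∀ f, (∀ j, c j f = 0) → f = 0)
    (Ψ : Ω ⊗[k] L →+ L')
    (hΨ : ∀ j ω f, c' j (Ψ (ω ⊗ₜ f)) = ω * algebraMap k Ω (c j f)) : Function.Injective Ψ := by
  rw [injective_iff_map_eq_zero]
  intro z hz
  let ℬ := Module.Basis.ofVectorSpace k Ω
  obtain ⟨b, rfl⟩ := TensorProduct.eq_repr_basis_left ℬ z
  suffices hb : b = 0 by rw [hb]; simp
  ext i
  rw [Finsupp.zero_apply]
  apply hc
  intro j
  have h2 : ∑ i ∈ b.support, c j (b i) • ℬ i = 0 := by
    have h3 := congrArg (c' j) hz
    rw [Finsupp.sum, map_sum, map_sum, map_zero] at h3
    rw [← h3]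
    refine Finset.sum_congr rfl fun i _ => ?_
    rw [hΨ, Algebra.smul_def, mul_comm]
  by_cases hi : i ∈ b.support
  · exact (linearIndependent_iff'.mp ℬ.linearIndependent) b.support (fun i => c j (b i)) h2 i hi
  · rw [Finsupp.notMem_support_iff.mp hi, map_zero]

/-- The structure map of the Laurent series is the constant-series map. -/
theorem algebraMap_laurentSeries (K : Type*) [Field K] (r : K) :
    algebraMap K (LaurentSeries K) r = HahnSeries.C r := by
  simp only [HahnSeries.algebraMap_apply', PowerSeries.algebraMap_apply,
    HahnSeries.ofPowerSeries_C]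
  simp

/-- **Geometric integrality from a `q`-expansion.**  If the `k`-algebra `A` embeds into `k((q))`,
then `Ω ⊗[k] A` is a domain for every field `Ω ⊇ k` (it embeds into `Ω((q))`). -/
theorem isDomain_tensor_of_laurentSeries (k A Ω : Type*) [Field k] [CommRing A] [Algebra k A]
    [Field Ω] [Algebra k Ω] (ι : A →ₐ[k] LaurentSeries k) (hι : Function.Injective ι) :
    IsDomain (Ω ⊗[k] A) := by
  let g : LaurentSeries k →+* LaurentSeries Ω := ModularCurve.coeffMap (algebraMap k Ω)
  have hg : ∀ (x : LaurentSeries k) (n : ℤ), (g x).coeff n = algebraMap k Ω (x.coeff n) :=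
    fun x n => rfl
  let gA : LaurentSeries k →ₐ[k] LaurentSeries Ω :=
    { g with
      commutes' := fun c => by
        ext n
        change (g (algebraMap k (LaurentSeries k) c)).coeff n = _
        rw [hg]
        simp only [HahnSeries.algebraMap_apply', PowerSeries.algebraMap_apply,
          HahnSeries.ofPowerSeries_C, HahnSeries.C_apply, HahnSeries.coeff_single]
        split_ifs <;> simp }
  let α : Ω →ₐ[k] LaurentSeries Ω :=
    { algebraMap Ω (LaurentSeries Ω) with
      commutes' := fun c => by
        change (algebraMap Ω (LaurentSeries Ω)) ((algebraMap k Ω) c) =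
          (algebraMap k (LaurentSeries Ω)) c
        simp only [HahnSeries.algebraMap_apply', PowerSeries.algebraMap_apply,
          HahnSeries.ofPowerSeries_C, HahnSeries.C_apply]
        simp }
  let Ψ : Ω ⊗[k] A →ₐ[k] LaurentSeries Ω := Algebra.TensorProduct.productMap α (gA.comp ι)
  let cf : ℤ → A →ₗ[k] k := fun n =>
    { toFun := fun a => (ι a).coeff n
      map_add' := fun a b => by rw [map_add, HahnSeries.coeff_add]
      map_smul' := fun r a => by
        rw [Algebra.smul_def, map_mul, AlgHom.commutes, algebraMap_laurentSeries,
          HahnSeries.C_mul_eq_smul, HahnSeries.coeff_smul]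
        rfl }
  have hinj : Function.Injective Ψ :=
    injective_of_functionals (J := ℤ) cf
      (fun n => HahnSeries.coeff.addMonoidHom n)
      (fun a ha => hι (by
        rw [map_zero]
        ext n
        exact ha n))
      Ψ.toLinearMap.toAddMonoidHom (fun n ω a => by
        change (Ψ (ω ⊗ₜ[k] a)).coeff n = ω * algebraMap k Ω ((ι a).coeff n)
        rw [Algebra.TensorProduct.productMap_apply_tmul]
        change (algebraMap Ω (LaurentSeries Ω) ω * g (ι a)).coeff n = _
        rw [algebraMap_laurentSeries, HahnSeries.C_mul_eq_smul, HahnSeries.coeff_smul, hg]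
        rfl)
  exact hinj.isDomain Ψ.toRingHom

/-- **GEOM-DED.**  Let `k` be a perfect field and `A` a Dedekind domain of finite type over `k`, not
a field, with a `k`-algebra embedding into `k((q))`.  Then for every field `Ω ⊇ k` the base change
`Ω ⊗[k] A` is a Dedekind domain. -/
theorem isDedekindDomain_baseChange_of_laurentSeries (k A : Type*) [Field k] [PerfectField k]
    [CommRing A] [IsDedekindDomain A] [Algebra k A] [Algebra.FiniteType k A] (hA : ¬ IsField A)
    (ι : A →ₐ[k] LaurentSeries k) (hι : Function.Injective ι)
    (Ω : Type*) [Field Ω] [Algebra k Ω] : IsDedekindDomain (Ω ⊗[k] A) :=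
  isDedekindDomain_baseChange_of_isDomain k A hA Ω
    (isDomain_tensor_of_laurentSeries k A (AlgebraicClosure Ω) ι hι)

/-- A ring homomorphism into the Laurent series which is the constant-series map on `k` is a
`k`-algebra homomorphism. -/
def algHomOfRingHom {k A : Type*} [Field k] [CommRing A] [Algebra k A]
    (ι : A →+* LaurentSeries k) (hιC : ∀ c : k, ι (algebraMap k A c) = HahnSeries.C c) :
    A →ₐ[k] LaurentSeries k :=
  { ι with
    commutes' := fun c => by
      rw [algebraMap_laurentSeries]
      exact hιC c }

theorem algHomOfRingHom_apply {k A : Type*} [Field k] [CommRing A] [Algebra k A]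
    (ι : A →+* LaurentSeries k) (hιC : ∀ c : k, ι (algebraMap k A c) = HahnSeries.C c) (a : A) :
    algHomOfRingHom ι hιC a = ι a := rfl

/-- `isDomain_tensor_of_laurentSeries` for an injective ring homomorphism `ι : A →+* k((q))`
restricting to the constant series on `k`. -/
theorem isDomain_tensor_of_laurentSeries' (k A Ω : Type*) [Field k] [CommRing A] [Algebra k A]
    [Field Ω] [Algebra k Ω] (ι : A →+* LaurentSeries k)
    (hιC : ∀ c : k, ι (algebraMap k A c) = HahnSeries.C c) (hι : Function.Injective ι) :
    IsDomain (Ω ⊗[k] A) :=
  isDomain_tensor_of_laurentSeries k A Ω (algHomOfRingHom ι hιC) hι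

/-- **GEOM-DED**, ring homomorphism form: the embedding is an injective ring homomorphism
`ι : A →+* k((q))` with `ι (algebraMap k A c) = C c`. -/
theorem isDedekindDomain_baseChange_of_laurentSeries' (k A : Type*) [Field k] [PerfectField k]
    [CommRing A] [IsDedekindDomain A] [Algebra k A] [Algebra.FiniteType k A] (hA : ¬ IsField A)
    (ι : A →+* LaurentSeries k) (hιC : ∀ c : k, ι (algebraMap k A c) = HahnSeries.C c)
    (hι : Function.Injective ι) (Ω : Type*) [Field Ω] [Algebra k Ω] :
    IsDedekindDomain (Ω ⊗[k] A) :=
  isDedekindDomain_baseChange_of_laurentSeries k A hA (algHomOfRingHom ι hιC) hι Ω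

end Laurent

end Fermat.Agent.FFJ.Model.GeomDedekind9
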