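/-
Programme FFJ, chapter CURVE (helper9): **the Dedekind clauses of `CurveHypR` from the two fibres**.

Let `O` be a "discrete valuation ring" in the weak form used by the CURVE chapter (every nonzero
element is `π ^ n * unit`), `Kf` its fraction field and `κ` its residue field (`O → κ` surjective
with kernel `(π)`).  A field `L` over `O` is a `Kf`-algebra or a `κ`-algebra, and
`L ⊗[O] A = L ⊗[k] (k ⊗[O] A)` for `k = Kf`, resp. `k = κ`.  Hence

* `isDedekindDomain_tensor_of_generic_of_special`: if the base changes of the generic fibre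
  `Kf ⊗[O] A` and of the special fibre `κ ⊗[O] A` to all field extensions are Dedekind domains,
  then `L ⊗[O] A` is a Dedekind domain for every field `L` over `O`;
* `isDedekindDomain_tensor_of_laurentSeries`: the same with the two hypotheses supplied by GEOM-DED
  (`GeomDedekind9`): both fibres are Dedekind domains, not fields, with `q`-expansion embeddings,
  over perfect fields.
-/
import Mathlib
import Fermat.Agent.FFJ.Model.GeomDedekind9

set_option autoImplicit false
set_option linter.unusedSectionVars false
set_option linter.style.haveILetI false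

open TensorProduct

namespace Fermat.Agent.FFJ.Model.FibreSplit9

/-- Transport of the Dedekind property along a ring isomorphism. -/
theorem isDedekindDomain_of_ringEquiv {R S : Type*} [CommRing R] [CommRing S] (e : R ≃+* S)
    [IsDedekindDomain R] : IsDedekindDomain S := by
  have : IsDomain S := MulEquiv.isDomain R e.symm.toMulEquiv
  have : IsNoetherianRing S := isNoetherianRing_of_ringEquiv R e
  have : Ring.DimensionLEOne S := Ring.DimensionLEOne.of_ringEquiv e.symm
  have : IsIntegrallyClosed S := IsIntegrallyClosed.of_equiv e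
  exact { toIsDomain := inferInstance, toIsDedekindRing := { } }

/-- `L ⊗[O] A = L ⊗[k] (k ⊗[O] A)` for an intermediate field `k`. -/
theorem isDedekindDomain_tensor_of_tower (O k L A : Type*) [CommRing O] [Field k] [Field L]
    [CommRing A] [Algebra O k] [Algebra O L] [Algebra k L] [IsScalarTower O k L] [Algebra O A]
    (h : IsDedekindDomain (L ⊗[k] (k ⊗[O] A))) : IsDedekindDomain (L ⊗[O] A) :=
  isDedekindDomain_of_ringEquiv (Algebra.TensorProduct.cancelBaseChange O k L L A).toRingEquiv

section Split

variable {O : Type*} [CommRing O] (π : O)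
  (hdvr : ∀ r : O, r ≠ 0 → ∃ (n : ℕ) (u : Oˣ), r = π ^ n * u)

include hdvr in
/-- A ring homomorphism from `O` to a field which does not kill `π` is injective. -/
theorem injective_of_map_ne_zero {L : Type*} [Field L] (φ : O →+* L) (hπ : φ π ≠ 0) :
    Function.Injective φ := by
  rw [injective_iff_map_eq_zero]
  intro r hr
  by_contra hr0
  obtain ⟨n, u, rfl⟩ := hdvr r hr0
  rw [map_mul, map_pow, mul_eq_zero] at hr
  rcases hr with h | h
  · exact hπ (eq_zero_of_pow_eq_zero h)
  · exact (u.isUnit.map φ).ne_zero h

variable (Kf κ : Type*) [Field Kf] [Field κ] [Algebra O Kf] [Algebra O κ]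
  [IsFractionRing O Kf]
  (hκs : Function.Surjective (algebraMap O κ))
  (hκ : ∀ r : O, algebraMap O κ r = 0 → π ∣ r)
  (A : Type*) [CommRing A] [Algebra O A]

universe v

include hdvr hκs hκ in
/-- **The Dedekind clause of `CurveHypR` from the two fibres.** -/
theorem isDedekindDomain_tensor_of_generic_of_special
    (hgen : ∀ (Ω : Type v) [Field Ω] [Algebra Kf Ω], IsDedekindDomain (Ω ⊗[Kf] (Kf ⊗[O] A)))
    (hsp : ∀ (Ω : Type v) [Field Ω] [Algebra κ Ω], IsDedekindDomain (Ω ⊗[κ] (κ ⊗[O] A)))
    (L : Type v) [Field L] [Algebra O L] : IsDedekindDomain (L ⊗[O] A) := by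
  haveI : IsDomain O := (IsFractionRing.injective O Kf).isDomain (algebraMap O Kf)
  by_cases hπ : algebraMap O L π = 0
  · -- `L` is a `κ`-algebra
    have hker : RingHom.ker (algebraMap O κ) ≤ RingHom.ker (algebraMap O L) := by
      intro r hr
      obtain ⟨c, rfl⟩ := hκ r hr
      rw [RingHom.mem_ker, map_mul, hπ, zero_mul]
    letI : Algebra κ L := (RingHom.liftOfSurjective (algebraMap O κ) hκs
      ⟨algebraMap O L, hker⟩).toAlgebra
    haveI : IsScalarTower O κ L := IsScalarTower.of_algebraMap_eq fun r =>
      (RingHom.liftOfRightInverse_comp_apply _ _ _ ⟨algebraMap O L, hker⟩ r).symm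
    exact isDedekindDomain_tensor_of_tower O κ L A (hsp L)
  · -- `L` is a `Kf`-algebra
    have hinj : Function.Injective (algebraMap O L) :=
      injective_of_map_ne_zero π hdvr (algebraMap O L) hπ
    letI : Algebra Kf L := (IsFractionRing.lift hinj).toAlgebra
    haveI : IsScalarTower O Kf L := IsScalarTower.of_algebraMap_eq fun r =>
      (IsFractionRing.lift_algebraMap hinj r).symm
    exact isDedekindDomain_tensor_of_tower O Kf L A (hgen L)

include hdvr hκs hκ in
/-- **The Dedekind clause of `CurveHypR` from `q`-expansions of the two fibres** (GEOM-DED on the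
generic and on the special fibre). -/
theorem isDedekindDomain_tensor_of_laurentSeries [PerfectField Kf] [PerfectField κ]
    [Algebra.FiniteType O A]
    (hgenD : IsDedekindDomain (Kf ⊗[O] A)) (hgenF : ¬ IsField (Kf ⊗[O] A))
    (ιK : Kf ⊗[O] A →+* LaurentSeries Kf)
    (hιKC : ∀ c : Kf, ιK (algebraMap Kf (Kf ⊗[O] A) c) = HahnSeries.C c)
    (hιK : Function.Injective ιK)
    (hspD : IsDedekindDomain (κ ⊗[O] A)) (hspF : ¬ IsField (κ ⊗[O] A))
    (ικ : κ ⊗[O] A →+* LaurentSeries κ)
    (hικC : ∀ c : κ, ικ (algebraMap κ (κ ⊗[O] A) c) = HahnSeries.C c)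
    (hικ : Function.Injective ικ)
    (L : Type v) [Field L] [Algebra O L] : IsDedekindDomain (L ⊗[O] A) :=
  isDedekindDomain_tensor_of_generic_of_special π hdvr Kf κ hκs hκ A
    (fun Ω _ _ => GeomDedekind9.isDedekindDomain_baseChange_of_laurentSeries' Kf (Kf ⊗[O] A) hgenF
      ιK hιKC hιK Ω)
    (fun Ω _ _ => GeomDedekind9.isDedekindDomain_baseChange_of_laurentSeries' κ (κ ⊗[O] A) hspF
      ικ hικC hικ Ω) L

end Split

end Fermat.Agent.FFJ.Model.FibreSplit9
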