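/-
Programme FFJ, chapter CURVE (helper9), brick FIBRES: **the Dedekind clauses of `CurveHypR` for the
charts of the explicit model**.

One chart `B ∋ s` of the two-chart model over the "DVR" `R` (uniformiser `π`, fraction field `K` of
characteristic zero, perfect residue field `κ`) with `ChartProj17.ChartHyp`, the local condition
(LOC) at the maximal ideals containing `π` (`TwoChartModel.smooth0`), `q`-expansion embeddings
`ιK : F → K((q))` and `ικ : B → κ((q))` (kernel `πB`), and a Dedekind generic fibre `K ⊗[R] B`.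
Then `L ⊗[R] B` is a Dedekind domain for EVERY field `L` over `R`
(`isDedekindDomain_tensor_chart`), and the same holds for localizations `B[1/f]`, `f ∉ πB`
(`isDedekindDomain_tensor_chart_away`), in particular for the overlap `B[1/s]`
(`isDedekindDomain_tensor_overlap`).

Ingredients: the special fibre `κ ⊗[R] B = B/πB` embeds in `κ((q))` (so it is a domain), it is
Dedekind by (LOC) and the local criterion, neither fibre is a field by Zariski's lemma and the
transcendence of `s`; then `FibreSplit9.isDedekindDomain_tensor_of_laurentSeries` (GEOM-DED on both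
fibres).
-/
import Mathlib
import Fermat.Agent.FFJ.Model.FibreSplit9
import Fermat.Agent.FFJ.Model.ChartBridge17

set_option autoImplicit false
set_option linter.unusedSectionVars false
set_option linter.style.haveILetI false

open TensorProduct Polynomial

namespace Fermat.Agent.FFJ.Model.FibreDedekind9

section LocalCriterion

variable {T : Type*} [CommRing T] [IsDomain T] [IsNoetherianRing T]

/-- A noetherian domain all of whose localizations at maximal ideals are Dedekind is Dedekind
(same proof as `JAC/B2/Charts37.isDedekindDomain_of_forall_localization`, helper37). -/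
theorem isDedekindDomain_of_localization_maximal
    (h : ∀ (m : Ideal T) [m.IsMaximal], IsDedekindDomain (Localization.AtPrime m)) :
    IsDedekindDomain T := by
  have hIC : IsIntegrallyClosed T :=
    IsIntegrallyClosed.of_localization_maximal fun m _ _ => by
      haveI := h m
      infer_instance
  have hdim : Ring.DimensionLEOne T := by
    refine ⟨fun {P} hP0 hP => ?_⟩
    obtain ⟨m, hm, hPm⟩ := Ideal.exists_le_maximal P hP.ne_top
    haveI := hm
    haveI := h m
    set A := Localization.AtPrime m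
    have hdisj : Disjoint (m.primeCompl : Set T) (P : Set T) := by
      rw [Set.disjoint_left]
      intro x hx hxP
      exact hx (hPm hxP)
    have hPA : (Ideal.map (algebraMap T A) P).IsPrime :=
      IsLocalization.isPrime_of_isPrime_disjoint m.primeCompl A P hP hdisj
    have hPA0 : Ideal.map (algebraMap T A) P ≠ ⊥ := by
      rw [Ne, Ideal.map_eq_bot_iff_of_injective
        (IsLocalization.injective A m.primeCompl_le_nonZeroDivisors)]
      exact hP0
    have hmax : (Ideal.map (algebraMap T A) P).IsMaximal :=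
      Ring.DimensionLEOne.maximalOfPrime hPA0 hPA
    have h1 : Ideal.map (algebraMap T A) P = IsLocalRing.maximalIdeal A :=
      IsLocalRing.eq_maximalIdeal hmax
    have h2 : Ideal.comap (algebraMap T A) (Ideal.map (algebraMap T A) P) = P :=
      IsLocalization.under_map_of_isPrime_disjoint m.primeCompl A hP hdisj
    have h3 : Ideal.comap (algebraMap T A) (IsLocalRing.maximalIdeal A) = m :=
      IsLocalization.AtPrime.under_maximalIdeal A m
    have : P = m := by rw [← h2, h1, h3]
    exact this ▸ hm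
  exact { toIsDomain := inferInstance, toIsNoetherian := inferInstance, toDimensionLEOne := hdim,
          toIsIntegralClosure := hIC }

/-- If the maximal ideal `m` is generated by one element `s` up to multiplication by elements
outside `m`, then the localization at `m` is a Dedekind domain (a discrete valuation ring or a
field). -/
theorem isDedekindDomain_localization_of_principal (m : Ideal T) [m.IsMaximal] (s : T)
    (hs : s ∈ m) (hgen : ∀ y ∈ m, ∃ d : T, d ∉ m ∧ d * y ∈ Ideal.span {s}) :
    IsDedekindDomain (Localization.AtPrime m) := by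
  set A := Localization.AtPrime m
  have hle : Ideal.map (algebraMap T A) m ≤ Ideal.span {algebraMap T A s} := by
    rw [Ideal.map_le_iff_le_comap]
    intro y hy
    obtain ⟨d, hd, hdy⟩ := hgen y hy
    obtain ⟨c, hc⟩ := Ideal.mem_span_singleton'.mp hdy
    have hdu : IsUnit (algebraMap T A d) :=
      IsLocalization.map_units A (⟨d, hd⟩ : m.primeCompl)
    rw [Ideal.mem_comap, Ideal.mem_span_singleton']
    obtain ⟨u, hu⟩ := hdu
    refine ⟨((u⁻¹ : Aˣ) : A) * algebraMap T A c, ?_⟩
    rw [mul_assoc, ← map_mul, hc, map_mul, ← hu, ← mul_assoc, Units.inv_mul, one_mul]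
  have hmax : IsLocalRing.maximalIdeal A = Ideal.span {algebraMap T A s} := by
    refine le_antisymm ?_ ?_
    · rw [← Localization.AtPrime.map_eq_maximalIdeal]
      exact hle
    · rw [Ideal.span_singleton_le_iff_mem, ← Localization.AtPrime.map_eq_maximalIdeal]
      exact Ideal.mem_map_of_mem _ hs
  have hprin : (IsLocalRing.maximalIdeal A).IsPrincipal := ⟨⟨_, hmax⟩⟩
  exact ((tfae_of_isNoetherianRing_of_isLocalRing_of_isDomain (R := A)).out 4 2).mp hprin

end LocalCriterion


section Special

variable {R : Type*} [CommRing R] (π : R) (κ : Type*) [Field κ] [Algebra R κ]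
  (hκs : Function.Surjective (algebraMap R κ))
  (B : Type*) [CommRing B] [Algebra R B]

include hκs in
/-- Every element of `κ ⊗[R] B` is of the form `1 ⊗ b` (`R → κ` is surjective). -/
theorem exists_one_tmul_eq (x : κ ⊗[R] B) : ∃ b : B, x = (1 : κ) ⊗ₜ[R] b := by
  induction x using TensorProduct.induction_on with
  | zero => exact ⟨0, (TensorProduct.tmul_zero _ _).symm⟩
  | tmul c b =>
    obtain ⟨r, rfl⟩ := hκs c
    refine ⟨r • b, ?_⟩
    rw [TensorProduct.tmul_smul, TensorProduct.smul_tmul', Algebra.smul_def, mul_one]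
  | add x y hx hy =>
    obtain ⟨b, rfl⟩ := hx
    obtain ⟨b', rfl⟩ := hy
    exact ⟨b + b', (TensorProduct.tmul_add _ _ _).symm⟩

variable {κ B}
variable (ικ : B →+* LaurentSeries κ)
  (hικC : ∀ r : R, ικ (algebraMap R B r) = HahnSeries.C (algebraMap R κ r))

/-- The `q`-expansion of the special fibre: `c ⊗ b ↦ c * ικ b`. -/
noncomputable def specialHom : κ ⊗[R] B →+* LaurentSeries κ :=
  letI : Algebra R (LaurentSeries κ) :=
    ((HahnSeries.C : κ →+* LaurentSeries κ).comp (algebraMap R κ)).toAlgebra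
  (Algebra.TensorProduct.productMap
    ({ (HahnSeries.C : κ →+* LaurentSeries κ) with commutes' := fun _ => rfl } :
      κ →ₐ[R] LaurentSeries κ)
    ({ ικ with commutes' := hικC } : B →ₐ[R] LaurentSeries κ)).toRingHom

theorem specialHom_tmul (c : κ) (b : B) :
    specialHom ικ hικC (c ⊗ₜ[R] b) = HahnSeries.C c * ικ b := by
  letI : Algebra R (LaurentSeries κ) :=
    ((HahnSeries.C : κ →+* LaurentSeries κ).comp (algebraMap R κ)).toAlgebra
  exact Algebra.TensorProduct.productMap_apply_tmul _ _ c b

theorem specialHom_algebraMap (c : κ) :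
    specialHom ικ hικC (algebraMap κ (κ ⊗[R] B) c) = HahnSeries.C c := by
  rw [Algebra.TensorProduct.algebraMap_apply, Algebra.algebraMap_self, RingHom.id_apply,
    specialHom_tmul, map_one, mul_one]

variable (hικ0 : ∀ b : B, ικ b = 0 ↔ ∃ b' : B, b = algebraMap R B π * b')

include hικC hικ0 in
theorem algebraMap_pi_eq_zero : algebraMap R κ π = 0 := by
  have h1 : ικ (algebraMap R B π) = 0 := (hικ0 _).mpr ⟨1, (mul_one _).symm⟩
  rw [hικC] at h1
  exact (map_eq_zero_iff _ HahnSeries.C_injective).mp h1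

include hκs hικ0 in
theorem specialHom_injective : Function.Injective (specialHom ικ hικC) := by
  rw [injective_iff_map_eq_zero]
  intro x hx
  obtain ⟨b, rfl⟩ := exists_one_tmul_eq κ hκs B x
  rw [specialHom_tmul, map_one, one_mul] at hx
  obtain ⟨b', rfl⟩ := (hικ0 b).mp hx
  rw [← Algebra.smul_def, TensorProduct.tmul_smul, TensorProduct.smul_tmul', Algebra.smul_def,
    mul_one, algebraMap_pi_eq_zero π ικ hικC hικ0, TensorProduct.zero_tmul]

include hκs hικC hικ0 in
/-- The kernel of `B → κ ⊗[R] B` is `πB`. -/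
theorem one_tmul_eq_zero_iff (b : B) :
    (1 : κ) ⊗ₜ[R] b = 0 ↔ ∃ b' : B, b = algebraMap R B π * b' := by
  rw [← hικ0]
  constructor
  · intro h
    have := congrArg (specialHom ικ hικC) h
    rwa [specialHom_tmul, map_one, one_mul, map_zero] at this
  · intro h
    apply specialHom_injective π hκs ικ hικC hικ0
    rw [specialHom_tmul, map_one, one_mul, map_zero, h]

include hκs hικC hικ0 in
theorem special_isDomain : IsDomain (κ ⊗[R] B) :=
  (specialHom_injective π hκs ικ hικC hικ0).isDomain _

include hκs hικC hικ0 in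
/-- **The special fibre is a Dedekind domain**, from (LOC). -/
theorem special_isDedekindDomain [IsNoetherianRing B]
    (hloc : ∀ x : Ideal B, x.IsMaximal → algebraMap R B π ∈ x →
      ∃ s' ∈ x, ∀ y ∈ x, ∃ d : B, d ∉ x ∧ d * y ∈ Ideal.span {algebraMap R B π, s'}) :
    IsDedekindDomain (κ ⊗[R] B) := by
  haveI : IsDomain (κ ⊗[R] B) := special_isDomain π hκs ικ hικC hικ0
  let φ : B →+* κ ⊗[R] B := (Algebra.TensorProduct.includeRight : B →ₐ[R] κ ⊗[R] B).toRingHom
  have hφs : Function.Surjective φ := fun x => by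
    obtain ⟨b, rfl⟩ := exists_one_tmul_eq κ hκs B x
    exact ⟨b, rfl⟩
  haveI : IsNoetherianRing (κ ⊗[R] B) := isNoetherianRing_of_surjective B _ φ hφs
  have hφπ : φ (algebraMap R B π) = 0 :=
    (one_tmul_eq_zero_iff π hκs ικ hικC hικ0 _).mpr ⟨1, (mul_one _).symm⟩
  refine isDedekindDomain_of_localization_maximal fun m hm => ?_
  have hx : (m.comap φ).IsMaximal := Ideal.comap_isMaximal_of_surjective φ hφs
  have hπx : algebraMap R B π ∈ m.comap φ := by
    rw [Ideal.mem_comap, hφπ]
    exact m.zero_mem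
  obtain ⟨s', hs', hgen⟩ := hloc _ hx hπx
  refine isDedekindDomain_localization_of_principal m (φ s') hs' ?_
  intro y hy
  obtain ⟨b, rfl⟩ := hφs y
  obtain ⟨d, hd, hdy⟩ := hgen b hy
  refine ⟨φ d, hd, ?_⟩
  rw [← map_mul]
  have h1 := Ideal.mem_map_of_mem φ hdy
  rw [Ideal.map_span, Set.image_pair, hφπ] at h1
  rw [Ideal.mem_span_pair] at h1
  obtain ⟨a, c, hac⟩ := h1
  rw [Ideal.mem_span_singleton']
  exact ⟨c, by rw [← hac, mul_zero, zero_add]⟩

include hκs hικC hικ0 in
/-- The reduction of `s` is transcendental over `κ`. -/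
theorem special_transcendental (s : B)
    (htr : ∀ p : R[X], (∃ b' : B, aeval s p = algebraMap R B π * b') → C π ∣ p) :
    Transcendental κ ((1 : κ) ⊗ₜ[R] s) := by
  rintro ⟨pbar, hp0, hp⟩
  obtain ⟨p, rfl⟩ := Polynomial.map_surjective (algebraMap R κ) hκs pbar
  apply hp0
  have h1 : aeval ((1 : κ) ⊗ₜ[R] s) (p.map (algebraMap R κ)) = (1 : κ) ⊗ₜ[R] (aeval s p) := by
    rw [aeval_map_algebraMap]
    exact (aeval_algHom_apply (Algebra.TensorProduct.includeRight : B →ₐ[R] κ ⊗[R] B) s p)
  rw [h1, one_tmul_eq_zero_iff π hκs ικ hικC hικ0] at hp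
  obtain ⟨q, rfl⟩ := htr p hp
  rw [Polynomial.map_mul, Polynomial.map_C, algebraMap_pi_eq_zero π ικ hικC hικ0, C_0, zero_mul]

end Special


section NotField

/-- A finite type algebra over a field containing a transcendental element is not a field
(Zariski's lemma). -/
theorem not_isField_of_transcendental (k A : Type*) [Field k] [CommRing A] [Algebra k A]
    [Algebra.FiniteType k A] (a : A) (ha : Transcendental k a) : ¬ IsField A := by
  intro hA
  haveI : Nontrivial A := hA.nontrivial
  obtain ⟨m, hm⟩ := Ideal.exists_maximal A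
  have hm0 : m = ⊥ := by
    rw [eq_bot_iff]
    intro x hx
    by_contra hx0
    obtain ⟨y, hy⟩ := hA.mul_inv_cancel hx0
    exact hm.ne_top ((Ideal.eq_top_iff_one _).mpr (hy ▸ m.mul_mem_right y hx))
  letI := Ideal.Quotient.field m
  haveI : Algebra.FiniteType k (A ⧸ m) :=
    Algebra.FiniteType.of_surjective (Ideal.Quotient.mkₐ k m) (Ideal.Quotient.mkₐ_surjective k m)
  haveI : Module.Finite k (A ⧸ m) := finite_of_finite_type_of_isJacobsonRing k (A ⧸ m)
  obtain ⟨p, hp0, hp⟩ := Algebra.IsAlgebraic.isAlgebraic (R := k) (Ideal.Quotient.mk m a)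
  refine ha ⟨p, hp0, ?_⟩
  have h1 : Ideal.Quotient.mkₐ k m (aeval a p) = 0 := by
    rw [← aeval_algHom_apply]
    exact hp
  rw [Ideal.Quotient.mkₐ_eq_mk, Ideal.Quotient.eq_zero_iff_mem, hm0] at h1
  exact h1

end NotField

section Generic

variable {R K F : Type*} [CommRing R] [Field K] [Field F] [Algebra R K] [Algebra K F]
  [Algebra R F] [IsScalarTower R K F] [IsFractionRing R K]
  {B : Type*} [CommRing B] [Algebra R B] (j : B →ₐ[R] F)

/-- Every element of `K ⊗[R] B` is of the form `r⁻¹ ⊗ b`. -/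
theorem exists_inv_tmul_eq (x : K ⊗[R] B) :
    ∃ (r : R) (b : B), r ≠ 0 ∧ x = (algebraMap R K r)⁻¹ ⊗ₜ[R] b := by
  haveI : IsDomain R := (IsFractionRing.injective R K).isDomain (algebraMap R K)
  have hne : ∀ r : R, r ≠ 0 → algebraMap R K r ≠ 0 := fun r hr =>
    (map_ne_zero_iff _ (IsFractionRing.injective R K)).mpr hr
  induction x using TensorProduct.induction_on with
  | zero => exact ⟨1, 0, one_ne_zero, (TensorProduct.tmul_zero _ _).symm⟩
  | tmul c b =>
    obtain ⟨a, r, hr, rfl⟩ := IsFractionRing.div_surjective (A := R) c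
    have hr0 : r ≠ 0 := nonZeroDivisors.ne_zero hr
    refine ⟨r, a • b, hr0, ?_⟩
    rw [TensorProduct.tmul_smul, TensorProduct.smul_tmul', Algebra.smul_def, div_eq_mul_inv]
  | add x y hx hy =>
    obtain ⟨r, b, hr, rfl⟩ := hx
    obtain ⟨r', b', hr', rfl⟩ := hy
    refine ⟨r * r', r' • b + r • b', mul_ne_zero hr hr', ?_⟩
    have h1 : (algebraMap R K r)⁻¹ = r' • (algebraMap R K (r * r'))⁻¹ := by
      rw [Algebra.smul_def, map_mul]
      field_simp [hne r hr, hne r' hr']
    have h2 : (algebraMap R K r')⁻¹ = r • (algebraMap R K (r * r'))⁻¹ := by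
      rw [Algebra.smul_def, map_mul]
      field_simp [hne r hr, hne r' hr']
    rw [TensorProduct.tmul_add, TensorProduct.tmul_smul, TensorProduct.tmul_smul,
      TensorProduct.smul_tmul', TensorProduct.smul_tmul', ← h1, ← h2]

/-- The generic fibre inside the function field: `c ⊗ b ↦ c * j b`. -/
noncomputable def genericHom : K ⊗[R] B →ₐ[K] F :=
  Algebra.TensorProduct.lift (Algebra.ofId K F) j (fun _ _ => Commute.all _ _)

theorem genericHom_tmul (c : K) (b : B) :
    genericHom j (c ⊗ₜ[R] b) = algebraMap K F c * j b :=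
  Algebra.TensorProduct.lift_tmul _ _ _ c b

theorem genericHom_injective (hj : Function.Injective j) :
    Function.Injective (genericHom (K := K) j) := by
  rw [injective_iff_map_eq_zero]
  intro x hx
  obtain ⟨r, b, hr, rfl⟩ := exists_inv_tmul_eq (K := K) x
  rw [genericHom_tmul, mul_eq_zero] at hx
  rcases hx with h | h
  · exfalso
    rw [map_eq_zero, inv_eq_zero] at h
    exact hr ((map_eq_zero_iff _ (IsFractionRing.injective R K)).mp h)
  · rw [(map_eq_zero_iff _ hj).mp h, TensorProduct.tmul_zero]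

theorem generic_transcendental (s : B) (hs : Transcendental R (j s)) :
    Transcendental K ((1 : K) ⊗ₜ[R] s) := by
  haveI : IsDomain R := (IsFractionRing.injective R K).isDomain (algebraMap R K)
  have hsK : Transcendental K (j s) := fun h => hs ((IsFractionRing.isAlgebraic_iff R K F).mpr h)
  rintro ⟨p, hp0, hp⟩
  refine hsK ⟨p, hp0, ?_⟩
  have h1 : genericHom (K := K) j ((1 : K) ⊗ₜ[R] s) = j s := by
    rw [genericHom_tmul, map_one, one_mul]
  rw [← h1, aeval_algHom_apply, hp, map_zero]

end Generic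

section Away

variable {R : Type*} [CommRing R] {B : Type*} [CommRing B] [Algebra R B]

/-- **The Dedekind property passes to `B[1/f]`**, one field `L` at a time: `L ⊗[R] B[1/f]` is the
localization of `L ⊗[R] B` at `1 ⊗ f`.  (The hypothesis `1 ⊗ f ≠ 0` is necessary.) -/
theorem isDedekindDomain_tensor_away_of_ne_zero (B' : Type*) [CommRing B'] [Algebra R B']
    [Algebra B B'] [IsScalarTower R B B'] (f : B) [IsLocalization.Away f B']
    (L : Type*) [Field L] [Algebra R L] (hf : (1 : L) ⊗ₜ[R] f ≠ 0)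
    (hB : IsDedekindDomain (L ⊗[R] B)) : IsDedekindDomain (L ⊗[R] B') := by
  letI : Algebra (L ⊗[R] B) (L ⊗[R] B') :=
    (Algebra.TensorProduct.map (AlgHom.id R L) (IsScalarTower.toAlgHom R B B')).toAlgebra
  haveI : IsScalarTower L (L ⊗[R] B) (L ⊗[R] B') :=
    .of_algebraMap_eq <| by intro; simp [RingHom.algebraMap_toAlgebra]
  haveI := IsLocalization.tensorProduct_tensorProduct_right R L (Submonoid.powers f) B'
    (by ext; simp [RingHom.algebraMap_toAlgebra])
  have hM : (Submonoid.powers f).map (Algebra.TensorProduct.includeRight (R := R) (A := L)) ≤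
      nonZeroDivisors (L ⊗[R] B) := by
    rintro _ ⟨_, ⟨n, rfl⟩, rfl⟩
    apply mem_nonZeroDivisors_of_ne_zero
    rw [map_pow]
    exact pow_ne_zero _ hf
  haveI : IsDomain (L ⊗[R] B') := IsLocalization.isDomain_of_le_nonZeroDivisors _ hM
  exact IsLocalization.isDedekindDomain (L ⊗[R] B) hM (L ⊗[R] B')

/-- Non-vanishing of `1 ⊗ f` goes up along a field extension `k → L`. -/
theorem one_tmul_ne_zero_of_tower (k L : Type*) [Field k] [Field L] [Algebra R k] [Algebra R L]
    [Algebra k L] [IsScalarTower R k L] (f : B) (hf : (1 : k) ⊗ₜ[R] f ≠ 0) :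
    (1 : L) ⊗ₜ[R] f ≠ 0 := by
  intro h0
  apply hf
  have hinj : Function.Injective
      (Algebra.TensorProduct.includeRight : k ⊗[R] B →ₐ[k] L ⊗[k] (k ⊗[R] B)) :=
    Algebra.TensorProduct.includeRight_injective (algebraMap k L).injective
  apply hinj
  rw [map_zero]
  apply (Algebra.TensorProduct.cancelBaseChange R k L L B).injective
  rw [map_zero, Algebra.TensorProduct.includeRight_apply,
    Algebra.TensorProduct.cancelBaseChange_tmul, one_smul]
  exact h0

end Away

section Split

variable {O : Type*} [CommRing O] (π : O)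
  (hdvr : ∀ r : O, r ≠ 0 → ∃ (n : ℕ) (u : Oˣ), r = π ^ n * u)
  (Kf κ : Type*) [Field Kf] [Field κ] [Algebra O Kf] [Algebra O κ] [IsFractionRing O Kf]
  (hκs : Function.Surjective (algebraMap O κ))
  (hκ : ∀ r : O, algebraMap O κ r = 0 → π ∣ r)

universe v

include hdvr hκs hκ in
/-- **Every field over `O` is a `Kf`-algebra or a `κ`-algebra** (as an induction principle). -/
theorem field_split (P : ∀ (L : Type v) [Field L] [Algebra O L], Prop)
    (hgen : ∀ (L : Type v) [Field L] [Algebra O L] [Algebra Kf L] [IsScalarTower O Kf L], P L)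
    (hsp : ∀ (L : Type v) [Field L] [Algebra O L] [Algebra κ L] [IsScalarTower O κ L], P L)
    (L : Type v) [Field L] [Algebra O L] : P L := by
  haveI : IsDomain O := (IsFractionRing.injective O Kf).isDomain (algebraMap O Kf)
  by_cases hπ : algebraMap O L π = 0
  · have hker : RingHom.ker (algebraMap O κ) ≤ RingHom.ker (algebraMap O L) := by
      intro r hr
      obtain ⟨c, rfl⟩ := hκ r hr
      rw [RingHom.mem_ker, map_mul, hπ, zero_mul]
    letI : Algebra κ L := (RingHom.liftOfSurjective (algebraMap O κ) hκs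
      ⟨algebraMap O L, hker⟩).toAlgebra
    haveI : IsScalarTower O κ L := IsScalarTower.of_algebraMap_eq fun r =>
      (RingHom.liftOfRightInverse_comp_apply _ _ _ ⟨algebraMap O L, hker⟩ r).symm
    exact hsp L
  · have hinj : Function.Injective (algebraMap O L) :=
      FibreSplit9.injective_of_map_ne_zero π hdvr (algebraMap O L) hπ
    letI : Algebra Kf L := (IsFractionRing.lift hinj).toAlgebra
    haveI : IsScalarTower O Kf L := IsScalarTower.of_algebraMap_eq fun r =>
      (IsFractionRing.lift_algebraMap hinj r).symm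
    exact hgen L

end Split

section Main

open Fermat.Agent.FFJ.Model.ChartProj17

variable {R K F : Type*} [CommRing R] [Field K] [Field F] [Algebra R K] [Algebra K F]
  [Algebra R F] [IsScalarTower R K F]
  {π : R} {s : F} {B : Subalgebra R F} {Ov : ValuationSubring F}

universe v

/-- The coordinate `s` is transcendental over `R`. -/
theorem ChartHyp_transcendental (h : ChartHyp R K F π s B Ov) :
    Transcendental R (B.val ⟨s, h.s_mem⟩) :=
  fun ⟨p, hp0, hp⟩ => hp0 (h.aeval_eq_zero p hp)

/-- `ChartHyp.trans` inside `B`. -/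
theorem ChartHyp_trans_mem (h : ChartHyp R K F π s B Ov) (p : R[X])
    (hp : ∃ b' : B, aeval (⟨s, h.s_mem⟩ : B) p = algebraMap R B π * b') : C π ∣ p := by
  obtain ⟨b', hb'⟩ := hp
  refine h.trans p ⟨b', h.le_Ov _ b'.2, ?_⟩
  have h1 := congrArg (fun z : B => (z : F)) hb'
  simp only [aeval_subalgebra_coe] at h1
  exact h1

/-- The coordinate `s` is not divisible by `π` in `B`. -/
theorem ChartHyp_not_dvd (h : ChartHyp R K F π s B Ov) :
    ¬ ∃ b' : B, (⟨s, h.s_mem⟩ : B) = algebraMap R B π * b' := by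
  rintro ⟨b', hb'⟩
  have h1 : C π ∣ (X : R[X]) := ChartHyp_trans_mem h X ⟨b', by rw [aeval_X]; exact hb'⟩
  obtain ⟨q, hq⟩ := h1
  have h2 := congrArg (fun p : R[X] => p.coeff 1) hq
  simp only [coeff_X_one, coeff_C_mul] at h2
  exact h.not_isUnit_pi (IsUnit.of_mul_eq_one _ h2.symm)

section Fibres

variable (h : ChartHyp R K F π s B Ov) [CharZero K]
  (hloc : ∀ x : Ideal B, x.IsMaximal → algebraMap R B π ∈ x →
    ∃ s' ∈ x, ∀ y ∈ x, ∃ d : B, d ∉ x ∧ d * y ∈ Ideal.span {algebraMap R B π, s'})
  (κ : Type*) [Field κ] [Algebra R κ] [PerfectField κ]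
  (hκs : Function.Surjective (algebraMap R κ)) (hκ : ∀ r : R, algebraMap R κ r = 0 → π ∣ r)
  (ιK : F →+* LaurentSeries K) (hιK : ∀ c : K, ιK (algebraMap K F c) = HahnSeries.C c)
  (ικ : B →+* LaurentSeries κ)
  (hικ0 : ∀ b : B, ικ b = 0 ↔ ∃ b' : B, b = algebraMap R B π * b')
  (hικC : ∀ r : R, ικ (algebraMap R B r) = HahnSeries.C (algebraMap R κ r))
  (hK : IsDedekindDomain (K ⊗[R] B))

include h hloc hκs hκ hιK hικ0 hικC hK in
/-- **FIBRES: the Dedekind clause of `CurveHypR` for one chart of the model.** -/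
theorem isDedekindDomain_tensor_chart (L : Type v) [Field L] [Algebra R L] :
    IsDedekindDomain (L ⊗[R] B) := by
  haveI := h.fracR
  haveI := h.noethR
  haveI : Algebra.FiniteType R B := ChartBridge17.finiteType_of_fin h.s_mem h.fin
  haveI : IsNoetherianRing B := Algebra.FiniteType.isNoetherianRing R B
  refine FibreSplit9.isDedekindDomain_tensor_of_laurentSeries π h.dvrR K κ hκs hκ B hK
    (not_isField_of_transcendental K _ _
      (generic_transcendental B.val ⟨s, h.s_mem⟩ (ChartHyp_transcendental h)))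
    (ιK.comp (genericHom (K := K) B.val).toRingHom) ?_ ?_
    (special_isDedekindDomain π hκs ικ hικC hικ0 hloc)
    (not_isField_of_transcendental κ _ _
      (special_transcendental π hκs ικ hικC hικ0 _ (ChartHyp_trans_mem h)))
    (specialHom ικ hικC) (specialHom_algebraMap ικ hικC)
    (specialHom_injective π hκs ικ hικC hικ0) L
  · intro c
    rw [RingHom.comp_apply]
    show ιK (genericHom B.val (algebraMap K _ c)) = _
    rw [AlgHom.commutes, hιK]
  · exact ιK.injective.comp (genericHom_injective B.val Subtype.val_injective)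

include h hκs hκ hικ0 hικC in
/-- `1 ⊗ f ≠ 0` in `L ⊗[R] B` for every field `L` over `R`, if `f ∉ πB`. -/
theorem one_tmul_ne_zero (f : B) (hf : ¬ ∃ b' : B, f = algebraMap R B π * b')
    (L : Type v) [Field L] [Algebra R L] : (1 : L) ⊗ₜ[R] f ≠ 0 := by
  haveI := h.fracR
  have hf0 : f ≠ 0 := fun h0 => hf ⟨0, by rw [h0, mul_zero]⟩
  refine field_split π h.dvrR K κ hκs hκ (fun L _ _ => (1 : L) ⊗ₜ[R] f ≠ 0) ?_ ?_ L
  · intro L _ _ _ _
    refine one_tmul_ne_zero_of_tower K L f fun h0 => hf0 ?_
    have h1 := congrArg (genericHom (K := K) B.val) h0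
    rw [genericHom_tmul, map_one, one_mul, map_zero] at h1
    exact Subtype.ext h1
  · intro L _ _ _ _
    refine one_tmul_ne_zero_of_tower κ L f fun h0 => hf ?_
    exact (one_tmul_eq_zero_iff π hκs ικ hικC hικ0 f).mp h0

include h hloc hκs hκ hιK hικ0 hικC hK in
/-- **FIBRES for a localization `B' = B[1/f]`**, `f ∉ πB`. -/
theorem isDedekindDomain_tensor_chart_away (f : B)
    (hf : ¬ ∃ b' : B, f = algebraMap R B π * b')
    (B' : Type*) [CommRing B'] [Algebra R B'] [Algebra B B'] [IsScalarTower R B B']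
    [IsLocalization.Away f B'] (L : Type v) [Field L] [Algebra R L] :
    IsDedekindDomain (L ⊗[R] B') :=
  isDedekindDomain_tensor_away_of_ne_zero B' f L
    (one_tmul_ne_zero h κ hκs hκ ικ hικ0 hικC f hf L)
    (isDedekindDomain_tensor_chart h hloc κ hκs hκ ιK hιK ικ hικ0 hικC hK L)

include h hloc hκs hκ hιK hικ0 hικC hK in
/-- **FIBRES for the overlap `B[1/s]`** (`s` the coordinate of the chart). -/
theorem isDedekindDomain_tensor_overlap
    (B' : Type*) [CommRing B'] [Algebra R B'] [Algebra B B'] [IsScalarTower R B B']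
    [IsLocalization.Away (⟨s, h.s_mem⟩ : B) B'] (L : Type v) [Field L] [Algebra R L] :
    IsDedekindDomain (L ⊗[R] B') :=
  isDedekindDomain_tensor_chart_away h hloc κ hκs hκ ιK hιK ικ hικ0 hικC hK _
    (ChartHyp_not_dvd h) B' L

end Fibres

end Main

/-! ### The three clauses for a two-chart model (`RED/CORE/CoreIface24.TwoChartModel`) -/

section Model

open Fermat.Agent.RED.CORE.CoreIface24 Fermat.Agent.FFJ.Model.ChartProj17
open Fermat.Agent.FFJ.Model.TransLemmas17 Fermat.Agent.FFJ.Model.ChartBridge17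

variable {R K F : Type*} [CommRing R] [Field K] [Field F] [Algebra R K] [Algebra K F]
  [Algebra R F] [IsScalarTower R K F]
  {π : R} {t : F} {B0 B1 : Subalgebra R F} {Ov : ValuationSubring F}

universe v

variable (hM : TwoChartModel R K F π t B0 B1 Ov) [CharZero K]
  (κ : Type*) [Field κ] [Algebra R κ] [PerfectField κ]
  (hκs : Function.Surjective (algebraMap R κ)) (hκ : ∀ r : R, algebraMap R κ r = 0 → π ∣ r)
  (ιK : F →+* LaurentSeries K) (hιK : ∀ c : K, ιK (algebraMap K F c) = HahnSeries.C c)

include hM hκs hκ hιK in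
/-- `dedekind0` of `CurveHypR` for the chart `B0 ∋ t` of a two-chart model. -/
theorem dedekind0 (htr : Trans π Ov t) (ικ : B0 →+* LaurentSeries κ)
    (hικ0 : ∀ b : B0, ικ b = 0 ↔ ∃ b' : B0, b = algebraMap R B0 π * b')
    (hικC : ∀ r : R, ικ (algebraMap R B0 r) = HahnSeries.C (algebraMap R κ r))
    (hK : IsDedekindDomain (K ⊗[R] B0)) (L : Type v) [Field L] [Algebra R L] :
    IsDedekindDomain (L ⊗[R] B0) :=
  isDedekindDomain_tensor_chart (chartHyp0 hM htr) hM.smooth0 κ hκs hκ ιK hιK ικ hικ0 hικC hK L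

include hM hκs hκ hιK in
/-- `dedekind1` of `CurveHypR` for the chart `B1 ∋ t⁻¹` of a two-chart model. -/
theorem dedekind1
    (fin1 : ∃ (r : ℕ) (e : Fin r → F), (∀ i, e i ∈ B1) ∧
      ∀ x ∈ B1, ∃ P : Fin r → R[X], x = ∑ i, aeval t⁻¹ (P i) * e i)
    (htr : Trans π Ov t⁻¹) (ικ : B1 →+* LaurentSeries κ)
    (hικ0 : ∀ b : B1, ικ b = 0 ↔ ∃ b' : B1, b = algebraMap R B1 π * b')
    (hικC : ∀ r : R, ικ (algebraMap R B1 r) = HahnSeries.C (algebraMap R κ r))
    (hK : IsDedekindDomain (K ⊗[R] B1)) (L : Type v) [Field L] [Algebra R L] :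
    IsDedekindDomain (L ⊗[R] B1) :=
  isDedekindDomain_tensor_chart (chartHyp1 hM fin1 htr) hM.smooth1 κ hκs hκ ιK hιK ικ hικ0 hικC
    hK L

include hM hκs hκ hιK in
/-- `dedekind01` of `CurveHypR` for the overlap `B0[1/t]` of a two-chart model. -/
theorem dedekind01 (htr : Trans π Ov t) (ικ : B0 →+* LaurentSeries κ)
    (hικ0 : ∀ b : B0, ικ b = 0 ↔ ∃ b' : B0, b = algebraMap R B0 π * b')
    (hικC : ∀ r : R, ικ (algebraMap R B0 r) = HahnSeries.C (algebraMap R κ r))
    (hK : IsDedekindDomain (K ⊗[R] B0)) (L : Type v) [Field L] [Algebra R L] :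
    IsDedekindDomain (L ⊗[R] ↥(overlap t B0 hM.t_mem)) := by
  letI := algebra0 (B0 := B0) hM.t_mem
  haveI := isScalarTower0 (B0 := B0) hM.t_mem
  haveI := isLocalization_away0 hM
  exact isDedekindDomain_tensor_overlap (chartHyp0 hM htr) hM.smooth0 κ hκs hκ ιK hιK ικ hικ0 hικC
    hK (↥(overlap t B0 hM.t_mem)) L

end Model

end Fermat.Agent.FFJ.Model.FibreDedekind9
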