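/-
Programme FFJ, chapter CURVE (helper9): **the `q`-expansion embeddings of FIBRES from RED's Gauss
reduction**.

Vocabulary of `RED/PUR/GaussGen8` (helper8) and `RED/NumInst4.clStmt_of_core`: `O` a valuation
subring of a field `Kt` of characteristic zero with uniformiser `π` (`IsUnif O π`), perfect residue
field `Res O`, `E ⊂ Frac O((q))` an intermediate field of `Kt((q)) / Kt`, and a two-chart model
`TwoChartModel ↥O Kt ↥E π t B0 B1 (gaussVS hπ E hE)` whose valuation ring is the Gauss valuation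
ring of `E`.  Then the embeddings required by `FibreDedekind9` are
* `ιK := E.val` (the inclusion `E ⊂ Kt((q))`),
* `ικ := gaussVSRed ∘ (B ⊂ gaussVS)` (kernel `πB` by `gaussRed_eq_zero_iff` and saturation),
so the three Dedekind clauses of `CurveHypR` follow from the model, transcendence of the
coordinates modulo `π` and the Dedekind property of the generic fibres.
-/
import Mathlib
import Fermat.Agent.FFJ.Model.FibreDedekind9
import Fermat.Agent.RED.PUR.GaussGen8

set_option autoImplicit false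
set_option linter.unusedSectionVars false
set_option linter.style.haveILetI false

open TensorProduct Polynomial

namespace Fermat.Agent.FFJ.Model.FibreGauss9

open Fermat.Agent.RED.PUR.GaussGen8 Fermat.Agent.RED.CORE.CoreIface24
open Fermat.Agent.FFJ.Model.ChartProj17 Fermat.Agent.FFJ.Model.TransLemmas17
open Fermat.Agent.FFJ.Model.ChartBridge17

variable {Kt : Type*} [Field Kt] (O : ValuationSubring Kt)
  (E : IntermediateField Kt (LaurentSeries Kt))

/-- The scalar tower `O → Kt → E` (as in `RED/NumInst4.isScalarTower_OE`). -/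
theorem isScalarTower_OE' : IsScalarTower ↥O Kt ↥E :=
  IsScalarTower.of_algebraMap_eq fun _ => rfl

theorem coe_algebraMap_OE' (a : O) :
    ((algebraMap ↥O ↥E a : E) : LaurentSeries Kt) = HahnSeries.C ((a : O) : Kt) := by
  show algebraMap Kt (LaurentSeries Kt) ((a : O) : Kt) = _
  exact algebraMap_eq_C _

/-- The inclusion `E ⊂ Kt((q))` as a ring homomorphism. -/
noncomputable def iotaK : ↥E →+* LaurentSeries Kt := E.val.toRingHom

theorem iotaK_algebraMap (c : Kt) : iotaK E (algebraMap Kt ↥E c) = HahnSeries.C c := by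
  show algebraMap Kt (LaurentSeries Kt) c = _
  exact algebraMap_eq_C c

variable {O E} {π : ↥O} (hπ : IsUnif O π) (hE : E ≤ fracField O)

/-- The Gauss reduction restricted to a chart `B ⊂ gaussVS`. -/
noncomputable def iotaKappa (B : Subalgebra ↥O ↥E) (hB : ∀ x ∈ B, x ∈ gaussVS hπ E hE) :
    ↥B →+* LaurentSeries (Res O) :=
  (gaussVSRed hπ E hE).comp
    { toFun := fun b => ⟨(b : ↥E), hB _ b.2⟩
      map_one' := rfl
      map_mul' := fun _ _ => rfl
      map_zero' := rfl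
      map_add' := fun _ _ => rfl }

theorem iotaKappa_apply (B : Subalgebra ↥O ↥E) (hB : ∀ x ∈ B, x ∈ gaussVS hπ E hE) (b : B) :
    iotaKappa hπ hE B hB b =
      gaussRed O ⟨((b : ↥E) : LaurentSeries Kt), (mem_gaussVS_iff hπ E hE _).mp (hB _ b.2)⟩ :=
  rfl

theorem iotaKappa_algebraMap (B : Subalgebra ↥O ↥E) (hB : ∀ x ∈ B, x ∈ gaussVS hπ E hE) (r : O) :
    iotaKappa hπ hE B hB (algebraMap ↥O ↥B r) = HahnSeries.C (algebraMap ↥O (Res O) r) := by
  rw [iotaKappa_apply]
  have h1 : (⟨(((algebraMap ↥O ↥B r : B) : ↥E) : LaurentSeries Kt),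
      (mem_gaussVS_iff hπ E hE _).mp (hB _ (algebraMap ↥O ↥B r).2)⟩ : gaussRing O) =
      constG O r := by
    apply Subtype.ext
    show ((algebraMap ↥O ↥E r : E) : LaurentSeries Kt) = HahnSeries.C ((r : O) : Kt)
    exact coe_algebraMap_OE' O E r
  rw [h1, gaussRed_constG]
  rfl

theorem iotaKappa_eq_zero_iff (B : Subalgebra ↥O ↥E) (hB : ∀ x ∈ B, x ∈ gaussVS hπ E hE)
    (hsat : ∀ b ∈ B, ∀ c ∈ gaussVS hπ E hE, b = algebraMap ↥O ↥E π * c → c ∈ B) (b : B) :
    iotaKappa hπ hE B hB b = 0 ↔ ∃ b' : B, b = algebraMap ↥O ↥B π * b' := by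
  rw [iotaKappa_apply, gaussRed_eq_zero_iff hπ]
  constructor
  · rintro ⟨g, hg⟩
    have hg' : ((b : ↥E) : LaurentSeries Kt) = HahnSeries.C ((π : O) : Kt) * (g : LaurentSeries Kt) :=
      congrArg Subtype.val hg
    have hπ0 : (HahnSeries.C ((π : O) : Kt) : LaurentSeries Kt) ≠ 0 := piK_ne_zero hπ
    -- `g` lies in `E`
    have hgE : (g : LaurentSeries Kt) ∈ E := by
      have h2 : (g : LaurentSeries Kt) =
          (HahnSeries.C ((π : O) : Kt))⁻¹ * ((b : ↥E) : LaurentSeries Kt) := by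
        rw [hg', ← mul_assoc, inv_mul_cancel₀ hπ0, one_mul]
      rw [h2]
      refine E.mul_mem (E.inv_mem ?_) (b : ↥E).2
      rw [← algebraMap_eq_C]
      exact E.algebraMap_mem _
    have hc : (⟨(g : LaurentSeries Kt), hgE⟩ : ↥E) ∈ gaussVS hπ E hE :=
      (mem_gaussVS_iff hπ E hE _).mpr g.2
    have hbc : (b : ↥E) = algebraMap ↥O ↥E π * ⟨(g : LaurentSeries Kt), hgE⟩ := by
      apply Subtype.ext
      show ((b : ↥E) : LaurentSeries Kt) = ((algebraMap ↥O ↥E π : E) : LaurentSeries Kt) * g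
      rw [coe_algebraMap_OE', hg']
    exact ⟨⟨_, hsat _ b.2 _ hc hbc⟩, Subtype.ext hbc⟩
  · rintro ⟨b', hb'⟩
    refine ⟨⟨((b' : ↥E) : LaurentSeries Kt), (mem_gaussVS_iff hπ E hE _).mp (hB _ b'.2)⟩, ?_⟩
    apply Subtype.ext
    show ((b : ↥E) : LaurentSeries Kt) = HahnSeries.C ((π : O) : Kt) * ((b' : ↥E) : LaurentSeries Kt)
    rw [hb', ← coe_algebraMap_OE' O E π]
    rfl

/-! ### The three Dedekind clauses for a Gauss two-chart model -/

section Model

universe v

variable [CharZero Kt] [PerfectField (Res O)] {t : ↥E} {B0 B1 : Subalgebra ↥O ↥E}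

include hπ in
theorem res0_eq_zero_dvd (r : O) (hr : algebraMap ↥O (Res O) r = 0) : π ∣ r := by
  obtain ⟨x', hx'⟩ := (res0_eq_zero_iff hπ r).mp hr
  exact ⟨x', hx'⟩

/-- `dedekind0` of `CurveHypR` for the chart `B0 ∋ t` of a Gauss two-chart model. -/
theorem dedekind0_gauss
    (hM : TwoChartModel ↥O Kt ↥E π t B0 B1 (gaussVS hπ E hE))
    (htr : Trans π (gaussVS hπ E hE) t)
    (hK : IsDedekindDomain (Kt ⊗[↥O] B0)) (L : Type v) [Field L] [Algebra ↥O L] :
    IsDedekindDomain (L ⊗[↥O] B0) :=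
  haveI := isScalarTower_OE' O E
  FibreDedekind9.dedekind0 hM (Res O) IsLocalRing.residue_surjective (res0_eq_zero_dvd hπ)
    (iotaK E) (iotaK_algebraMap E) htr (iotaKappa hπ hE B0 hM.le_Ov0)
    (iotaKappa_eq_zero_iff hπ hE B0 hM.le_Ov0 hM.sat0)
    (iotaKappa_algebraMap hπ hE B0 hM.le_Ov0) hK L

/-- `dedekind1` of `CurveHypR` for the chart `B1 ∋ t⁻¹` of a Gauss two-chart model. -/
theorem dedekind1_gauss
    (hM : TwoChartModel ↥O Kt ↥E π t B0 B1 (gaussVS hπ E hE))
    (fin1 : ∃ (r : ℕ) (e : Fin r → ↥E), (∀ i, e i ∈ B1) ∧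
      ∀ x ∈ B1, ∃ P : Fin r → (↥O)[X], x = ∑ i, aeval t⁻¹ (P i) * e i)
    (htr : Trans π (gaussVS hπ E hE) t⁻¹)
    (hK : IsDedekindDomain (Kt ⊗[↥O] B1)) (L : Type v) [Field L] [Algebra ↥O L] :
    IsDedekindDomain (L ⊗[↥O] B1) :=
  haveI := isScalarTower_OE' O E
  FibreDedekind9.dedekind1 hM (Res O) IsLocalRing.residue_surjective (res0_eq_zero_dvd hπ)
    (iotaK E) (iotaK_algebraMap E) fin1 htr (iotaKappa hπ hE B1 hM.le_Ov1)
    (iotaKappa_eq_zero_iff hπ hE B1 hM.le_Ov1 hM.sat1)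
    (iotaKappa_algebraMap hπ hE B1 hM.le_Ov1) hK L

/-- `dedekind01` of `CurveHypR` for the overlap `B0[1/t]` of a Gauss two-chart model. -/
theorem dedekind01_gauss
    (hM : TwoChartModel ↥O Kt ↥E π t B0 B1 (gaussVS hπ E hE))
    (htr : Trans π (gaussVS hπ E hE) t)
    (hK : IsDedekindDomain (Kt ⊗[↥O] B0)) (L : Type v) [Field L] [Algebra ↥O L] :
    IsDedekindDomain (L ⊗[↥O] ↥(overlap t B0 hM.t_mem)) :=
  haveI := isScalarTower_OE' O E
  FibreDedekind9.dedekind01 hM (Res O) IsLocalRing.residue_surjective (res0_eq_zero_dvd hπ)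
    (iotaK E) (iotaK_algebraMap E) htr (iotaKappa hπ hE B0 hM.le_Ov0)
    (iotaKappa_eq_zero_iff hπ hE B0 hM.le_Ov0 hM.sat0)
    (iotaKappa_algebraMap hπ hE B0 hM.le_Ov0) hK L

end Model

end Fermat.Agent.FFJ.Model.FibreGauss9
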