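/-
FFJ (S19), chapter Model (CURVE), brick C-I (helper17).

RED's Gauss valuation ring in the vocabulary of CURVE.  `K` a field, `O` a discrete valuation subring,
`E ⊂ Frac O((q)) ⊂ K((q))`, `Ov = gaussVS` the Gauss valuation ring of `E`:
* `trans_of_gaussRed` : if the Gauss reduction of `t` is transcendental over the residue field, then
  `TransLemmas17.Trans π Ov t`;
* `exists_basePoint_mob` : the base point (cusp `q = 0`) of the Möbius model, for `t = q⁻¹ · G`,
  `G(0) ≠ 0`.
-/
import Mathlib
import Fermat.Agent.RED.PUR.KtGauss8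
import Fermat.Agent.FFJ.Model.BasePoint17
import Fermat.Agent.FFJ.Model.MobiusModel17
import Fermat.Agent.FFJ.Model.TransLemmas17

set_option autoImplicit false
set_option linter.unusedSectionVars false
set_option linter.style.haveILetI false

noncomputable section

namespace Fermat.Agent.FFJ.Model.GaussTrans17

open Polynomial
open Fermat.Agent.RED.CORE.CoreIface24 Fermat.Agent.RED.PUR.ChartGeneric22
open Fermat.Agent.RED.PUR.GaussGen8 Fermat.Agent.RED.PUR.KtGauss8
open Fermat.Agent.FFJ.Model.ChartBridge17 Fermat.Agent.FFJ.Model.MobiusModel17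
open Fermat.Agent.FFJ.Model.TransLemmas17 Fermat.Agent.FFJ.Model.BasePoint17

variable {K : Type*} [Field K] (O : ValuationSubring K)
  (E : IntermediateField K (LaurentSeries K))

attribute [local instance] isScalarTower_OE'

/-- `aeval` over `O` in `E`, read in `K((q))`. -/
theorem coe_aeval (t : E) (p : (↥O)[X]) :
    ((aeval t p : E) : LaurentSeries K) = aeval (t : LaurentSeries K) (p.map O.subtype) := by
  have h := Polynomial.hom_eval₂ p (algebraMap ↥O ↥E) (E.val : ↥E →+* LaurentSeries K) t
  have hcomp : (E.val : ↥E →+* LaurentSeries K).comp (algebraMap ↥O ↥E)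
      = (algebraMap K (LaurentSeries K)).comp O.subtype := RingHom.ext fun c => rfl
  rw [Polynomial.aeval_def, Polynomial.aeval_def, Polynomial.eval₂_map, ← hcomp]
  exact h

variable {O E}

/-- **`Trans` from the transcendence of the Gauss reduction.** -/
theorem trans_of_gaussRed [IsDiscreteValuationRing ↥O] {π : ↥O} (hπ : Irreducible π)
    (hu : IsUnif O π) (hE : E ≤ fracField O) (t : E) (ht : (t : LaurentSeries K) ∈ gaussRing O)
    (htr : Transcendental (Res O) (gaussRed O ⟨(t : LaurentSeries K), ht⟩)) :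
    Trans π (gaussVS hu E hE) t := by
  intro p hp
  obtain ⟨c, hc, hpc⟩ := hp
  have hc' : ((c : E) : LaurentSeries K) ∈ gaussRing O := (mem_gaussVS_iff hu E hE c).1 hc
  set tG : ↥(gaussRing O) := ⟨(t : LaurentSeries K), ht⟩ with htG
  have h1 : polyG O tG p = constG O π * ⟨((c : E) : LaurentSeries K), hc'⟩ := by
    apply Subtype.ext
    rw [coe_polyG]
    show aeval (t : LaurentSeries K) (p.map O.subtype) = HahnSeries.C ((π : ↥O) : K) * (c : LaurentSeries K)
    rw [← coe_aeval, hpc]
    show ((algebraMap ↥O ↥E π : E) : LaurentSeries K) * (c : LaurentSeries K) = _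
    rw [coe_algebraMap_OE']
  have h2 : gaussRed O (polyG O tG p) = 0 := (gaussRed_eq_zero_iff hu _).2 ⟨_, h1⟩
  rw [gaussRed_polyG] at h2
  have h3 : p.map (res0 O) = 0 := (transcendental_iff.mp htr) _ h2
  exact (map_res0_eq_zero_iff hπ p).1 h3

/-- **The base point of the Möbius model**: for `t = q⁻¹ · G`, `G(0) ≠ 0`, the constant term is an
`O`-algebra homomorphism on the overlap ring of the model with coordinate `mob t = t / (t - 1)`. -/
theorem exists_basePoint_mob {π : ↥O} {t : E} {B0 B1 : Subalgebra ↥O ↥E} {Ov : ValuationSubring ↥E}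
    (h : TwoChartModel ↥O K ↥E π (mob t) B0 B1 Ov) (ht0 : t ≠ 0) (h1 : t - 1 ≠ 0)
    (G : PowerSeries K)
    (hG : (t : LaurentSeries K) = HahnSeries.single (-1 : ℤ) (1 : K) * (G : LaurentSeries K))
    (hG0 : PowerSeries.constantCoeff G ≠ 0) :
    ∃ e : ↥(overlap (mob t) B0 h.t_mem) →ₐ[↥O] ↥O,
      ∀ x : ↥(overlap (mob t) B0 h.t_mem), ((e x : O) : K) = ((x : E) : LaurentSeries K).coeff 0 := by
  obtain ⟨U, hU, hU1⟩ := exists_one_sub_inv E hG hG0
  rw [← mob_inv ht0 h1] at hU
  exact exists_basePoint O E h U hU hU1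

end Fermat.Agent.FFJ.Model.GaussTrans17
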