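/-
FFJ / chapter CURVE, brick GENERIC FIBRE (F-K) (helper64).  **The generic fibre of a chart is a Dedekind
domain.**

Setting of `RED/PUR/ChartGeneric22` §Final: `R` a noetherian integrally closed domain, `K = Frac R` of
characteristic zero, `F ⊇ K` a field, `s : F` transcendental over `K` with `F` finite over `K(s)`;
`chart R s` is the integral closure of `R[s]` in `F`.

* `isDedekindDomain_chart_field` : `chart K s` (the integral closure of `K[s]` in `F`) is a Dedekind domain;
* `chart_le_chart_field`, `exists_smul_mem_chart` : `chart R s ⊆ chart K s`, and every element of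
  `chart K s` has a multiple by a nonzero element of `R` in `chart R s`;
* `isLocalization_chart_field` : `chart K s` is the localization of `chart R s` at `R ∖ {0}`;
* `tensorChartRingEquiv` : `K ⊗[R] chart R s ≃+* chart K s`, `c ⊗ b ↦ c • b`;
* **`isDedekindDomain_tensor_chart`** : `K ⊗[R] chart R s` is a Dedekind domain;
* `tensorToField_injective` : the natural map `K ⊗[R] chart R s → F` is injective.
-/
import Mathlib
import Fermat.Agent.RED.PUR.ChartGeneric22

set_option autoImplicit false
set_option linter.style.haveILetI false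

noncomputable section

namespace Fermat.Agent.FFJ.Model.GenericFibre64

open Polynomial TensorProduct
open Fermat.Agent.RED.PUR.ChartGeneric22

/-- Transport of the Dedekind property along a ring isomorphism. -/
theorem isDedekindDomain_of_ringEquiv' {A A' : Type*} [CommRing A] [CommRing A'] (e : A ≃+* A')
    [IsDedekindDomain A] : IsDedekindDomain A' := by
  have : IsDomain A' := MulEquiv.isDomain A e.symm.toMulEquiv
  have : IsNoetherianRing A' := isNoetherianRing_of_ringEquiv A e
  have : Ring.DimensionLEOne A' := Ring.DimensionLEOne.of_ringEquiv e.symm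
  have : IsIntegrallyClosed A' := IsIntegrallyClosed.of_equiv e
  exact { toIsDomain := inferInstance, toIsDedekindRing := { } }

/-! ### (i) the chart over the field -/

section FieldChart

variable {K F : Type*} [Field K] [Field F] [Algebra K F] {s : F}

/-- `K[s]` is a principal ideal domain for `s` transcendental. -/
theorem isPrincipalIdealRing_adjoin (htr : Transcendental K s) :
    IsPrincipalIdealRing (Algebra.adjoin K {s}) :=
  IsPrincipalIdealRing.of_surjective (adjoinEquiv htr).toAlgHom.toRingHom
    (adjoinEquiv htr).surjective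

/-- **The integral closure of `K[s]` in `F` is a Dedekind domain.** -/
theorem isDedekindDomain_chart_field [CharZero K] (htr : Transcendental K s)
    [FiniteDimensional (IntermediateField.adjoin K {s}) F] : IsDedekindDomain ↥(chart K s) := by
  have hs : s ∈ IntermediateField.adjoin K {s} := IntermediateField.mem_adjoin_simple_self K s
  let _ : Algebra (Algebra.adjoin K {s}) (IntermediateField.adjoin K {s}) :=
    (adjoinToField (R := K) (IntermediateField.adjoin K {s}) hs).toAlgebra
  have : IsFractionRing (Algebra.adjoin K {s}) (IntermediateField.adjoin K {s}) :=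
    isFractionRing_adjoin (R := K) (IntermediateField.adjoin K {s}) hs le_rfl
  have : IsScalarTower (Algebra.adjoin K {s}) (IntermediateField.adjoin K {s}) F :=
    IsScalarTower.of_algebraMap_eq (fun _ => rfl)
  have : CharZero F := charZero_of_injective_algebraMap (algebraMap K F).injective
  have : CharZero (IntermediateField.adjoin K {s}) :=
    charZero_of_injective_algebraMap (R := K)
      (algebraMap K (IntermediateField.adjoin K {s})).injective
  have : Algebra.IsSeparable (IntermediateField.adjoin K {s}) F := inferInstance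
  have : IsPrincipalIdealRing (Algebra.adjoin K {s}) := isPrincipalIdealRing_adjoin htr
  have h : IsDedekindDomain (integralClosure (Algebra.adjoin K {s}) F) :=
    integralClosure.isDedekindDomain (Algebra.adjoin K {s}) (IntermediateField.adjoin K {s}) F
  exact h

/-- `chart K s` is not a field. -/
theorem not_isField_chart_field (htr : Transcendental K s) : ¬ IsField ↥(chart K s) := by
  intro h
  have h' : IsField (integralClosure (Algebra.adjoin K {s}) F) := h
  have hinj : Function.Injective
      (algebraMap (Algebra.adjoin K {s}) (integralClosure (Algebra.adjoin K {s}) F)) := by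
    intro a b hab
    apply Subtype.ext
    exact congrArg (fun z : integralClosure (Algebra.adjoin K {s}) F => (z : F)) hab
  have h1 : IsField (Algebra.adjoin K {s}) := isField_of_isIntegral_of_isField hinj h'
  have h2 : IsField K[X] := (adjoinEquiv htr).toMulEquiv.isField h1
  exact Polynomial.not_isField K h2

end FieldChart

/-! ### (ii) clearing denominators -/

section Denominators

variable {R K F : Type*} [CommRing R] [IsDomain R] [Field K] [Field F] [Algebra R K] [Algebra K F]
  [Algebra R F] [IsScalarTower R K F] [IsFractionRing R K] {s : F}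

omit [IsDomain R] [IsFractionRing R K] in
theorem adjoin_le_adjoin_field : Algebra.adjoin R {s} ≤ (Algebra.adjoin K {s}).restrictScalars R :=
  Algebra.adjoin_le (by
    intro x hx
    rw [Set.mem_singleton_iff] at hx
    subst hx
    exact Algebra.self_mem_adjoin_singleton K x)

omit [IsDomain R] [IsFractionRing R K] in
/-- `chart R s ⊆ chart K s`. -/
theorem chart_le_chart_field : chart R s ≤ (chart K s).restrictScalars R := by
  intro x hx
  rw [mem_chart_iff, isIntegral_subalgebra_iff] at hx
  obtain ⟨P, hP, hcoeff, hx0⟩ := hx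
  show x ∈ chart K s
  rw [mem_chart_iff, isIntegral_subalgebra_iff]
  exact ⟨P, hP, fun i => adjoin_le_adjoin_field (R := R) (K := K) (hcoeff i), hx0⟩

theorem algebraMap_injective_of_tower {R : Type*} (K : Type*) {F : Type*} [CommRing R] [Field K]
    [Field F] [Algebra R K] [Algebra K F] [Algebra R F] [IsScalarTower R K F] [IsFractionRing R K] :
    Function.Injective (algebraMap R F) := by
  rw [IsScalarTower.algebraMap_eq R K F]
  exact (algebraMap K F).injective.comp (IsFractionRing.injective R K)

theorem algebraMap_ne_zero_of_ne_zero {R : Type*} (K : Type*) {F : Type*} [CommRing R] [Field K]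
    [Field F] [Algebra R K] [Algebra K F] [Algebra R F] [IsScalarTower R K F] [IsFractionRing R K]
    {r : R} (hr : r ≠ 0) : algebraMap R F r ≠ 0 := by
  intro h
  exact hr (algebraMap_injective_of_tower K (h.trans (map_zero _).symm))

/-- one element of `K[s]` has a denominator in `R`. -/
theorem exists_mul_mem_adjoin {a : F} (ha : a ∈ Algebra.adjoin K {s}) :
    ∃ r : R, r ≠ 0 ∧ algebraMap R F r * a ∈ Algebra.adjoin R {s} := by
  rw [Algebra.adjoin_singleton_eq_range_aeval] at ha
  obtain ⟨p, rfl⟩ := ha
  obtain ⟨b, hb, hbp⟩ := IsLocalization.integerNormalization_spec (nonZeroDivisors R) p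
  refine ⟨b, nonZeroDivisors.ne_zero hb, ?_⟩
  change algebraMap R F b * aeval s p ∈ Algebra.adjoin R {s}
  have h1 : aeval s ((IsLocalization.integerNormalization (nonZeroDivisors R) p).map
      (algebraMap R K)) = aeval s (b • p) := by rw [hbp]
  rw [aeval_map_algebraMap] at h1
  have h2 : aeval s (b • p) = algebraMap R F b * aeval s p := by
    rw [Algebra.smul_def, Polynomial.algebraMap_apply, map_mul, aeval_C,
      ← IsScalarTower.algebraMap_apply]
  rw [← h2, ← h1, Algebra.adjoin_singleton_eq_range_aeval]
  exact ⟨_, rfl⟩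

/-- finitely many elements of `K[s]` have a common denominator in `R`. -/
theorem exists_mul_mem_adjoin_finset (a : ℕ → F) (n : ℕ)
    (ha : ∀ i, a i ∈ Algebra.adjoin K {s}) :
    ∃ r : R, r ≠ 0 ∧ ∀ i < n, algebraMap R F r * a i ∈ Algebra.adjoin R {s} := by
  induction n with
  | zero => exact ⟨1, one_ne_zero, fun i hi => absurd hi (Nat.not_lt_zero i)⟩
  | succ n ih =>
    obtain ⟨r, hr, hrn⟩ := ih
    obtain ⟨r', hr', hrn'⟩ := exists_mul_mem_adjoin (R := R) (ha n)
    refine ⟨r * r', mul_ne_zero hr hr', fun i hi => ?_⟩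
    rcases Nat.lt_succ_iff_lt_or_eq.mp hi with h | h
    · have : algebraMap R F (r * r') * a i = algebraMap R F r' * (algebraMap R F r * a i) := by
        rw [map_mul]; ring
      rw [this]
      exact mul_mem (Subalgebra.algebraMap_mem _ r') (hrn i h)
    · subst h
      have : algebraMap R F (r * r') * a i = algebraMap R F r * (algebraMap R F r' * a i) := by
        rw [map_mul]; ring
      rw [this]
      exact mul_mem (Subalgebra.algebraMap_mem _ r) hrn'

/-- **Clearing denominators**: every element of `chart K s` has a multiple by a nonzero element of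
`R` in `chart R s`. -/
theorem exists_smul_mem_chart {x : F} (hx : x ∈ chart K s) :
    ∃ r : R, r ≠ 0 ∧ algebraMap R F r * x ∈ chart R s := by
  rw [mem_chart_iff, isIntegral_subalgebra_iff] at hx
  obtain ⟨P, hP, hcoeff, hx0⟩ := hx
  obtain ⟨r, hr, hrP⟩ := exists_mul_mem_adjoin_finset (R := R) (fun i => P.coeff i) P.natDegree hcoeff
  refine ⟨r, hr, ?_⟩
  rw [mem_chart_iff, isIntegral_subalgebra_iff]
  refine ⟨scaleRoots P (algebraMap R F r), (monic_scaleRoots_iff _).mpr hP, fun i => ?_, ?_⟩
  · rw [coeff_scaleRoots]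
    rcases lt_trichotomy i P.natDegree with h | h | h
    · obtain ⟨m, hm⟩ : ∃ m, P.natDegree - i = m + 1 := ⟨P.natDegree - i - 1, by omega⟩
      rw [hm, pow_succ, ← mul_assoc, mul_comm (P.coeff i), mul_comm _ (algebraMap R F r),
        ← mul_assoc]
      have h1 : algebraMap R F r * P.coeff i ∈ Algebra.adjoin R {s} := hrP i h
      have h2 : algebraMap R F r ^ m ∈ Algebra.adjoin R {s} :=
        pow_mem (Subalgebra.algebraMap_mem _ r) m
      have : algebraMap R F r * algebraMap R F r ^ m * P.coeff i
          = algebraMap R F r ^ m * (algebraMap R F r * P.coeff i) := by ring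
      rw [this]
      exact mul_mem h2 h1
    · rw [h, Nat.sub_self, pow_zero, mul_one, hP.coeff_natDegree]
      exact one_mem _
    · rw [coeff_eq_zero_of_natDegree_lt h, zero_mul]
      exact zero_mem _
  · rw [scaleRoots_eval_mul, hx0, mul_zero]

end Denominators

/-! ### (ii) the localization and the tensor product, for abstract subalgebras -/

section Localization

variable {R K F : Type*} [CommRing R] [IsDomain R] [Field K] [Field F] [Algebra R K] [Algebra K F]
  [Algebra R F] [IsScalarTower R K F] [IsFractionRing R K]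
  (A : Subalgebra R F) (A' : Subalgebra K F) (hle : ∀ x ∈ A, x ∈ A')
  (hden : ∀ x ∈ A', ∃ r : R, r ≠ 0 ∧ algebraMap R F r * x ∈ A)

/-- The inclusion `A → A'`. -/
def incl : ↥A →+* ↥A' :=
  (A.val : ↥A →+* F).codRestrict A' (fun b => hle b b.2)

omit [IsDomain R] [IsFractionRing R K] [Algebra R K] [IsScalarTower R K F] in
@[simp] theorem coe_incl (b : ↥A) : ((incl A A' hle b : ↥A') : F) = b := rfl

include hden in
/-- **`A'` is the localization of `A` at the nonzero elements of `R`.** -/
theorem isLocalization_incl :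
    @IsLocalization ↥A _ (Algebra.algebraMapSubmonoid ↥A (nonZeroDivisors R)) ↥A' _
      (incl A A' hle).toAlgebra := by
  letI : Algebra ↥A ↥A' := (incl A A' hle).toAlgebra
  rw [isLocalization_iff]
  refine ⟨?_, ?_, ?_⟩
  · rintro ⟨y, r, hr, rfl⟩
    have hr0 : r ≠ 0 := nonZeroDivisors.ne_zero hr
    have hrK : algebraMap R K r ≠ 0 := fun h =>
      hr0 ((IsFractionRing.injective R K) (h.trans (map_zero _).symm))
    refine IsUnit.of_mul_eq_one (algebraMap K ↥A' (algebraMap R K r)⁻¹) ?_
    apply Subtype.ext
    rw [Subalgebra.coe_mul, Subalgebra.coe_one, Subalgebra.coe_algebraMap]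
    have h1 : ((algebraMap ↥A ↥A' (algebraMap R ↥A r) : ↥A') : F) = algebraMap R F r := rfl
    rw [h1, IsScalarTower.algebraMap_apply R K F, ← map_mul, mul_inv_cancel₀ hrK, map_one]
  · intro z
    obtain ⟨r, hr, hrz⟩ := hden z z.2
    refine ⟨(⟨algebraMap R F r * z, hrz⟩,
      ⟨algebraMap R ↥A r, r, mem_nonZeroDivisors_of_ne_zero hr, rfl⟩), ?_⟩
    apply Subtype.ext
    rw [Subalgebra.coe_mul]
    have h1 : ((algebraMap ↥A ↥A' (algebraMap R ↥A r) : ↥A') : F) = algebraMap R F r := rfl
    have h2 : ((algebraMap ↥A ↥A' (⟨algebraMap R F r * z, hrz⟩ : ↥A) : ↥A') : F)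
        = algebraMap R F r * z := rfl
    rw [h1, h2, mul_comm]
  · intro x y hxy
    refine ⟨1, ?_⟩
    have h : x = y := Subtype.ext (congrArg (fun w : ↥A' => (w : F)) hxy)
    rw [h]

attribute [local instance] Algebra.TensorProduct.rightAlgebra in
/-- `K ⊗[R] A ≃+* A'`. -/
def tensorRingEquiv : K ⊗[R] ↥A ≃+* ↥A' :=
  letI : Algebra ↥A ↥A' := (incl A A' hle).toAlgebra
  haveI := isLocalization_incl A A' hle hden
  (IsLocalization.algEquiv (Algebra.algebraMapSubmonoid ↥A (nonZeroDivisors R))
    (K ⊗[R] ↥A) ↥A').toRingEquiv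

attribute [local instance] Algebra.TensorProduct.rightAlgebra in
theorem tensorRingEquiv_one_tmul (b : ↥A) :
    tensorRingEquiv A A' hle hden (1 ⊗ₜ[R] b) = incl A A' hle b := by
  letI : Algebra ↥A ↥A' := (incl A A' hle).toAlgebra
  haveI := isLocalization_incl A A' hle hden
  exact (IsLocalization.algEquiv (Algebra.algebraMapSubmonoid ↥A (nonZeroDivisors R))
    (K ⊗[R] ↥A) ↥A').commutes b

theorem tensorRingEquiv_tmul_one (c : K) :
    ((tensorRingEquiv A A' hle hden (c ⊗ₜ[R] (1 : ↥A)) : ↥A') : F) = algebraMap K F c := by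
  obtain ⟨r', r, hr, hc⟩ := IsFractionRing.div_surjective (A := R) c
  have hr0 : r ≠ 0 := nonZeroDivisors.ne_zero hr
  have hrK : algebraMap R K r ≠ 0 := fun h =>
    hr0 ((IsFractionRing.injective R K) (h.trans (map_zero _).symm))
  have hrF : algebraMap R F r ≠ 0 := algebraMap_ne_zero_of_ne_zero K hr0
  have hspec : c * algebraMap R K r = algebraMap R K r' := by
    rw [← hc, div_mul_cancel₀ _ hrK]
  -- `(c ⊗ 1) * (1 ⊗ r) = 1 ⊗ r'`
  have h1 : (c ⊗ₜ[R] (1 : ↥A)) * ((1 : K) ⊗ₜ[R] (algebraMap R ↥A r))
      = (1 : K) ⊗ₜ[R] (algebraMap R ↥A r') := by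
    rw [Algebra.TensorProduct.tmul_mul_tmul, mul_one, one_mul]
    calc c ⊗ₜ[R] (algebraMap R ↥A r) = c ⊗ₜ[R] (r • (1 : ↥A)) := by
          rw [Algebra.algebraMap_eq_smul_one]
      _ = (r • c) ⊗ₜ[R] (1 : ↥A) := by rw [TensorProduct.smul_tmul]
      _ = (r' • (1 : K)) ⊗ₜ[R] (1 : ↥A) := by
          rw [Algebra.smul_def, mul_comm, hspec, Algebra.algebraMap_eq_smul_one]
      _ = (1 : K) ⊗ₜ[R] (r' • (1 : ↥A)) := by rw [TensorProduct.smul_tmul]
      _ = (1 : K) ⊗ₜ[R] (algebraMap R ↥A r') := by rw [Algebra.algebraMap_eq_smul_one]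
  have h2 := congrArg (fun z => ((tensorRingEquiv A A' hle hden z : ↥A') : F)) h1
  simp only [map_mul, tensorRingEquiv_one_tmul, Subalgebra.coe_mul, coe_incl,
    Subalgebra.coe_algebraMap] at h2
  have h4 : algebraMap K F c * algebraMap R F r = algebraMap R F r' := by
    rw [IsScalarTower.algebraMap_apply R K F, ← map_mul, hspec, ← IsScalarTower.algebraMap_apply]
  exact mul_right_cancel₀ hrF (h2.trans h4.symm)

/-- the equivalence is `c ⊗ b ↦ c • b`. -/
theorem coe_tensorRingEquiv_tmul (c : K) (b : ↥A) :
    ((tensorRingEquiv A A' hle hden (c ⊗ₜ[R] b) : ↥A') : F) = algebraMap K F c * (b : F) := by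
  have h : c ⊗ₜ[R] b = (c ⊗ₜ[R] (1 : ↥A)) * ((1 : K) ⊗ₜ[R] b) := by
    rw [Algebra.TensorProduct.tmul_mul_tmul, mul_one, one_mul]
  rw [h, map_mul, Subalgebra.coe_mul, tensorRingEquiv_tmul_one, tensorRingEquiv_one_tmul, coe_incl]

/-- `K ⊗[R] A ≃ₐ[K] A'`, `c ⊗ b ↦ c • b`. -/
def tensorEquiv : K ⊗[R] ↥A ≃ₐ[K] ↥A' :=
  AlgEquiv.ofRingEquiv (f := tensorRingEquiv A A' hle hden) (fun c => by
    apply Subtype.ext
    rw [Algebra.TensorProduct.algebraMap_apply, Algebra.algebraMap_self, RingHom.id_apply,
      tensorRingEquiv_tmul_one, Subalgebra.coe_algebraMap])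

theorem coe_tensorEquiv_tmul (c : K) (b : ↥A) :
    ((tensorEquiv A A' hle hden (c ⊗ₜ[R] b) : ↥A') : F) = algebraMap K F c * (b : F) :=
  coe_tensorRingEquiv_tmul A A' hle hden c b

/-- The natural map `K ⊗[R] A → F`, `c ⊗ b ↦ c • b`. -/
def tensorToField : K ⊗[R] ↥A →ₐ[K] F :=
  A'.val.comp (tensorEquiv A A' hle hden).toAlgHom

theorem tensorToField_tmul (c : K) (b : ↥A) :
    tensorToField A A' hle hden (c ⊗ₜ[R] b) = algebraMap K F c * (b : F) :=
  coe_tensorEquiv_tmul A A' hle hden c b

theorem tensorToField_injective : Function.Injective (tensorToField A A' hle hden) :=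
  Subtype.val_injective.comp (tensorEquiv A A' hle hden).injective

include hle hden in
/-- If `A'` is a Dedekind domain then so is `K ⊗[R] A`. -/
theorem isDedekindDomain_tensor_of_isDedekindDomain [IsDedekindDomain ↥A'] :
    IsDedekindDomain (K ⊗[R] ↥A) :=
  isDedekindDomain_of_ringEquiv' (tensorRingEquiv A A' hle hden).symm

end Localization

/-! ### the chart -/

section Chart

variable {R K F : Type*} [CommRing R] [IsDomain R] [Field K] [Field F] [Algebra R K] [Algebra K F]
  [Algebra R F] [IsScalarTower R K F] [IsFractionRing R K] (s : F)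

variable (R K) in
omit [IsDomain R] [IsFractionRing R K] in
theorem chart_hle : ∀ x ∈ chart R s, x ∈ chart K s := fun _ hx =>
  chart_le_chart_field (R := R) (K := K) hx

variable (R K) in
theorem chart_hden : ∀ x ∈ chart K s, ∃ r : R, r ≠ 0 ∧ algebraMap R F r * x ∈ chart R s :=
  fun _ hx => exists_smul_mem_chart (R := R) hx

/-- `K ⊗[R] chart R s ≃ₐ[K] chart K s`, `c ⊗ b ↦ c • b`. -/
def tensorChartEquiv : K ⊗[R] ↥(chart R s) ≃ₐ[K] ↥(chart K s) :=
  tensorEquiv (chart R s) (chart K s) (chart_hle R K s) (chart_hden R K s)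

theorem coe_tensorChartEquiv_tmul (c : K) (b : ↥(chart R s)) :
    ((tensorChartEquiv (K := K) s (c ⊗ₜ[R] b) : ↥(chart K s)) : F) = algebraMap K F c * (b : F) :=
  coe_tensorEquiv_tmul _ _ _ _ c b

/-- The natural map `K ⊗[R] chart R s → F`, `c ⊗ b ↦ c • b`. -/
def tensorChartToField : K ⊗[R] ↥(chart R s) →ₐ[K] F :=
  tensorToField (chart R s) (chart K s) (chart_hle R K s) (chart_hden R K s)

theorem tensorChartToField_tmul (c : K) (b : ↥(chart R s)) :
    tensorChartToField (K := K) s (c ⊗ₜ[R] b) = algebraMap K F c * (b : F) :=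
  tensorToField_tmul _ _ _ _ c b

theorem tensorChartToField_injective :
    Function.Injective (tensorChartToField (R := R) (K := K) s) :=
  tensorToField_injective _ _ _ _

/-- **The generic fibre of the chart is a Dedekind domain.** -/
theorem isDedekindDomain_tensor_chart [CharZero K] (htr : Transcendental K s)
    [FiniteDimensional (IntermediateField.adjoin K {s}) F] :
    IsDedekindDomain (K ⊗[R] ↥(chart R s)) := by
  haveI := isDedekindDomain_chart_field htr
  exact isDedekindDomain_tensor_of_isDedekindDomain (chart R s) (chart K s) (chart_hle R K s)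
    (chart_hden R K s)

/-- The generic fibre of the chart is not a field. -/
theorem not_isField_tensor_chart (htr : Transcendental K s) :
    ¬ IsField (K ⊗[R] ↥(chart R s)) := fun h =>
  not_isField_chart_field htr
    ((tensorChartEquiv (R := R) (K := K) s).symm.toMulEquiv.isField h)

/-- the same for any subalgebra equal to the chart (e.g. the `B` of a `ChartHyp`). -/
theorem isDedekindDomain_tensor_of_eq_chart [CharZero K] (htr : Transcendental K s)
    [FiniteDimensional (IntermediateField.adjoin K {s}) F] (B : Subalgebra R F)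
    (hB : B = chart R s) : IsDedekindDomain (K ⊗[R] ↥B) := by
  subst hB
  exact isDedekindDomain_tensor_chart s htr

end Chart

end Fermat.Agent.FFJ.Model.GenericFibre64
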