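/-
FFJ (S19), chapter Model (CURVE), brick C-J (helper17).

**The CURVE deliverable over a Gauss two-chart model.**  `K` a field of characteristic `0`, `O` a
discrete valuation subring with finite residue field, `E ⊂ Frac O((q)) ⊂ K((q))`, `t = q⁻¹·G ∈ E`
(`G(0) ≠ 0`) with transcendental Gauss reduction, and RED's two-chart model
`(t, chart O t, chart O t⁻¹)` over the Gauss valuation ring of `E`.  With `t' = mob t = t/(t-1)`:

* `A0 = chart O t'`, `A1 = chart O t⁻¹`, `A01 = A0[1/t'] = A1[1/s']` (`s' = t'⁻¹ = 1 - t⁻¹`) satisfy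
  `ChartDefR35.CurveHypR O A0 A1 A01 t' s'`;
* the constant term at the cusp `q = 0` is a base point `e : A01 →ₐ[O] O`;
* `E = Frac A01` (BRIDGE's `hfr`).
-/
import Mathlib
import Fermat.Agent.RED.PUR.GaussBridge10
import Fermat.Agent.FFJ.Model.FibreGauss9
import Fermat.Agent.FFJ.Model.GenericFibre64
import Fermat.Agent.FFJ.Model.CurveAsm17
import Fermat.Agent.FFJ.Model.GaussTrans17

set_option autoImplicit false
set_option linter.unusedSectionVars false
set_option linter.style.haveILetI false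

noncomputable section

namespace Fermat.Agent.FFJ.Model.CurveOut17

open Polynomial TensorProduct
open Fermat.Agent.RED.CORE.CoreIface24 Fermat.Agent.RED.PUR.ChartGeneric22
open Fermat.Agent.RED.PUR.GaussGen8
open Fermat.Agent.FFJ.Model.ChartBridge17 Fermat.Agent.FFJ.Model.MobiusModel17
open Fermat.Agent.FFJ.Model.TransLemmas17 Fermat.Agent.FFJ.Model.BasePoint17
open Fermat.Agent.FFJ.Model.CurveAsm17 Fermat.Agent.FFJ.Model.GaussTrans17
open Fermat.Agent.FFJ.Pic.ChartDefR35

universe u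

variable {K : Type u} [Field K] [CharZero K] {O : ValuationSubring K}
  [IsDiscreteValuationRing ↥O] {E : IntermediateField K (LaurentSeries K)}

attribute [local instance] isScalarTower_OE'

/-- The Möbius model and all its side data, from RED's model at `t`. -/
theorem exists_model_mob {π : ↥O} (hπ : Irreducible π) (hu : IsUnif O π) (hE : E ≤ fracField O)
    (t : E) (ht : (t : LaurentSeries K) ∈ gaussRing O)
    (htr : Transcendental (Res O) (gaussRed O ⟨(t : LaurentSeries K), ht⟩))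
    (htrK : Transcendental K t) [FiniteDimensional (IntermediateField.adjoin K {t}) E]
    (hmod : TwoChartModel ↥O K ↥E π t (chart ↥O t) (chart ↥O t⁻¹) (gaussVS hu E hE)) :
    TwoChartModel ↥O K ↥E π (mob t) (chart ↥O (mob t)) (chart ↥O t⁻¹) (gaussVS hu E hE) ∧
      Trans π (gaussVS hu E hE) (mob t) ∧ Trans π (gaussVS hu E hE) (mob t)⁻¹ ∧
      (∃ (r : ℕ) (e : Fin r → ↥E), (∀ i, e i ∈ chart ↥O t⁻¹) ∧
        ∀ x ∈ chart ↥O t⁻¹, ∃ P : Fin r → (↥O)[X], x = ∑ i, aeval (mob t)⁻¹ (P i) * e i) := by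
  have htrans : Trans π (gaussVS hu E hE) t := trans_of_gaussRed hπ hu hE t ht htr
  have hπu : ¬ IsUnit π := hπ.not_isUnit
  have ht0 : t ≠ 0 := ne_zero_of_transcendental htrK
  have h1 : t - 1 ≠ 0 := sub_one_ne_zero' htrK
  have htOv : t ∈ gaussVS hu E hE := hmod.le_Ov0 _ hmod.t_mem
  have hv : (t - 1)⁻¹ ∈ gaussVS hu E hE :=
    (htrans.sub_one).inv_mem hπu (sub_mem htOv (one_mem _)) hmod.unif
  exact ⟨twoChartModel_mob hmod htrK hv, trans_mob htrans hπu htOv,
    trans_mob_inv htrans hπu htOv ht0 h1, fin1_mob htrK ht0⟩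

/-- **CURVE over a Gauss two-chart model.** -/
theorem curveOut [Finite (Res O)] {π : ↥O} (hπ : Irreducible π) (hu : IsUnif O π)
    (hE : E ≤ fracField O) (t : E) (ht : (t : LaurentSeries K) ∈ gaussRing O)
    (htr : Transcendental (Res O) (gaussRed O ⟨(t : LaurentSeries K), ht⟩))
    (htrK : Transcendental K t) [FiniteDimensional (IntermediateField.adjoin K {t}) E]
    (hmod : TwoChartModel ↥O K ↥E π t (chart ↥O t) (chart ↥O t⁻¹) (gaussVS hu E hE))
    (G : PowerSeries K)
    (hG : (t : LaurentSeries K) = HahnSeries.single (-1 : ℤ) (1 : K) * (G : LaurentSeries K))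
    (hG0 : PowerSeries.constantCoeff G ≠ 0) :
    ∃ hM : TwoChartModel ↥O K ↥E π (mob t) (chart ↥O (mob t)) (chart ↥O t⁻¹) (gaussVS hu E hE),
      (letI := algebra0 (B0 := chart ↥O (mob t)) hM.t_mem
       letI := algebra1 hM
       haveI := isScalarTower0 (B0 := chart ↥O (mob t)) hM.t_mem
       haveI := isScalarTower1 hM
       haveI := isLocalization_away0 hM
       haveI := isLocalization_away1 hM
       CurveHypR ↥O ↥(chart ↥O (mob t)) ↥(chart ↥O t⁻¹)
         ↥(overlap (mob t) (chart ↥O (mob t)) hM.t_mem)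
         (⟨mob t, hM.t_mem⟩ : chart ↥O (mob t)) (⟨(mob t)⁻¹, hM.tinv_mem⟩ : chart ↥O t⁻¹)) ∧
      (∃ e : ↥(overlap (mob t) (chart ↥O (mob t)) hM.t_mem) →ₐ[↥O] ↥O,
        ∀ x : ↥(overlap (mob t) (chart ↥O (mob t)) hM.t_mem),
          ((e x : O) : K) = ((x : E) : LaurentSeries K).coeff 0) ∧
      (∀ f : E, ∃ a ∈ overlap (mob t) (chart ↥O (mob t)) hM.t_mem,
        ∃ b ∈ overlap (mob t) (chart ↥O (mob t)) hM.t_mem, b ≠ 0 ∧ f * b = a) := by
  obtain ⟨hM, htr0, htr1, fin1⟩ := exists_model_mob hπ hu hE t ht htr htrK hmod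
  have ht0 : t ≠ 0 := ne_zero_of_transcendental htrK
  have h1 : t - 1 ≠ 0 := sub_one_ne_zero' htrK
  have htrK' : Transcendental K (mob t) := transcendental_mob htrK
  haveI : FiniteDimensional (IntermediateField.adjoin K {mob t}) E := finiteDimensional_mob htrK
  haveI : FiniteDimensional (IntermediateField.adjoin K {t⁻¹}) E := finiteDimensional_inv
  have hK0 : IsDedekindDomain (K ⊗[↥O] ↥(chart ↥O (mob t))) :=
    GenericFibre64.isDedekindDomain_tensor_chart (mob t) htrK'
  have hK1 : IsDedekindDomain (K ⊗[↥O] ↥(chart ↥O t⁻¹)) :=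
    GenericFibre64.isDedekindDomain_tensor_chart t⁻¹ (transcendental_inv htrK)
  have halg : ∀ x : E, IsIntegral K x → ∃ c : K, algebraMap K E c = x := by
    intro x hx
    obtain ⟨c, hc⟩ :=
      Fermat.Agent.RED.PUR.GaussBridge10.exists_algebraMap_eq_of_isAlgebraic E hx.isAlgebraic
    exact ⟨c, hc.symm⟩
  refine ⟨hM, ?_, exists_basePoint_mob hM ht0 h1 G hG hG0, exists_fraction' hM⟩
  exact curveHypR_of_model hM htr0 htr1 fin1 htrK' halg
    (fun L _ _ => FibreGauss9.dedekind0_gauss hu hE hM htr0 hK0 L)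
    (fun L _ _ => FibreGauss9.dedekind1_gauss hu hE hM fin1 htr1 hK1 L)
    (fun L _ _ => FibreGauss9.dedekind01_gauss hu hE hM htr0 hK0 L)

end Fermat.Agent.FFJ.Model.CurveOut17
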