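/-
FFJ (S19), chapter Model (CURVE), brick C-K (helper17).

**The CURVE deliverable at the Hauptmodul `t = tq K n e`.**
* `curveOut_tq` : generic `(O, E)`, `t : E` with `q`-expansion the eta quotient `tq K n e`: the inputs
  `ht`, `htr`, `G`, `hG`, `hG0` of `CurveOut17.curveOut` are discharged (RED's `ModelTargets4` and
  `EtaQuot12`);
* `curveOut_FK` : at `O = AK A K = A ∩ K`, `E = FK M K = K·F_M`, for a number field `K ⊂ ℚ̄` and a
  valuation ring `A` of `ℚ̄` over `ℓ`: from RED's explicit two-chart model (hypothesis `hmod`, the exit of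
  `ES/RED/ModelExplicit26.explicitModelStep_of_targets` / `ModelPointwise87`).
-/
import Mathlib
import Fermat.Agent.RED.ModelTargets4
import Fermat.Agent.RED.DESC.NumberFieldDVR27
import Fermat.Agent.FFJ.Model.CurveOut17

set_option autoImplicit false
set_option linter.unusedSectionVars false
set_option linter.style.haveILetI false

noncomputable section

namespace Fermat.Agent.FFJ.Model.CurveFinal17

open Polynomial TensorProduct
open Fermat.Agent.RED.CORE.CoreIface24 Fermat.Agent.RED.PUR.ChartGeneric22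
open Fermat.Agent.RED.PUR.GaussGen8 Fermat.Agent.RED.BASE.EtaQuot12
open Fermat.Agent.RED.ModelTargets4 Fermat.Agent.RED.Interface4
open Fermat.Agent.FFJ.Model.ChartBridge17 Fermat.Agent.FFJ.Model.MobiusModel17
open Fermat.Agent.FFJ.Model.TransLemmas17 Fermat.Agent.FFJ.Model.BasePoint17
open Fermat.Agent.FFJ.Model.CurveOut17
open Fermat.Agent.FFJ.Pic.ChartDefR35

universe u

section Generic

variable {K : Type u} [Field K] [CharZero K] {O : ValuationSubring K}
  [IsDiscreteValuationRing ↥O] {E : IntermediateField K (LaurentSeries K)}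

attribute [local instance] isScalarTower_OE'

/-- the cusp expansion of the Hauptmodul: `tq = q⁻¹ · tNum`, `tNum(0) = 1`. -/
theorem tq_eq_single_mul (n e : ℕ) [NeZero n] :
    tq K n e = HahnSeries.single (-1 : ℤ) (1 : K) * ((tNum K n e : PowerSeries K) : LaurentSeries K) := by
  rw [tq_eq_laurentOf]
  unfold Fermat.Agent.X0.laurentOf
  simp

/-- **The conclusion of `CurveOut17.curveOut`** (as a definition, so that it can be stated cheaply at
concrete types): the Möbius two-chart model `hM`, `CurveHypR` for its charts, the base point `e`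
(constant term at the cusp `q = 0`) and `E = Frac A01`. -/
def CurveOutStmt {π : ↥O} (hu : IsUnif O π) (hE : E ≤ fracField O) (t : E) : Prop :=
    ∃ hM : TwoChartModel ↥O K ↥E π (mob t) (chart ↥O (mob t)) (chart ↥O t⁻¹) (gaussVS hu E hE),
      (letI := algebra0 (B0 := chart ↥O (mob t)) hM.t_mem
       letI := algebra1 hM
       haveI := isScalarTower0 (B0 := chart ↥O (mob t)) hM.t_mem
       haveI := isScalarTower1 hM
       haveI := isLocalization_away0 hM
       haveI := isLocalization_away1 hM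
       CurveHypR ↥O ↥(chart ↥O (mob t)) ↥(chart ↥O t⁻¹)
         ↥(overlap (mob t) (chart ↥O (mob t)) hM.t_mem)
         (⟨mob t, hM.t_mem⟩ : chart ↥O (mob t)) (⟨(mob t)⁻¹, hM.tinv_mem⟩ : chart ↥O t⁻¹)) ∧
      (∃ e : ↥(overlap (mob t) (chart ↥O (mob t)) hM.t_mem) →ₐ[↥O] ↥O,
        ∀ x : ↥(overlap (mob t) (chart ↥O (mob t)) hM.t_mem),
          ((e x : O) : K) = ((x : E) : LaurentSeries K).coeff 0) ∧
      (∀ f : E, ∃ a ∈ overlap (mob t) (chart ↥O (mob t)) hM.t_mem,
        ∃ b ∈ overlap (mob t) (chart ↥O (mob t)) hM.t_mem, b ≠ 0 ∧ f * b = a)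

theorem curveOutStmt_iff {π : ↥O} (hu : IsUnif O π) (hE : E ≤ fracField O) (t : E) :
    CurveOutStmt hu hE t ↔
      ∃ hM : TwoChartModel ↥O K ↥E π (mob t) (chart ↥O (mob t)) (chart ↥O t⁻¹) (gaussVS hu E hE),
      (letI := algebra0 (B0 := chart ↥O (mob t)) hM.t_mem
       letI := algebra1 hM
       haveI := isScalarTower0 (B0 := chart ↥O (mob t)) hM.t_mem
       haveI := isScalarTower1 hM
       haveI := isLocalization_away0 hM
       haveI := isLocalization_away1 hM
       CurveHypR ↥O ↥(chart ↥O (mob t)) ↥(chart ↥O t⁻¹)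
         ↥(overlap (mob t) (chart ↥O (mob t)) hM.t_mem)
         (⟨mob t, hM.t_mem⟩ : chart ↥O (mob t)) (⟨(mob t)⁻¹, hM.tinv_mem⟩ : chart ↥O t⁻¹)) ∧
      (∃ e : ↥(overlap (mob t) (chart ↥O (mob t)) hM.t_mem) →ₐ[↥O] ↥O,
        ∀ x : ↥(overlap (mob t) (chart ↥O (mob t)) hM.t_mem),
          ((e x : O) : K) = ((x : E) : LaurentSeries K).coeff 0) ∧
      (∀ f : E, ∃ a ∈ overlap (mob t) (chart ↥O (mob t)) hM.t_mem,
        ∃ b ∈ overlap (mob t) (chart ↥O (mob t)) hM.t_mem, b ≠ 0 ∧ f * b = a) := Iff.rfl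

/-- **CURVE at the Hauptmodul**, generic `(O, E)`. -/
theorem curveOut_tq [Finite (Res O)] {π : ↥O} (hπ : Irreducible π) (hu : IsUnif O π)
    (hE : E ≤ fracField O) (n e : ℕ) [NeZero n] (t : E)
    (htq : (t : LaurentSeries K) = tq K n e)
    (htrK : Transcendental K t) [FiniteDimensional (IntermediateField.adjoin K {t}) E]
    (hmod : TwoChartModel ↥O K ↥E π t (chart ↥O t) (chart ↥O t⁻¹) (gaussVS hu E hE)) :
    CurveOutStmt hu hE t := by
  have ht : (t : LaurentSeries K) ∈ gaussRing O := by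
    rw [htq]; exact tq_mem_gaussRing O n e
  have htr : Transcendental (Res O) (gaussRed O ⟨(t : LaurentSeries K), ht⟩) := by
    have h1 : (⟨(t : LaurentSeries K), ht⟩ : ↥(gaussRing O)) =
        ⟨tq K n e, tq_mem_gaussRing O n e⟩ := Subtype.ext htq
    rw [h1]
    exact transcendental_gaussRed_tq O n e
  have hG : (t : LaurentSeries K) =
      HahnSeries.single (-1 : ℤ) (1 : K) * ((tNum K n e : PowerSeries K) : LaurentSeries K) := by
    rw [htq]; exact tq_eq_single_mul n e
  have hG0 : PowerSeries.constantCoeff (tNum K n e) ≠ 0 := by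
    rw [constantCoeff_tNum]; exact one_ne_zero
  exact curveOut hπ hu hE t ht htr htrK hmod (tNum K n e) hG hG0

end Generic

section Concrete

variable {ℓ : ℕ} (A : ValuationSubring Qbar) (K : IntermediateField ℚ Qbar)
  [FiniteDimensional ℚ K] (M : ℕ) [NeZero M]

attribute [local instance 2000] SubalgebraClass.toAlgebra

/-- **CURVE at `(A ∩ K, K·F_M, tq K n e)`** from RED's explicit two-chart model. -/
theorem curveOut_FK (hℓ : ℓ ≠ 0) (hA : A.LiesOverPrime ℓ) [IsDiscreteValuationRing ↥(AK A K)]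
    {ϖ : ↥(AK A K)} (hϖ : Irreducible ϖ) (hu : IsUnif (AK A K) ϖ)
    (n e : ℕ) [NeZero n] (t : ↥(FK M K)) (htq : (t : LaurentSeries K) = tq K n e)
    (htrK : Transcendental K t)
    [FiniteDimensional (IntermediateField.adjoin K {t}) ↥(FK M K)]
    (hmod : TwoChartModel ↥(AK A K) K ↥(FK M K) ϖ t (chart ↥(AK A K) t) (chart ↥(AK A K) t⁻¹)
      (Fermat.Agent.RED.PUR.GaussBridge10.OvK A K M hu)) :
    CurveOutStmt (O := AK A K) (E := FK M K) hu
      (Fermat.Agent.RED.PUR.GaussBridge10.FK_le_fracField A K M) t := by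
  haveI : Finite (Res (AK A K)) :=
    Fermat.Agent.RED.DESC.NumberFieldDVR27.finite_residueField_AK A K hℓ hA
  exact curveOut_tq hϖ hu (Fermat.Agent.RED.PUR.GaussBridge10.FK_le_fracField A K M) n e t htq
    htrK hmod

end Concrete

end Fermat.Agent.FFJ.Model.CurveFinal17
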