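/-
FFJ (S19), chapter Model (CURVE), brick C-L (helper17).

Two facts that follow from a two-chart model alone (so that consumers of `CurveFinal17` need only the
model):
* `finiteDimensional_of_model` : `F` is finite over `K(t)` (`B0` is a finite `R[t]`-module, integral over
  `R[t]`, and `F = Frac B0`);
* `transcendental_of_trans` : if the reduction of `t` is transcendental (`TransLemmas17.Trans`), then `t`
  is transcendental over `K = Frac R`.
-/
import Mathlib
import Fermat.Agent.RED.CORE.CoreIface24
import Fermat.Agent.RED.PUR.ChartGeneric22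
import Fermat.Agent.FFJ.Model.TransLemmas17

set_option autoImplicit false
set_option linter.unusedSectionVars false

noncomputable section

namespace Fermat.Agent.FFJ.Model.ModelFin17

open Polynomial
open Fermat.Agent.RED.CORE.CoreIface24 Fermat.Agent.RED.PUR.ChartGeneric22
open Fermat.Agent.FFJ.Model.TransLemmas17

variable {R K F : Type*} [CommRing R] [Field K] [Field F] [Algebra R K] [Algebra K F]
  [Algebra R F] [IsScalarTower R K F]
variable {π : R} {t : F} {B0 B1 : Subalgebra R F} {Ov : ValuationSubring F}

/-- `R[t] ⊆ K(t)`. -/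
theorem adjoin_le_adjoin_field (t : F) :
    ∀ y ∈ Algebra.adjoin R {t}, y ∈ IntermediateField.adjoin K {t} := by
  have hle : Algebra.adjoin R {t} ≤
      (IntermediateField.adjoin K {t}).toSubalgebra.restrictScalars R := by
    apply Algebra.adjoin_le
    intro y hy
    rw [Set.mem_singleton_iff] at hy
    subst hy
    exact IntermediateField.mem_adjoin_simple_self K y
  exact fun y hy => hle hy

/-- **`F` is finite over `K(t)`** for a two-chart model. -/
theorem finiteDimensional_of_model (h : TwoChartModel R K F π t B0 B1 Ov) :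
    FiniteDimensional (IntermediateField.adjoin K {t}) F := by
  classical
  obtain ⟨r, e, he, hgen⟩ := h.fin0
  have hle := adjoin_le_adjoin_field (R := R) (K := K) t
  -- elements of `B0` are integral over `K(t)`
  have hint : ∀ x ∈ B0, IsIntegral (IntermediateField.adjoin K {t}) x := by
    intro x hx
    have h1 := h.int0 x hx
    rw [isIntegral_subalgebra_iff] at h1
    obtain ⟨P, hP, hcoeff, hPx⟩ := h1
    have hl : P ∈ lifts (algebraMap (IntermediateField.adjoin K {t}) F) := by
      rw [lifts_iff_coeff_lifts]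
      intro n
      exact ⟨⟨P.coeff n, hle _ (hcoeff n)⟩, rfl⟩
    obtain ⟨q, hq, -, hqm⟩ := lifts_and_natDegree_eq_and_monic hl hP
    exact ⟨q, hqm, by rw [← eval_map, hq, hPx]⟩
  -- `F` is generated by the `e i` over `K(t)`
  have hB0 : ∀ y ∈ B0, y ∈ IntermediateField.adjoin (IntermediateField.adjoin K {t}) (Set.range e) := by
    intro y hy
    obtain ⟨P, rfl⟩ := hgen y hy
    refine sum_mem fun i _ => mul_mem ?_ ?_
    · have h2 : aeval t (P i) ∈ IntermediateField.adjoin K {t} :=
        hle _ (aeval_mem_adjoin_singleton R t)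
      exact (IntermediateField.adjoin (IntermediateField.adjoin K {t}) (Set.range e)).algebraMap_mem
        ⟨_, h2⟩
    · exact IntermediateField.subset_adjoin _ _ ⟨i, rfl⟩
  have htop : IntermediateField.adjoin (IntermediateField.adjoin K {t}) (Set.range e) = ⊤ := by
    rw [eq_top_iff]
    intro x _
    obtain ⟨a, ha, b, hb, hb0, hxb⟩ := h.frac0 x
    have hx : x = a * b⁻¹ := by rw [← hxb, mul_assoc, mul_inv_cancel₀ hb0, mul_one]
    rw [hx]
    exact mul_mem (hB0 a ha) (inv_mem (hB0 b hb))
  have hfd : FiniteDimensional (IntermediateField.adjoin K {t})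
      (IntermediateField.adjoin (IntermediateField.adjoin K {t}) (Set.range e)) :=
    IntermediateField.finiteDimensional_adjoin fun x hx => by
      obtain ⟨i, rfl⟩ := hx
      exact hint _ (he i)
  rw [htop] at hfd
  exact (IntermediateField.topEquiv (F := IntermediateField.adjoin K {t})
    (E := F)).toLinearEquiv.finiteDimensional

/-- If the reduction of `t` is transcendental, `t` is transcendental over `K = Frac R`. -/
theorem transcendental_of_trans [IsDomain R] [IsFractionRing R K]
    (dvrR : ∀ r : R, r ≠ 0 → ∃ (k : ℕ) (v : Rˣ), r = π ^ k * v) (hπu : ¬ IsUnit π)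
    (hπF : algebraMap R F π ≠ 0) (htr : Trans π Ov t) : Transcendental K t := by
  classical
  rintro ⟨p, hp0, hpt⟩
  -- clear denominators
  obtain ⟨b, hbM, hb⟩ := IsLocalization.integerNormalization_spec (nonZeroDivisors R) p
  set q : R[X] := IsLocalization.integerNormalization (nonZeroDivisors R) p with hq
  have hq0 : q ≠ 0 := by
    intro h0
    apply hp0
    have h1 : b • p = 0 := by rw [← hb, h0, Polynomial.map_zero]
    have hb0 : b ≠ 0 := nonZeroDivisors.ne_zero hbM
    rw [Algebra.smul_def, Polynomial.algebraMap_apply] at h1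
    rcases mul_eq_zero.1 h1 with h2 | h2
    · exfalso
      apply hb0
      have h3 : algebraMap R K b = 0 := by simpa using h2
      exact (map_eq_zero_iff _ (IsFractionRing.injective R K)).1 h3
    · exact h2
  have hqt : aeval t q = 0 := by
    have h1 : aeval t (q.map (algebraMap R K)) = 0 := by
      rw [hb, Algebra.smul_def, map_mul, hpt, mul_zero]
    rwa [aeval_map_algebraMap] at h1
  -- `C π` divides `q` infinitely often: contradiction with `q ≠ 0`
  have hπ0 : π ≠ 0 := fun h0 => hπF (by rw [h0, map_zero])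
  have key : ∀ n : ℕ, ∀ q' : R[X], q' ≠ 0 → aeval t q' = 0 → q'.natDegree = q'.natDegree →
      ∃ q'' : R[X], q'' ≠ 0 ∧ aeval t q'' = 0 ∧ q' = C π ^ n * q'' := by
    intro n
    induction n with
    | zero => intro q' hq' hq't _; exact ⟨q', hq', hq't, by simp⟩
    | succ n ih =>
      intro q' hq' hq't hd
      obtain ⟨q'', hq''0, hq''t, hq''⟩ := ih q' hq' hq't hd
      obtain ⟨q3, hq3⟩ := htr q'' ⟨0, zero_mem _, by rw [hq''t, mul_zero]⟩
      have hq30 : q3 ≠ 0 := by
        rintro rfl
        exact hq''0 (by rw [hq3, mul_zero])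
      have hq3t : aeval t q3 = 0 := by
        have h1 : aeval t q'' = algebraMap R F π * aeval t q3 := by
          rw [hq3, map_mul, aeval_C]
        rw [hq''t] at h1
        exact (mul_eq_zero.1 h1.symm).resolve_left hπF
      exact ⟨q3, hq30, hq3t, by rw [hq'', hq3, pow_succ]; ring⟩
  -- pick a nonzero coefficient and bound its `π`-adic valuation
  obtain ⟨i, hi⟩ : ∃ i, q.coeff i ≠ 0 := by
    by_contra hcon
    push Not at hcon
    exact hq0 (Polynomial.ext fun i => by rw [hcon i, coeff_zero])
  obtain ⟨k, v, hkv⟩ := dvrR _ hi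
  obtain ⟨q'', -, -, hq''⟩ := key (k + 1) q hq0 hqt rfl
  have h1 : π ^ (k + 1) ∣ q.coeff i := by
    rw [hq'', ← C_pow, coeff_C_mul]
    exact dvd_mul_right _ _
  rw [hkv] at h1
  obtain ⟨w, hw⟩ := h1
  have h2 : π ^ k * ((v : R) - π * w) = 0 := by
    rw [mul_sub, hw, pow_succ]; ring
  have h3 : (v : R) - π * w = 0 := (mul_eq_zero.1 h2).resolve_left (pow_ne_zero k hπ0)
  have h4 : π * (w * ((v⁻¹ : Rˣ) : R)) = 1 := by
    have : (v : R) = π * w := sub_eq_zero.1 h3
    calc π * (w * ((v⁻¹ : Rˣ) : R)) = (π * w) * ((v⁻¹ : Rˣ) : R) := by ring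
      _ = (v : R) * ((v⁻¹ : Rˣ) : R) := by rw [this]
      _ = 1 := by simp
  exact hπu (IsUnit.of_mul_eq_one _ h4)

end Fermat.Agent.FFJ.Model.ModelFin17
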