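/-
FFJ (S19), chapter Model (CURVE), brick C-M (helper17).

**CURVE from the two-chart model alone**: `CurveFinal17.curveOut_tq` / `curveOut_FK` with the side
hypotheses `Transcendental K t` and `FiniteDimensional K(t) E` derived from the model
(`ModelFin17`).  The only input is RED's explicit two-chart model `hmod` at the Hauptmodul.
-/
import Mathlib
import Fermat.Agent.FFJ.Model.ModelFin17
import Fermat.Agent.FFJ.Model.CurveFinal17

set_option autoImplicit false
set_option linter.unusedSectionVars false
set_option linter.style.haveILetI false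

noncomputable section

namespace Fermat.Agent.FFJ.Model.CurveMin17

open Polynomial TensorProduct
open Fermat.Agent.RED.CORE.CoreIface24 Fermat.Agent.RED.PUR.ChartGeneric22
open Fermat.Agent.RED.PUR.GaussGen8 Fermat.Agent.RED.BASE.EtaQuot12
open Fermat.Agent.RED.ModelTargets4 Fermat.Agent.RED.Interface4
open Fermat.Agent.FFJ.Model.TransLemmas17 Fermat.Agent.FFJ.Model.BasePoint17
open Fermat.Agent.FFJ.Model.GaussTrans17 Fermat.Agent.FFJ.Model.ModelFin17
open Fermat.Agent.FFJ.Model.CurveFinal17

universe u

section Generic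

variable {K : Type u} [Field K] [CharZero K] {O : ValuationSubring K}
  [IsDiscreteValuationRing ↥O] {E : IntermediateField K (LaurentSeries K)}

attribute [local instance] isScalarTower_OE'

/-- `t` (with `q`-expansion `tq`) is transcendental over `K`, from the model. -/
theorem transcendental_tq {π : ↥O} (hπ : Irreducible π) (hu : IsUnif O π)
    (hE : E ≤ fracField O) (n e : ℕ) [NeZero n] (t : E)
    (htq : (t : LaurentSeries K) = tq K n e)
    (hmod : TwoChartModel ↥O K ↥E π t (chart ↥O t) (chart ↥O t⁻¹) (gaussVS hu E hE)) :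
    Transcendental K t := by
  have ht : (t : LaurentSeries K) ∈ gaussRing O := by
    rw [htq]; exact tq_mem_gaussRing O n e
  have htr : Transcendental (Res O) (gaussRed O ⟨(t : LaurentSeries K), ht⟩) := by
    have h1 : (⟨(t : LaurentSeries K), ht⟩ : ↥(gaussRing O)) =
        ⟨tq K n e, tq_mem_gaussRing O n e⟩ := Subtype.ext htq
    rw [h1]
    exact transcendental_gaussRed_tq O n e
  have htrans : Trans π (gaussVS hu E hE) t := trans_of_gaussRed hπ hu hE t ht htr
  exact transcendental_of_trans hmod.dvrR hπ.not_isUnit hmod.pi_ne htrans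

/-- **CURVE at the Hauptmodul from the model alone**, generic `(O, E)`. -/
theorem curveOut_tq_of_model [Finite (Res O)] {π : ↥O} (hπ : Irreducible π) (hu : IsUnif O π)
    (hE : E ≤ fracField O) (n e : ℕ) [NeZero n] (t : E)
    (htq : (t : LaurentSeries K) = tq K n e)
    (hmod : TwoChartModel ↥O K ↥E π t (chart ↥O t) (chart ↥O t⁻¹) (gaussVS hu E hE)) :
    CurveOutStmt hu hE t := by
  have htrK : Transcendental K t := transcendental_tq hπ hu hE n e t htq hmod
  haveI : FiniteDimensional (IntermediateField.adjoin K {t}) E := finiteDimensional_of_model hmod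
  exact curveOut_tq hπ hu hE n e t htq htrK hmod

end Generic

section Concrete

variable {ℓ : ℕ} (A : ValuationSubring Qbar) (K : IntermediateField ℚ Qbar)
  [FiniteDimensional ℚ K] (M : ℕ) [NeZero M]

attribute [local instance 2000] SubalgebraClass.toAlgebra

/-- **CURVE at `(A ∩ K, K·F_M, tq K n e)` from RED's explicit two-chart model alone.** -/
theorem curveOut_FK_of_model (hℓ : ℓ ≠ 0) (hA : A.LiesOverPrime ℓ)
    {ϖ : ↥(AK A K)} (hϖ : Irreducible ϖ) (hu : IsUnif (AK A K) ϖ)
    (n e : ℕ) [NeZero n] (t : ↥(FK M K)) (htq : (t : LaurentSeries K) = tq K n e)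
    (hmod : TwoChartModel ↥(AK A K) K ↥(FK M K) ϖ t (chart ↥(AK A K) t) (chart ↥(AK A K) t⁻¹)
      (Fermat.Agent.RED.PUR.GaussBridge10.OvK A K M hu)) :
    haveI := Fermat.Agent.RED.DESC.NumberFieldDVR27.isDiscreteValuationRing_AK A K hℓ hA
    CurveOutStmt (O := AK A K) (E := FK M K) hu
      (Fermat.Agent.RED.PUR.GaussBridge10.FK_le_fracField A K M) t := by
  haveI := Fermat.Agent.RED.DESC.NumberFieldDVR27.isDiscreteValuationRing_AK A K hℓ hA
  haveI : Finite (Res (AK A K)) :=
    Fermat.Agent.RED.DESC.NumberFieldDVR27.finite_residueField_AK A K hℓ hA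
  exact curveOut_tq_of_model hϖ hu (Fermat.Agent.RED.PUR.GaussBridge10.FK_le_fracField A K M) n e t
    htq hmod

end Concrete

end Fermat.Agent.FFJ.Model.CurveMin17
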