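/-
Programme FFJ (S19), chapter CURVE, brick C-F (F2) — helper87.

**The field of the cusp values is normal and unramified above `ℓ ∤ M`.**

`RED` proves the two-chart model of `K·F_M` over `A ∩ K` for the number fields `K` which contain the
finite cusp values of the Hauptmodul `t = tq n e` and `ζ_M`.  Here:

* `cuspValue_map` : the set of finite cusp values is stable under `Gal(ℚ̄/ℚ)` (Galois acts on the
  places of `ℚ̄·F_M`, fixing `t` and `j`; a finite cusp value is the value of `t` at a pole of `j`);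
* `exists_cuspField` : `K₀ := ℚ(ζ_M, cusp values)` is a finite, `G_ℚ`-stable extension of `ℚ`,
  unramified above every prime `ℓ ∤ M` (`Spec78.UnramAt`): the cusp values are integral away from
  `n` and pairwise separated (`MainCusp12.CuspExports.separated`), so the monic polynomial
  `∏ (X - c) ∈ ℚ[X]` has unit discriminant at `ℓ` (`UnramRoots92.unramAt_adjoin_roots`).
-/
import Mathlib
import Fermat.Agent.RED.BASE.CuspFinite12
import Fermat.Agent.RED.PUR.HorizUnram20
import Fermat.Agent.RED.NumInst4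
import Fermat.Agent.FFJ.Alg.UnramPlace92
import Fermat.Prelude.Def_ModularCurve_ArithmeticGalois

set_option autoImplicit false
set_option linter.unusedSectionVars false
set_option linter.unusedVariables false
set_option linter.style.haveILetI false

open ModularCurve AlgebraicCurve Polynomial
open scoped MatrixGroups

noncomputable section

namespace Fermat.Agent.FFJ.Model.CuspField87

open Fermat.Agent.X0 Fermat.Agent.RED.BASE.Interface12 Fermat.Agent.RED.BASE.EtaQuot12
open Fermat.Agent.RED.BASE.MainCusp12 Fermat.Agent.RED.BASE.Hauptmodul12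
open Fermat.Agent.RED.CUSP.CuspExact16 Fermat.Agent.RED.CUSP.CuspFibre14
open Fermat.Agent.FFJ.Alg.Spec78 Fermat.Agent.FFJ.Alg

variable {n e : ℕ} [NeZero n] {M : ℕ} [NeZero M]

/-- `ℚ̄` is an algebraic closure of `ℚ` for the `ℚ`-algebra structure found by instance search. -/
theorem isAlgClosure_Kbar : IsAlgClosure ℚ Kbar := by
  have h : (DivisionRing.toRatAlgebra : Algebra ℚ Kbar) = AlgebraicClosure.instAlgebra ℚ :=
    Subsingleton.elim _ _
  rw [h]
  infer_instance

theorem isGalois_Kbar : IsGalois ℚ Kbar :=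
  haveI := isAlgClosure_Kbar
  IsAlgClosure.isGalois ℚ Kbar

theorem isIntegral_Kbar (x : Kbar) : IsIntegral ℚ x := by
  haveI := isAlgClosure_Kbar
  haveI : Algebra.IsAlgebraic ℚ Kbar := IsAlgClosure.isAlgebraic
  exact (Algebra.IsAlgebraic.isAlgebraic x).isIntegral

/-- the Hauptmodul is fixed by the arithmetic Galois action. -/
theorem smul_tF (h : TMem n e M) (σ : Kbar ≃ₐ[ℚ] Kbar) :
    arithmeticGalois (modularFunctionFieldFull M) σ • tF M h = tF M h := by
  apply Subtype.ext
  rw [coe_arithmeticGalois_smul]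
  exact coeffMap_tq Kbar (σ : Kbar →+* Kbar) n e

/-- the formal `j` is fixed by the arithmetic Galois action. -/
theorem smul_jF (σ : Kbar ≃ₐ[ℚ] Kbar) :
    arithmeticGalois (modularFunctionFieldFull M) σ • jF M = jF M := by
  apply Subtype.ext
  rw [coe_arithmeticGalois_smul]
  exact coeffMap_coeffEmb σ _

/-- **The finite cusp values are stable under `Gal(ℚ̄/ℚ)`.** -/
theorem cuspValue_map {cv : SL(2, ℤ) → Option Kbar} (hcv : CuspExports n e M cv)
    (σ : Kbar ≃ₐ[ℚ] Kbar) {γ : SL(2, ℤ)} {c : Kbar} (hγ : cv γ = some c) :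
    ∃ γ' : SL(2, ℤ), cv γ' = some (σ c) := by
  obtain ⟨h, hC⟩ := id hcv.cuspExp
  set g := arithmeticGalois (modularFunctionFieldFull M) σ with hg
  set v : Place Kbar (FF M) := placeOf M γ with hv
  have hpos : 0 < v.ord (tF M h - algebraMap Kbar (FF M) c) :=
    placeOf_ord_sub_pos cv hcv.cuspExp h γ c hγ
  have hj : v.ord (jF M) < 0 := by
    have h1 := neg_ord_jF_eq M γ
    have h2 : (0 : ℤ) < cuspW M γ := by exact_mod_cast cuspW_pos M γ
    rw [hv]
    omega
  have hsm : g • (tF M h - algebraMap Kbar (FF M) c) =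
      tF M h - algebraMap Kbar (FF M) (σ c) := by
    rw [smul_sub, hg, smul_tF h σ, SemilinearAut.smul_algebraMap]
    rfl
  have h1 : (g • v).ord (tF M h - algebraMap Kbar (FF M) (σ c)) =
      v.ord (tF M h - algebraMap Kbar (FF M) c) := by
    rw [← hsm]
    exact SemilinearAut.ord_smul g v _
  have h2 : (g • v).ord (jF M) = v.ord (jF M) := by
    have := SemilinearAut.ord_smul g v (jF M)
    rwa [hg, smul_jF σ] at this
  exact Fermat.Agent.RED.PUR.HorizUnram20.exists_cv_eq_of_ord_jF_neg n e M cv h hC (g • v)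
    (by rw [h2]; exact hj) (σ c) (by rw [h1]; exact hpos)

/-- the finite set of the finite cusp values. -/
theorem exists_finset_eq {cv : SL(2, ℤ) → Option Kbar} (hcv : CuspExports n e M cv) :
    ∃ S : Finset Kbar, ∀ c : Kbar, c ∈ S ↔ ∃ γ : SL(2, ℤ), cv γ = some c := by
  classical
  obtain ⟨S₀, hS₀⟩ := Fermat.Agent.RED.BASE.CuspFinite12.exists_finset_cuspValues cv hcv.cuspExp
  refine ⟨S₀.filter fun c => ∃ γ : SL(2, ℤ), cv γ = some c, fun c => ?_⟩
  rw [Finset.mem_filter]
  exact ⟨fun h => h.2, fun ⟨γ, hγ⟩ => ⟨hS₀ γ c hγ, γ, hγ⟩⟩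

/-- a `G_ℚ`-stable finite set has its characteristic polynomial over `ℚ`. -/
theorem coeff_prod_mem_bot (S : Finset Kbar) (hS : ∀ σ : Kbar ≃ₐ[ℚ] Kbar, ∀ c ∈ S, σ c ∈ S)
    (i : ℕ) : (∏ c ∈ S, (X - C c)).coeff i ∈ (⊥ : IntermediateField ℚ Kbar) := by
  classical
  haveI : IsGalois ℚ Kbar := isGalois_Kbar
  rw [InfiniteGalois.mem_bot_iff_fixed]
  intro σ
  have hmap : (∏ c ∈ S, (X - C c)).map (σ : Kbar →+* Kbar) = ∏ c ∈ S, (X - C c) := by
    rw [Polynomial.map_prod]
    have hinj : Set.InjOn (fun c => σ c) (S : Set Kbar) := fun a _ b _ hab => σ.injective hab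
    have himg : S.image (fun c => σ c) = S := by
      apply Finset.eq_of_subset_of_card_le
      · intro x hx
        rw [Finset.mem_image] at hx
        obtain ⟨c, hc, rfl⟩ := hx
        exact hS σ c hc
      · rw [Finset.card_image_of_injOn hinj]
    calc ∏ c ∈ S, (X - C c).map (σ : Kbar →+* Kbar)
        = ∏ c ∈ S, (X - C (σ c)) := by
          refine Finset.prod_congr rfl fun c _ => ?_
          rw [Polynomial.map_sub, Polynomial.map_X, Polynomial.map_C]
          rfl
      _ = ∏ c ∈ S.image (fun c => σ c), (X - C c) := (Finset.prod_image (f := fun c : Kbar => (X - C c : Polynomial Kbar)) hinj).symm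
      _ = ∏ c ∈ S, (X - C c) := by rw [himg]
  have := congrArg (fun p => p.coeff i) hmap
  simpa [Polynomial.coeff_map] using this

/-- **The field of the cusp values and of `ζ_M`**: finite, `G_ℚ`-stable, unramified above
`ℓ ∤ M`. -/
theorem exists_cuspField (hnM : n ∣ M) {ℓ : ℕ} (hℓ : ℓ.Prime) (hℓM : ¬ ℓ ∣ M)
    {cv : SL(2, ℤ) → Option Kbar} (hcv : CuspExports n e M cv) :
    ∃ K₀ : IntermediateField ℚ Qbar, FiniteDimensional ℚ K₀ ∧ UnramAt ℓ K₀ ∧
      (∀ (σ : Qbar ≃ₐ[ℚ] Qbar) (x : Qbar), x ∈ K₀ → σ x ∈ K₀) ∧ zetaK M ∈ K₀ ∧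
      ∀ (γ : SL(2, ℤ)) (c : Kbar), cv γ = some c → c ∈ K₀ := by
  classical
  obtain ⟨S, hS⟩ := exists_finset_eq hcv
  obtain ⟨h, hC⟩ := id hcv.cuspExp
  have hn0 : n ≠ 0 := NeZero.ne n
  have hℓn : ¬ ℓ ∣ n := fun hd => hℓM (hd.trans hnM)
  have hstab : ∀ σ : Qbar ≃ₐ[ℚ] Qbar, ∀ c ∈ S, σ c ∈ S := by
    intro σ c hc
    obtain ⟨γ, hγ⟩ := (hS c).mp hc
    exact (hS _).mpr (cuspValue_map hcv σ hγ)
  -- integrality and separation at `ℓ`
  have hint : ∀ c ∈ S, IntegralAt ℓ c := by
    intro c hc A hA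
    obtain ⟨γ, hγ⟩ := (hS c).mp hc
    have hnA : ((n : Qbar))⁻¹ ∈ A := Fermat.Agent.RED.NumInst4.inv_natCast_mem hℓ hA n hℓn
    have hshape := hC γ
    rw [hγ] at hshape
    obtain ⟨a, lam, V, -, -, -, -, hm⟩ := hshape
    exact hm.1.mem_of_inv_mem A hnA hn0
  have hsep : ∀ c ∈ S, ∀ c' ∈ S, c ≠ c' → IntegralAt ℓ (c - c')⁻¹ := by
    intro c hc c' hc' hne A hA
    obtain ⟨γ, hγ⟩ := (hS c).mp hc
    obtain ⟨γ', hγ'⟩ := (hS c').mp hc'
    have hnA : ((n : Qbar))⁻¹ ∈ A := Fermat.Agent.RED.NumInst4.inv_natCast_mem hℓ hA n hℓn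
    rcases hcv.separated γ γ' c c' hγ hγ' with heq | hu
    · exact absurd heq hne
    · exact (hu.inv_mem_of_inv_mem A hnA hn0).2
  have hunrS : UnramAt ℓ ((⊥ : IntermediateField ℚ Qbar) ⊔
      IntermediateField.adjoin ℚ (S : Set Qbar)) :=
    UnramRoots92.unramAt_adjoin_roots (Unram92.unramBot ℓ) S hint
      (coeff_prod_mem_bot S hstab) hsep
  rw [bot_sup_eq] at hunrS
  have hζpow : zetaK M ^ M = 1 := zetaK_pow_self M
  have hunrζ : UnramAt ℓ (IntermediateField.adjoin ℚ {zetaK M}) :=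
    Unram92.unramRootOfUnity ℓ hℓ M hℓM (zetaK M) hζpow
  refine ⟨IntermediateField.adjoin ℚ {zetaK M} ⊔ IntermediateField.adjoin ℚ (S : Set Qbar),
    ?_, Unram92.unramSup ℓ _ _ hunrζ hunrS, ?_, ?_, ?_⟩
  · have hint' : ∀ x : Qbar, IsIntegral ℚ x := fun x => isIntegral_Kbar x
    haveI : FiniteDimensional ℚ (IntermediateField.adjoin ℚ {zetaK M}) :=
      IntermediateField.adjoin.finiteDimensional (hint' (zetaK M))
    haveI : FiniteDimensional ℚ (IntermediateField.adjoin ℚ (S : Set Qbar)) :=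
      IntermediateField.finiteDimensional_adjoin fun x _ => hint' x
    exact IntermediateField.finiteDimensional_sup _ _
  · refine UnramPlace92.stable_sup ?_ ?_
    · intro σ x hx
      have hle : (IntermediateField.adjoin ℚ {zetaK M}).map (σ : Qbar →ₐ[ℚ] Qbar) ≤
          IntermediateField.adjoin ℚ {zetaK M} := by
        rw [IntermediateField.adjoin_map, Set.image_singleton,
          IntermediateField.adjoin_simple_le_iff]
        have hσ : (σ (zetaK M)) ^ M = 1 := by rw [← map_pow, hζpow, map_one]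
        obtain ⟨k, -, hk⟩ := (isPrimitiveRoot_zetaK M).eq_pow_of_pow_eq_one hσ
        show σ (zetaK M) ∈ IntermediateField.adjoin ℚ {zetaK M}
        rw [← hk]
        exact pow_mem (IntermediateField.mem_adjoin_simple_self ℚ _) k
      exact hle ((IntermediateField.mem_map _).mpr ⟨x, hx, rfl⟩)
    · exact UnramPlace92.stable_adjoin (T := (S : Set Qbar)) fun σ x hx => hstab σ x hx
  · exact (le_sup_left : IntermediateField.adjoin ℚ {zetaK M} ≤ _)
      (IntermediateField.mem_adjoin_simple_self ℚ _)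
  · intro γ c hγ
    exact (le_sup_right : IntermediateField.adjoin ℚ (S : Set Qbar) ≤ _)
      (IntermediateField.subset_adjoin ℚ _ ((hS c).mpr ⟨γ, hγ⟩))

end Fermat.Agent.FFJ.Model.CuspField87
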