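/-
Programme FFJ (S19), chapter CURVE, brick C-F (F3a) — helper87.

**Pointwise form of `HorizConcrete26.hH_all`.**  The three horizontal inputs of the RED assembly at
ONE number field `K` which contains the finite cusp values (`hS`), instead of "for all `K` containing
an existential `K₀`".  Same proof, same imports and header as `RED/CUSP/HorizConcrete26`.
-/
import Mathlib
import Fermat.Agent.RED.CUSP.HorizConcrete26

set_option autoImplicit false
set_option linter.unusedSectionVars false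
set_option linter.unusedVariables false
set_option linter.style.haveILetI false

open UpperHalfPlane hiding I
open scoped MatrixGroups IntermediateField
open Polynomial

noncomputable section

namespace Fermat.Agent.FFJ.Model.HorizPointwise87

open Fermat.Agent.X0 Fermat.Agent.X0.FF AlgebraicCurve
open Fermat.Agent.RED.Interface4 Fermat.Agent.RED.ModelTargets4
open Fermat.Agent.RED.BASE Fermat.Agent.RED.BASE.Interface12 Fermat.Agent.RED.BASE.EtaQuot12
open Fermat.Agent.RED.BASE.Hauptmodul12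
open Fermat.Agent.RED.CUSP.PolyToPS16 Fermat.Agent.RED.CUSP.CuspIface23
open Fermat.Agent.RED.CUSP.HunrGeneric26
open Fermat.Agent.RED.PUR.OffIface4
open Fermat.Agent.RED.DESC.PlaceExtend27 Fermat.Agent.RED.DESC.NumberFieldDVR27
open Fermat.Agent.RED.NumInst4
open Fermat.Agent.RED.CUSP.HorizConcrete26

variable {n e : ℕ} [NeZero n] {M : ℕ} [NeZero M] {A : ValuationSubring Qbar}

/-- **The three horizontal inputs at ONE number field `K`** containing the finite cusp values
(pointwise form of `HorizConcrete26.hH_all`). -/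
theorem hH_all_pointwise (hb : BaseHyp n e) (hnM : n ∣ M) {ℓ : ℕ} [Fact ℓ.Prime] (hℓM : ¬ ℓ ∣ M)
    (hA : A.LiesOverPrime ℓ) (cv : SL(2, ℤ) → Option Kbar)
    (hcv : MainCusp12.CuspExports n e M cv)
    (K : IntermediateField ℚ Qbar) (hKfd : FiniteDimensional ℚ K)
    (hS : ∀ γ c, cv γ = some c → c ∈ K)
    (ϖ : ↥(AK A K)) (hϖ : Irreducible ϖ) (t : ↥(FK M K))
    (htq : (t : LaurentSeries K) = tq K n e) :
    HUNROff (AK A K) (FK M K) ϖ t (cuspSet A K cv) ∧
      (∀ c ∈ cuspSet A K cv, HUNRCusp (AK A K) (FK M K) ϖ t c) ∧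
      HUNRCusp (AK A K) (FK M K) ϖ t⁻¹ 0 := by
  classical
  have hℓ : ℓ.Prime := Fact.out
  have hB := Main12.baseExports hb M hnM
  have hdvr : IsDiscreteValuationRing ↥(AK A K) := isDiscreteValuationRing_AK A K hℓ.ne_zero hA
  have hn0 : n ≠ 0 := NeZero.ne n
  have hℓn : ¬ ℓ ∣ n := fun h => hℓM (h.trans hnM)
  have hnA : ((n : Qbar))⁻¹ ∈ A := inv_natCast_mem hℓ hA n hℓn
  have h : TMem n e M := hB.mem
  obtain ⟨_, hU⟩ := hB.unbranched
  obtain ⟨_, hC⟩ := hcv.cuspExp
  have hconst : ∀ c : Kbar, tF M h ≠ algebraMap Kbar (FF M) c := tF_ne_const h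
  have hcvA : ∀ γ c, cv γ = some c → ∃ a : ↥(AK A K), algebraMap ↥K Kbar (a : ↥K) = c := by
    intro γ c hγ
    have hcK : c ∈ K := hS γ c hγ
    have hcA : c ∈ A := (isIntAway_of_cv cv h hC γ c hγ).mem_of_inv_mem A hnA hn0
    exact ⟨⟨⟨c, hcK⟩, (mem_AK_iff A K _).mpr hcA⟩, rfl⟩
  have hbc : ∀ a : ↥K, baseChangeHom M K (algebraMap ↥K ↥(FK M K) a) =
      algebraMap Kbar (FF M) (algebraMap ↥K Kbar a) := fun a => baseChangeHom_algebraMap M K a
  have ht : baseChangeHom M K t = tF M h :=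
    Fermat.Agent.RED.CUSP.RankConcrete16.baseChangeHom_eq_tF M K h t htq
  have hExt : ∀ w : Place ↥K ↥(FK M K), ∃ (v : Place Kbar (FF M)) (d : ℕ), 0 < d ∧
      ∀ f : ↥(FK M K), v.ord (baseChangeHom M K f) = (d : ℤ) * w.ord f :=
    fun w => exists_place_above M K w
  have hπ0 : ϖ ≠ 0 := hϖ.ne_zero
  haveI : Algebra.IsAlgebraic ↥K Kbar := isAlgebraic_Qbar_over K
  have hK : ∀ a : ↥K, ∃ (r : ↥(AK A K)) (k : ℕ), a * (ϖ : ↥K) ^ k = (r : ↥K) :=
    hK_of_irreducible (AK A K) hϖ
  refine ⟨?_, ?_, ?_⟩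
  · exact hunrOff_of_horiz n e M cv h hU hC hconst hcvA (baseChangeHom M K) hbc t ht hExt ϖ hπ0 hK
      (cuspSet A K cv) (fun a ha => ha)
  · intro c hc
    exact hunrCusp_of_horiz n e M cv h hU hC hconst hcvA (baseChangeHom M K) hbc t ht hExt ϖ hπ0 hK
      c (fun a ha => Fermat.Agent.RED.CUSP.CuspSide23.hP_over A hn0 hnA cv hcv.separated hϖ hc a ha)
  · exact hunrCusp_inv_of_horiz n e M cv h hU hC hconst hcvA (baseChangeHom M K) hbc t ht hExt ϖ
      hπ0 hϖ.not_isUnit hK

end Fermat.Agent.FFJ.Model.HorizPointwise87
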