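/-
Programme FFJ (S19), chapter CURVE, brick C-F (F3b) — helper87.

**The EXPLICIT two-chart model, generic form.**  `ModelIface4.hasModel_of_split` /
`ModelAsm4.hasModel_of_g1` produce `NumInst4.HasModel O E`, which hides the parameter `t`, the charts
and the side facts behind existentials.  Here the same term is exported with everything visible:

`ExplicitModelAt O E π t` :
  `π` is a uniformiser of `O`, `E ≤ Frac O((q))`, `t ∈ gaussRing O` with transcendental residue,
  `t` is transcendental over `K`, `[E : K(t)] < ∞`, and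
  `TwoChartModel O K E π t (chart O t) (chart O t⁻¹) (gaussVS hU E hE)`.

(As in `NumInst4`, the wrapper is a generic definition because typeclass search at the concrete
number-field types `↥(AK A K)`, `↥(FK M K)` is slow: concrete statements should only mention
`ExplicitModelAt (AK A K) (FK M K) ϖ t`, and consumers should destructure it with
`ExplicitModelAt.out` inside a GENERIC lemma.)
-/
import Mathlib
import Fermat.Agent.RED.ModelIface4

set_option autoImplicit false
set_option linter.unusedSectionVars false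
set_option linter.unusedVariables false
set_option linter.style.haveILetI false

open HahnSeries ModularCurve IntermediateField Polynomial

noncomputable section

namespace Fermat.Agent.FFJ.Model.ModelGeneric87

open Fermat.Agent.RED.CORE.CoreIface24 Fermat.Agent.RED.PUR.GaussGen8
  Fermat.Agent.RED.PUR.KtGauss8 Fermat.Agent.RED.PUR.G1Package8
  Fermat.Agent.RED.PUR.ChartGeneric22 Fermat.Agent.RED.NumInst4
  Fermat.Agent.RED.ModelAsm4 Fermat.Agent.RED.ModelIface4 Fermat.Agent.RED.ChartTransfer3

section Defs

variable {K : Type*} [Field K] (O : ValuationSubring K)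
  (E : IntermediateField K (LaurentSeries K))

/-- **The explicit two-chart model** of `E` over `O` with parameter `t` and uniformiser `π`:
charts `chart O t`, `chart O t⁻¹` (integral closures of `O[t]`, `O[t⁻¹]` in `E`), valuation ring the
Gauss valuation ring `gaussVS`. -/
def ExplicitModelAt (π : ↥O) (t : ↥E) : Prop :=
  ∃ (hU : IsUnif O π) (hE : E ≤ fracField O) (ht : (t : LaurentSeries K) ∈ gaussRing O),
    Transcendental (Res O) (gaussRed O ⟨(t : LaurentSeries K), ht⟩) ∧
    Transcendental K t ∧
    FiniteDimensional ↥(IntermediateField.adjoin K {t}) ↥E ∧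
    TwoChartModel ↥O K ↥E π t (chart ↥O t) (chart ↥O t⁻¹) (gaussVS hU E hE)

variable {O E}

/-- Unfolding of `ExplicitModelAt` (use inside generic lemmas). -/
theorem ExplicitModelAt.out {π : ↥O} {t : ↥E} (h : ExplicitModelAt O E π t) :
    ∃ (hU : IsUnif O π) (hE : E ≤ fracField O) (ht : (t : LaurentSeries K) ∈ gaussRing O),
      Transcendental (Res O) (gaussRed O ⟨(t : LaurentSeries K), ht⟩) ∧
      Transcendental K t ∧
      FiniteDimensional ↥(IntermediateField.adjoin K {t}) ↥E ∧
      TwoChartModel ↥O K ↥E π t (chart ↥O t) (chart ↥O t⁻¹) (gaussVS hU E hE) := h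

/-- The explicit model is a model in the sense of `NumInst4.HasModel`. -/
theorem ExplicitModelAt.hasModel {π : ↥O} {t : ↥E} (h : ExplicitModelAt O E π t) :
    HasModel O E := by
  obtain ⟨hU, hE, ht, -, -, -, hm⟩ := h
  exact ⟨π, hU, hE, t, chart ↥O t, chart ↥O t⁻¹, hm⟩

end Defs

section Assembly

variable {K : Type*} [Field K] [CharZero K] {O : ValuationSubring K} [IsDiscreteValuationRing ↥O]
  {E : IntermediateField K (LaurentSeries K)}

/-- **Explicit MODEL, generic assembly** (explicit form of `ModelAsm4.hasModel_of_g1`). -/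
theorem explicitModelAt_of_g1 {π : ↥O} (hπ : Irreducible π) (hE : E ≤ fracField O) (t : ↥E)
    (ht : (t : LaurentSeries K) ∈ gaussRing O)
    (htr : Transcendental (Res O) (gaussRed O ⟨(t : LaurentSeries K), ht⟩))
    {n : ℕ} (hn : relfinrank (Kt O ⟨(t : LaurentSeries K), ht⟩) E ≠ 0)
    (hdeg : DegLe O E ⟨(t : LaurentSeries K), ht⟩ n)
    (hirr : Irr O E ⟨(t : LaurentSeries K), ht⟩ n)
    (hsm0 : SmoothChart O E π t) (hsm1 : SmoothChart O E π t⁻¹) :
    ExplicitModelAt O E π t := by
  have : IsScalarTower ↥O K ↥E := isScalarTower_OE O E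
  have hfd : FiniteDimensional ↥(IntermediateField.adjoin K {t}) ↥E := finiteDimensional_adjoin t hn
  have htrK : Transcendental K t :=
    transcendental_of_coe t (transcendental_t (tG := ⟨(t : LaurentSeries K), ht⟩) hπ htr)
  refine ⟨isUnif_of_irreducible O hπ, hE, ht, htr, htrK, hfd, ?_⟩
  refine twoChartModel_of (R := ↥O) (K := K) (F := ↥E) (π := π) (t := t) (OvE O hπ E hE) htrK
    (dvr_factor hπ) ?_ (t_mem hπ hE t ht) (t_inv_mem hπ hE t ht htr)
    (algebraMap_pi_ne_zero hπ) (pi_inv_not_mem hπ hE)
    (fun x hx hxi => exists_eq_pi_mul hπ hE hx hxi) ?_ ?_ hsm0 hsm1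
  · intro r
    exact (mem_OvE_iff O hπ E hE _).mpr (algebraMap_O_mem r)
  · intro b hb c hc hbc
    rw [mem_chart_iff] at hb ⊢
    exact isIntegral_of_mul hπ hE t ht htr hdeg hirr hc (hbc ▸ hb)
  · intro b hb c hc hbc
    rw [mem_chart_iff] at hb ⊢
    exact isIntegral_of_mul_inv hπ hE t ht htr hdeg hirr hc (hbc ▸ hb)

/-- **Explicit MODEL from the split (LOC)** (explicit form of `ModelIface4.hasModel_of_split`). -/
theorem explicitModelAt_of_split {π : ↥O} (hπ : Irreducible π)
    [Finite (↥O ⧸ (Ideal.span {π} : Ideal ↥O))] (hE : E ≤ fracField O) (t : ↥E)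
    (ht : (t : LaurentSeries K) ∈ gaussRing O)
    (htr : Transcendental (Res O) (gaussRed O ⟨(t : LaurentSeries K), ht⟩))
    {n : ℕ} (hn : relfinrank (Kt O ⟨(t : LaurentSeries K), ht⟩) E ≠ 0)
    (hdeg : DegLe O E ⟨(t : LaurentSeries K), ht⟩ n)
    (hirr : Irr O E ⟨(t : LaurentSeries K), ht⟩ n)
    (S : Set ↥O) (hoff : SmoothOff O E π t S) (hover : ∀ c ∈ S, SmoothOver O E π t c)
    (hinf : SmoothOver O E π t⁻¹ 0) : ExplicitModelAt O E π t := by
  have hfd : FiniteDimensional ↥(IntermediateField.adjoin K {t}) ↥E := finiteDimensional_adjoin t hn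
  have htrK : Transcendental K t :=
    transcendental_of_coe t (transcendental_t (tG := ⟨(t : LaurentSeries K), ht⟩) hπ htr)
  have h0 : SmoothChart O E π t := smoothChart_of_split hoff hover
  exact explicitModelAt_of_g1 hπ hE t ht htr hn hdeg hirr h0
    (smoothChart_inv_of_split hπ htrK h0 hinf)

end Assembly

end Fermat.Agent.FFJ.Model.ModelGeneric87
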