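/-
Programme FFJ (S19), chapter CURVE, brick C-F (F3c) — helper87.

**Pointwise re-run of the RED assembly.**  `RED/ModelMain4.modelStep_of_targets` produces the
two-chart model of `K·F_M` over `A ∩ K` for all number fields `K` containing an *existential* number
field `K₀` (five nested `EventuallyT`-existentials: `TTarget`, `JTarget`, the field of the cusp values
in `HorizConcrete26.hH_all`, `CuspConcrete23.exists_zeta_field`, and the three smoothness targets).
For programme FFJ the field `K` must be unramified above `ℓ`, so `K₀` has to be known.  Here the same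
proofs are run at ONE number field `K`, with the four facts which `K₀` was used for as hypotheses:

* `hT : tq K n e ∈ FK M K`,
* `hJ : jqModC K ∈ K(tq K n e)`,
* `hζ : zetaK M ∈ K`,
* `hS : ∀ γ c, cv γ = some c → c ∈ K` (the finite cusp values lie in `K`),

and the conclusion is the EXPLICIT two-chart model `ModelGeneric87.ExplicitModelAt`, not hidden
behind `HasModel`.  Bodies = `OffConcrete4.offTarget_of_hunr`, `CuspConcrete23.overTarget_of_hunr`,
`CuspConcrete23.infTarget_of_hunr`, `ModelMain4.modelStep_of_targets`, pointwise.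
-/
import Fermat.Agent.RED.CUSP.CuspConcrete23
import Fermat.Agent.RED.PUR.OffConcrete4
import Fermat.Agent.FFJ.Model.HorizPointwise87
import Fermat.Agent.FFJ.Model.ModelGeneric87

set_option autoImplicit false
set_option linter.unusedSectionVars false
set_option linter.unusedVariables false
set_option linter.style.haveILetI false

open HahnSeries ModularCurve IntermediateField
open scoped MatrixGroups

noncomputable section

namespace Fermat.Agent.FFJ.Model.ModelPointwise87

open Fermat.Agent.RED.Interface4 Fermat.Agent.RED.PUR.GaussGen8 Fermat.Agent.RED.PUR.KtGauss8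
  Fermat.Agent.RED.PUR.G1Package8 Fermat.Agent.RED.ModelIface4 Fermat.Agent.RED.ModelTargets4
  Fermat.Agent.RED.BASE.EtaQuot12 Fermat.Agent.X0 Fermat.Agent.RED.NumInst4
  Fermat.Agent.RED.DESC.NumberFieldDVR27 Fermat.Agent.RED.BASE.Interface12
  Fermat.Agent.RED.DESC.PlaceExtend27 Fermat.Agent.RED.CUSP.IntClosedPS16
  Fermat.Agent.RED.BASE.Hauptmodul12 Fermat.Agent.RED.CUSP.CuspEmbK16
  Fermat.Agent.RED.CUSP.CuspIface23 Fermat.Agent.RED.PUR.OffIface4
  Fermat.Agent.RED.CUSP.CuspConcrete23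

open Fermat.Agent.RED.BASE
open Fermat.Agent.FFJ.Model.ModelGeneric87 Fermat.Agent.FFJ.Model.HorizPointwise87

variable {n e : ℕ} [NeZero n] {M : ℕ} [NeZero M] {A : ValuationSubring Qbar}

/-- **The explicit two-chart model at ONE number field `K`** (pointwise form of
`ModelMain4.modelStep_of_targets` ∘ `Targets26.{offTarget, overTarget, infTarget}`). -/
theorem twoChartModel_pointwise (hb : BaseHyp n e) (hnM : n ∣ M) {ℓ : ℕ} [Fact ℓ.Prime]
    (hℓM : ¬ ℓ ∣ M) (hA : A.LiesOverPrime ℓ) (cv : SL(2, ℤ) → Option Kbar)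
    (hcv : MainCusp12.CuspExports n e M cv)
    (K : IntermediateField ℚ Qbar) (hKfd : FiniteDimensional ℚ K)
    (hT : tq K n e ∈ FK M K)
    (hJ : jqModC K ∈ IntermediateField.adjoin K {tq K n e})
    (hζ : zetaK M ∈ K)
    (hS : ∀ γ c, cv γ = some c → c ∈ K)
    (ϖ : ↥(AK A K)) (hϖ : Irreducible ϖ) (t : ↥(FK M K))
    (htq : (t : LaurentSeries K) = tq K n e) :
    ExplicitModelAt (AK A K) (FK M K) ϖ t := by
  have hℓ : ℓ.Prime := Fact.out
  have hB := Main12.baseExports hb M hnM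
  have hdvr : IsDiscreteValuationRing ↥(AK A K) := isDiscreteValuationRing_AK A K hℓ.ne_zero hA
  have hchar : CharP (Res (AK A K)) ℓ := charP_residueField_AK A K hℓ hA
  have hfinres : Finite (Res (AK A K)) := finite_residueField_AK A K hℓ.ne_zero hA
  have hfin : Finite (↥(AK A K) ⧸ (Ideal.span {ϖ} : Ideal ↥(AK A K))) := by
    have h1 : Finite (IsLocalRing.ResidueField ↥(AK A K)) :=
      finite_residueField_AK A K hℓ.ne_zero hA
    rw [← hϖ.maximalIdeal_eq]
    exact h1
  have hE : FK M K ≤ fracField (AK A K) :=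
    Fermat.Agent.RED.PUR.GaussBridge10.FK_le_fracField A K M
  have ht : ((t : ↥(FK M K)) : LaurentSeries K) ∈ gaussRing (AK A K) := by
    rw [htq]; exact tq_mem_gaussRing (AK A K) n e
  have htr : Transcendental (Res (AK A K))
      (gaussRed (AK A K) ⟨((t : ↥(FK M K)) : LaurentSeries K), ht⟩) := by
    have h1 : (⟨((t : ↥(FK M K)) : LaurentSeries K), ht⟩ : gaussRing (AK A K)) =
        ⟨tq K n e, tq_mem_gaussRing (AK A K) n e⟩ := Subtype.ext htq
    rw [h1]
    exact transcendental_gaussRed_tq (AK A K) n e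
  have hjt : jqModC K ∈ Kt (AK A K) ⟨((t : ↥(FK M K)) : LaurentSeries K), ht⟩ := by
    show jqModC K ∈ IntermediateField.adjoin K {((t : ↥(FK M K)) : LaurentSeries K)}
    rw [htq]
    exact hJ
  have htE' : ((t : ↥(FK M K)) : LaurentSeries K) ∈ FK M K := t.2
  obtain ⟨nn, -, hdeg, hirr⟩ := Fermat.Agent.RED.PUR.GaussInst25.exists_degLe_irr_FK A K hϖ ℓ M hℓM
    ⟨((t : ↥(FK M K)) : LaurentSeries K), ht⟩ htE' hjt
  have hn : relfinrank (Kt (AK A K) ⟨((t : ↥(FK M K)) : LaurentSeries K), ht⟩) (FK M K) ≠ 0 :=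
    Fermat.Agent.RED.ModelMain4.relfinrank_ne_zero (AK A K) M _ htE' hjt
  have hfd : FiniteDimensional ↥(IntermediateField.adjoin K {t}) ↥(FK M K) :=
    Fermat.Agent.RED.ModelAsm4.finiteDimensional_adjoin t hn
  have htrK : Transcendental K t :=
    Fermat.Agent.RED.ModelAsm4.transcendental_of_coe t
      (transcendental_t (tG := ⟨((t : ↥(FK M K)) : LaurentSeries K), ht⟩) hϖ htr)
  have hord := Fermat.Agent.RED.PUR.TqOrder26.isCoprime_order_gaussRed (AK A K) n e t ht htq (ℓ : ℤ)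
  have hMA : ((M : Qbar))⁻¹ ∈ A := inv_natCast_mem hℓ hA M hℓM
  have hembt : baseChangeHom M K t = tF M hB.mem :=
    Fermat.Agent.RED.CUSP.RankConcrete16.baseChangeHom_eq_tF M K hB.mem t htq
  obtain ⟨hHoff, hHover, hHinf⟩ := hH_all_pointwise hb hnM hℓM hA cv hcv K hKfd hS ϖ hϖ t htq
  -- (LOC) away from the cusp values
  have hoff : SmoothOff (AK A K) (FK M K) ϖ t (cuspSet A K cv) :=
    smoothOff_of_hunrOff hϖ hE t ht htr hdeg hirr ℓ hord htrK (cuspSet A K cv) hHoff
  -- (LOC) over the finite cusp values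
  have hover : ∀ c ∈ cuspSet A K cv, SmoothOver (AK A K) (FK M K) ϖ t c := by
    intro c hc
    obtain ⟨γ₀, hγ₀⟩ := hc
    have hfam := hasCuspFamily_some A hb hnM cv hcv.cuspExp hB.mem hζ hMA t hembt c γ₀ hγ₀
    rw [← Fermat.Agent.RED.CUSP.RankConcrete16.finrank_adjoin_tF M K hB.mem t htq hJ] at hfam
    exact smoothOver_of_family hϖ hE t ht htr hdeg hirr ℓ hord htrK c hfam
      (hHover c ⟨γ₀, hγ₀⟩)
  -- (LOC) over `t = ∞`
  have hinf : SmoothOver (AK A K) (FK M K) ϖ t⁻¹ 0 := by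
    have hcoe : (((t⁻¹ : ↥(FK M K)) : ↥(FK M K)) : LaurentSeries K) =
        ((t : ↥(FK M K)) : LaurentSeries K)⁻¹ := rfl
    have hs : (((t⁻¹ : ↥(FK M K)) : ↥(FK M K)) : LaurentSeries K) ∈ gaussRing (AK A K) := by
      rw [hcoe]
      exact Fermat.Agent.RED.PUR.GaussInv8.inv_mem_gaussRing
        (⟨((t : ↥(FK M K)) : LaurentSeries K), ht⟩ : gaussRing (AK A K)) htr
    have htrs := Fermat.Agent.RED.PUR.GaussInv8.transcendental_gaussRed
      (⟨((t : ↥(FK M K)) : LaurentSeries K), ht⟩ : gaussRing (AK A K))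
      (⟨(((t⁻¹ : ↥(FK M K)) : ↥(FK M K)) : LaurentSeries K), hs⟩ : gaussRing (AK A K)) hcoe htr
    have hdegs := Fermat.Agent.RED.PUR.GaussInv8.degLe_of_inv
      (⟨((t : ↥(FK M K)) : LaurentSeries K), ht⟩ : gaussRing (AK A K))
      (⟨(((t⁻¹ : ↥(FK M K)) : ↥(FK M K)) : LaurentSeries K), hs⟩ : gaussRing (AK A K)) hcoe
      (FK M K) hdeg
    have hirrs := Fermat.Agent.RED.PUR.GaussInv8.irr_of_inv
      (⟨((t : ↥(FK M K)) : LaurentSeries K), ht⟩ : gaussRing (AK A K))
      (⟨(((t⁻¹ : ↥(FK M K)) : ↥(FK M K)) : LaurentSeries K), hs⟩ : gaussRing (AK A K)) hcoe htr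
      (FK M K) hirr
    have hsq : (((t⁻¹ : ↥(FK M K)) : ↥(FK M K)) : LaurentSeries K) = (tq K n e)⁻¹ := by
      rw [hcoe, htq]
    have hords := Fermat.Agent.RED.PUR.TqOrder26.isCoprime_order_gaussRed_inv (AK A K) n e
      (t⁻¹ : ↥(FK M K)) hs hsq (ℓ : ℤ)
    have htrKs : Transcendental K (t⁻¹ : ↥(FK M K)) :=
      fun hal => htrK (IsAlgebraic.inv_iff.1 hal)
    have hEE : IntermediateField.adjoin K {t} = IntermediateField.adjoin K {(t⁻¹ : ↥(FK M K))} :=
      (Fermat.Agent.RED.CUSP.RankConcrete16.adjoin_inv_eq (k := ↥K) t).symm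
    have hfds : FiniteDimensional ↥(IntermediateField.adjoin K {(t⁻¹ : ↥(FK M K))}) ↥(FK M K) :=
      hEE ▸ hfd
    have hfam := hasCuspFamily_none A hb hnM cv hcv.cuspExp hB.mem hζ hMA t hembt
    rw [← Fermat.Agent.RED.CUSP.RankConcrete16.finrank_adjoin_inv_tF M K hB.mem t htq hJ] at hfam
    exact smoothOver_of_family hϖ hE (t⁻¹ : ↥(FK M K)) hs htrs hdegs hirrs ℓ hords htrKs 0 hfam
      hHinf
  exact explicitModelAt_of_split hϖ hE t ht htr hn hdeg hirr (cuspSet A K cv) hoff hover hinf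

end Fermat.Agent.FFJ.Model.ModelPointwise87
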