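/-
Programme FFJ (S19), chapter CURVE, brick C-F (explicit unramified field of definition of the RED
model), part (F1).  Owner: helper23.

**Sharp descent of coefficients**: for an ALGEBRAIC field extension `L / K` (characteristic `0`) and
`F₀ ⊆ ℚ((q))`,

    `L · F₀ ∩ K((q)) = K · F₀`     (`mem_laurentBaseChange_of_coeffMap_mem`)

i.e. a Laurent series with coefficients in `K` which lies in `laurentBaseChange L F₀` already lies in
`laurentBaseChange K F₀`.  (RED/DESC/CoeffDescent1 only gives descent to SOME finite extension.)

Proof: `A := (K · F₀)[constants of L] ⊆ L((q))` is a field (constants are algebraic), so it contains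
`L · F₀`; every element of `A` is a `K · F₀`-combination of constants of `L`; a `K`-linear retraction
`λ : L → K` of `K ⊆ L`, applied coefficientwise, maps `A` into `K · F₀` and fixes `K((q))`.
-/
import Mathlib
import Fermat.Agent.RED.DESC.CoeffDescent1

set_option autoImplicit false
set_option linter.style.haveILetI false
set_option linter.unusedSectionVars false

noncomputable section

namespace Fermat.Agent.FFJ.Model.SharpDescent23

open HahnSeries IntermediateField ModularCurve Fermat.Agent.RED.DESC.CoeffDescent1

section Abstract

variable {K L : Type*} [Field K] [Field L] [Algebra K L]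

/-- Coefficientwise application of a `K`-linear functional `L → K` to a Laurent series. -/
def coeffLin (lam : L →ₗ[K] K) (w : LaurentSeries L) : LaurentSeries K := w.map lam

@[simp]
theorem coeffLin_coeff (lam : L →ₗ[K] K) (w : LaurentSeries L) (k : ℤ) :
    (coeffLin lam w).coeff k = lam (w.coeff k) := rfl

theorem coeffLin_add (lam : L →ₗ[K] K) (w w' : LaurentSeries L) :
    coeffLin lam (w + w') = coeffLin lam w + coeffLin lam w' := by
  ext k
  simp

theorem coeffLin_zero (lam : L →ₗ[K] K) : coeffLin lam (0 : LaurentSeries L) = 0 := by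
  ext k
  simp

theorem coeffLin_sum {ι : Type*} (lam : L →ₗ[K] K) (s : Finset ι) (f : ι → LaurentSeries L) :
    coeffLin lam (∑ i ∈ s, f i) = ∑ i ∈ s, coeffLin lam (f i) := by
  classical
  induction s using Finset.induction_on with
  | empty => simp [coeffLin_zero]
  | insert a s ha ih => rw [Finset.sum_insert ha, Finset.sum_insert ha, coeffLin_add, ih]

/-- `Λ(ι(f) · c) = λ(c) · f` for a constant `c ∈ L`. -/
theorem coeffLin_coeffMap_mul_const (lam : L →ₗ[K] K) (f : LaurentSeries K) (c : L) :
    coeffLin lam (coeffMap (algebraMap K L) f * algebraMap L (LaurentSeries L) c) =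
      algebraMap K (LaurentSeries K) (lam c) * f := by
  ext k
  rw [algebraMap_laurentSeries_eq_single, algebraMap_laurentSeries_eq_single, coeffLin_coeff,
    coeff_mul_single_zero, coeff_single_zero_mul, coeffMap_coeff, ← Algebra.smul_def, map_smul,
    smul_eq_mul, mul_comm]

/-- `Λ(ι(x)) = x` if `λ(1) = 1`. -/
theorem coeffLin_coeffMap (lam : L →ₗ[K] K) (h1 : lam 1 = 1) (x : LaurentSeries K) :
    coeffLin lam (coeffMap (algebraMap K L) x) = x := by
  ext k
  rw [coeffLin_coeff, coeffMap_coeff, Algebra.algebraMap_eq_smul_one, map_smul, h1, smul_eq_mul,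
    mul_one]

end Abstract

section Main

variable {K L : Type*} [Field K] [Field L] [Algebra ℚ K] [Algebra ℚ L] [Algebra K L]
  [Algebra.IsAlgebraic K L] (F₀ : IntermediateField ℚ (LaurentSeries ℚ))

/-- **Sharp descent**: `L · F₀ ∩ K((q)) = K · F₀` for an algebraic extension `L / K`: a Laurent
series with coefficients in `K` which lies in `L · F₀` already lies in `K · F₀`. -/
theorem mem_laurentBaseChange_of_coeffMap_mem (x : LaurentSeries K)
    (hx : coeffMap (algebraMap K L) x ∈ laurentBaseChange L F₀) :
    x ∈ laurentBaseChange K F₀ := by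
  classical
  set ι : LaurentSeries K →+* LaurentSeries L := coeffMap (algebraMap K L) with hι
  set F : IntermediateField K (LaurentSeries K) := laurentBaseChange K F₀ with hF
  letI algF : Algebra F (LaurentSeries L) := (ι.comp (algebraMap F (LaurentSeries K))).toAlgebra
  have halgF : ∀ f : F, algebraMap F (LaurentSeries L) f = ι (f : LaurentSeries K) := fun _ => rfl
  have hcomp : (algebraMap F (LaurentSeries L)).comp (algebraMap K F) =
      (algebraMap L (LaurentSeries L)).comp (algebraMap K L) := by
    refine RingHom.ext fun a => ?_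
    have h1 : (algebraMap F (LaurentSeries L)).comp (algebraMap K F) a =
        ι (algebraMap K (LaurentSeries K) a) := rfl
    rw [h1, hι, coeffMap_algebraMap_of_ringHom]
    rfl
  -- the constants of `L` are integral over `F`
  have hconst : ∀ c : L, IsIntegral F (algebraMap L (LaurentSeries L) c) := by
    intro c
    obtain ⟨p, hp, hpc⟩ := Algebra.IsIntegral.isIntegral (R := K) c
    refine ⟨p.map (algebraMap K F), hp.map _, ?_⟩
    rw [Polynomial.eval₂_map, hcomp, ← Polynomial.hom_eval₂, hpc, map_zero]
  set A : Subalgebra F (LaurentSeries L) :=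
    Algebra.adjoin F (Set.range (algebraMap L (LaurentSeries L))) with hA
  haveI hAint : Algebra.IsIntegral F A :=
    Algebra.IsIntegral.adjoin (by rintro _ ⟨c, rfl⟩; exact hconst c)
  have hAalg : ∀ y : A, IsAlgebraic F (y : LaurentSeries L) := fun y =>
    ((Algebra.IsIntegral.isIntegral (R := F) y).map A.val).isAlgebraic
  -- `L · F₀ ⊆ A`
  have hT : ∀ y ∈ laurentBaseChange L F₀, y ∈ A := by
    intro y hy
    rw [mem_laurentBaseChange_iff] at hy
    induction hy using Subfield.closure_induction with
    | mem y hy =>
        rcases hy with ⟨a, rfl⟩ | ⟨z, hz, rfl⟩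
        · exact Algebra.subset_adjoin ⟨a, rfl⟩
        · have h1 : coeffEmb L z = algebraMap F (LaurentSeries L)
              ⟨coeffEmb K z, coeffEmb_mem_laurentBaseChange K hz⟩ := by
            rw [halgF, hι]
            exact (coeffMap_coeffEmb_of_algHom (algebraMap K L) z).symm
          rw [h1]
          exact A.algebraMap_mem _
    | one => exact one_mem _
    | add x y _ _ hx hy => exact add_mem hx hy
    | neg x _ hx => exact neg_mem hx
    | inv x _ hx => exact A.inv_mem_of_algebraic (x := ⟨x, hx⟩) (hAalg ⟨x, hx⟩)
    | mul x y _ _ hx hy => exact mul_mem hx hy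
  -- a `K`-linear retraction `L → K`
  obtain ⟨lam, hlam⟩ := LinearMap.exists_leftInverse_of_injective (Algebra.linearMap K L)
    (LinearMap.ker_eq_bot.mpr (algebraMap K L).injective)
  have hlam1 : lam 1 = 1 := by
    have := LinearMap.congr_fun hlam 1
    simpa using this
  -- elements of `A` are `F`-combinations of constants of `L`
  have hspan : ∀ y ∈ A, coeffLin lam y ∈ F := by
    intro y hy
    have hy' : y ∈ Subalgebra.toSubmodule A := hy
    rw [hA, Algebra.adjoin_eq_span] at hy'
    have hcl : (Submonoid.closure (Set.range (algebraMap L (LaurentSeries L))) :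
        Set (LaurentSeries L)) = Set.range (algebraMap L (LaurentSeries L)) := by
      have : Set.range (algebraMap L (LaurentSeries L)) =
          ((MonoidHom.mrange (algebraMap L (LaurentSeries L) : L →* LaurentSeries L)) :
            Set _) := rfl
      rw [this, Submonoid.closure_eq]
    rw [hcl, Finsupp.mem_span_range_iff_exists_finsupp] at hy'
    obtain ⟨c, rfl⟩ := hy'
    rw [Finsupp.sum, coeffLin_sum]
    refine sum_mem fun i _ => ?_
    rw [Algebra.smul_def, halgF, hι, coeffLin_coeffMap_mul_const]
    exact mul_mem (F.algebraMap_mem _) (c i).2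
  have := hspan _ (hT _ hx)
  rwa [hι, coeffLin_coeffMap lam hlam1] at this

end Main


end Fermat.Agent.FFJ.Model.SharpDescent23
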