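/-
Programme FFJ (S19), chapter CURVE, brick C-F, part (F1b).  Owner: helper23.

The BASE → GAUSS bridge of RED **over EVERY intermediate field** `K ⊆ ℚ̄` (no "sufficiently large
number field"): by the sharp descent of `SharpDescent23`,

* `tq_mem_FK`         : `TMem n e M → ∀ K, tq K n e ∈ FK M K`               (sharp `TBridge15.exists_tq_mem`);
* `jqModC_mem_adjoin` : `TGenBase n e → ∀ K, jqModC K ∈ K⟮tq K n e⟯`         (sharp `JInKt25.exists_j_mem_adjoin`);
* `tTarget_bot`, `jTarget_bot` : the targets `ModelTargets4.TTarget`, `JTarget` with `K₁ = ⊥`.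
-/
import Mathlib
import Fermat.Agent.FFJ.Model.SharpDescent23
import Fermat.Agent.RED.BASE.TBridge15
import Fermat.Agent.RED.BASE.JInKt25

set_option autoImplicit false
set_option linter.style.haveILetI false
set_option linter.unusedSectionVars false

noncomputable section

namespace Fermat.Agent.FFJ.Model.SharpTargets23

open HahnSeries ModularCurve IntermediateField Polynomial
open Fermat.Agent.X0 Fermat.Agent.RED.BASE.EtaQuot12 Fermat.Agent.RED.BASE.Interface12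
  Fermat.Agent.RED.Interface4 Fermat.Agent.RED.DESC.CoeffDescent1
  Fermat.Agent.FFJ.Model.SharpDescent23

section General

variable (K : Type*) [Field K] [Algebra ℚ K]

/-- `K · ℚ(y) ⊆ K(y)`. -/
theorem laurentBaseChange_adjoin_simple_le (y : LaurentSeries ℚ) :
    laurentBaseChange K ℚ⟮y⟯ ≤ K⟮coeffEmb K y⟯ := by
  unfold laurentBaseChange
  rw [IntermediateField.adjoin_le_iff]
  rintro _ ⟨z, hz, rfl⟩
  rw [SetLike.mem_coe, mem_adjoin_simple_iff] at hz
  obtain ⟨r, s, rfl⟩ := hz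
  rw [SetLike.mem_coe, mem_adjoin_simple_iff]
  refine ⟨r.map (algebraMap ℚ K), s.map (algebraMap ℚ K), ?_⟩
  rw [map_div₀]
  unfold coeffEmb
  rw [Fermat.Agent.RED.BASE.JInKt25.coeffMap_aeval, Fermat.Agent.RED.BASE.JInKt25.coeffMap_aeval]

/-- `K(y) ⊆ K · ℚ(y)`. -/
theorem adjoin_simple_le_laurentBaseChange (y : LaurentSeries ℚ) :
    K⟮coeffEmb K y⟯ ≤ laurentBaseChange K ℚ⟮y⟯ :=
  adjoin_simple_le_iff.mpr (coeffEmb_mem_laurentBaseChange K (mem_adjoin_simple_self ℚ y))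

end General

section Main

variable (n e : ℕ) [NeZero n]

instance isAlgebraic_Qbar (K : IntermediateField ℚ Qbar) : Algebra.IsAlgebraic ↥K Qbar :=
  haveI : Algebra.IsAlgebraic ℚ Qbar := AlgebraicClosure.isAlgebraic ℚ
  Algebra.IsAlgebraic.tower_top (K := ℚ) ↥K

/-- **(T1), sharp**: the Hauptmodul lies in `K · F_M` for EVERY intermediate field `K`. -/
theorem tq_mem_FK (M : ℕ) [NeZero M] (h : TMem n e M) (K : IntermediateField ℚ Qbar) :
    tq ↥K n e ∈ FK M K := by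
  apply mem_laurentBaseChange_of_coeffMap_mem (L := Qbar)
  rw [coeffMap_tq]
  exact h

/-- over `ℚ̄`: `j ∈ ℚ̄(t)` as Laurent series. -/
theorem jqModC_mem_adjoin_bar (hgen : TGenBase n e) : jqModC Kbar ∈ Kbar⟮tK n e⟯ := by
  obtain ⟨h, htop⟩ := hgen
  have hj : jF n ∈ Kbar⟮tF n h⟯ := by rw [htop]; exact IntermediateField.mem_top
  rw [mem_adjoin_simple_iff] at hj
  obtain ⟨r, s, hrs⟩ := hj
  have hcoe : ∀ p : Kbar[X], ((aeval (tF n h) p : FF n) : LaurentSeries Kbar) = aeval (tK n e) p :=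
    fun p => (aeval_algHom_apply (modularFunctionFieldBar n).val (tF n h) p).symm
  rw [mem_adjoin_simple_iff]
  refine ⟨r, s, ?_⟩
  rw [← Fermat.Agent.RED.BASE.JInKt25.coe_jF_eq n, hrs, ← hcoe, ← hcoe]
  rfl

/-- **(T5), sharp**: `j ∈ K(t)` for EVERY intermediate field `K`. -/
theorem jqModC_mem_adjoin (hgen : TGenBase n e) (K : IntermediateField ℚ Kbar) :
    jqModC ↥K ∈ (↥K)⟮tq ↥K n e⟯ := by
  have hbar := jqModC_mem_adjoin_bar n e hgen
  have ht : coeffEmb Kbar (tq ℚ n e) = tK n e := coeffMap_tq ℚ (algebraMap ℚ Kbar) n e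
  have h1 : jqModC Kbar ∈ laurentBaseChange Kbar ℚ⟮tq ℚ n e⟯ :=
    adjoin_simple_le_laurentBaseChange Kbar (tq ℚ n e) (by rw [ht]; exact hbar)
  have h2 : coeffMap (algebraMap ↥K Kbar) (jqModC ↥K) ∈ laurentBaseChange Kbar ℚ⟮tq ℚ n e⟯ := by
    rw [coeffMap_jqModC]; exact h1
  have h3 := mem_laurentBaseChange_of_coeffMap_mem (L := Kbar) ℚ⟮tq ℚ n e⟯ (jqModC ↥K) h2
  have h4 := laurentBaseChange_adjoin_simple_le ↥K (tq ℚ n e) h3
  have ht' : coeffEmb ↥K (tq ℚ n e) = tq ↥K n e := coeffMap_tq ℚ (algebraMap ℚ ↥K) n e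
  rwa [ht'] at h4

/-- `TTarget` with `K₁ = ⊥`. -/
theorem tTarget_bot (M : ℕ) [NeZero M] (h : TMem n e M) :
    ∀ K : IntermediateField ℚ Qbar, FiniteDimensional ℚ K → (⊥ : IntermediateField ℚ Qbar) ≤ K →
      tq K n e ∈ FK M K :=
  fun K _ _ => tq_mem_FK n e M h K

/-- `JTarget` with `K₁ = ⊥`. -/
theorem jTarget_bot (hgen : TGenBase n e) :
    ∀ K : IntermediateField ℚ Qbar, FiniteDimensional ℚ K → (⊥ : IntermediateField ℚ Qbar) ≤ K →
      jqModC K ∈ IntermediateField.adjoin K {tq K n e} :=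
  fun K _ _ => jqModC_mem_adjoin n e hgen K

end Main

end Fermat.Agent.FFJ.Model.SharpTargets23
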