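/-
Programme FFJ (S19), chapter CURVE, brick C-F (F3), closed form — helper87.

**The explicit two-chart model over every number field containing an explicit, normal, unramified
field `K₀`.**  Assembly of

* `SharpTargets23` (helper23, (F1)): `tq K n e ∈ FK M K` and `j ∈ K(t)` for EVERY `K`;
* `CuspField87` ((F2)): `K₀ = ℚ(ζ_M, cusp values)` is finite, `G_ℚ`-stable and unramified above `ℓ`;
* `ModelPointwise87` ((F3)): the RED assembly at one number field `K ⊇ K₀`.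

The result is the literal input of `CurveOut` (CURVE-PLAN v2, report 1561 (a)(b)(c)): `K₀` does not
depend on the place `A`, and the model is the explicit `TwoChartModel` for the charts
`chart O t`, `chart O t⁻¹` and the Gauss valuation ring, packaged as
`ModelGeneric87.ExplicitModelAt (AK A K) (FK M K) ϖ t` (destructure it with `ExplicitModelAt.out`
inside a GENERIC lemma: typeclass search at the concrete types `↥(AK A K)`, `↥(FK M K)` is slow).
-/
import Mathlib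
import Fermat.Agent.FFJ.Model.ModelPointwise87
import Fermat.Agent.FFJ.Model.CuspField87
import Fermat.Agent.FFJ.Model.SharpTargets23

set_option autoImplicit false
set_option linter.unusedSectionVars false
set_option linter.unusedVariables false
set_option linter.style.haveILetI false

open HahnSeries ModularCurve IntermediateField
open scoped MatrixGroups

noncomputable section

namespace Fermat.Agent.FFJ.Model.ModelExplicit87

open Fermat.Agent.X0
open Fermat.Agent.RED.Interface4 Fermat.Agent.RED.ModelTargets4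
open Fermat.Agent.RED.BASE Fermat.Agent.RED.BASE.Interface12 Fermat.Agent.RED.BASE.EtaQuot12
open Fermat.Agent.RED.BASE.Hauptmodul12 Fermat.Agent.RED.BASE.MainCusp12
open Fermat.Agent.FFJ.Alg.Spec78 (UnramAt)
open Fermat.Agent.FFJ.Model.ModelGeneric87

variable {n e : ℕ} [NeZero n] {M : ℕ} [NeZero M]

/-- The explicit model over all number fields `K ⊇ K₀`, all places `A` over `ℓ`, all uniformisers
of `A ∩ K`, for the Hauptmodul `t = tq K n e`. -/
def ExplicitModelOver (n e M ℓ : ℕ) [NeZero n] [NeZero M]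
    (K₀ : IntermediateField ℚ Qbar) : Prop :=
  ∀ (A : ValuationSubring Qbar), A.LiesOverPrime ℓ →
    ∀ (K : IntermediateField ℚ Qbar), FiniteDimensional ℚ K → K₀ ≤ K →
    ∀ (ϖ : ↥(AK A K)), Irreducible ϖ → ∀ (t : ↥(FK M K)),
      (t : LaurentSeries K) = tq K n e → ExplicitModelAt (AK A K) (FK M K) ϖ t

/-- **(F3), closed form.**  For `n ∣ M`, `ℓ ∤ M`: an explicit number field `K₀`, finite, stable under
`G_ℚ`, unramified above `ℓ`, independent of the place `A`, such that over EVERY number field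
`K ⊇ K₀`, every place `A` over `ℓ`, every uniformiser `ϖ` of `A ∩ K` and the Hauptmodul
`t = tq K n e ∈ FK M K` the two charts `chart t`, `chart t⁻¹` form a smooth two-chart model. -/
theorem exists_explicitModel (hb : BaseHyp n e) (hnM : n ∣ M) {ℓ : ℕ} [Fact ℓ.Prime]
    (hℓM : ¬ ℓ ∣ M) (cv : SL(2, ℤ) → Option Kbar) (hcv : CuspExports n e M cv) :
    ∃ K₀ : IntermediateField ℚ Qbar, FiniteDimensional ℚ K₀ ∧ UnramAt ℓ K₀ ∧
      (∀ (σ : Qbar ≃ₐ[ℚ] Qbar) (x : Qbar), x ∈ K₀ → σ x ∈ K₀) ∧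
      zetaK M ∈ K₀ ∧ (∀ (γ : SL(2, ℤ)) (c : Kbar), cv γ = some c → c ∈ K₀) ∧
      ExplicitModelOver n e M ℓ K₀ := by
  have hℓ : ℓ.Prime := Fact.out
  have hB := Main12.baseExports hb M hnM
  obtain ⟨K₀, hfd, hunr, hstab, hζ, hS⟩ :=
    Fermat.Agent.FFJ.Model.CuspField87.exists_cuspField hnM hℓ hℓM hcv
  refine ⟨K₀, hfd, hunr, hstab, hζ, hS, fun A hA K hKfd hle ϖ hϖ t htq => ?_⟩
  exact Fermat.Agent.FFJ.Model.ModelPointwise87.twoChartModel_pointwise hb hnM hℓM hA cv hcv K hKfd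
    (Fermat.Agent.FFJ.Model.SharpTargets23.tq_mem_FK n e M hB.mem K)
    (Fermat.Agent.FFJ.Model.SharpTargets23.jqModC_mem_adjoin n e hB.genBase K)
    (hle hζ) (fun γ c hγ => hle (hS γ c hγ)) ϖ hϖ t htq

/-- `(n, e) = (4, 8)`, `4 ∣ M`, `ℓ ∤ M` (so `ℓ` is odd). -/
theorem exists_explicitModel_four (M : ℕ) [NeZero M] (hM : 4 ∣ M) {ℓ : ℕ} [Fact ℓ.Prime]
    (hℓM : ¬ ℓ ∣ M) :
    ∃ K₀ : IntermediateField ℚ Qbar, FiniteDimensional ℚ K₀ ∧ UnramAt ℓ K₀ ∧
      (∀ (σ : Qbar ≃ₐ[ℚ] Qbar) (x : Qbar), x ∈ K₀ → σ x ∈ K₀) ∧ zetaK M ∈ K₀ ∧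
      ExplicitModelOver 4 8 M ℓ K₀ := by
  obtain ⟨K₀, h1, h2, h3, h4, -, h6⟩ :=
    exists_explicitModel baseHyp_four hM hℓM _ (base_four M hM).2
  exact ⟨K₀, h1, h2, h3, h4, h6⟩

/-- `(n, e) = (9, 3)`, `9 ∣ M`, `ℓ ∤ M` (so `ℓ ≠ 3`; this covers `ℓ = 2`). -/
theorem exists_explicitModel_nine (M : ℕ) [NeZero M] (hM : 9 ∣ M) {ℓ : ℕ} [Fact ℓ.Prime]
    (hℓM : ¬ ℓ ∣ M) :
    ∃ K₀ : IntermediateField ℚ Qbar, FiniteDimensional ℚ K₀ ∧ UnramAt ℓ K₀ ∧
      (∀ (σ : Qbar ≃ₐ[ℚ] Qbar) (x : Qbar), x ∈ K₀ → σ x ∈ K₀) ∧ zetaK M ∈ K₀ ∧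
      ExplicitModelOver 9 3 M ℓ K₀ := by
  obtain ⟨K₀, h1, h2, h3, h4, -, h6⟩ :=
    exists_explicitModel baseHyp_nine hM hℓM _ (base_nine M hM).2
  exact ⟨K₀, h1, h2, h3, h4, h6⟩

end Fermat.Agent.FFJ.Model.ModelExplicit87
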