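/-
FFJ (S19), chapter Model (CURVE), brick C-N (helper17).  **CURVE, closed form.**

`ModelExplicit87.ExplicitModelOver n e M ℓ K₀` (helper87: the explicit two-chart model over every number
field `K ⊇ K₀`, every place `A` over `ℓ`) gives `CurveOver n e M ℓ K₀`: over the same fields and
places, the curve data `CurveFinal17.CurveOutStmt` (the Möbius two-chart model, `ChartDefR35.CurveHypR`
for its charts, the base point at the cusp and `Frac A01 = K·F_M`).

Everything concrete is wrapped in generic definitions (`CurveAt O E π t`), because typeclass search at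
`↥(AK A K)`, `↥(FK M K)` is slow; destructure with `CurveAt.out`.
-/
import Mathlib
import Fermat.Agent.FFJ.Model.ModelExplicit87
import Fermat.Agent.FFJ.Model.CurveMin17

set_option autoImplicit false
set_option linter.unusedSectionVars false
set_option linter.unusedVariables false
set_option linter.style.haveILetI false

noncomputable section

namespace Fermat.Agent.FFJ.Model.CurveAt17

open Fermat.Agent.RED.CORE.CoreIface24 Fermat.Agent.RED.PUR.ChartGeneric22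
open Fermat.Agent.RED.PUR.GaussGen8 Fermat.Agent.RED.BASE.EtaQuot12
open Fermat.Agent.RED.Interface4
open Fermat.Agent.FFJ.Model.ModelGeneric87 Fermat.Agent.FFJ.Model.ModelExplicit87
open Fermat.Agent.FFJ.Model.CurveFinal17 Fermat.Agent.FFJ.Model.CurveMin17
open Fermat.Agent.FFJ.Alg.Spec78 (UnramAt)

universe u

section Generic

variable {K : Type u} [Field K] [CharZero K] (O : ValuationSubring K)
  (E : IntermediateField K (LaurentSeries K))

/-- **The CURVE data at `(O, E, π, t)`**: `O` is a DVR with uniformiser `π`, `E ⊂ Frac O((q))`, and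
`CurveFinal17.CurveOutStmt` holds (generic wrapper). -/
def CurveAt (π : ↥O) (t : ↥E) : Prop :=
  ∃ (_ : IsDiscreteValuationRing ↥O) (hU : IsUnif O π) (hE : E ≤ fracField O),
    CurveOutStmt hU hE t

variable {O E}

theorem CurveAt.out {π : ↥O} {t : ↥E} (h : CurveAt O E π t) :
    ∃ (_ : IsDiscreteValuationRing ↥O) (hU : IsUnif O π) (hE : E ≤ fracField O),
      CurveOutStmt hU hE t := h

/-- the explicit model at the Hauptmodul gives the CURVE data. -/
theorem curveAt_of_explicitModelAt [IsDiscreteValuationRing ↥O] [Finite (Res O)] {π : ↥O}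
    (hπ : Irreducible π) (n e : ℕ) [NeZero n] (t : ↥E)
    (htq : (t : LaurentSeries K) = tq K n e) (hm : ExplicitModelAt O E π t) :
    CurveAt O E π t := by
  obtain ⟨hU, hE, -, -, -, -, hmod⟩ := hm.out
  exact ⟨inferInstance, hU, hE, curveOut_tq_of_model hπ hU hE n e t htq hmod⟩

end Generic

section Concrete

variable {n e : ℕ} [NeZero n] {M : ℕ} [NeZero M]

/-- The CURVE data over all number fields `K ⊇ K₀`, all places `A` over `ℓ`, all uniformisers of
`A ∩ K`, for the Hauptmodul `t = tq K n e`. -/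
def CurveOver (n e M ℓ : ℕ) [NeZero n] [NeZero M] (K₀ : IntermediateField ℚ Qbar) : Prop :=
  ∀ (A : ValuationSubring Qbar), A.LiesOverPrime ℓ →
    ∀ (K : IntermediateField ℚ Qbar), FiniteDimensional ℚ K → K₀ ≤ K →
    ∀ (ϖ : ↥(AK A K)), Irreducible ϖ → ∀ (t : ↥(FK M K)),
      (t : LaurentSeries K) = tq K n e → CurveAt (AK A K) (FK M K) ϖ t

/-- **CURVE from the explicit model**, same field `K₀`. -/
theorem curveOver_of_explicitModelOver {ℓ : ℕ} (hℓ : ℓ ≠ 0) {K₀ : IntermediateField ℚ Qbar}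
    (h : ExplicitModelOver n e M ℓ K₀) : CurveOver n e M ℓ K₀ := by
  intro A hA K hKfd hle ϖ hϖ t htq
  haveI := hKfd
  haveI := Fermat.Agent.RED.DESC.NumberFieldDVR27.isDiscreteValuationRing_AK A K hℓ hA
  haveI : Finite (Res (AK A K)) :=
    Fermat.Agent.RED.DESC.NumberFieldDVR27.finite_residueField_AK A K hℓ hA
  exact curveAt_of_explicitModelAt hϖ n e t htq (h A hA K hKfd hle ϖ hϖ t htq)

/-- **CURVE, closed form** (general `(n, e)`, with the cusp values in `K₀`, for SUPPLY). -/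
theorem exists_curve (hb : Fermat.Agent.RED.BASE.Hauptmodul12.BaseHyp n e) (hnM : n ∣ M) {ℓ : ℕ}
    [Fact ℓ.Prime] (hℓM : ¬ ℓ ∣ M) (cv : Matrix.SpecialLinearGroup (Fin 2) ℤ → Option Fermat.Agent.X0.Kbar)
    (hcv : Fermat.Agent.RED.BASE.MainCusp12.CuspExports n e M cv) :
    ∃ K₀ : IntermediateField ℚ Qbar, FiniteDimensional ℚ K₀ ∧ UnramAt ℓ K₀ ∧
      (∀ (σ : Qbar ≃ₐ[ℚ] Qbar) (x : Qbar), x ∈ K₀ → σ x ∈ K₀) ∧
      Fermat.Agent.X0.zetaK M ∈ K₀ ∧
      (∀ (γ : Matrix.SpecialLinearGroup (Fin 2) ℤ) (c : Fermat.Agent.X0.Kbar), cv γ = some c → c ∈ K₀) ∧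
      ExplicitModelOver n e M ℓ K₀ ∧ CurveOver n e M ℓ K₀ := by
  obtain ⟨K₀, h1, h2, h3, h4, h5, h6⟩ := exists_explicitModel hb hnM hℓM cv hcv
  exact ⟨K₀, h1, h2, h3, h4, h5, h6,
    curveOver_of_explicitModelOver (Fact.out : ℓ.Prime).ne_zero h6⟩

/-- **CURVE, closed form, `(n, e) = (4, 8)`**: `4 ∣ M`, `ℓ ∤ M`. -/
theorem exists_curve_four (M : ℕ) [NeZero M] (hM : 4 ∣ M) {ℓ : ℕ} [Fact ℓ.Prime]
    (hℓM : ¬ ℓ ∣ M) :
    ∃ K₀ : IntermediateField ℚ Qbar, FiniteDimensional ℚ K₀ ∧ UnramAt ℓ K₀ ∧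
      (∀ (σ : Qbar ≃ₐ[ℚ] Qbar) (x : Qbar), x ∈ K₀ → σ x ∈ K₀) ∧
      Fermat.Agent.X0.zetaK M ∈ K₀ ∧ ExplicitModelOver 4 8 M ℓ K₀ ∧ CurveOver 4 8 M ℓ K₀ := by
  obtain ⟨K₀, h1, h2, h3, h4, h5⟩ := exists_explicitModel_four M hM hℓM
  exact ⟨K₀, h1, h2, h3, h4, h5,
    curveOver_of_explicitModelOver (Fact.out : ℓ.Prime).ne_zero h5⟩

/-- **CURVE, closed form, `(n, e) = (9, 3)`**: `9 ∣ M`, `ℓ ∤ M`. -/
theorem exists_curve_nine (M : ℕ) [NeZero M] (hM : 9 ∣ M) {ℓ : ℕ} [Fact ℓ.Prime]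
    (hℓM : ¬ ℓ ∣ M) :
    ∃ K₀ : IntermediateField ℚ Qbar, FiniteDimensional ℚ K₀ ∧ UnramAt ℓ K₀ ∧
      (∀ (σ : Qbar ≃ₐ[ℚ] Qbar) (x : Qbar), x ∈ K₀ → σ x ∈ K₀) ∧
      Fermat.Agent.X0.zetaK M ∈ K₀ ∧ ExplicitModelOver 9 3 M ℓ K₀ ∧ CurveOver 9 3 M ℓ K₀ := by
  obtain ⟨K₀, h1, h2, h3, h4, h5⟩ := exists_explicitModel_nine M hM hℓM
  exact ⟨K₀, h1, h2, h3, h4, h5,
    curveOver_of_explicitModelOver (Fact.out : ℓ.Prime).ne_zero h5⟩

end Concrete

end Fermat.Agent.FFJ.Model.CurveAt17
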