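/-
Programme FFJ (S19), chapter CURVE, brick C-BC.  Owner: helper85.

BASE CHANGE OF THE CURVE HYPOTHESES ALONG A FLAT MAP OF BASE RINGS.

Let `(A0 → A01 ← A1; t, s)` be two-chart curve data over a base ring `O` satisfying
`Spec35.CurveHypR`, and let `O → O'` be flat.  Then the tensor model
`(O' ⊗[O] A0 → O' ⊗[O] A01 ← O' ⊗[O] A1; 1 ⊗ t, 1 ⊗ s)` over `O'` satisfies `Spec35.CurveHypR`
again (`curveHypR_bc`).  Every clause is proved separately, so that the brick survives amendments
of the structure: `ts_bc`, `free_bc`, `finiteType_bc`, `dedekind_bc`, `h0_bc` (flat `O'`),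
`h0Univ_bc` (the universal form of `H⁰ = O`, no flatness), and the base point `basePoint`.
-/
import Mathlib
import Fermat.Agent.FFJ.Spec.Spec35
import Fermat.Agent.JAC.Frame.BaseChange65

set_option autoImplicit false
set_option linter.unusedSectionVars false
set_option linter.style.haveILetI false

open scoped TensorProduct
open scoped Fermat.Agent.JAC.Core.ConstFamily36
open Polynomial

namespace Fermat.Agent.FFJ.Model.CurveBc85

open Fermat.Agent.JAC.Core.ConstFamily36 Fermat.Agent.FFJ.Spec.Spec35

/-! ### `H⁰(𝒪) = k` under flat base change (general base ring) -/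

section H0

universe v

variable {k : Type v} [CommRing k] {A0 A1 A01 : Type v} [CommRing A0] [CommRing A1] [CommRing A01]
  [Algebra k A0] [Algebra k A1] [Algebra k A01]

theorem map_id_eq_lTensor' {A A' : Type v} [CommRing A] [CommRing A'] [Algebra k A] [Algebra k A']
    (B : Type v) [CommRing B] [Algebra k B] (f : A →ₐ[k] A') (w : B ⊗[k] A) :
    Algebra.TensorProduct.map (AlgHom.id B B) f w = f.toLinearMap.lTensor B w := by
  induction w using TensorProduct.induction_on with
  | zero => simp
  | tmul b a => simp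
  | add u v hu hv => simp only [map_add, hu, hv]

/-- `H⁰(𝒪) = k` survives every FLAT base change `B ⊗[k] -` (over a general base ring `k`; the
field case is `JAC/Zar/Rigid4.exists_of_map_eq`). -/
theorem exists_of_map_eq_of_flat (f0 : A0 →ₐ[k] A01) (f1 : A1 →ₐ[k] A01)
    (hH0 : ∀ a0 a1, f0 a0 = f1 a1 → ∃ c : k, a0 = algebraMap k A0 c ∧ a1 = algebraMap k A1 c)
    (B : Type v) [CommRing B] [Algebra k B] [Module.Flat k B] (x : B ⊗[k] A0) (y : B ⊗[k] A1)
    (h : Algebra.TensorProduct.map (AlgHom.id B B) f0 x =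
      Algebra.TensorProduct.map (AlgHom.id B B) f1 y) :
    ∃ b : B, x = algebraMap B (B ⊗[k] A0) b ∧ y = algebraMap B (B ⊗[k] A1) b := by
  classical
  let i : k →ₗ[k] A0 × A1 := (Algebra.linearMap k A0).prod (Algebra.linearMap k A1)
  let d : (A0 × A1) →ₗ[k] A01 := f0.toLinearMap.coprod (-f1.toLinearMap)
  have hex : Function.Exact i d := by
    intro p
    constructor
    · intro hp
      have : f0 p.1 = f1 p.2 := by
        have : f0 p.1 - f1 p.2 = 0 := by simpa [d, sub_eq_add_neg] using hp
        exact sub_eq_zero.mp this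
      obtain ⟨c, h1, h2⟩ := hH0 _ _ this
      exact ⟨c, Prod.ext (by simp [i, h1]) (by simp [i, h2])⟩
    · rintro ⟨c, rfl⟩
      simp [i, d]
  have hex' : Function.Exact (i.lTensor B) (d.lTensor B) := Module.Flat.lTensor_exact B hex
  let z : B ⊗[k] (A0 × A1) :=
    (LinearMap.inl k A0 A1).lTensor B x + (LinearMap.inr k A0 A1).lTensor B y
  have hz : d.lTensor B z = 0 := by
    have e0 : d ∘ₗ LinearMap.inl k A0 A1 = f0.toLinearMap := by
      ext a; simp [d]
    have e1 : d ∘ₗ LinearMap.inr k A0 A1 = -f1.toLinearMap := by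
      ext a; simp [d]
    have h0' : f0.toLinearMap.lTensor B x = f1.toLinearMap.lTensor B y := by
      rw [← map_id_eq_lTensor', ← map_id_eq_lTensor', h]
    simp only [z, map_add, ← LinearMap.comp_apply, ← LinearMap.lTensor_comp, e0, e1,
      LinearMap.lTensor_neg, LinearMap.neg_apply, h0', add_neg_cancel]
  obtain ⟨w, hw⟩ := (hex' z).mp hz
  have key0 : ∀ w : B ⊗[k] k, (LinearMap.fst k A0 A1).lTensor B (i.lTensor B w) =
      algebraMap B (B ⊗[k] A0) (TensorProduct.rid k B w) := by
    intro w
    induction w using TensorProduct.induction_on with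
    | zero => simp
    | tmul b c =>
      simp only [LinearMap.lTensor_tmul, TensorProduct.rid_tmul,
        Algebra.TensorProduct.algebraMap_apply, Algebra.algebraMap_self, RingHom.id_apply]
      simp [i, TensorProduct.smul_tmul, Algebra.algebraMap_eq_smul_one]
    | add u v hu hv => simp only [map_add, hu, hv]
  have key1 : ∀ w : B ⊗[k] k, (LinearMap.snd k A0 A1).lTensor B (i.lTensor B w) =
      algebraMap B (B ⊗[k] A1) (TensorProduct.rid k B w) := by
    intro w
    induction w using TensorProduct.induction_on with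
    | zero => simp
    | tmul b c =>
      simp only [LinearMap.lTensor_tmul, TensorProduct.rid_tmul,
        Algebra.TensorProduct.algebraMap_apply, Algebra.algebraMap_self, RingHom.id_apply]
      simp [i, TensorProduct.smul_tmul, Algebra.algebraMap_eq_smul_one]
    | add u v hu hv => simp only [map_add, hu, hv]
  refine ⟨TensorProduct.rid k B w, ?_, ?_⟩
  · have hx : (LinearMap.fst k A0 A1).lTensor B z = x := by
      have e0 : LinearMap.fst k A0 A1 ∘ₗ LinearMap.inl k A0 A1 = LinearMap.id := by ext; simp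
      have e1 : LinearMap.fst k A0 A1 ∘ₗ LinearMap.inr k A0 A1 = 0 := by ext; simp
      simp only [z, map_add, ← LinearMap.comp_apply, ← LinearMap.lTensor_comp, e0, e1,
        LinearMap.lTensor_id, LinearMap.id_apply, LinearMap.lTensor_zero, LinearMap.zero_apply,
        add_zero]
    rw [← hx, ← hw, key0]
  · have hy : (LinearMap.snd k A0 A1).lTensor B z = y := by
      have e0 : LinearMap.snd k A0 A1 ∘ₗ LinearMap.inl k A0 A1 = 0 := by ext; simp
      have e1 : LinearMap.snd k A0 A1 ∘ₗ LinearMap.inr k A0 A1 = LinearMap.id := by ext; simp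
      simp only [z, map_add, ← LinearMap.comp_apply, ← LinearMap.lTensor_comp, e0, e1,
        LinearMap.lTensor_id, LinearMap.id_apply, LinearMap.lTensor_zero, LinearMap.zero_apply,
        zero_add]
    rw [← hy, ← hw, key1]

end H0

/-! ### The clauses -/

section Clauses

universe v

variable (O O' : Type v) [CommRing O] [CommRing O'] [Algebra O O']
  {A0 A1 A01 : Type v} [CommRing A0] [CommRing A1] [CommRing A01]
  [Algebra O A0] [Algebra O A1] [Algebra O A01] [Algebra A0 A01] [Algebra A1 A01]
  [IsScalarTower O A0 A01] [IsScalarTower O A1 A01] {t : A0} {s : A1}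

/-- `t s = 1` after base change. -/
theorem ts_bc (hts : algebraMap A0 A01 t * algebraMap A1 A01 s = 1) :
    algebraMap (O' ⊗[O] A0) (O' ⊗[O] A01) ((1 : O') ⊗ₜ[O] t) *
      algebraMap (O' ⊗[O] A1) (O' ⊗[O] A01) ((1 : O') ⊗ₜ[O] s) = 1 := by
  rw [algebraMap_tensor_tmul, algebraMap_tensor_tmul, Algebra.TensorProduct.tmul_mul_tmul,
    one_mul, hts]
  rfl

/-- Freeness over the coordinate ring after base change. -/
theorem free_bc {A : Type v} [CommRing A] [Algebra O A] {a : A}
    (h : ∃ (n : ℕ) (b : Fin n → A),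
      Function.Bijective (fun p : Fin n → O[X] => ∑ j, aeval a (p j) * b j)) :
    ∃ (n : ℕ) (b : Fin n → O' ⊗[O] A),
      Function.Bijective (fun p : Fin n → O'[X] => ∑ j, aeval ((1 : O') ⊗ₜ[O] a) (p j) * b j) := by
  obtain ⟨n, b, hb⟩ := h
  exact ⟨n, fun j => (1 : O') ⊗ₜ[O] b j,
    Fermat.Agent.JAC.Frame.BaseChange65.bijective_baseChange O' hb⟩

/-- Finite type after base change. -/
theorem finiteType_bc {A : Type v} [CommRing A] [Algebra O A] (h : Algebra.FiniteType O A) :
    Algebra.FiniteType O' (O' ⊗[O] A) :=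
  haveI := h
  inferInstance

/-- The fibres of the base-changed chart are the fibres of the chart. -/
noncomputable def fibreEquiv (A : Type v) [CommRing A] [Algebra O A] (K : Type v) [CommRing K]
    [Algebra O' K] [Algebra O K] [IsScalarTower O O' K] :
    K ⊗[O'] (O' ⊗[O] A) ≃ₐ[K] K ⊗[O] A :=
  Algebra.TensorProduct.cancelBaseChange O O' K K A

/-- Transport of the Dedekind property along a ring isomorphism. -/
theorem isDedekindDomain_of_equiv {A A' : Type*} [CommRing A] [CommRing A'] (f : A ≃+* A')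
    (h : IsDedekindDomain A') : IsDedekindDomain A := by
  have : IsDomain A := MulEquiv.isDomain A' f.toMulEquiv
  have : IsNoetherianRing A := isNoetherianRing_of_ringEquiv A' f.symm
  have : Ring.DimensionLEOne A := Ring.DimensionLEOne.of_ringEquiv f
  have : IsIntegrallyClosed A := IsIntegrallyClosed.of_equiv f.symm
  exact { toIsDomain := inferInstance, toIsDedekindRing := { } }

/-- Dedekind fibres after base change. -/
theorem dedekind_bc (A : Type v) [CommRing A] [Algebra O A] (K : Type v) [Field K]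
    [Algebra O' K] [Algebra O K] [IsScalarTower O O' K] (h : IsDedekindDomain (K ⊗[O] A)) :
    IsDedekindDomain (K ⊗[O'] (O' ⊗[O] A)) :=
  isDedekindDomain_of_equiv (fibreEquiv O O' A K).toRingEquiv h

/-- `H⁰ = O` after flat base change. -/
theorem h0_bc [Module.Flat O O']
    (h0 : ∀ (x : A0) (y : A1), algebraMap A0 A01 x = algebraMap A1 A01 y →
      ∃ c : O, algebraMap O A0 c = x ∧ algebraMap O A1 c = y)
    (x : O' ⊗[O] A0) (y : O' ⊗[O] A1)
    (hxy : algebraMap (O' ⊗[O] A0) (O' ⊗[O] A01) x = algebraMap (O' ⊗[O] A1) (O' ⊗[O] A01) y) :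
    ∃ c : O', algebraMap O' (O' ⊗[O] A0) c = x ∧ algebraMap O' (O' ⊗[O] A1) c = y := by
  obtain ⟨c, h1, h2⟩ := exists_of_map_eq_of_flat (k := O) (IsScalarTower.toAlgHom O A0 A01)
    (IsScalarTower.toAlgHom O A1 A01)
    (fun a0 a1 h => by
      obtain ⟨c, hc0, hc1⟩ := h0 a0 a1 h
      exact ⟨c, hc0.symm, hc1.symm⟩) O' x y hxy
  exact ⟨c, h1.symm, h2.symm⟩

/-- The identification of the fibres is compatible with the maps `A → A'` of the charts. -/
theorem fibreEquiv_algebraMap (A A' : Type v) [CommRing A] [CommRing A'] [Algebra O A]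
    [Algebra O A'] [Algebra A A'] [IsScalarTower O A A'] (B : Type v) [CommRing B]
    [Algebra O' B] [Algebra O B] [IsScalarTower O O' B] (x : B ⊗[O'] (O' ⊗[O] A)) :
    fibreEquiv O O' A' B (algebraMap (B ⊗[O'] (O' ⊗[O] A)) (B ⊗[O'] (O' ⊗[O] A')) x) =
      algebraMap (B ⊗[O] A) (B ⊗[O] A') (fibreEquiv O O' A B x) := by
  induction x using TensorProduct.induction_on with
  | zero => simp
  | add x y hx hy => simp only [map_add, hx, hy]
  | tmul b z =>
    induction z using TensorProduct.induction_on with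
    | zero => simp
    | add x y hx hy => simp only [TensorProduct.tmul_add, map_add, hx, hy]
    | tmul c a =>
      simp [fibreEquiv, algebraMap_tensor_tmul]

/-- The universal form of `H⁰ = O` (for all `O`-algebras `B`) passes to the tensor model over
`O'` (for all `O'`-algebras); no flatness needed. -/
theorem h0Univ_bc
    (hU : ∀ (B : Type v) [CommRing B] [Algebra O B] (x : B ⊗[O] A0) (y : B ⊗[O] A1),
      algebraMap (B ⊗[O] A0) (B ⊗[O] A01) x = algebraMap (B ⊗[O] A1) (B ⊗[O] A01) y →
      ∃ b : B, x = algebraMap B (B ⊗[O] A0) b ∧ y = algebraMap B (B ⊗[O] A1) b)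
    (B : Type v) [CommRing B] [Algebra O' B] (x : B ⊗[O'] (O' ⊗[O] A0))
    (y : B ⊗[O'] (O' ⊗[O] A1))
    (hxy : algebraMap (B ⊗[O'] (O' ⊗[O] A0)) (B ⊗[O'] (O' ⊗[O] A01)) x =
      algebraMap (B ⊗[O'] (O' ⊗[O] A1)) (B ⊗[O'] (O' ⊗[O] A01)) y) :
    ∃ b : B, x = algebraMap B (B ⊗[O'] (O' ⊗[O] A0)) b ∧
      y = algebraMap B (B ⊗[O'] (O' ⊗[O] A1)) b := by
  letI : Algebra O B := ((algebraMap O' B).comp (algebraMap O O')).toAlgebra
  haveI : IsScalarTower O O' B := IsScalarTower.of_algebraMap_eq fun _ => rfl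
  have h := congrArg (fibreEquiv O O' A01 B) hxy
  rw [fibreEquiv_algebraMap, fibreEquiv_algebraMap] at h
  obtain ⟨b, hb0, hb1⟩ := hU B _ _ h
  refine ⟨b, ?_, ?_⟩
  · apply (fibreEquiv O O' A0 B).injective
    rw [hb0, AlgEquiv.commutes]
  · apply (fibreEquiv O O' A1 B).injective
    rw [hb1, AlgEquiv.commutes]

/-- The base point after base change. -/
noncomputable def basePoint (e : A01 →ₐ[O] O) : O' ⊗[O] A01 →ₐ[O'] O' := rigHom O' e

@[simp] theorem basePoint_tmul (e : A01 →ₐ[O] O) (c : O') (a : A01) :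
    basePoint O O' e (c ⊗ₜ a) = c * algebraMap O O' (e a) := rigHom_tmul O' e c a

end Clauses

/-! ### The structure -/

section Main

variable (O O' : Type) [CommRing O] [CommRing O'] [Algebra O O']
  {A0 A1 A01 : Type} [CommRing A0] [CommRing A1] [CommRing A01]
  [Algebra O A0] [Algebra O A1] [Algebra O A01] [Algebra A0 A01] [Algebra A1 A01]
  [IsScalarTower O A0 A01] [IsScalarTower O A1 A01] {t : A0} {s : A1}
  [IsLocalization.Away t A01] [IsLocalization.Away s A01]

/-- **C-BC**: the curve hypotheses are stable under flat base change of the base ring. -/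
theorem curveHypR_bc [Module.Flat O O'] (H : CurveHypR O A0 A1 A01 t s) :
    CurveHypR O' (O' ⊗[O] A0) (O' ⊗[O] A1) (O' ⊗[O] A01) ((1 : O') ⊗ₜ[O] t)
      ((1 : O') ⊗ₜ[O] s) where
  ts := ts_bc O O' H.ts
  free0 := free_bc O O' H.free0
  free1 := free_bc O O' H.free1
  dedekind0 K _ _ := by
    letI : Algebra O K := ((algebraMap O' K).comp (algebraMap O O')).toAlgebra
    haveI : IsScalarTower O O' K := IsScalarTower.of_algebraMap_eq fun _ => rfl
    exact dedekind_bc O O' A0 K (H.dedekind0 K)
  dedekind1 K _ _ := by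
    letI : Algebra O K := ((algebraMap O' K).comp (algebraMap O O')).toAlgebra
    haveI : IsScalarTower O O' K := IsScalarTower.of_algebraMap_eq fun _ => rfl
    exact dedekind_bc O O' A1 K (H.dedekind1 K)
  dedekind01 K _ _ := by
    letI : Algebra O K := ((algebraMap O' K).comp (algebraMap O O')).toAlgebra
    haveI : IsScalarTower O O' K := IsScalarTower.of_algebraMap_eq fun _ => rfl
    exact dedekind_bc O O' A01 K (H.dedekind01 K)
  h0 := h0_bc O O' H.h0

end Main

end Fermat.Agent.FFJ.Model.CurveBc85
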