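/-
Programme FFJ (S19), chapter CURVE, seam C-F → CurveFinal17 — helper87.

**CURVE over every number field containing the explicit field `K₀`.**  Composition of

* `ModelExplicit87.exists_explicitModel` (the explicit two-chart model `ExplicitModelAt` over every
  number field `K ⊇ K₀ = ℚ(ζ_M, cusp values)`; `K₀` finite, `G_ℚ`-stable, `UnramAt ℓ`), and
* `CurveFinal17.curveOut_tq` (helper17: the curve data `CurveOutStmt` of the Möbius model from the
  two-chart model at the Hauptmodul),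

so that the integrator gets `CurveOutStmt` at `(AK A K, FK M K, tq K n e)` for EVERY `K ⊇ K₀` in one
call, for the same `K₀` which serves the model (`ExplicitModelOver`) and SUPPLY (the cusp values lie
in `K₀`: `HorizPointwise87.hH_all_pointwise`).
-/
import Mathlib
import Fermat.Agent.FFJ.Model.CurveFinal17
import Fermat.Agent.FFJ.Model.ModelExplicit87

set_option autoImplicit false
set_option linter.unusedSectionVars false
set_option linter.unusedVariables false
set_option linter.style.haveILetI false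

open HahnSeries ModularCurve IntermediateField
open scoped MatrixGroups

noncomputable section

namespace Fermat.Agent.FFJ.Model.CurveExplicit87

open Fermat.Agent.X0
open Fermat.Agent.RED.Interface4 Fermat.Agent.RED.ModelTargets4
open Fermat.Agent.RED.PUR.GaussGen8
open Fermat.Agent.RED.BASE Fermat.Agent.RED.BASE.Interface12 Fermat.Agent.RED.BASE.EtaQuot12
open Fermat.Agent.RED.BASE.Hauptmodul12 Fermat.Agent.RED.BASE.MainCusp12
open Fermat.Agent.FFJ.Alg.Spec78 (UnramAt)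
open Fermat.Agent.FFJ.Model.ModelGeneric87 Fermat.Agent.FFJ.Model.ModelExplicit87
open Fermat.Agent.FFJ.Model.CurveFinal17

universe u

section Generic

variable {K : Type u} [Field K] [CharZero K] {O : ValuationSubring K}
  [IsDiscreteValuationRing ↥O] {E : IntermediateField K (LaurentSeries K)}

/-- **CURVE from the explicit model**, generic `(O, E)` form, for ANY proofs `hu`, `hE`. -/
theorem curveOutStmt_of_explicitModelAt [Finite (Res O)] {π : ↥O} (hπ : Irreducible π)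
    (n e : ℕ) [NeZero n] (t : E) (htq : (t : LaurentSeries K) = tq K n e)
    (h : ExplicitModelAt O E π t) (hu : IsUnif O π) (hE : E ≤ fracField O) :
    CurveOutStmt hu hE t := by
  obtain ⟨hU, hE', ht, htr, htrK, hfd, hmod⟩ := h
  exact curveOut_tq hπ hu hE n e t htq htrK hmod

end Generic

section Concrete

variable {n e : ℕ} [NeZero n] {M : ℕ} [NeZero M]

/-- CURVE over all number fields `K ⊇ K₀`, all places `A` over `ℓ`, all uniformisers of `A ∩ K`, for
the Hauptmodul `t = tq K n e` (the `IsDiscreteValuationRing` instance is a binder, as in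
`CurveFinal17.curveOut_FK`; supply `NumberFieldDVR27.isDiscreteValuationRing_AK A K hℓ.ne_zero hA`). -/
def CurveOutOver (n e M ℓ : ℕ) [NeZero n] [NeZero M] (K₀ : IntermediateField ℚ Qbar) : Prop :=
  ∀ (A : ValuationSubring Qbar), A.LiesOverPrime ℓ →
    ∀ (K : IntermediateField ℚ Qbar), FiniteDimensional ℚ K → K₀ ≤ K →
    ∀ [IsDiscreteValuationRing ↥(AK A K)] (ϖ : ↥(AK A K)), Irreducible ϖ →
    ∀ (hu : IsUnif (AK A K) ϖ) (t : ↥(FK M K)), (t : LaurentSeries K) = tq K n e →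
      CurveOutStmt (O := AK A K) (E := FK M K) hu
        (Fermat.Agent.RED.PUR.GaussBridge10.FK_le_fracField A K M) t

/-- the explicit model over `K₀` gives CURVE over `K₀`. -/
theorem curveOutOver_of_explicitModelOver {ℓ : ℕ} (hℓ : ℓ ≠ 0) {K₀ : IntermediateField ℚ Qbar}
    (h : ExplicitModelOver n e M ℓ K₀) : CurveOutOver n e M ℓ K₀ := by
  intro A hA K hKfd hle hdvr ϖ hϖ hu t htq
  haveI : Finite (Res (AK A K)) :=
    Fermat.Agent.RED.DESC.NumberFieldDVR27.finite_residueField_AK A K hℓ hA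
  exact curveOutStmt_of_explicitModelAt hϖ n e t htq (h A hA K hKfd hle ϖ hϖ t htq) hu
    (Fermat.Agent.RED.PUR.GaussBridge10.FK_le_fracField A K M)

/-- **C-F + CURVE, closed form.**  For `n ∣ M`, `ℓ ∤ M`: the explicit number field `K₀` (finite,
`G_ℚ`-stable, unramified above `ℓ`, containing `ζ_M` and the finite cusp values, independent of the
place `A`) over which — and over every larger number field — both the explicit two-chart model and
the curve data of the Möbius model exist. -/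
theorem exists_curveOut (hb : BaseHyp n e) (hnM : n ∣ M) {ℓ : ℕ} [Fact ℓ.Prime]
    (hℓM : ¬ ℓ ∣ M) (cv : SL(2, ℤ) → Option Kbar) (hcv : CuspExports n e M cv) :
    ∃ K₀ : IntermediateField ℚ Qbar, FiniteDimensional ℚ K₀ ∧ UnramAt ℓ K₀ ∧
      (∀ (σ : Qbar ≃ₐ[ℚ] Qbar) (x : Qbar), x ∈ K₀ → σ x ∈ K₀) ∧
      zetaK M ∈ K₀ ∧ (∀ (γ : SL(2, ℤ)) (c : Kbar), cv γ = some c → c ∈ K₀) ∧
      ExplicitModelOver n e M ℓ K₀ ∧ CurveOutOver n e M ℓ K₀ := by
  have hℓ : ℓ.Prime := Fact.out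
  obtain ⟨K₀, h1, h2, h3, h4, h5, h6⟩ := exists_explicitModel hb hnM hℓM cv hcv
  exact ⟨K₀, h1, h2, h3, h4, h5, h6, curveOutOver_of_explicitModelOver hℓ.ne_zero h6⟩

/-- `(n, e) = (4, 8)`, `4 ∣ M`, `ℓ ∤ M` (so `ℓ` is odd); `cv = ` the cusp values of `base_four`. -/
theorem exists_curveOut_four (M : ℕ) [NeZero M] (hM : 4 ∣ M) {ℓ : ℕ} [Fact ℓ.Prime]
    (hℓM : ¬ ℓ ∣ M) :
    ∃ K₀ : IntermediateField ℚ Qbar, FiniteDimensional ℚ K₀ ∧ UnramAt ℓ K₀ ∧
      (∀ (σ : Qbar ≃ₐ[ℚ] Qbar) (x : Qbar), x ∈ K₀ → σ x ∈ K₀) ∧ zetaK M ∈ K₀ ∧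
      ExplicitModelOver 4 8 M ℓ K₀ ∧ CurveOutOver 4 8 M ℓ K₀ := by
  obtain ⟨K₀, h1, h2, h3, h4, -, h6, h7⟩ :=
    exists_curveOut baseHyp_four hM hℓM _ (base_four M hM).2
  exact ⟨K₀, h1, h2, h3, h4, h6, h7⟩

/-- `(n, e) = (9, 3)`, `9 ∣ M`, `ℓ ∤ M` (so `ℓ ≠ 3`; this covers `ℓ = 2`). -/
theorem exists_curveOut_nine (M : ℕ) [NeZero M] (hM : 9 ∣ M) {ℓ : ℕ} [Fact ℓ.Prime]
    (hℓM : ¬ ℓ ∣ M) :
    ∃ K₀ : IntermediateField ℚ Qbar, FiniteDimensional ℚ K₀ ∧ UnramAt ℓ K₀ ∧
      (∀ (σ : Qbar ≃ₐ[ℚ] Qbar) (x : Qbar), x ∈ K₀ → σ x ∈ K₀) ∧ zetaK M ∈ K₀ ∧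
      ExplicitModelOver 9 3 M ℓ K₀ ∧ CurveOutOver 9 3 M ℓ K₀ := by
  obtain ⟨K₀, h1, h2, h3, h4, -, h6, h7⟩ :=
    exists_curveOut baseHyp_nine hM hℓM _ (base_nine M hM).2
  exact ⟨K₀, h1, h2, h3, h4, h6, h7⟩

end Concrete

end Fermat.Agent.FFJ.Model.CurveExplicit87
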