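/-
FFJ (S19), chapter Model (CURVE), brick C-F part (F2) (helper23; declared BACKUP of helper87's
CuspField87, same route).

**The field of the finite cusp values of the Hauptmodul `t` is a finite NORMAL extension of `ℚ`,
unramified above every prime `ℓ ∤ M`.**

`G_ℚ` acts on the places of `ℚbar·F_M` (`arithmeticGalois`), fixes `t` and `j` (rational
`q`-expansions), and the finite cusp values are exactly the values of `t` at the poles of `j`
(`CuspFibre14.placeOf_ord_sub_pos`, `HorizUnram20.exists_cv_eq_of_ord_jF_neg`); so the finite set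
`S` of cusp values is `G_ℚ`-stable.  Its elements are integral away from `n` and pairwise
differences are units away from `n` (`CuspShape`, `CuspSeparated`), so `ℚ(S)` is unramified above
`ℓ ∤ n` (`UnramRoots92.unramAt_adjoin_roots`); `ℚ(ζ_M)` is unramified above `ℓ ∤ M`.
-/
import Mathlib
import Fermat.Agent.RED.BASE.CuspFinite12
import Fermat.Agent.RED.PUR.HorizUnram20
import Fermat.Agent.RED.NumInst4
import Fermat.Agent.FFJ.Alg.UnramPlace92
import Fermat.Agent.FFJ.Alg.UnramRoots92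
import Fermat.Agent.FFJ.Alg.UnramNormal92
import Fermat.Agent.X0.RootsK

set_option autoImplicit false
set_option linter.unusedSectionVars false
set_option linter.style.haveILetI false

open ModularCurve AlgebraicCurve Polynomial
open scoped MatrixGroups

noncomputable section

namespace Fermat.Agent.FFJ.Model.CuspField23

open Fermat.Agent.X0 Fermat.Agent.RED.BASE.Interface12
open Fermat.Agent.RED.CUSP.CuspExact16 Fermat.Agent.RED.CUSP.CuspFibre14
open Fermat.Agent.RED.BASE.MainCusp12 Fermat.Agent.RED.BASE.EtaQuot12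
open Fermat.Agent.RED.BASE.Hauptmodul12
open Fermat.Agent.FFJ.Alg.Spec78 Fermat.Agent.TW.FF.FlatModel68 Fermat.Agent.FFJ.Alg.Unram92

variable {n e M : ℕ} [NeZero n] [NeZero M]

/-- `t` has rational `q`-expansion: it is fixed by the arithmetic Galois action. -/
theorem smul_tF (h : TMem n e M) (σ : GQ) :
    arithmeticGalois (modularFunctionFieldFull M) σ • tF M h = tF M h := by
  apply Subtype.ext
  rw [coe_arithmeticGalois_smul]
  show coeffMap (σ : Kbar →+* Kbar) (tq Kbar n e) = tq Kbar n e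
  exact coeffMap_tq Kbar (σ : Kbar →+* Kbar) n e

/-- `j` has rational `q`-expansion: it is fixed by the arithmetic Galois action. -/
theorem smul_jF (σ : GQ) :
    arithmeticGalois (modularFunctionFieldFull M) σ • jF M = jF M := by
  apply Subtype.ext
  rw [coe_arithmeticGalois_smul]
  show coeffMap (σ : Kbar →+* Kbar) (coeffEmb Kbar (qExpand ℚ 1 jq)) = coeffEmb Kbar (qExpand ℚ 1 jq)
  rw [coeffEmb, coeffMap_coeffMap]
  exact coeffMap_congr (RingHom.ext fun a => by simp) _

/-- **The finite cusp values are stable under `G_ℚ`.** -/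
theorem cuspValue_map {cv : SL(2, ℤ) → Option Kbar} (hcv : CuspExp n e M cv) (σ : GQ)
    {γ : SL(2, ℤ)} {c : Kbar} (hγ : cv γ = some c) : ∃ γ', cv γ' = some (σ c) := by
  obtain ⟨h, hC⟩ := id hcv
  set g := arithmeticGalois (modularFunctionFieldFull M) σ with hg
  have hpos := placeOf_ord_sub_pos cv hcv h γ c hγ
  have hneg : (placeOf M γ).ord (jF M) < 0 := by
    have h1 := neg_ord_jF_eq M γ
    have h2 : (0 : ℤ) < cuspW M γ := by exact_mod_cast cuspW_pos M γ
    omega
  have hj : (g • placeOf M γ).ord (jF M) < 0 := by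
    have := SemilinearAut.ord_smul g (placeOf M γ) (jF M)
    rw [hg, smul_jF σ] at this
    rw [hg, this]
    exact hneg
  have ht : 0 < (g • placeOf M γ).ord (tF M h - algebraMap Kbar (FF M) (σ c)) := by
    have := SemilinearAut.ord_smul g (placeOf M γ) (tF M h - algebraMap Kbar (FF M) c)
    rw [smul_sub, SemilinearAut.smul_algebraMap] at this
    rw [hg, smul_tF h σ] at this
    rw [hg]
    have hb : (SemilinearAut.baseAut (arithmeticGalois (modularFunctionFieldFull M) σ)) c = σ c :=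
      rfl
    rw [hb] at this
    rw [this]
    exact hpos
  exact Fermat.Agent.RED.PUR.HorizUnram20.exists_cv_eq_of_ord_jF_neg n e M cv h hC _ hj (σ c) ht

/-- The characteristic polynomial of a finite Galois-stable set has coefficients in the base
field. -/
theorem coeff_prod_mem_bot_of_stable {k E : Type*} [Field k] [Field E] [Algebra k E] [IsGalois k E]
    (T : Finset E) (hT : ∀ σ : E ≃ₐ[k] E, ∀ c ∈ T, σ c ∈ T) (i : ℕ) :
    (∏ c ∈ T, (X - C c)).coeff i ∈ (⊥ : IntermediateField k E) := by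
  classical
  rw [InfiniteGalois.mem_bot_iff_fixed]
  intro σ
  have himg : T.image σ = T := by
    apply Finset.eq_of_subset_of_card_le
    · intro x hx
      obtain ⟨c, hc, rfl⟩ := Finset.mem_image.mp hx
      exact hT σ c hc
    · rw [Finset.card_image_of_injective _ σ.injective]
  have hmap : (∏ c ∈ T, (X - C c)).map (σ : E →+* E) = ∏ c ∈ T, (X - C c) := by
    rw [Polynomial.map_prod]
    conv_rhs => rw [← himg]
    rw [Finset.prod_image (fun a _ b _ h => σ.injective h)]
    refine Finset.prod_congr rfl fun c _ => ?_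
    simp
  have := congrArg (fun p => p.coeff i) hmap
  simpa [Polynomial.coeff_map] using this

/-- the finite set of the finite cusp values. -/
theorem exists_finset_eq {cv : SL(2, ℤ) → Option Kbar} (hcv : CuspExp n e M cv) :
    ∃ S : Finset Kbar, ∀ c, c ∈ S ↔ ∃ γ, cv γ = some c := by
  classical
  obtain ⟨S₀, hS₀⟩ := Fermat.Agent.RED.BASE.CuspFinite12.exists_finset_cuspValues cv hcv
  refine ⟨S₀.filter (fun c => ∃ γ, cv γ = some c), fun c => ?_⟩
  rw [Finset.mem_filter]
  exact ⟨fun h => h.2, fun ⟨γ, hγ⟩ => ⟨hS₀ γ c hγ, γ, hγ⟩⟩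

/-- a finite cusp value is integral away from `n`. -/
theorem isIntAway_of_cuspValue {cv : SL(2, ℤ) → Option Kbar} (hcv : CuspExp n e M cv)
    {γ : SL(2, ℤ)} {c : Kbar} (hγ : cv γ = some c) : IsIntAway n c := by
  obtain ⟨h, hC⟩ := hcv
  have hs := hC γ
  rw [hγ] at hs
  obtain ⟨a, lam, V, -, -, -, -, hc, -⟩ := hs
  exact hc

/-- a finite cusp value is integral above every prime `ℓ ∤ n`. -/
theorem integralAt_of_cuspValue {cv : SL(2, ℤ) → Option Kbar} (hcv : CuspExp n e M cv)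
    {ℓ : ℕ} (hℓ : ℓ.Prime) (hℓn : ¬ ℓ ∣ n) {γ : SL(2, ℤ)} {c : Kbar} (hγ : cv γ = some c) :
    IntegralAt ℓ c := fun A hA =>
  (isIntAway_of_cuspValue hcv hγ).mem_of_inv_mem A
    (Fermat.Agent.RED.NumInst4.inv_natCast_mem hℓ hA n hℓn) (NeZero.ne n)

/-- **(F2) the cusp field.**  For `ℓ ∤ M` there is a finite NORMAL extension `K₀` of `ℚ`,
unramified above `ℓ`, containing `ζ_M` and all finite cusp values of `t` at level `M`.  It does not
depend on the place above `ℓ`. -/
theorem exists_cuspField (hnM : n ∣ M) {ℓ : ℕ} (hℓ : ℓ.Prime) (hℓM : ¬ ℓ ∣ M)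
    {cv : SL(2, ℤ) → Option Kbar} (hcv : CuspExports n e M cv) :
    ∃ K₀ : IntermediateField ℚ Qbar, FiniteDimensional ℚ K₀ ∧ UnramAt ℓ K₀ ∧
      (∀ (σ : GQ) (x : Qbar), x ∈ K₀ → σ x ∈ K₀) ∧ zetaK M ∈ K₀ ∧
      ∀ γ c, cv γ = some c → c ∈ K₀ := by
  classical
  haveI halg : Algebra.IsAlgebraic ℚ Qbar := AlgebraicClosure.isAlgebraic ℚ
  haveI hnormal : Normal ℚ Qbar := Fermat.Agent.FFJ.Alg.UnramNormal92.normal_Qbar
  haveI hgal : IsGalois ℚ Qbar := ⟨⟩
  have hℓn : ¬ ℓ ∣ n := fun h => hℓM (h.trans hnM)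
  obtain ⟨S, hS⟩ := exists_finset_eq hcv.cuspExp
  have hSint : ∀ c ∈ S, IntegralAt ℓ c := by
    intro c hc
    obtain ⟨γ, hγ⟩ := (hS c).1 hc
    exact integralAt_of_cuspValue hcv.cuspExp hℓ hℓn hγ
  have hstab : ∀ σ : GQ, ∀ c ∈ S, σ c ∈ S := by
    intro σ c hc
    obtain ⟨γ, hγ⟩ := (hS c).1 hc
    exact (hS _).2 (cuspValue_map hcv.cuspExp σ hγ)
  have hcoef : ∀ i, (∏ c ∈ S, (X - C c)).coeff i ∈ (⊥ : IntermediateField ℚ Qbar) :=
    coeff_prod_mem_bot_of_stable S hstab
  have hsep : ∀ c ∈ S, ∀ c' ∈ S, c ≠ c' → IntegralAt ℓ (c - c')⁻¹ := by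
    intro c hc c' hc' hne A hA
    obtain ⟨γ, hγ⟩ := (hS c).1 hc
    obtain ⟨γ', hγ'⟩ := (hS c').1 hc'
    rcases hcv.separated γ γ' c c' hγ hγ' with h | h
    · exact absurd h hne
    · exact h.2.2.mem_of_inv_mem A
        (Fermat.Agent.RED.NumInst4.inv_natCast_mem hℓ hA n hℓn) (NeZero.ne n)
  have hU1 : UnramAt ℓ ((⊥ : IntermediateField ℚ Qbar) ⊔
      IntermediateField.adjoin ℚ (S : Set Qbar)) :=
    Fermat.Agent.FFJ.Alg.UnramRoots92.unramAt_adjoin_roots (unramBot ℓ) S hSint hcoef hsep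
  have hU2 : UnramAt ℓ (IntermediateField.adjoin ℚ {zetaK M}) :=
    unramRootOfUnity ℓ hℓ M hℓM (zetaK M) (zetaK_pow_self M)
  have hU : UnramAt ℓ (((⊥ : IntermediateField ℚ Qbar) ⊔
      IntermediateField.adjoin ℚ (S : Set Qbar)) ⊔ IntermediateField.adjoin ℚ {zetaK M}) :=
    unramSup ℓ _ _ hU1 hU2
  have hint : ∀ x : Qbar, IsIntegral ℚ x := fun x =>
    (Algebra.IsAlgebraic.isAlgebraic (R := ℚ) x).isIntegral
  haveI hf1 : FiniteDimensional ℚ (IntermediateField.adjoin ℚ (S : Set Qbar)) :=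
    IntermediateField.finiteDimensional_adjoin fun x _ => hint x
  haveI hf2 : FiniteDimensional ℚ (IntermediateField.adjoin ℚ ({zetaK M} : Set Qbar)) :=
    IntermediateField.finiteDimensional_adjoin fun x _ => hint x
  haveI hf0 : FiniteDimensional ℚ (⊥ : IntermediateField ℚ Qbar) := inferInstance
  haveI hf3 : FiniteDimensional ℚ ((⊥ : IntermediateField ℚ Qbar) ⊔
      IntermediateField.adjoin ℚ (S : Set Qbar) : IntermediateField ℚ Qbar) :=
    IntermediateField.finiteDimensional_sup _ _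
  haveI hf : FiniteDimensional ℚ ((((⊥ : IntermediateField ℚ Qbar) ⊔
      IntermediateField.adjoin ℚ (S : Set Qbar)) ⊔ IntermediateField.adjoin ℚ {zetaK M} :
      IntermediateField ℚ Qbar)) :=
    IntermediateField.finiteDimensional_sup _ _
  obtain ⟨K', hle, hfd, hnorm, hunr⟩ :=
    Fermat.Agent.FFJ.Alg.UnramNormal92.exists_normal_unramAt _ hU
  refine ⟨K', hfd, hunr, hnorm, ?_, ?_⟩
  · exact hle (le_sup_right (a := (⊥ : IntermediateField ℚ Qbar) ⊔
      IntermediateField.adjoin ℚ (S : Set Qbar))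
      (IntermediateField.subset_adjoin ℚ _ (Set.mem_singleton _)))
  · intro γ c hγ
    have hcS : c ∈ S := (hS c).2 ⟨γ, hγ⟩
    exact hle (le_sup_left (b := IntermediateField.adjoin ℚ {zetaK M})
      (le_sup_right (a := (⊥ : IntermediateField ℚ Qbar))
        (IntermediateField.subset_adjoin ℚ _ (Finset.mem_coe.2 hcS))))

/-- (F2) at the two Hauptmodul levels used by RED. -/
theorem exists_cuspField_of_baseHyp (hb : BaseHyp n e) (hnM : n ∣ M) {ℓ : ℕ} (hℓ : ℓ.Prime)
    (hℓM : ¬ ℓ ∣ M) {cv : SL(2, ℤ) → Option Kbar} (hcv : CuspExp n e M cv ∧ CuspSeparated n cv) :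
    ∃ K₀ : IntermediateField ℚ Qbar, FiniteDimensional ℚ K₀ ∧ UnramAt ℓ K₀ ∧
      (∀ (σ : GQ) (x : Qbar), x ∈ K₀ → σ x ∈ K₀) ∧ zetaK M ∈ K₀ ∧
      ∀ γ c, cv γ = some c → c ∈ K₀ :=
  exists_cuspField hnM hℓ hℓM (cuspExports_of hb hnM hcv)

end Fermat.Agent.FFJ.Model.CuspField23
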