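/-
Programme FFJ (S19), chapter CURVE/PIC-D, brick (D3) SUPPLY.  Owner: helper39.

**Fibres over closed points of higher degree.**  Twin of `EtaleFibre39` with `t - c` replaced by
`g(t)`, `g ∈ R[X]` monic with separable reduction: the closed subscheme `g(t) = 0` of a chart which is
finite free over `R[t]` and on which `t` is étale along `g(t) = 0` is finite étale over `R`.
Mathlib + `RED/PUR/DiscrEtale21` + `EtaleFibre39`.

* `isUnit_discr_quotient`     : `B ⧸ I` finite free over the local ring `R` (perfect residue field)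
  and (LOC) at every maximal ideal `x ⊇ 𝔪B + I` ⇒ every discriminant of `B ⧸ I` is a unit;
* `fibreGEquiv`, `finite_fibreG`, `free_fibreG` : `B ⧸ (g(t))` is finite free over `R` for monic `g`
  when `B` is finite free over `R[t]` (coordinate form);
* `exists_mul_mem_of_separable` : if `ḡ` is separable and `f(t), g(t) ∈ x`, then `k(t) f(t) ∈ 𝔪B + (g(t))`
  for some `k` with `k(t) ∉ x`  (so a (LOC) statement w.r.t. `(𝔪, f(t))` is one w.r.t. `(𝔪, g(t))`);
* `isUnit_discr_fibreG`       : the unit discriminant of `B ⧸ (g(t))`;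
* `exists_algHom_fibreG`, `exists_algHom_awayG` : points with values in an algebraically closed field.
-/
import Mathlib
import Fermat.Agent.RED.PUR.DiscrEtale21
import Fermat.Agent.FFJ.Model.EtaleFibre39
import Fermat.Agent.FFJ.Model.BasePoint39

set_option autoImplicit false
set_option linter.style.haveILetI false

open Polynomial

namespace Fermat.Agent.FFJ.Model.FibreG39

open Fermat.Agent.FFJ.Model.EtaleFibre39 Fermat.Agent.FFJ.Model.BasePoint39

section Quotient

variable {R B : Type*} [CommRing R] [CommRing B] [Algebra R B]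

/-- **Unit discriminant of a finite free quotient.**  `R` local with perfect residue field, `B ⧸ I`
finite free over `R`; if every maximal ideal `x` of `B` containing the maximal ideal of `R` and `I`
is locally generated by these, every discriminant of `B ⧸ I` over `R` is a unit. -/
theorem isUnit_discr_quotient [IsLocalRing R] [PerfectField (IsLocalRing.ResidueField R)]
    (I : Ideal B) [Module.Finite R (B ⧸ I)] [Module.Free R (B ⧸ I)]
    (hloc : ∀ x : Ideal B, x.IsMaximal →
      (∀ r ∈ IsLocalRing.maximalIdeal R, algebraMap R B r ∈ x) → I ≤ x →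
      ∀ y ∈ x, ∃ d, d ∉ x ∧
        d * y ∈ Ideal.map (algebraMap R B) (IsLocalRing.maximalIdeal R) ⊔ I)
    {ι : Type*} [Fintype ι] [DecidableEq ι] (b : Module.Basis ι R (B ⧸ I)) :
    IsUnit (Algebra.discr R b) := by
  letI : Field (R ⧸ IsLocalRing.maximalIdeal R) := Ideal.Quotient.field _
  haveI : PerfectField (R ⧸ IsLocalRing.maximalIdeal R) :=
    (inferInstance : PerfectField (IsLocalRing.ResidueField R))
  rw [Fermat.Agent.RED.PUR.DiscrEtale21.isUnit_discr_iff_isRadical_of_perfectField]
  apply isRadical_of_forall_isMaximal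
  intro xq hxq hle yq hyq
  obtain ⟨y, rfl⟩ := Ideal.Quotient.mk_surjective yq
  set mk := Ideal.Quotient.mk I with hmk
  have hxmax : (xq.comap mk).IsMaximal :=
    Ideal.comap_isMaximal_of_surjective mk Ideal.Quotient.mk_surjective
  have hp : ∀ r ∈ IsLocalRing.maximalIdeal R, algebraMap R B r ∈ xq.comap mk := by
    intro r hr
    rw [Ideal.mem_comap]
    apply hle
    have : mk (algebraMap R B r) = algebraMap R (B ⧸ I) r := rfl
    rw [this]
    exact Ideal.mem_map_of_mem _ hr
  have hI : I ≤ xq.comap mk := by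
    intro z hz
    rw [Ideal.mem_comap]
    have : mk z = 0 := Ideal.Quotient.eq_zero_iff_mem.mpr hz
    rw [this]
    exact xq.zero_mem
  obtain ⟨d, hd, hdy⟩ := hloc _ hxmax hp hI y hyq
  refine ⟨mk d, hd, ?_⟩
  rw [← map_mul]
  have h1 : mk (d * y) ∈ Ideal.map mk
      (Ideal.map (algebraMap R B) (IsLocalRing.maximalIdeal R) ⊔ I) :=
    Ideal.mem_map_of_mem _ hdy
  rw [Ideal.map_sup, Ideal.map_map] at h1
  have h2 : Ideal.map mk I = ⊥ := by
    rw [hmk, Ideal.map_quotient_self]
  rw [h2, sup_bot_eq] at h1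
  exact h1

end Quotient

section FibreG

variable {R B : Type*} [CommRing R] [CommRing B] [Algebra R B]

/-- The ideal `(g(t))` of `B`. -/
def fibreGIdeal (t : B) (g : R[X]) : Ideal B := Ideal.span {aeval t g}

/-- The closed subscheme `g(t) = 0` of `B`. -/
abbrev fibreG (t : B) (g : R[X]) : Type _ := B ⧸ fibreGIdeal t g

variable {n : ℕ} (t : B) (g : R[X]) (b : Fin n → B)

/-- The `R`-linear map `r ↦ Σ r_j(t) b_j mod g(t)` on tuples of polynomials of degree `< deg g`. -/
noncomputable def fibreGMap : (Fin n → degreeLT R g.natDegree) →ₗ[R] fibreG t g where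
  toFun r := Ideal.Quotient.mkₐ R (fibreGIdeal t g) (∑ j, aeval t (r j : R[X]) * b j)
  map_add' r r' := by
    rw [← map_add, ← Finset.sum_add_distrib]
    congr 1
    refine Finset.sum_congr rfl fun j _ => ?_
    simp [add_mul]
  map_smul' c r := by
    rw [RingHom.id_apply, ← map_smul, Finset.smul_sum]
    congr 1
    refine Finset.sum_congr rfl fun j _ => ?_
    simp

variable {t g b}

theorem fibreGMap_bijective [Nontrivial R] (hg : g.Monic)
    (hb : Function.Bijective fun p : Fin n → R[X] => ∑ j, aeval t (p j) * b j) :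
    Function.Bijective (fibreGMap t g b) := by
  constructor
  · rw [← LinearMap.ker_eq_bot, LinearMap.ker_eq_bot']
    intro r hr
    change Ideal.Quotient.mk (fibreGIdeal t g) (∑ j, aeval t (r j : R[X]) * b j) = 0 at hr
    rw [Ideal.Quotient.eq_zero_iff_mem, fibreGIdeal, Ideal.mem_span_singleton'] at hr
    obtain ⟨w, hw⟩ := hr
    obtain ⟨q, hq⟩ := hb.2 w
    have hq' : ∑ j, aeval t (q j) * b j = w := hq
    have h1 : (fun p : Fin n → R[X] => ∑ j, aeval t (p j) * b j) (fun j => (r j : R[X])) =
        (fun p : Fin n → R[X] => ∑ j, aeval t (p j) * b j) (fun j => q j * g) := by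
      simp only [map_mul]
      rw [← hw, ← hq', Finset.sum_mul]
      refine Finset.sum_congr rfl fun j _ => ?_
      ring
    have h2 := hb.1 h1
    funext j
    have h3 : (r j : R[X]) = q j * g := congrFun h2 j
    have hdeg : (r j : R[X]).degree < g.natDegree := mem_degreeLT.mp (r j).2
    have hq0 : q j = 0 := by
      by_contra hne
      have h4 : (q j * g).degree = (q j).degree + g.degree := by
        rw [hg.degree_mul]
      rw [h3, h4, ← degree_eq_natDegree hg.ne_zero] at hdeg
      have h5 : (0 : WithBot ℕ) ≤ (q j).degree := zero_le_degree_iff.mpr hne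
      have h6 : g.degree ≤ (q j).degree + g.degree := by
        calc g.degree = 0 + g.degree := (zero_add _).symm
          _ ≤ (q j).degree + g.degree := add_le_add_left h5 _
      exact absurd hdeg (not_lt.mpr h6)
    apply Subtype.ext
    rw [h3, hq0, zero_mul]
    rfl
  · intro z
    obtain ⟨x, rfl⟩ := Ideal.Quotient.mk_surjective z
    obtain ⟨p, hp⟩ := hb.2 x
    have hp' : ∑ j, aeval t (p j) * b j = x := hp
    refine ⟨fun j => ⟨p j %ₘ g, mem_degreeLT.mpr (by
      rw [← degree_eq_natDegree hg.ne_zero]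
      exact degree_modByMonic_lt _ hg)⟩, ?_⟩
    change Ideal.Quotient.mk (fibreGIdeal t g) (∑ j, aeval t (p j %ₘ g) * b j) = _
    rw [← hp', ← sub_eq_zero, ← map_sub, Ideal.Quotient.eq_zero_iff_mem,
      ← Finset.sum_sub_distrib]
    refine Ideal.sum_mem _ fun j _ => ?_
    rw [← sub_mul]
    refine Ideal.mul_mem_right _ _ ?_
    have h1 : p j %ₘ g - p j = - (g * (p j /ₘ g)) := by
      have := modByMonic_add_div (p j) g
      linear_combination this
    rw [← map_sub, h1, map_neg, map_mul]
    exact Ideal.neg_mem_iff _ |>.mpr (Ideal.mul_mem_right _ _ (Ideal.subset_span rfl))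

/-- `B ⧸ (g(t)) ≃ (R[X]_{< deg g})ⁿ` as `R`-modules. -/
noncomputable def fibreGEquiv [Nontrivial R] (hg : g.Monic)
    (hb : Function.Bijective fun p : Fin n → R[X] => ∑ j, aeval t (p j) * b j) :
    (Fin n → degreeLT R g.natDegree) ≃ₗ[R] fibreG t g :=
  LinearEquiv.ofBijective (fibreGMap t g b) (fibreGMap_bijective hg hb)

theorem free_fibreG [Nontrivial R] (hg : g.Monic)
    (hb : Function.Bijective fun p : Fin n → R[X] => ∑ j, aeval t (p j) * b j) :
    Module.Free R (fibreG t g) := by
  haveI : Module.Free R (degreeLT R g.natDegree) :=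
    Module.Free.of_equiv (degreeLTEquiv R g.natDegree).symm
  exact Module.Free.of_equiv (fibreGEquiv hg hb)

theorem finite_fibreG [Nontrivial R] (hg : g.Monic)
    (hb : Function.Bijective fun p : Fin n → R[X] => ∑ j, aeval t (p j) * b j) :
    Module.Finite R (fibreG t g) := by
  haveI : Module.Finite R (degreeLT R g.natDegree) :=
    Module.Finite.equiv (degreeLTEquiv R g.natDegree).symm
  exact Module.Finite.equiv (fibreGEquiv hg hb)

end FibreG

section Separable

variable {R B : Type*} [CommRing R] [CommRing B] [Algebra R B] [IsLocalRing R]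

/-- **A polynomial local parameter along `g(t) = 0` may be replaced by `g(t)`**, when the reduction
of `g` is separable: if `f(t), g(t) ∈ x` then `k(t) f(t) ∈ 𝔪B + (g(t))` for some `k` with
`k(t) ∉ x`. -/
theorem exists_mul_mem_of_separable (t : B) (x : Ideal B) [hx : x.IsMaximal]
    (hp : ∀ r ∈ IsLocalRing.maximalIdeal R, algebraMap R B r ∈ x)
    (g f : R[X]) (hsep : (g.map (IsLocalRing.residue R)).Separable)
    (hgx : aeval t g ∈ x) (hfx : aeval t f ∈ x) :
    ∃ k : R[X], aeval t k ∉ x ∧
      aeval t k * aeval t f ∈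
        Ideal.map (algebraMap R B) (IsLocalRing.maximalIdeal R) ⊔ fibreGIdeal t g := by
  classical
  letI : Field (B ⧸ x) := Ideal.Quotient.field x
  set res := IsLocalRing.residue R with hres
  -- the map `κ → B ⧸ x`
  let ψ : IsLocalRing.ResidueField R →+* B ⧸ x :=
    Ideal.Quotient.lift (IsLocalRing.maximalIdeal R)
      ((Ideal.Quotient.mk x).comp (algebraMap R B))
      (fun r hr => Ideal.Quotient.eq_zero_iff_mem.mpr (hp r hr))
  have hψ : ψ.comp res = (Ideal.Quotient.mk x).comp (algebraMap R B) :=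
    Ideal.Quotient.lift_comp_mk _ _ _
  set tb : B ⧸ x := Ideal.Quotient.mk x t with htb
  -- evaluation at `t̄`
  let ev : (IsLocalRing.ResidueField R)[X] →+* B ⧸ x := eval₂RingHom ψ tb
  have hev : ∀ p : R[X], Ideal.Quotient.mk x (aeval t p) = ev (p.map res) := by
    intro p
    show _ = eval₂ ψ tb (p.map res)
    rw [eval₂_map, hψ, aeval_def, hom_eval₂]
  set gb := g.map res with hgb
  set fb := f.map res with hfb
  have hg0 : ev gb = 0 := by rw [← hev]; exact Ideal.Quotient.eq_zero_iff_mem.mpr hgx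
  have hf0 : ev fb = 0 := by rw [← hev]; exact Ideal.Quotient.eq_zero_iff_mem.mpr hfx
  set D := EuclideanDomain.gcd gb fb with hD
  obtain ⟨kb, hkb⟩ : D ∣ gb := EuclideanDomain.gcd_dvd_left gb fb
  obtain ⟨mb, hmb⟩ : D ∣ fb := EuclideanDomain.gcd_dvd_right gb fb
  have hD0 : ev D = 0 := by
    rw [hD, EuclideanDomain.gcd_eq_gcd_ab, map_add, map_mul, map_mul, hg0, hf0, zero_mul,
      zero_mul, add_zero]
  -- `k̄(t̄) ≠ 0` by separability
  have hk0 : ev kb ≠ 0 := by
    intro hk
    obtain ⟨a, b, hab⟩ := hsep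
    have hder : ev (derivative gb) = 0 := by
      rw [hkb, derivative_mul, map_add, map_mul, map_mul, hk, hD0, mul_zero, zero_mul, add_zero]
    have h1 := congrArg ev hab
    rw [map_add, map_mul, map_mul, hg0, hder, mul_zero, mul_zero, add_zero, map_one] at h1
    exact zero_ne_one h1
  obtain ⟨k, hk⟩ := Polynomial.map_surjective res IsLocalRing.residue_surjective kb
  obtain ⟨m, hm⟩ := Polynomial.map_surjective res IsLocalRing.residue_surjective mb
  refine ⟨k, ?_, ?_⟩
  · intro hkx
    apply hk0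
    rw [← hk, ← hev]
    exact Ideal.Quotient.eq_zero_iff_mem.mpr hkx
  · have hker : k * f - g * m ∈ Ideal.map (C : R →+* R[X]) (IsLocalRing.maximalIdeal R) := by
      have h1 : (k * f - g * m).map res = 0 := by
        rw [Polynomial.map_sub, Polynomial.map_mul, Polynomial.map_mul, hk, hm, ← hgb, ← hfb,
          hkb, hmb]
        ring
      have h2 : k * f - g * m ∈ RingHom.ker (mapRingHom res) := by
        rw [RingHom.mem_ker]
        exact h1
      rw [ker_mapRingHom, hres, IsLocalRing.ker_residue] at h2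
      exact h2
    have h3 : aeval t (k * f - g * m) ∈
        Ideal.map (algebraMap R B) (IsLocalRing.maximalIdeal R) := by
      have h4 := Ideal.mem_map_of_mem (aeval t : R[X] →ₐ[R] B).toRingHom hker
      rw [Ideal.map_map] at h4
      have h5 : ((aeval t : R[X] →ₐ[R] B).toRingHom).comp (C : R →+* R[X]) = algebraMap R B := by
        ext r
        simp
      rw [h5] at h4
      exact h4
    have h6 : aeval t k * aeval t f = aeval t (k * f - g * m) + aeval t g * aeval t m := by
      simp only [map_sub, map_mul]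
      ring
    rw [h6]
    exact Ideal.add_mem _ (Ideal.mem_sup_left h3)
      (Ideal.mem_sup_right (Ideal.mul_mem_right _ _ (Ideal.subset_span rfl)))

variable {n : ℕ} {t : B} {g : R[X]} {b : Fin n → B}

/-- **Unit discriminant of the closed subscheme `g(t) = 0`.**  `R` local with perfect residue field,
`B` finite free over `R[X]` (`X ↦ t`), `g` monic with separable reduction; if at every maximal
ideal `x ∋ 𝔪, g(t)` of `B` there is a POLYNOMIAL local parameter `f(t)` (the conclusion of RED's
purity theorem), every discriminant of `B ⧸ (g(t))` over `R` is a unit. -/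
theorem isUnit_discr_fibreG [PerfectField (IsLocalRing.ResidueField R)] (hg : g.Monic)
    (hsep : (g.map (IsLocalRing.residue R)).Separable)
    (hb : Function.Bijective fun p : Fin n → R[X] => ∑ j, aeval t (p j) * b j)
    (hloc : ∀ x : Ideal B, x.IsMaximal →
      (∀ r ∈ IsLocalRing.maximalIdeal R, algebraMap R B r ∈ x) → aeval t g ∈ x →
      ∃ f : R[X], aeval t f ∈ x ∧ ∀ y ∈ x, ∃ d, d ∉ x ∧
        d * y ∈ Ideal.map (algebraMap R B) (IsLocalRing.maximalIdeal R) ⊔
          Ideal.span {aeval t f})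
    {ι : Type*} [Fintype ι] [DecidableEq ι] (b' : Module.Basis ι R (fibreG t g)) :
    IsUnit (Algebra.discr R b') := by
  haveI := finite_fibreG hg hb
  haveI := free_fibreG hg hb
  refine isUnit_discr_quotient (fibreGIdeal t g) ?_ b'
  intro x hx hp hI y hy
  haveI := hx
  have hgx : aeval t g ∈ x := hI (Ideal.subset_span rfl)
  obtain ⟨f, hfx, hf⟩ := hloc x hx hp hgx
  obtain ⟨k, hkx, hkf⟩ := exists_mul_mem_of_separable t x hp g f hsep hgx hfx
  obtain ⟨d, hd, hdy⟩ := hf y hy
  refine ⟨aeval t k * d, fun h => (hx.isPrime.mem_or_mem h).elim hkx hd, ?_⟩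
  obtain ⟨m0, hm0, z, hz, hsum⟩ := Submodule.mem_sup.mp hdy
  obtain ⟨c, rfl⟩ := Ideal.mem_span_singleton'.mp hz
  have h1 : aeval t k * d * y = aeval t k * m0 + c * (aeval t k * aeval t f) := by
    rw [mul_assoc, ← hsum]
    ring
  rw [h1]
  exact Ideal.add_mem _ (Ideal.mem_sup_left (Ideal.mul_mem_left _ _ hm0))
    (Ideal.mul_mem_left _ _ hkf)

end Separable

section Points

variable {R B Ω : Type*} [CommRing R] [IsDomain R] [CommRing B] [Algebra R B]
  [Field Ω] [IsAlgClosed Ω] [Algebra R Ω]
  {n : ℕ} {t : B} {g : R[X]} {b : Fin n → B}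

omit [IsDomain R] in
/-- `R → B ⧸ (g(t))` is injective (`B` free of positive rank over `R[X]`, `deg g > 0`). -/
theorem algebraMap_fibreG_injective [Nontrivial R] (hg : g.Monic) (hn : n ≠ 0)
    (hgd : g.natDegree ≠ 0)
    (hb : Function.Bijective fun p : Fin n → R[X] => ∑ j, aeval t (p j) * b j) :
    Function.Injective (algebraMap R (fibreG t g)) := by
  rw [injective_iff_map_eq_zero]
  intro r hr
  have h1 : ∀ z : fibreG t g, r • z = 0 := fun z => by
    rw [Algebra.smul_def, hr, zero_mul]
  have hone : (1 : R[X]) ∈ degreeLT R g.natDegree := by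
    rw [mem_degreeLT, degree_one]
    exact_mod_cast Nat.pos_of_ne_zero hgd
  let v : Fin n → degreeLT R g.natDegree := fun _ => ⟨1, hone⟩
  have h2 : r • v = 0 := by
    apply (fibreGEquiv hg hb).injective
    rw [map_smul, map_zero]
    exact h1 _
  obtain ⟨j₀⟩ : Nonempty (Fin n) := ⟨⟨0, Nat.pos_of_ne_zero hn⟩⟩
  have h3 := congrArg (fun w : Fin n → degreeLT R g.natDegree => ((w j₀ : R[X])).coeff 0) h2
  simpa [v] using h3

/-- **A point of the closed subscheme `g(t) = 0` with values in `Ω`.** -/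
theorem exists_algHom_fibreG (hj : Function.Injective (algebraMap R Ω)) (hg : g.Monic)
    (hn : n ≠ 0) (hgd : g.natDegree ≠ 0)
    (hb : Function.Bijective fun p : Fin n → R[X] => ∑ j, aeval t (p j) * b j) :
    ∃ (ε : fibreG t g →ₐ[R] Ω) (φ : B →ₐ[R] Ω),
      (∀ x, φ x = ε (Ideal.Quotient.mk (fibreGIdeal t g) x)) ∧
      aeval (φ t) g = 0 ∧ ∀ x, IsIntegral R (φ x) := by
  haveI := finite_fibreG hg hb
  haveI : Algebra.IsIntegral R (fibreG t g) := Algebra.IsIntegral.of_finite R _
  obtain ⟨ε⟩ := nonempty_algHom_of_isIntegral (E := fibreG t g)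
    (algebraMap_fibreG_injective hg hn hgd hb) hj
  refine ⟨ε, ε.comp (Ideal.Quotient.mkₐ R (fibreGIdeal t g)), fun x => rfl, ?_, fun x => ?_⟩
  · have h1 : aeval ((ε.comp (Ideal.Quotient.mkₐ R (fibreGIdeal t g))) t) g =
        (ε.comp (Ideal.Quotient.mkₐ R (fibreGIdeal t g))) (aeval t g) :=
      (Polynomial.aeval_algHom_apply _ t g)
    rw [h1]
    show ε (Ideal.Quotient.mk (fibreGIdeal t g) (aeval t g)) = 0
    have h2 : Ideal.Quotient.mk (fibreGIdeal t g) (aeval t g) = 0 :=
      Ideal.Quotient.eq_zero_iff_mem.mpr (Ideal.subset_span rfl)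
    rw [h2, map_zero]
  · exact (Algebra.IsIntegral.isIntegral
      (Ideal.Quotient.mkₐ R (fibreGIdeal t g) x)).map ε

omit [IsDomain R] [IsAlgClosed Ω] in
/-- A root `c` of a polynomial `g` over `R` with unit constant term, integral over `R`, has an
inverse which is integral over `R`. -/
theorem isUnit_and_isIntegral_inv_of_aeval_eq_zero (hg0 : IsUnit (g.coeff 0)) {c : Ω}
    (hc : aeval c g = 0) (hint : IsIntegral R c) : c ≠ 0 ∧ IsIntegral R c⁻¹ := by
  obtain ⟨u, hu⟩ := hg0
  have h1 : aeval c g.divX * c + algebraMap R Ω (g.coeff 0) = 0 := by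
    have := congrArg (aeval c) (divX_mul_X_add g)
    rw [map_add, map_mul, aeval_X, aeval_C, hc] at this
    exact this
  have hu' : algebraMap R Ω (g.coeff 0) * algebraMap R Ω ((u⁻¹ : Rˣ) : R) = 1 := by
    rw [← map_mul, ← hu, Units.mul_inv, map_one]
  have h2 : c * (-(aeval c g.divX) * algebraMap R Ω ((u⁻¹ : Rˣ) : R)) = 1 := by
    have h3 : aeval c g.divX * c = -algebraMap R Ω (g.coeff 0) := eq_neg_of_add_eq_zero_left h1
    calc c * (-(aeval c g.divX) * algebraMap R Ω ((u⁻¹ : Rˣ) : R))
        = -(aeval c g.divX * c) * algebraMap R Ω ((u⁻¹ : Rˣ) : R) := by ring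
      _ = algebraMap R Ω (g.coeff 0) * algebraMap R Ω ((u⁻¹ : Rˣ) : R) := by rw [h3, neg_neg]
      _ = 1 := hu'
  have hc0 : c ≠ 0 := left_ne_zero_of_mul_eq_one h2
  refine ⟨hc0, ?_⟩
  have h4 : c⁻¹ = -(aeval c g.divX) * algebraMap R Ω ((u⁻¹ : Rˣ) : R) :=
    inv_eq_of_mul_eq_one_right h2
  rw [h4]
  have h5 : IsIntegral R (aeval c g.divX) := by
    rw [aeval_eq_sum_range]
    exact IsIntegral.sum _ fun i _ => (hint.pow i).smul _
  exact h5.neg.mul isIntegral_algebraMap

/-- **Points on the overlap**: if the constant term of `g` is a unit, the point of `g(t) = 0`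
extends to `B[1/t]`, with integral values. -/
theorem exists_algHom_awayG (hj : Function.Injective (algebraMap R Ω)) (hg : g.Monic)
    (hn : n ≠ 0) (hgd : g.natDegree ≠ 0)
    (hb : Function.Bijective fun p : Fin n → R[X] => ∑ j, aeval t (p j) * b j)
    (hg0 : IsUnit (g.coeff 0))
    (B01 : Type*) [CommRing B01] [Algebra B B01] [Algebra R B01] [IsScalarTower R B B01]
    [IsLocalization.Away t B01] :
    ∃ (ε : fibreG t g →ₐ[R] Ω) (φ : B01 →ₐ[R] Ω),
      (∀ x : B, φ (algebraMap B B01 x) = ε (Ideal.Quotient.mk (fibreGIdeal t g) x)) ∧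
      aeval (φ (algebraMap B B01 t)) g = 0 ∧ ∀ z, IsIntegral R (φ z) := by
  obtain ⟨ε, φ, hφε, hφt, hφint⟩ := exists_algHom_fibreG (Ω := Ω) hj hg hn hgd hb
  obtain ⟨hc0, hcinv⟩ := isUnit_and_isIntegral_inv_of_aeval_eq_zero hg0 hφt (hφint t)
  have hunit : ∀ y : Submonoid.powers t, IsUnit (φ y) := by
    rintro ⟨_, k, rfl⟩
    show IsUnit (φ (t ^ k))
    rw [map_pow]
    exact (isUnit_iff_ne_zero.mpr hc0).pow k
  let φ01 : B01 →ₐ[R] Ω := IsLocalization.liftAlgHom (M := Submonoid.powers t) (f := φ) hunit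
  have hφ01 : ∀ x : B, φ01 (algebraMap B B01 x) = φ x := fun x =>
    IsLocalization.lift_eq (M := Submonoid.powers t) (g := (φ : B →+* Ω)) hunit x
  refine ⟨ε, φ01, fun x => by rw [hφ01, hφε], by rw [hφ01]; exact hφt, fun z => ?_⟩
  obtain ⟨k, x, hx⟩ := IsLocalization.Away.surj t z
  have h1 : φ01 z * (φ t) ^ k = φ x := by
    rw [← hφ01 x, ← hx, map_mul, map_pow φ01, hφ01]
  have h2 : φ01 z = φ x * ((φ t)⁻¹) ^ k := by
    rw [← h1, mul_assoc, ← mul_pow, mul_inv_cancel₀ hc0, one_pow, mul_one]
  rw [h2]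
  exact (hφint x).mul (hcinv.pow k)

end Points

end Fermat.Agent.FFJ.Model.FibreG39
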