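/-
Programme FFJ, chapter CURVE (helper9): brick `GaussFibre9` in the LITERAL shape requested by the
CURVE architect (helper17): `redHom`, `redHom_eq_zero_iff`, `redHom_algebraMap` and `dedekind_all`
(the three Dedekind clauses of `CurveHypR` for a two-chart model over RED's Gauss valuation ring).
Thin wrappers around `FibreGauss9`.
-/
import Mathlib
import Fermat.Agent.FFJ.Model.FibreGauss9

set_option autoImplicit false
set_option linter.unusedSectionVars false
set_option linter.style.haveILetI false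

open TensorProduct Polynomial

namespace Fermat.Agent.FFJ.Model.GaussFibre9

open Fermat.Agent.RED.PUR.GaussGen8 Fermat.Agent.RED.CORE.CoreIface24
open Fermat.Agent.FFJ.Model.TransLemmas17 Fermat.Agent.FFJ.Model.ChartBridge17

variable {K : Type*} [Field K] (O : ValuationSubring K)
  (E : IntermediateField K (LaurentSeries K)) {π : ↥O} (hu : IsUnif O π) (hE : E ≤ fracField O)

/-- The Gauss reduction restricted to a chart `B ⊂ gaussVS`. -/
noncomputable def redHom (B : Subalgebra ↥O ↥E) (hB : ∀ x ∈ B, x ∈ gaussVS hu E hE) :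
    ↥B →+* LaurentSeries (Res O) :=
  FibreGauss9.iotaKappa hu hE B hB

variable {O E hu hE} {B : Subalgebra ↥O ↥E} {hB : ∀ x ∈ B, x ∈ gaussVS hu E hE}

theorem redHom_eq_zero_iff
    (hsat : ∀ b ∈ B, ∀ c ∈ gaussVS hu E hE, b = algebraMap ↥O ↥E π * c → c ∈ B) (b : B) :
    redHom O E hu hE B hB b = 0 ↔ ∃ b' : B, b = algebraMap ↥O ↥B π * b' :=
  FibreGauss9.iotaKappa_eq_zero_iff hu hE B hB hsat b

theorem redHom_algebraMap (r : ↥O) :
    redHom O E hu hE B hB (algebraMap ↥O ↥B r) = HahnSeries.C (algebraMap ↥O (Res O) r) :=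
  FibreGauss9.iotaKappa_algebraMap hu hE B hB r

universe v

/-- **The three Dedekind clauses of `CurveHypR`** for a two-chart model over the Gauss valuation
ring. -/
theorem dedekind_all [CharZero K] {t : ↥E} {B0 B1 : Subalgebra ↥O ↥E}
    (hM : TwoChartModel ↥O K ↥E π t B0 B1 (gaussVS hu E hE)) [PerfectField (Res O)]
    (htr0 : Trans π (gaussVS hu E hE) t)
    (fin1 : ∃ (r : ℕ) (e : Fin r → ↥E), (∀ i, e i ∈ B1) ∧
      ∀ x ∈ B1, ∃ P : Fin r → (↥O)[X], x = ∑ i, aeval t⁻¹ (P i) * e i)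
    (htr1 : Trans π (gaussVS hu E hE) t⁻¹)
    (hK0 : IsDedekindDomain (K ⊗[↥O] ↥B0)) (hK1 : IsDedekindDomain (K ⊗[↥O] ↥B1))
    (L : Type v) [Field L] [Algebra ↥O L] :
    IsDedekindDomain (L ⊗[↥O] ↥B0) ∧ IsDedekindDomain (L ⊗[↥O] ↥B1) ∧
      IsDedekindDomain (L ⊗[↥O] ↥(overlap t B0 hM.t_mem)) :=
  ⟨FibreGauss9.dedekind0_gauss hu hE hM htr0 hK0 L,
    FibreGauss9.dedekind1_gauss hu hE hM fin1 htr1 hK1 L,
    FibreGauss9.dedekind01_gauss hu hE hM htr0 hK0 L⟩

end Fermat.Agent.FFJ.Model.GaussFibre9
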