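/-
Programme FFJ (S19), chapter CURVE/PIC-D, brick (D3) SUPPLY.  Owner: helper39.

**Transfer of the polynomial local parameter between the two charts.**  Polynomial twin of
`RED/ChartTransfer3.smoothAt_of_smoothAt_contractIdeal`: if at the maximal ideal `x'` of
`B₀ = chart R t` (the contraction of a maximal ideal `x ∌ t⁻¹` of `B₁ = chart R t⁻¹`) the local
parameter is `f(t)`, `f ∈ R[X]`, then at `x` it is `f.reverse(t⁻¹) = t⁻¹^(deg f) f(t)`.

* `LocPoly π t x`                       : (LOC) at `x` with a polynomial local parameter `f(t)`;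
* `locPoly_of_locPoly_contractIdeal`    : the transfer;
* `locPoly_chart_inv`                   : (LOC-poly) on `B₀` at all maximal ideals in a class stable
  under contraction gives (LOC-poly) on `B₁` at the maximal ideals `x ∌ t⁻¹`.
-/
import Mathlib
import Fermat.Agent.RED.ChartTransfer3

set_option autoImplicit false
set_option linter.style.haveILetI false

open Polynomial

namespace Fermat.Agent.FFJ.Model.PolyTransfer39

open Fermat.Agent.RED.PUR.ChartGeneric22 Fermat.Agent.RED.ChartTransfer3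

variable {R F : Type*} [CommRing R] [Field F] [Algebra R F]

/-- `t` as an element of `chart R t`. -/
abbrev tch (R : Type*) {F : Type*} [CommRing R] [Field F] [Algebra R F] (t : F) : chart R t :=
  ⟨t, self_mem_chart t⟩

/-- (LOC) at the ideal `x` of `chart R t` with a POLYNOMIAL local parameter `f(t)`, `f ∈ R[X]`. -/
def LocPoly (π : R) (t : F) (x : Ideal (chart R t)) : Prop :=
  ∃ f : R[X], aeval (tch R t) f ∈ x ∧ ∀ y ∈ x, ∃ d : chart R t, d ∉ x ∧
    d * y ∈ Ideal.span {algebraMap R (chart R t) π, aeval (tch R t) f}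

theorem LocPoly.smoothAt {π : R} {t : F} {x : Ideal (chart R t)} (h : LocPoly π t x) :
    SmoothAt π (chart R t) x := by
  obtain ⟨f, hf, hloc⟩ := h
  exact ⟨_, hf, hloc⟩

/-- `f.reverse(t⁻¹) = t⁻¹^(deg f) f(t)`. -/
theorem coe_aeval_reverse {t : F} (ht : t ≠ 0) (f : R[X]) :
    ((aeval (tch R t⁻¹) f.reverse : chart R t⁻¹) : F) =
      t⁻¹ ^ f.natDegree * ((aeval (tch R t) f : chart R t) : F) := by
  rw [Polynomial.aeval_subalgebra_coe, Polynomial.aeval_subalgebra_coe]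
  show aeval t⁻¹ f.reverse = t⁻¹ ^ f.natDegree * aeval t f
  letI : Invertible t := invertibleOfNonzero ht
  have h1 := Polynomial.eval₂_reverse_mul_pow (algebraMap R F) t f
  rw [invOf_eq_inv] at h1
  rw [aeval_def, aeval_def, ← h1, mul_comm, mul_assoc, ← mul_pow, mul_inv_cancel₀ ht, one_pow,
    mul_one]

variable (π : R) {t : F} {x : Ideal (chart R t⁻¹)}

/-- **Transfer of the polynomial local parameter**: from the contraction `x'` (in `B₀`) to `x`
(in `B₁`). -/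
theorem locPoly_of_locPoly_contractIdeal (ht : t ≠ 0) (hx : x.IsPrime)
    (htx : (⟨t⁻¹, self_mem_chart t⁻¹⟩ : chart R t⁻¹) ∉ x)
    (h : LocPoly π t (contractIdeal ht x)) : LocPoly π t⁻¹ x := by
  obtain ⟨f, hs', hgen⟩ := h
  set s' : chart R t := aeval (tch R t) f with hs'def
  set k₀ := f.natDegree with hk₀def
  have hk₀ : t⁻¹ ^ k₀ * (s' : F) ∈ chart R t⁻¹ := by
    rw [← coe_aeval_reverse ht f]
    exact (aeval (tch R t⁻¹) f.reverse).2
  have hrev : (⟨_, hk₀⟩ : chart R t⁻¹) = aeval (tch R t⁻¹) f.reverse :=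
    Subtype.ext (coe_aeval_reverse ht f).symm
  have hs''x : (⟨_, hk₀⟩ : chart R t⁻¹) ∈ x := mem_of_mem_contract hx htx hs' hk₀
  refine ⟨f.reverse, by rw [← hrev]; exact hs''x, ?_⟩
  rw [← hrev]
  intro y hy
  -- `y₀ := t^j y ∈ B₀`
  obtain ⟨j, hj⟩ := exists_pow_mul_mem_chart (R := R) ht y.2
  set y₀ : chart R t := ⟨_, hj⟩ with hy₀
  have hy₀x : y₀ ∈ contractIdeal ht x := by
    have hm : t⁻¹ ^ j * (y₀ : F) ∈ chart R t⁻¹ := by
      have : t⁻¹ ^ j * (y₀ : F) = (y : F) := by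
        rw [hy₀]
        show t⁻¹ ^ j * (t ^ j * (y : F)) = (y : F)
        rw [← mul_assoc, ← mul_pow, inv_mul_cancel₀ ht, one_pow, one_mul]
      rw [this]; exact y.2
    refine ⟨j, hm, ?_⟩
    have : (⟨_, hm⟩ : chart R t⁻¹) = y := by
      apply Subtype.ext
      show t⁻¹ ^ j * (t ^ j * (y : F)) = (y : F)
      rw [← mul_assoc, ← mul_pow, inv_mul_cancel₀ ht, one_pow, one_mul]
    rw [this]; exact hy
  obtain ⟨d₀, hd₀, hd₀y⟩ := hgen y₀ hy₀x
  rw [Ideal.mem_span_pair] at hd₀y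
  obtain ⟨a, b, hab⟩ := hd₀y
  obtain ⟨ka, hka⟩ := exists_tinv_pow_mul_mem ht a
  obtain ⟨kb, hkb⟩ := exists_tinv_pow_mul_mem ht b
  obtain ⟨kd, hkd⟩ := exists_tinv_pow_mul_mem ht d₀
  set N := kd + j + ka + kb + k₀ with hN
  have hdm : t⁻¹ ^ (N - j) * (d₀ : F) ∈ chart R t⁻¹ :=
    pow_mul_mem_of_le (self_mem_chart t⁻¹) (by omega) hkd
  have ham : t⁻¹ ^ N * (a : F) ∈ chart R t⁻¹ :=
    pow_mul_mem_of_le (self_mem_chart t⁻¹) (by omega) hka
  have hbm : t⁻¹ ^ (N - k₀) * (b : F) ∈ chart R t⁻¹ :=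
    pow_mul_mem_of_le (self_mem_chart t⁻¹) (by omega) hkb
  refine ⟨⟨_, hdm⟩, ?_, ?_⟩
  · intro hdx
    exact hd₀ ⟨N - j, hdm, hdx⟩
  · rw [Ideal.mem_span_pair]
    refine ⟨⟨_, ham⟩, ⟨_, hbm⟩, ?_⟩
    apply Subtype.ext
    have habF : (a : F) * algebraMap R F π + (b : F) * (s' : F) = (d₀ : F) * (t ^ j * (y : F)) := by
      have := congrArg (fun z : chart R t => (z : F)) hab
      simpa using this
    show t⁻¹ ^ N * (a : F) * algebraMap R F π + t⁻¹ ^ (N - k₀) * (b : F) * (t⁻¹ ^ k₀ * (s' : F)) =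
      t⁻¹ ^ (N - j) * (d₀ : F) * (y : F)
    have hNj : t⁻¹ ^ N = t⁻¹ ^ (N - j) * t⁻¹ ^ j := by
      rw [← pow_add]; congr 1; omega
    have hNk : t⁻¹ ^ N = t⁻¹ ^ (N - k₀) * t⁻¹ ^ k₀ := by
      rw [← pow_add]; congr 1; omega
    have hcancel : t⁻¹ ^ j * t ^ j = 1 := by
      rw [← mul_pow, inv_mul_cancel₀ ht, one_pow]
    calc t⁻¹ ^ N * (a : F) * algebraMap R F π + t⁻¹ ^ (N - k₀) * (b : F) * (t⁻¹ ^ k₀ * (s' : F))
        = t⁻¹ ^ N * ((a : F) * algebraMap R F π + (b : F) * (s' : F)) := by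
          rw [mul_add, hNk]; ring
      _ = t⁻¹ ^ N * ((d₀ : F) * (t ^ j * (y : F))) := by rw [habF]
      _ = t⁻¹ ^ (N - j) * (d₀ : F) * (y : F) * (t⁻¹ ^ j * t ^ j) := by rw [hNj]; ring
      _ = t⁻¹ ^ (N - j) * (d₀ : F) * (y : F) := by rw [hcancel, mul_one]

/-- **Chart transfer, polynomial form.**  If `B₀ = chart R t` has a polynomial local parameter at
the contraction of `x`, so has `B₁ = chart R t⁻¹` at the maximal ideal `x ∋ π`, `t⁻¹ ∉ x` (torsion
residue field). -/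
theorem locPoly_chart_inv (ht : t ≠ 0)
    (hx : x.IsMaximal) (hπ : algebraMap R (chart R t⁻¹) π ∈ x)
    (htx : (⟨t⁻¹, self_mem_chart t⁻¹⟩ : chart R t⁻¹) ∉ x)
    (hfin : ∀ b : chart R t⁻¹, b ∉ x → ∃ n : ℕ, 0 < n ∧ b ^ n - 1 ∈ x)
    (h0 : (contractIdeal ht x).IsMaximal → algebraMap R (chart R t) π ∈ contractIdeal ht x →
      LocPoly π t (contractIdeal ht x)) :
    LocPoly π t⁻¹ x :=
  locPoly_of_locPoly_contractIdeal π ht hx.isPrime htx
    (h0 (contractIdeal_isMaximal ht hx htx hfin) (algebraMap_mem_contractIdeal ht hπ))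

/-- Membership of `t - c` in the contraction, in terms of `1 - c t⁻¹ ∈ x`. -/
theorem sub_mem_contractIdeal_iff (ht : t ≠ 0) (hx : x.IsPrime)
    (htx : (⟨t⁻¹, self_mem_chart t⁻¹⟩ : chart R t⁻¹) ∉ x) (c : R) :
    tch R t - algebraMap R (chart R t) c ∈ contractIdeal ht x ↔
      1 - algebraMap R (chart R t⁻¹) c * tch R t⁻¹ ∈ x := by
  have hmem : t⁻¹ ^ 1 * ((tch R t - algebraMap R (chart R t) c : chart R t) : F) ∈
      chart R t⁻¹ := by
    have : t⁻¹ ^ 1 * ((tch R t - algebraMap R (chart R t) c : chart R t) : F) =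
        ((1 - algebraMap R (chart R t⁻¹) c * tch R t⁻¹ : chart R t⁻¹) : F) := by
      push_cast
      show t⁻¹ ^ 1 * (t - algebraMap R F c) = 1 - algebraMap R F c * t⁻¹
      rw [pow_one, mul_sub, inv_mul_cancel₀ ht]
      ring
    rw [this]
    exact (1 - algebraMap R (chart R t⁻¹) c * tch R t⁻¹ : chart R t⁻¹).2
  have heq : (⟨_, hmem⟩ : chart R t⁻¹) = 1 - algebraMap R (chart R t⁻¹) c * tch R t⁻¹ := by
    apply Subtype.ext
    push_cast
    show t⁻¹ ^ 1 * (t - algebraMap R F c) = 1 - algebraMap R F c * t⁻¹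
    rw [pow_one, mul_sub, inv_mul_cancel₀ ht]
    ring
  constructor
  · intro h
    have := mem_of_mem_contract hx htx h hmem
    rwa [heq] at this
  · intro h
    exact ⟨1, hmem, by rw [heq]; exact h⟩

end Fermat.Agent.FFJ.Model.PolyTransfer39
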