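/-
FFJ / chapter CURVE, brick (D3) SUPPLY, part (L2) (helper64).  **Roots of unity of large prime order
avoid the zeros of a polynomial modulo a place.**

Pure field lemma (`exists_pow_sub_one_eq_one`): `κ` a field of characteristic `l`, `q = l ^ f`,
`G ∈ κ[X]` nonzero with coefficients fixed by `x ↦ x ^ q`, `z ≠ 0` a root of `G`; then
`z ^ (q ^ k - 1) = 1` for some `1 ≤ k ≤ deg G` (pigeonhole on the Frobenius orbit of `z` inside the
roots of `G`).

Valuation-ring form (`eval_not_mem_nonunits`): `A` a valuation subring of a field `Ω` with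
`(l : Ω) ∈ A.nonunits`, `j : R →+* Ω` with image in `A` and finite residue image
(`(j r) ^ q - j r ∈ A.nonunits`), `D ∈ R[X]` with some coefficient a unit at `A`.  For every prime
`p > q ^ deg D` and every `c ≠ 1` with `c ^ p = 1` the value `D(c)` is a unit of `A`.  Moreover `c` and
`c - 1` are units of `A`, and roots of unity of different prime orders `p, p' ≠ l` have different
residues.
-/
import Mathlib

set_option autoImplicit false

noncomputable section

namespace Fermat.Agent.FFJ.Model.RootsAvoid64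

open Polynomial

/-! ### The finite-field lemma -/

section Field

variable {κ : Type*} [Field κ]

/-- Frobenius orbit: a nonzero root `z` of a nonzero polynomial `G` whose coefficients are fixed by the
ring endomorphism `φ` satisfies `φ^[k] z = z` for some `1 ≤ k ≤ deg G`. -/
theorem exists_iterate_eq_self (φ : κ →+* κ) (G : κ[X]) (hG : G ≠ 0)
    (hcoef : ∀ i, φ (G.coeff i) = G.coeff i) {z : κ} (hz : G.eval z = 0) :
    ∃ k, 1 ≤ k ∧ k ≤ G.natDegree ∧ φ^[k] z = z := by
  classical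
  have hmap : G.map φ = G := by
    ext i
    rw [coeff_map, hcoef]
  have hroot : ∀ i : ℕ, G.eval (φ^[i] z) = 0 := by
    intro i
    induction i with
    | zero => simpa using hz
    | succ i ih =>
      rw [Function.iterate_succ_apply']
      have h1 : (G.map φ).eval (φ (φ^[i] z)) = φ (G.eval (φ^[i] z)) := by
        rw [eval_map, eval₂_hom]
      rw [hmap, ih, map_zero] at h1
      exact h1
  have hmem : ∀ i ∈ Finset.range (G.natDegree + 1), φ^[i] z ∈ G.roots.toFinset := by
    intro i _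
    rw [Multiset.mem_toFinset, mem_roots hG]
    exact hroot i
  have hcard : G.roots.toFinset.card < (Finset.range (G.natDegree + 1)).card := by
    rw [Finset.card_range]
    calc G.roots.toFinset.card ≤ Multiset.card G.roots := Multiset.toFinset_card_le _
      _ ≤ G.natDegree := card_roots' G
      _ < G.natDegree + 1 := Nat.lt_succ_self _
  obtain ⟨a, ha, b, hb, hab, heq⟩ := Finset.exists_ne_map_eq_of_card_lt_of_maps_to hcard hmem
  have hinj : ∀ i : ℕ, Function.Injective (φ^[i]) := fun i =>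
    Function.Injective.iterate φ.injective i
  rw [Finset.mem_range] at ha hb
  -- wlog a < b
  have key : ∀ a b : ℕ, a < b → b < G.natDegree + 1 → φ^[a] z = φ^[b] z →
      ∃ k, 1 ≤ k ∧ k ≤ G.natDegree ∧ φ^[k] z = z := by
    intro a b hlt hb' h
    refine ⟨b - a, by omega, by omega, ?_⟩
    have h2 : φ^[b] z = φ^[a] (φ^[b - a] z) := by
      rw [← Function.iterate_add_apply]
      congr 1
      omega
    rw [h2] at h
    exact (hinj a h).symm
  rcases lt_or_gt_of_ne hab with h | h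
  · exact key a b h hb heq
  · exact key b a h ha heq.symm

/-- **Finite-field lemma.**  `κ` of characteristic `l`, `q = l ^ f`, `G ≠ 0` with coefficients fixed by
`x ↦ x ^ q`; a nonzero root `z` of `G` satisfies `z ^ (q ^ k - 1) = 1` for some `1 ≤ k ≤ deg G`. -/
theorem exists_pow_sub_one_eq_one (l : ℕ) [Fact l.Prime] [CharP κ l] (f : ℕ) (G : κ[X]) (hG : G ≠ 0)
    (hcoef : ∀ i, G.coeff i ^ (l ^ f) = G.coeff i) {z : κ} (hz : G.eval z = 0) (hz0 : z ≠ 0) :
    ∃ k, 1 ≤ k ∧ k ≤ G.natDegree ∧ z ^ ((l ^ f) ^ k - 1) = 1 := by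
  obtain ⟨k, hk1, hkd, hk⟩ := exists_iterate_eq_self (iterateFrobenius κ l f) G hG
    (fun i => by rw [iterateFrobenius_def]; exact hcoef i) hz
  refine ⟨k, hk1, hkd, ?_⟩
  have hiter : ∀ (i : ℕ) (x : κ), (iterateFrobenius κ l f)^[i] x = x ^ ((l ^ f) ^ i) := by
    intro i
    induction i with
    | zero => intro x; simp
    | succ i ih =>
      intro x
      rw [Function.iterate_succ_apply', ih, iterateFrobenius_def, ← pow_mul, pow_succ]
  rw [hiter] at hk
  have hpos : 1 ≤ (l ^ f) ^ k := Nat.one_le_pow _ _ (Nat.pow_pos (Fact.out : l.Prime).pos)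
  have h1 : z ^ ((l ^ f) ^ k - 1) * z = 1 * z := by
    rw [← pow_succ, Nat.sub_add_cancel hpos, hk, one_mul]
  exact mul_right_cancel₀ hz0 h1

end Field

/-! ### Valuation subrings -/

section Valuation

variable {Ω : Type*} [Field Ω] (A : ValuationSubring Ω)

theorem mem_nonunits_iff_residue {x : Ω} (hx : x ∈ A) :
    x ∈ A.nonunits ↔ IsLocalRing.residue A ⟨x, hx⟩ = 0 := by
  rw [IsLocalRing.residue_eq_zero_iff, ValuationSubring.mem_nonunits_iff_exists_mem_maximalIdeal]
  exact ⟨fun ⟨_, h⟩ => h, fun h => ⟨hx, h⟩⟩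

/-- an element of `A` outside `A.nonunits` has its inverse in `A`. -/
theorem inv_mem_of_not_mem_nonunits {x : Ω} (hx : x ∈ A) (h : x ∉ A.nonunits) : x⁻¹ ∈ A := by
  rw [ValuationSubring.mem_nonunits_iff, not_lt] at h
  have h1 : A.valuation x = 1 := le_antisymm ((A.valuation_le_one_iff x).mpr hx) h
  rw [← A.valuation_le_one_iff, map_inv₀, h1, inv_one]

theorem charP_residueField {l : ℕ} (hl : l.Prime) (hlA : (l : Ω) ∈ A.nonunits) :
    CharP (IsLocalRing.ResidueField A) l := by
  rw [CharP.charP_iff_prime_eq_zero hl]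
  have hmem : (l : Ω) ∈ A := A.nonunits_le hlA
  have h := (mem_nonunits_iff_residue A hmem).mp hlA
  have h2 : (⟨(l : Ω), hmem⟩ : A) = ((l : ℕ) : A) := Subtype.ext (by simp)
  rw [h2, map_natCast] at h
  exact h

/-- a root of unity lies in `A`. -/
theorem mem_of_pow_eq_one {c : Ω} {p : ℕ} (hp : p ≠ 0) (hc : c ^ p = 1) : c ∈ A := by
  rw [← A.valuation_le_one_iff]
  have h1 : A.valuation c ^ p = 1 := by rw [← map_pow, hc, map_one]
  exact le_of_eq ((pow_eq_one_iff.mp h1).resolve_right hp)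

variable {A}

/-- **Residues of roots of unity of prime order `p ≠ l`**: `c` and `c - 1` are units of `A` and the
residue of `c` has order `p`. -/
theorem orderOf_residue {l : ℕ} (hl : l.Prime) (hlA : (l : Ω) ∈ A.nonunits) {p : ℕ} (hp : p.Prime)
    (hpl : p ≠ l) {c : Ω} (hc : c ^ p = 1) (hc1 : c ≠ 1) (hcA : c ∈ A) :
    orderOf (IsLocalRing.residue A ⟨c, hcA⟩) = p := by
  have := charP_residueField A hl hlA
  have : Fact p.Prime := ⟨hp⟩
  set cb := IsLocalRing.residue A ⟨c, hcA⟩ with hcb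
  have hpow : cb ^ p = 1 := by
    rw [hcb, ← map_pow]
    have : (⟨c, hcA⟩ : A) ^ p = 1 := Subtype.ext (by simpa using hc)
    rw [this, map_one]
  refine orderOf_eq_prime hpow ?_
  intro h1
  -- geometric sum
  have hsum : (∑ i ∈ Finset.range p, c ^ i) = 0 := by
    have h2 : (∑ i ∈ Finset.range p, c ^ i) * (c - 1) = 0 := by
      rw [geom_sum_mul, hc, sub_self]
    rcases mul_eq_zero.mp h2 with h3 | h3
    · exact h3
    · exact absurd (sub_eq_zero.mp h3) hc1
  have hsumA : (∑ i ∈ Finset.range p, (⟨c, hcA⟩ : A) ^ i) = 0 := by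
    apply Subtype.ext
    simpa using hsum
  have h4 := congrArg (IsLocalRing.residue A) hsumA
  rw [map_sum, map_zero] at h4
  simp only [map_pow] at h4
  rw [← hcb, h1] at h4
  simp only [one_pow, Finset.sum_const, Finset.card_range, nsmul_eq_mul, mul_one] at h4
  rw [CharP.cast_eq_zero_iff (IsLocalRing.ResidueField A) l] at h4
  exact hpl ((Nat.prime_dvd_prime_iff_eq hl hp).mp h4).symm

theorem not_mem_nonunits_of_pow_eq_one {p : ℕ} (hp : p ≠ 0) {c : Ω} (hc : c ^ p = 1) :
    c ∉ A.nonunits := by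
  rw [ValuationSubring.mem_nonunits_iff, not_lt]
  have h1 : A.valuation c ^ p = 1 := by rw [← map_pow, hc, map_one]
  exact le_of_eq ((pow_eq_one_iff.mp h1).resolve_right hp).symm

theorem sub_one_not_mem_nonunits {l : ℕ} (hl : l.Prime) (hlA : (l : Ω) ∈ A.nonunits) {p : ℕ}
    (hp : p.Prime) (hpl : p ≠ l) {c : Ω} (hc : c ^ p = 1) (hc1 : c ≠ 1) : c - 1 ∉ A.nonunits := by
  have hcA : c ∈ A := mem_of_pow_eq_one A hp.ne_zero hc
  have hord := orderOf_residue hl hlA hp hpl hc hc1 hcA
  intro h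
  have hmem : c - 1 ∈ A := A.nonunits_le h
  have h0 := (mem_nonunits_iff_residue A hmem).mp h
  have h1 : (⟨c - 1, hmem⟩ : A) = ⟨c, hcA⟩ - 1 := Subtype.ext rfl
  rw [h1, map_sub, map_one, sub_eq_zero] at h0
  rw [h0, orderOf_one] at hord
  exact hp.one_lt.ne hord

/-- roots of unity of different prime orders (both `≠ l`) have different residues. -/
theorem sub_not_mem_nonunits_of_ne {l : ℕ} (hl : l.Prime) (hlA : (l : Ω) ∈ A.nonunits) {p p' : ℕ}
    (hp : p.Prime) (hp' : p'.Prime) (hpl : p ≠ l) (hpl' : p' ≠ l) (hpp : p ≠ p') {c c' : Ω}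
    (hc : c ^ p = 1) (hc1 : c ≠ 1) (hc' : c' ^ p' = 1) (hc1' : c' ≠ 1) : c - c' ∉ A.nonunits := by
  have hcA : c ∈ A := mem_of_pow_eq_one A hp.ne_zero hc
  have hcA' : c' ∈ A := mem_of_pow_eq_one A hp'.ne_zero hc'
  have hord := orderOf_residue hl hlA hp hpl hc hc1 hcA
  have hord' := orderOf_residue hl hlA hp' hpl' hc' hc1' hcA'
  intro h
  have hmem : c - c' ∈ A := A.nonunits_le h
  have h0 := (mem_nonunits_iff_residue A hmem).mp h
  have h1 : (⟨c - c', hmem⟩ : A) = ⟨c, hcA⟩ - ⟨c', hcA'⟩ := Subtype.ext rfl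
  rw [h1, map_sub, sub_eq_zero] at h0
  rw [h0, hord'] at hord
  exact hpp hord.symm

/-- **Large prime order avoids the zeros of `D` modulo `A`.** -/
theorem eval_not_mem_nonunits {R : Type*} [CommRing R] {l : ℕ} (hl : l.Prime)
    (hlA : (l : Ω) ∈ A.nonunits) (j : R →+* Ω) (hjA : ∀ r, j r ∈ A) (f : ℕ) (hf : 0 < f)
    (hres : ∀ r, j r ^ (l ^ f) - j r ∈ A.nonunits) (D : R[X])
    (hD : ∃ i, j (D.coeff i) ∉ A.nonunits) {p : ℕ} (hp : p.Prime)
    (hpN : (l ^ f) ^ D.natDegree < p) (hpl : p ≠ l) {c : Ω} (hc : c ^ p = 1) (hc1 : c ≠ 1) :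
    (D.map j).eval c ∈ A ∧ (D.map j).eval c ∉ A.nonunits := by
  classical
  have : Fact l.Prime := ⟨hl⟩
  have := charP_residueField A hl hlA
  have hcA : c ∈ A := mem_of_pow_eq_one A hp.ne_zero hc
  set jA : R →+* A := j.codRestrict A.toSubring hjA with hjAdef
  set ρ : R →+* IsLocalRing.ResidueField A := (IsLocalRing.residue A).comp jA with hρ
  set cb := IsLocalRing.residue A ⟨c, hcA⟩ with hcb
  have hcomp : A.subtype.comp jA = j := RingHom.ext fun r => rfl
  have hevalA : (D.map j).eval c = (((D.map jA).eval ⟨c, hcA⟩ : A) : Ω) := by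
    show (D.map j).eval c = A.subtype ((D.map jA).eval ⟨c, hcA⟩)
    rw [eval_map, eval_map, hom_eval₂, hcomp]
    rfl
  have hmem : (D.map j).eval c ∈ A := by
    rw [hevalA]
    exact Subtype.mem _
  refine ⟨hmem, ?_⟩
  rw [mem_nonunits_iff_residue A hmem]
  have h2 : (⟨(D.map j).eval c, hmem⟩ : A) = (D.map jA).eval ⟨c, hcA⟩ := Subtype.ext hevalA
  rw [h2]
  have h3 : IsLocalRing.residue A ((D.map jA).eval ⟨c, hcA⟩) = (D.map ρ).eval cb := by
    rw [eval_map, eval_map, hom_eval₂]
  rw [h3]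
  intro h0
  -- the reduced polynomial is nonzero with Frobenius-fixed coefficients
  have hG : D.map ρ ≠ 0 := by
    obtain ⟨i, hi⟩ := hD
    intro hzero
    have h4 : (D.map ρ).coeff i = 0 := by rw [hzero, coeff_zero]
    rw [coeff_map] at h4
    apply hi
    rw [mem_nonunits_iff_residue A (hjA _)]
    exact h4
  have hcoef : ∀ i, (D.map ρ).coeff i ^ (l ^ f) = (D.map ρ).coeff i := by
    intro i
    rw [coeff_map]
    have h5 := hres (D.coeff i)
    have hmem5 : j (D.coeff i) ^ (l ^ f) - j (D.coeff i) ∈ A := A.nonunits_le h5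
    have h6 := (mem_nonunits_iff_residue A hmem5).mp h5
    have h7 : (⟨j (D.coeff i) ^ (l ^ f) - j (D.coeff i), hmem5⟩ : A)
        = jA (D.coeff i) ^ (l ^ f) - jA (D.coeff i) := Subtype.ext rfl
    rw [h7, map_sub, map_pow, sub_eq_zero] at h6
    exact h6
  have hord : orderOf cb = p := orderOf_residue hl hlA hp hpl hc hc1 hcA
  have hcb0 : cb ≠ 0 := by
    intro h
    rw [h, orderOf_zero] at hord
    · exact hp.ne_zero hord.symm
  obtain ⟨k, hk1, hkd, hk⟩ := exists_pow_sub_one_eq_one l f (D.map ρ) hG hcoef h0 hcb0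
  have hdvd : p ∣ (l ^ f) ^ k - 1 := by
    rw [← hord]
    exact orderOf_dvd_of_pow_eq_one hk
  have hq1 : 1 < l ^ f := Nat.one_lt_pow hf.ne' hl.one_lt
  have hpos : 0 < (l ^ f) ^ k - 1 := by
    have : 1 < (l ^ f) ^ k := Nat.one_lt_pow (by omega) hq1
    omega
  have hle : p ≤ (l ^ f) ^ k - 1 := Nat.le_of_dvd hpos hdvd
  have hkD : (l ^ f) ^ k ≤ (l ^ f) ^ D.natDegree :=
    Nat.pow_le_pow_right (by omega) (hkd.trans (natDegree_map_le))
  omega

end Valuation

end Fermat.Agent.FFJ.Model.RootsAvoid64
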