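/-
Programme FFJ (S19), chapter CURVE, brick C-G (base point via an étale fibre).  Owner: helper39.

**(G1) The polynomial-uniformiser form of RED's purity theorem away from the cusp values.**

`ModelIface4.SmoothOff` states (LOC) with an EXISTENTIAL local parameter `s`.  What
`VertSmooth22.smooth_of_hUNR` / `PurityMain26.smooth_of_purity` really prove is stronger: away from
the cusp values the local parameter may be taken of the form `s = f(t)`, `f ∈ O[X]`, i.e. the
coordinate `t` is étale there.  This file re-exports that form along the same chain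
(`SmoothOffGen21.smoothOff_gen` → `OffIface4.smoothOff_of_hunrOff` →
`OffConcrete4.offTarget_of_hunr` → `Targets26.offTarget`), and deduces the local structure of the
fibre `t = c₀` for `c₀` not congruent to a cusp value:

* `SmoothOffPoly O E π t S`, `smoothOffPoly_gen`, `smoothOffPoly_of_hunrOff`;
* `offTargetPoly` : the concrete statement, binders of `Targets26.offTarget`;
* `loc_fibre`     : at a maximal ideal `x ∋ π, t - c₀` of the chart, every `y ∈ x` has a multiple
                    `d * y ∈ (π, t - c₀)`, `d ∉ x`   (input `hloc` of `EtaleFibre39.isUnit_discr_fibre`).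
-/
import Fermat.Agent.RED.Targets26

set_option autoImplicit false
set_option linter.unusedSectionVars false
set_option linter.unusedVariables false
set_option linter.style.haveILetI false

noncomputable section

open Polynomial IntermediateField

namespace Fermat.Agent.FFJ.Model.SmoothOffPoly39

/-! ### Level 1: the abstract E3 setting -/

section Abstract

open Fermat.Agent.RED.PUR.IntClosBase13 Fermat.Agent.RED.PUR.ChartsGeneric13
  Fermat.Agent.RED.ChartTransfer3

variable {A K F : Type*} [CommRing A] [IsDomain A] [IsDiscreteValuationRing A]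
  [Field K] [Field F] [Algebra A K] [IsFractionRing A K] [CharZero K] [Algebra K F] [Algebra A F]
  [IsScalarTower A K F] [Algebra A[X] F] [IsScalarTower A A[X] F] {t : F}

/-- `t` as an element of the chart. -/
abbrev tc (A : Type*) {F : Type*} [CommRing A] [Field F] [Algebra A F] (t : F) : ↥(chart A t) :=
  ⟨t, t_mem_chart A t⟩

/-- the image of `f ∈ A[X]` in the chart is `f(t)`. -/
theorem chartEquiv_algebraMap_poly (hX : algebraMap A[X] F X = t) (f : A[X]) :
    chartEquiv (A := A) hX (algebraMap A[X] ↥(integralClosure A[X] F) f) = aeval (tc A t) f := by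
  apply Subtype.ext
  rw [Polynomial.aeval_subalgebra_coe]
  show algebraMap A[X] F f = aeval t f
  rw [algebraMap_eq_aeval hX]

/-- **Transport of (LOC)** from `integralClosure A[X] F` to the chart, KEEPING the polynomial. -/
theorem locPoly_chart_of_loc (hX : algebraMap A[X] F X = t) (ϖ : A)
    (x : Ideal ↥(chart A t))
    (hloc : ∃ f : A[X], algebraMap A[X] ↥(integralClosure A[X] F) f ∈
        x.comap (chartEquiv (A := A) hX : ↥(integralClosure A[X] F) →+* ↥(chart A t)) ∧
      ∀ y ∈ x.comap (chartEquiv (A := A) hX : ↥(integralClosure A[X] F) →+* ↥(chart A t)),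
        ∃ d, d ∉ x.comap (chartEquiv (A := A) hX : ↥(integralClosure A[X] F) →+* ↥(chart A t)) ∧
          d * y ∈ Ideal.span {algebraMap A[X] ↥(integralClosure A[X] F) (C ϖ),
            algebraMap A[X] ↥(integralClosure A[X] F) f}) :
    ∃ f : A[X], aeval (tc A t) f ∈ x ∧ ∀ y ∈ x, ∃ d : ↥(chart A t), d ∉ x ∧
      d * y ∈ Ideal.span {algebraMap A ↥(chart A t) ϖ, aeval (tc A t) f} := by
  classical
  set B := ↥(integralClosure A[X] F) with hB
  set e := chartEquiv (A := A) hX with he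
  obtain ⟨f, hfx', hloc⟩ := hloc
  have hef : e (algebraMap A[X] B f) = aeval (tc A t) f := chartEquiv_algebraMap_poly hX f
  refine ⟨f, ?_, ?_⟩
  · rw [← hef]
    exact hfx'
  intro y hy
  have hy' : e.symm y ∈ x.comap (e : B →+* ↥(chart A t)) := by
    rw [Ideal.mem_comap]
    show e (e.symm y) ∈ x
    rw [e.apply_symm_apply]; exact hy
  obtain ⟨d, hd, hdy⟩ := hloc _ hy'
  refine ⟨e d, hd, ?_⟩
  have h1 : e (d * e.symm y) ∈ Ideal.map (e : B →+* ↥(chart A t))
      (Ideal.span {algebraMap A[X] B (C ϖ), algebraMap A[X] B f}) :=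
    Ideal.mem_map_of_mem _ hdy
  rw [Ideal.map_span, Set.image_pair, map_mul, e.apply_symm_apply] at h1
  have h2 : (e : B →+* ↥(chart A t)) (algebraMap A[X] B (C ϖ)) = algebraMap A ↥(chart A t) ϖ := by
    show e _ = _
    rw [he, chartEquiv_algebraMap]
  have h3 : (e : B →+* ↥(chart A t)) (algebraMap A[X] B f) = aeval (tc A t) f := hef
  rw [h2, h3] at h1
  exact h1

end Abstract

/-! ### Level 2: the Gauss setting -/

section Gauss

open Fermat.Agent.RED.PUR.IntClosBase13 Fermat.Agent.RED.PUR.ChartsGeneric13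
  Fermat.Agent.RED.ChartTransfer3

open ModularCurve
open Fermat.Agent.RED.PUR.GaussGen8 Fermat.Agent.RED.PUR.KtGauss8 Fermat.Agent.RED.PUR.G1Package8
  Fermat.Agent.RED.PUR.VertGauss22 Fermat.Agent.RED.NumInst4 Fermat.Agent.RED.ModelIface4
  Fermat.Agent.RED.PUR.SmoothOffGen21

variable {K : Type*} [Field K] (O : ValuationSubring K)
  (E : IntermediateField K (LaurentSeries K))

/-- (LOC) with a POLYNOMIAL local parameter `f(t)`, `f ∈ O[X]`, at the closed points of `chart O t`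
over `π` away from the values `c ∈ S`: the coordinate `t` is étale there. -/
def SmoothOffPoly (π : ↥O) (t : ↥E) (S : Set ↥O) : Prop :=
  ∀ x : Ideal (Fermat.Agent.RED.PUR.ChartGeneric22.chart ↥O t), x.IsMaximal →
    algebraMap ↥O (Fermat.Agent.RED.PUR.ChartGeneric22.chart ↥O t) π ∈ x →
    (∀ c ∈ S, subConst O E t c ∉ x) →
    ∃ f : (↥O)[X],
      aeval (⟨t, Fermat.Agent.RED.PUR.ChartGeneric22.self_mem_chart t⟩ :
        Fermat.Agent.RED.PUR.ChartGeneric22.chart ↥O t) f ∈ x ∧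
      ∀ y ∈ x, ∃ d : Fermat.Agent.RED.PUR.ChartGeneric22.chart ↥O t, d ∉ x ∧
        d * y ∈ Ideal.span {algebraMap ↥O (Fermat.Agent.RED.PUR.ChartGeneric22.chart ↥O t) π,
          aeval (⟨t, Fermat.Agent.RED.PUR.ChartGeneric22.self_mem_chart t⟩ :
            Fermat.Agent.RED.PUR.ChartGeneric22.chart ↥O t) f}

variable {O E}

/-- The polynomial form implies the existential form of the contract. -/
theorem SmoothOffPoly.smoothOff {π : ↥O} {t : ↥E} {S : Set ↥O} (h : SmoothOffPoly O E π t S) :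
    SmoothOff O E π t S := by
  intro x hx hπx hS
  obtain ⟨f, hf, hloc⟩ := h x hx hπx hS
  exact ⟨_, hf, hloc⟩

variable (O) [CharZero K] [IsDiscreteValuationRing ↥O]
  {π : ↥O} (hπ : Irreducible π)
  (E) (hE : E ≤ fracField O)
  (t : ↥E) (ht : (t : LaurentSeries K) ∈ gaussRing O)
  (htr : Transcendental (Res O) (gaussRed O ⟨(t : LaurentSeries K), ht⟩))
  {n : ℕ} (hdeg : DegLe O E ⟨(t : LaurentSeries K), ht⟩ n)
  (hirr : Irr O E ⟨(t : LaurentSeries K), ht⟩ n)

include hπ hE ht htr hdeg hirr in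
/-- **Twin of `SmoothOffGen21.smoothOff_gen` keeping the polynomial uniformiser.** -/
theorem smoothOffPoly_gen [Algebra (↥O)[X] ↥E] [IsScalarTower ↥O (↥O)[X] ↥E]
    (hX : algebraMap (↥O)[X] ↥E X = t)
    (ℓ : ℕ) [Fact ℓ.Prime] [CharP (Res O) ℓ] [PerfectField (Res O)]
    (hord : IsCoprime (gaussRed O ⟨(t : LaurentSeries K), ht⟩).order (ℓ : ℤ))
    (htrK : Transcendental K t) [FiniteDimensional ↥K⟮t⟯ ↥E] (S : Set ↥O)
    (hH : ∀ x : Ideal ↥(integralClosure (↥O)[X] ↥E), x.IsMaximal →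
      algebraMap (↥O)[X] ↥(integralClosure (↥O)[X] ↥E) (C π) ∈ x →
      (∀ c ∈ S, algebraMap (↥O)[X] ↥(integralClosure (↥O)[X] ↥E) (X - C c) ∉ x) →
      ∀ O' : ValuationSubring ↥E,
        (∀ s : ↥(integralClosure (↥O)[X] ↥E),
          algebraMap ↥(integralClosure (↥O)[X] ↥E) ↥E s ∈ O') →
        IsDiscreteValuationRing O' →
        (algebraMap ↥(integralClosure (↥O)[X] ↥E) ↥E
          (algebraMap (↥O)[X] ↥(integralClosure (↥O)[X] ↥E) (C π)))⁻¹ ∈ O' →
        (∀ r : (↥O)[X], algebraMap (↥O)[X] ↥(integralClosure (↥O)[X] ↥E) r ∉ x →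
          (algebraMap ↥(integralClosure (↥O)[X] ↥E) ↥E
            (algebraMap (↥O)[X] ↥(integralClosure (↥O)[X] ↥E) r))⁻¹ ∈ O') →
        ∃ g0 : (↥O)[X], (algebraMap ↥(integralClosure (↥O)[X] ↥E) ↥E
            (algebraMap (↥O)[X] ↥(integralClosure (↥O)[X] ↥E) g0))⁻¹ ∉ O' ∧
          ∀ y ∈ O', y⁻¹ ∉ O' → y / algebraMap ↥(integralClosure (↥O)[X] ↥E) ↥E
            (algebraMap (↥O)[X] ↥(integralClosure (↥O)[X] ↥E) g0) ∈ O') :
    SmoothOffPoly O E π t S := by
  haveI : IsScalarTower ↥O K ↥E := isScalarTower_OE O E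
  intro x hx hπx hS
  have h1 : ∀ r : (↥O)[X], algebraMap ↥(integralClosure (↥O)[X] ↥E) ↥E
      (algebraMap (↥O)[X] ↥(integralClosure (↥O)[X] ↥E) r) = aeval t r := fun r =>
    algebraMap_eq_aeval hX r
  have h2 : ∀ b : ↥(integralClosure (↥O)[X] ↥E),
      IsIntegral ↥(Algebra.adjoin ↥O {t}) (algebraMap ↥(integralClosure (↥O)[X] ↥E) ↥E b) :=
    fun b => (isIntegral_iff hX (b : ↥E)).mp b.2
  have h3 : ∀ y : ↥E, IsIntegral ↥(Algebra.adjoin ↥O {t}) y →
      ∃ b : ↥(integralClosure (↥O)[X] ↥E), algebraMap ↥(integralClosure (↥O)[X] ↥E) ↥E b = y :=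
    fun y hy => ⟨⟨y, (isIntegral_iff hX y).mpr hy⟩, rfl⟩
  haveI hfin : Module.Finite (↥O)[X] ↥(integralClosure (↥O)[X] ↥E) :=
    finite_integralClosure hX htrK
  haveI hic : IsIntegrallyClosed ↥(integralClosure (↥O)[X] ↥E) :=
    isIntegrallyClosed_integralClosure hX htrK
  haveI hfr : IsFractionRing ↥(integralClosure (↥O)[X] ↥E) ↥E :=
    isFractionRing_integralClosure hX htrK
  haveI hfa : FaithfulSMul (↥O)[X] ↥(integralClosure (↥O)[X] ↥E) :=
    faithfulSMul_integralClosure hX htrK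
  haveI hpir : IsPrincipalIdealRing ((↥O)[X] ⧸ Ideal.span {(C π : (↥O)[X])}) :=
    isPrincipalIdealRing_quot hπ
  obtain ⟨hx'max, hπx', hSx'⟩ := comap_chartEquiv_props (A := ↥O) (F := ↥E) hX π S x hx hπx hS
  haveI := hx'max
  exact locPoly_chart_of_loc (A := ↥O) (F := ↥E) hX π x
    (Fermat.Agent.RED.PUR.VertSmooth22.smooth_of_hUNR (B := ↥(integralClosure (↥O)[X] ↥E))
      O hπ E hE t ht htr h1 h2 h3 hdeg hirr ℓ hord
      _ hπx' (hH _ hx'max hπx' hSx'))

end Gauss

/-! ### The wrapper with `HUNROff` -/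

section Wrapper

open Fermat.Agent.RED.PUR.IntClosBase13 Fermat.Agent.RED.PUR.ChartsGeneric13
  Fermat.Agent.RED.ChartTransfer3

open ModularCurve
open Fermat.Agent.RED.PUR.GaussGen8 Fermat.Agent.RED.PUR.KtGauss8 Fermat.Agent.RED.PUR.G1Package8
  Fermat.Agent.RED.ModelIface4 Fermat.Agent.RED.PUR.OffIface4

variable {K : Type*} [Field K] {O : ValuationSubring K}
  {E : IntermediateField K (LaurentSeries K)}

/-- **Twin of `OffIface4.smoothOff_of_hunrOff`.** -/
theorem smoothOffPoly_of_hunrOff [CharZero K] [IsDiscreteValuationRing ↥O] {π : ↥O}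
    (hπ : Irreducible π)
    (hE : E ≤ fracField O) (t : ↥E) (ht : (t : LaurentSeries K) ∈ gaussRing O)
    (htr : Transcendental (Res O) (gaussRed O ⟨(t : LaurentSeries K), ht⟩))
    {n : ℕ} (hdeg : DegLe O E ⟨(t : LaurentSeries K), ht⟩ n)
    (hirr : Irr O E ⟨(t : LaurentSeries K), ht⟩ n)
    (ℓ : ℕ) [Fact ℓ.Prime] [CharP (Res O) ℓ] [PerfectField (Res O)]
    (hord : IsCoprime (gaussRed O ⟨(t : LaurentSeries K), ht⟩).order (ℓ : ℤ))
    (htrK : Transcendental K t) [FiniteDimensional ↥K⟮t⟯ ↥E] (S : Set ↥O)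
    (hunr : HUNROff O E π t S) : SmoothOffPoly O E π t S := by
  haveI : IsScalarTower ↥O K ↥E := Fermat.Agent.RED.NumInst4.isScalarTower_OE O E
  letI : Algebra (↥O)[X] ↥E := polyAlgebra (A := ↥O) t
  haveI : IsScalarTower ↥O (↥O)[X] ↥E := polyAlgebra_isScalarTower (A := ↥O) t
  have hX : algebraMap (↥O)[X] ↥E X = t := polyAlgebra_algebraMap_X (A := ↥O) t
  refine smoothOffPoly_gen O E hπ hE t ht htr hdeg hirr hX ℓ hord htrK S ?_
  intro x hxmax hπx hSx O' hB hdvr h1 h3
  have haev : ∀ r : (↥O)[X], algebraMap ↥(integralClosure (↥O)[X] ↥E) ↥E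
      (algebraMap (↥O)[X] ↥(integralClosure (↥O)[X] ↥E) r) = aeval t r := fun r =>
    algebraMap_eq_aeval hX r
  refine (fun ⟨g0, hg1, hg2⟩ => ⟨g0, by rw [haev]; exact hg1, fun y hy hy' => by
    rw [haev]; exact hg2 y hy hy'⟩)
    (hunr (x.comap (algebraMap (↥O)[X] ↥(integralClosure (↥O)[X] ↥E)))
      (fun c hc hmem => hSx c hc hmem) O' ?_ hdvr ?_ ?_)
  · intro s hs
    exact hB ⟨s, (isIntegral_iff hX s).mpr hs⟩
  · have := h1
    rwa [haev, aeval_C] at this
  · intro r hr
    have := h3 r hr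
    rwa [haev] at this

end Wrapper

/-! ### The fibre `t = c₀` -/

section LocFibre

open ModularCurve
open Fermat.Agent.RED.ModelIface4 Fermat.Agent.RED.PUR.ChartGeneric22

variable {K : Type*} [Field K] {O : ValuationSubring K}
  {E : IntermediateField K (LaurentSeries K)}

/-- `f(t) ∈ (t - c₀) + (f(c₀))` in the chart. -/
theorem aeval_sub_eval_mem_span (t : ↥E) (c₀ : ↥O) (f : (↥O)[X]) :
    aeval (⟨t, self_mem_chart t⟩ : chart ↥O t) f - algebraMap ↥O (chart ↥O t) (f.eval c₀) ∈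
      Ideal.span {subConst O E t c₀} := by
  have h1 : f - C (f.eval c₀) = (X - C c₀) * ((f - C (f.eval c₀)) /ₘ (X - C c₀)) := by
    have hroot : (f - C (f.eval c₀)).IsRoot c₀ := by simp [IsRoot.def]
    exact (mul_divByMonic_eq_iff_isRoot.mpr hroot).symm
  have h2 := congrArg (aeval (⟨t, self_mem_chart t⟩ : chart ↥O t)) h1
  rw [map_sub, aeval_C, map_mul, map_sub, aeval_X, aeval_C] at h2
  rw [h2]
  exact Ideal.mul_mem_right _ _ (Ideal.subset_span rfl)

/-- **The local structure of the fibre `t = c₀`** for `c₀` not congruent to any value in `S`: at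
every maximal ideal `x ∋ π, t - c₀` of the chart, every `y ∈ x` has a multiple `d * y`, `d ∉ x`, in
`(π, t - c₀)`: the fibre is unramified over `O` at `x`. -/
theorem loc_fibre [IsDiscreteValuationRing ↥O] {π : ↥O} (hπ : Irreducible π) {t : ↥E}
    {S : Set ↥O} (h : SmoothOffPoly O E π t S)
    (c₀ : ↥O) (hc₀ : ∀ c ∈ S, IsUnit (c₀ - c))
    (x : Ideal (chart ↥O t)) (hx : x.IsMaximal) (hπx : algebraMap ↥O (chart ↥O t) π ∈ x)
    (hcx : subConst O E t c₀ ∈ x) :
    ∀ y ∈ x, ∃ d : chart ↥O t, d ∉ x ∧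
      d * y ∈ Ideal.span {algebraMap ↥O (chart ↥O t) π, subConst O E t c₀} := by
  have hS : ∀ c ∈ S, subConst O E t c ∉ x := by
    intro c hc hmem
    have h1 : algebraMap ↥O (chart ↥O t) (c₀ - c) ∈ x := by
      have : algebraMap ↥O (chart ↥O t) (c₀ - c) = subConst O E t c - subConst O E t c₀ := by
        unfold subConst
        rw [map_sub]
        ring
      rw [this]
      exact x.sub_mem hmem hcx
    have h2 : IsUnit (algebraMap ↥O (chart ↥O t) (c₀ - c)) := (hc₀ c hc).map _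
    exact hx.ne_top (Ideal.eq_top_of_isUnit_mem _ h1 h2)
  obtain ⟨f, hfx, hloc⟩ := h x hx hπx hS
  -- `f(c₀) ∈ x ∩ O = (π)`
  have hfc : algebraMap ↥O (chart ↥O t) (f.eval c₀) ∈ x := by
    have h1 := aeval_sub_eval_mem_span (O := O) (E := E) t c₀ f
    have h2 : Ideal.span {subConst O E t c₀} ≤ x := by
      rw [Ideal.span_le]
      exact Set.singleton_subset_iff.mpr hcx
    have h3 := x.sub_mem hfx (h2 h1)
    rwa [sub_sub_cancel] at h3
  have hdvd : π ∣ f.eval c₀ := by
    by_contra hnd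
    have hu : IsUnit (f.eval c₀) := by
      by_contra hnu
      exact hnd ((hπ.maximalIdeal_eq ▸ (IsLocalRing.mem_maximalIdeal _).mpr hnu :
        f.eval c₀ ∈ Ideal.span {π}) |> Ideal.mem_span_singleton.mp)
    exact hx.ne_top (Ideal.eq_top_of_isUnit_mem _ hfc (hu.map _))
  obtain ⟨r, hr⟩ := hdvd
  have hfspan : aeval (⟨t, self_mem_chart t⟩ : chart ↥O t) f ∈
      Ideal.span {algebraMap ↥O (chart ↥O t) π, subConst O E t c₀} := by
    have h1 := aeval_sub_eval_mem_span (O := O) (E := E) t c₀ f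
    have h2 : Ideal.span {subConst O E t c₀} ≤
        Ideal.span {algebraMap ↥O (chart ↥O t) π, subConst O E t c₀} :=
      Ideal.span_mono (by intro z hz; exact Or.inr hz)
    have h3 : algebraMap ↥O (chart ↥O t) (f.eval c₀) ∈
        Ideal.span {algebraMap ↥O (chart ↥O t) π, subConst O E t c₀} := by
      rw [hr, map_mul]
      exact Ideal.mul_mem_right _ _ (Ideal.subset_span (Or.inl rfl))
    have h4 := Ideal.add_mem _ (h2 h1) h3
    rwa [sub_add_cancel] at h4
  intro y hy
  obtain ⟨d, hd, hdy⟩ := hloc y hy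
  refine ⟨d, hd, ?_⟩
  have hle : Ideal.span {algebraMap ↥O (chart ↥O t) π,
      aeval (⟨t, self_mem_chart t⟩ : chart ↥O t) f} ≤
      Ideal.span {algebraMap ↥O (chart ↥O t) π, subConst O E t c₀} := by
    rw [Ideal.span_le]
    rintro z (rfl | rfl)
    · exact Ideal.subset_span (Or.inl rfl)
    · exact hfspan
  exact hle hdy

end LocFibre

/-! ### The concrete statement -/

section Concrete

open HahnSeries ModularCurve
open scoped MatrixGroups

open Fermat.Agent.RED.Interface4 Fermat.Agent.RED.PUR.GaussGen8 Fermat.Agent.RED.PUR.KtGauss8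
  Fermat.Agent.RED.PUR.G1Package8 Fermat.Agent.RED.ModelIface4 Fermat.Agent.RED.ModelTargets4
  Fermat.Agent.RED.BASE.EtaQuot12 Fermat.Agent.X0 Fermat.Agent.RED.NumInst4
  Fermat.Agent.RED.DESC.NumberFieldDVR27 Fermat.Agent.RED.BASE.Interface12
  Fermat.Agent.RED.BASE.Hauptmodul12 Fermat.Agent.RED.PUR.OffIface4

open Fermat.Agent.RED.BASE

variable {n e : ℕ} [NeZero n] {M : ℕ} [NeZero M] {A : ValuationSubring Qbar}

/-- **Twin of `OffConcrete4.offTarget_of_hunr`.** -/
theorem offTargetPoly_of_hunr (hb : BaseHyp n e) (hnM : n ∣ M) {ℓ : ℕ} [Fact ℓ.Prime]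
    (hℓM : ¬ ℓ ∣ M) (hA : A.LiesOverPrime ℓ) (cv : SL(2, ℤ) → Option Kbar)
    (hH : EventuallyT n e M A fun K ϖ t =>
      HUNROff (AK A K) (FK M K) ϖ t (cuspSet A K cv)) :
    EventuallyT n e M A fun K ϖ t => SmoothOffPoly (AK A K) (FK M K) ϖ t (cuspSet A K cv) := by
  have hℓ : ℓ.Prime := Fact.out
  have hB := Main12.baseExports hb M hnM
  obtain ⟨K₁, hK₁, hT⟩ := Fermat.Agent.RED.ModelFinal4.tTarget (n := n) (e := e) M hB.mem
  obtain ⟨K₂, hK₂, hJ⟩ := Fermat.Agent.RED.ModelFinal4.jTarget (n := n) (e := e) hB.genBase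
  obtain ⟨K₄, hK₄, hH⟩ := hH
  refine ⟨K₁ ⊔ K₂ ⊔ K₄, inferInstance, fun K hKfd hle ϖ hϖ t htq => ?_⟩
  have hle1 : K₁ ≤ K := le_trans (le_trans le_sup_left le_sup_left) hle
  have hle2 : K₂ ≤ K := le_trans (le_trans le_sup_right le_sup_left) hle
  have hle4 : K₄ ≤ K := le_trans le_sup_right hle
  have hdvr : IsDiscreteValuationRing ↥(AK A K) := isDiscreteValuationRing_AK A K hℓ.ne_zero hA
  have hchar : CharP (Res (AK A K)) ℓ := charP_residueField_AK A K hℓ hA
  have hfinres : Finite (Res (AK A K)) := finite_residueField_AK A K hℓ.ne_zero hA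
  have hE : FK M K ≤ fracField (AK A K) :=
    Fermat.Agent.RED.PUR.GaussBridge10.FK_le_fracField A K M
  have ht : ((t : ↥(FK M K)) : LaurentSeries K) ∈ gaussRing (AK A K) := by
    rw [htq]; exact tq_mem_gaussRing (AK A K) n e
  have htr : Transcendental (Res (AK A K))
      (gaussRed (AK A K) ⟨((t : ↥(FK M K)) : LaurentSeries K), ht⟩) := by
    have h1 : (⟨((t : ↥(FK M K)) : LaurentSeries K), ht⟩ : gaussRing (AK A K)) =
        ⟨tq K n e, tq_mem_gaussRing (AK A K) n e⟩ := Subtype.ext htq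
    rw [h1]
    exact transcendental_gaussRed_tq (AK A K) n e
  have hjt : jqModC K ∈ Kt (AK A K) ⟨((t : ↥(FK M K)) : LaurentSeries K), ht⟩ := by
    show jqModC K ∈ IntermediateField.adjoin K {((t : ↥(FK M K)) : LaurentSeries K)}
    rw [htq]
    exact hJ K hKfd hle2
  have htE' : ((t : ↥(FK M K)) : LaurentSeries K) ∈ FK M K := t.2
  obtain ⟨nn, -, hdeg, hirr⟩ := Fermat.Agent.RED.PUR.GaussInst25.exists_degLe_irr_FK A K hϖ ℓ M hℓM
    ⟨((t : ↥(FK M K)) : LaurentSeries K), ht⟩ htE' hjt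
  have hn : relfinrank (Kt (AK A K) ⟨((t : ↥(FK M K)) : LaurentSeries K), ht⟩) (FK M K) ≠ 0 :=
    Fermat.Agent.RED.ModelMain4.relfinrank_ne_zero (AK A K) M _ htE' hjt
  have hfd : FiniteDimensional ↥(IntermediateField.adjoin K {t}) ↥(FK M K) :=
    Fermat.Agent.RED.ModelAsm4.finiteDimensional_adjoin t hn
  have htrK : Transcendental K t :=
    Fermat.Agent.RED.ModelAsm4.transcendental_of_coe t
      (transcendental_t (tG := ⟨((t : ↥(FK M K)) : LaurentSeries K), ht⟩) hϖ htr)
  have hord := Fermat.Agent.RED.PUR.TqOrder26.isCoprime_order_gaussRed (AK A K) n e t ht htq (ℓ : ℤ)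
  exact smoothOffPoly_of_hunrOff hϖ hE t ht htr hdeg hirr ℓ hord htrK (cuspSet A K cv)
    (hH K hKfd hle4 ϖ hϖ t htq)

/-- **The polynomial-uniformiser form of `Targets26.offTarget`** (same binders): for all large
number fields `K`, the Hauptmodul `t` is étale over `AK A K` at the closed points of the chart away
from the cusp values. -/
theorem offTargetPoly (hb : BaseHyp n e) (M : ℕ) [NeZero M] (hnM : n ∣ M) (ℓ : ℕ) [Fact ℓ.Prime]
    (hℓM : ¬ ℓ ∣ M) (A : ValuationSubring Qbar) (hA : A.LiesOverPrime ℓ)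
    (cv : SL(2, ℤ) → Option Kbar) (hcv : MainCusp12.CuspExports n e M cv) :
    EventuallyT n e M A fun K ϖ t => SmoothOffPoly (AK A K) (FK M K) ϖ t (cuspSet A K cv) :=
  offTargetPoly_of_hunr hb hnM hℓM hA cv
    (Fermat.Agent.RED.CUSP.HorizConcrete26.hH_off hb hnM hℓM hA cv hcv)

end Concrete

end Fermat.Agent.FFJ.Model.SmoothOffPoly39
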