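/-
Programme FFJ (S19), chapter SUPPLY / CURVE (helper72, integrator).

**The polynomial-uniformiser form of RED's purity theorem away from the cusp values, POINTWISE at a
given number field `K` containing the finite cusp values.**  `SmoothOffPoly39.offTargetPoly` is in
`EventuallyT` form (an inexplicit `K₀`); the explicit unramified field of `CuspField87/23` needs the
statement at a given `K`.  The proof is the body of `SmoothOffPoly39.offTargetPoly_of_hunr` with
`ModelFinal4.jTarget` replaced by `SharpTargets23.jqModC_mem_adjoin` (every `K`) and the horizontal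
input by `HorizPointwise87.hH_all_pointwise`.
-/
import Fermat.Agent.FFJ.Model.SmoothOffPoly39
import Fermat.Agent.FFJ.Model.HorizPointwise87
import Fermat.Agent.FFJ.Model.SharpTargets23

set_option autoImplicit false
set_option linter.unusedSectionVars false
set_option linter.unusedVariables false
set_option linter.style.haveILetI false

noncomputable section

open Polynomial IntermediateField

namespace Fermat.Agent.FFJ.Model.SmoothOffPointwise72

open HahnSeries ModularCurve
open scoped MatrixGroups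

open Fermat.Agent.RED.Interface4 Fermat.Agent.RED.PUR.GaussGen8 Fermat.Agent.RED.PUR.KtGauss8
  Fermat.Agent.RED.PUR.G1Package8 Fermat.Agent.RED.ModelIface4 Fermat.Agent.RED.ModelTargets4
  Fermat.Agent.RED.BASE.EtaQuot12 Fermat.Agent.X0 Fermat.Agent.RED.NumInst4
  Fermat.Agent.RED.DESC.NumberFieldDVR27 Fermat.Agent.RED.BASE.Interface12
  Fermat.Agent.RED.BASE.Hauptmodul12 Fermat.Agent.RED.PUR.OffIface4

open Fermat.Agent.RED.BASE
open Fermat.Agent.FFJ.Model.SmoothOffPoly39

variable {n e : ℕ} [NeZero n] {M : ℕ} [NeZero M] {A : ValuationSubring Qbar}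

/-- **`SmoothOffPoly` at ONE number field `K`** containing the finite cusp values. -/
theorem smoothOffPoly_pointwise (hb : BaseHyp n e) (hnM : n ∣ M) {ℓ : ℕ} [Fact ℓ.Prime]
    (hℓM : ¬ ℓ ∣ M) (hA : A.LiesOverPrime ℓ) (cv : SL(2, ℤ) → Option Kbar)
    (hcv : MainCusp12.CuspExports n e M cv)
    (K : IntermediateField ℚ Qbar) (hKfd : FiniteDimensional ℚ K)
    (hS : ∀ γ c, cv γ = some c → c ∈ K)
    (ϖ : ↥(AK A K)) (hϖ : Irreducible ϖ) (t : ↥(FK M K))
    (htq : (t : LaurentSeries K) = tq K n e) :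
    SmoothOffPoly (AK A K) (FK M K) ϖ t (cuspSet A K cv) := by
  have hℓ : ℓ.Prime := Fact.out
  have hB := Main12.baseExports hb M hnM
  have hH := (Fermat.Agent.FFJ.Model.HorizPointwise87.hH_all_pointwise hb hnM hℓM hA cv hcv K hKfd hS
    ϖ hϖ t htq).1
  have hdvr : IsDiscreteValuationRing ↥(AK A K) := isDiscreteValuationRing_AK A K hℓ.ne_zero hA
  have hchar : CharP (Res (AK A K)) ℓ := charP_residueField_AK A K hℓ hA
  have hfinres : Finite (Res (AK A K)) := finite_residueField_AK A K hℓ.ne_zero hA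
  have hE : FK M K ≤ fracField (AK A K) :=
    Fermat.Agent.RED.PUR.GaussBridge10.FK_le_fracField A K M
  have ht : ((t : ↥(FK M K)) : LaurentSeries K) ∈ gaussRing (AK A K) := by
    rw [htq]; exact tq_mem_gaussRing (AK A K) n e
  have htr : Transcendental (Res (AK A K))
      (gaussRed (AK A K) ⟨((t : ↥(FK M K)) : LaurentSeries K), ht⟩) := by
    have h1 : (⟨((t : ↥(FK M K)) : LaurentSeries K), ht⟩ : gaussRing (AK A K)) =
        ⟨tq K n e, tq_mem_gaussRing (AK A K) n e⟩ := Subtype.ext htq
    rw [h1]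
    exact transcendental_gaussRed_tq (AK A K) n e
  have hjt : jqModC K ∈ Kt (AK A K) ⟨((t : ↥(FK M K)) : LaurentSeries K), ht⟩ := by
    show jqModC K ∈ IntermediateField.adjoin K {((t : ↥(FK M K)) : LaurentSeries K)}
    rw [htq]
    exact Fermat.Agent.FFJ.Model.SharpTargets23.jqModC_mem_adjoin n e hB.genBase K
  have htE' : ((t : ↥(FK M K)) : LaurentSeries K) ∈ FK M K := t.2
  obtain ⟨nn, -, hdeg, hirr⟩ := Fermat.Agent.RED.PUR.GaussInst25.exists_degLe_irr_FK A K hϖ ℓ M hℓM
    ⟨((t : ↥(FK M K)) : LaurentSeries K), ht⟩ htE' hjt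
  have hn : relfinrank (Kt (AK A K) ⟨((t : ↥(FK M K)) : LaurentSeries K), ht⟩) (FK M K) ≠ 0 :=
    Fermat.Agent.RED.ModelMain4.relfinrank_ne_zero (AK A K) M _ htE' hjt
  have hfd : FiniteDimensional ↥(IntermediateField.adjoin K {t}) ↥(FK M K) :=
    Fermat.Agent.RED.ModelAsm4.finiteDimensional_adjoin t hn
  have htrK : Transcendental K t :=
    Fermat.Agent.RED.ModelAsm4.transcendental_of_coe t
      (transcendental_t (tG := ⟨((t : ↥(FK M K)) : LaurentSeries K), ht⟩) hϖ htr)
  have hord := Fermat.Agent.RED.PUR.TqOrder26.isCoprime_order_gaussRed (AK A K) n e t ht htq (ℓ : ℤ)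
  exact smoothOffPoly_of_hunrOff hϖ hE t ht htr hdeg hirr ℓ hord htrK (cuspSet A K cv) hH

end Fermat.Agent.FFJ.Model.SmoothOffPointwise72
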