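/-
Programme FFJ (S19), chapter CURVE/PIC-D, brick (D3) SUPPLY.  Owner: helper39.

**SUPPLY, abstract form at one level.**  `R` a local domain with finite residue field of
characteristic `l` and principal maximal ideal `(π)` (in the application `R = AK A K`, the DVR
`A ∩ K` of a number field `K ⊂ ℚ̄` unramified at the place `A`), `F ⊇ R` a field (the function field
`FK M K`), `t : F` (the Hauptmodul), `B₀ = chart R t`, `B₁ = chart R t⁻¹`, and `s = 1 - t⁻¹ ∈ B₁`
the coordinate of the second chart of the Möbius model of CURVE, `B₀₁ = B₁[1/s]`.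

INPUT from RED: `h0`, the polynomial-uniformiser form of purity on `B₀` away from the values
`c ∈ S` (`SmoothOffPoly39.SmoothOffPoly`).  INPUT from CURVE: `hb`, the coordinate form of
"`B₁` is finite free over `R[s]`" (`ChartFree17.free`).

OUTPUT (`supply`): a sequence `P i : B₀₁ →ₐ[R] ℚ̄` of points with values in `A`, each with values in
a number field `K' ⊇ K` which is unramified at the place `A` (`SpecLocal78.UnramAtPlace A K'`), whose
`s`-coordinates `P i s` are roots of unity of pairwise different prime orders; in particular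
`P i s - P j s` is a unit of `A` for `i ≠ j`: the `s`-coordinates (hence the `t`-coordinates) are
pairwise different in BOTH fibres.

Method: the point `P` with `s ↦ ζ_m` (`m` a large prime) is a point of the closed subscheme
`Φ_m(s) = 0` of `B₁`, which is finite free over `R` with unit discriminant (`SupplyCore39`), because
the roots of `Φ_m` modulo `π` avoid the bad locus `{t⁻¹ = 0} ∪ {t = c, c ∈ S}` as soon as `m` is at
least the cardinality of the residue field of `R`.
-/
import Mathlib
import Fermat.Agent.FFJ.Model.SupplyCore39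
import Fermat.Agent.FFJ.Model.PolyTransfer39
import Fermat.Agent.FFJ.Model.RootsAvoid64
import Fermat.Agent.FFJ.Alg.UnramPlace92

set_option autoImplicit false
set_option linter.unusedSectionVars false
set_option linter.style.haveILetI false

open Polynomial

namespace Fermat.Agent.FFJ.Model.Supply39

open Fermat.Agent.FFJ.Alg.Spec78 Fermat.Agent.FFJ.Alg.SpecLocal78
open Fermat.Agent.FFJ.Model.FibreG39 Fermat.Agent.FFJ.Model.SupplyCore39
open Fermat.Agent.FFJ.Model.PolyTransfer39
open Fermat.Agent.RED.PUR.ChartGeneric22 Fermat.Agent.RED.ChartTransfer3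

/-! ### Cyclotomic polynomials over a small finite field -/

section Cyclo

variable {κ : Type*} [Field κ] [Finite κ]

theorem not_isPrimitiveRoot_of_card_le {m : ℕ} (hm : Nat.card κ ≤ m) (r : κ) :
    ¬ IsPrimitiveRoot r m := by
  intro h
  let _ := Fintype.ofFinite κ
  rw [Nat.card_eq_fintype_card] at hm
  have h3 : 1 < Fintype.card κ := Fintype.one_lt_card
  have hm0 : 0 < m := by omega
  have hr0 : r ≠ 0 := h.ne_zero hm0.ne'
  have h1 : r ^ (Fintype.card κ - 1) = 1 := FiniteField.pow_card_sub_one_eq_one r hr0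
  have h2 : m ∣ Fintype.card κ - 1 := h.dvd_of_pow_eq_one _ h1
  have := Nat.le_of_dvd (by omega) h2
  omega

theorem isCoprime_cyclotomic_linear {m : ℕ} (hm : Nat.card κ ≤ m) [NeZero (m : κ)] (a b : κ)
    (hab : a ≠ 0 ∨ b ≠ 0) : IsCoprime (cyclotomic m κ) (C a + C b * X) := by
  by_cases hb : b = 0
  · subst hb
    have ha : a ≠ 0 := by tauto
    rw [C_0, zero_mul, add_zero]
    have hu : IsUnit (C a : κ[X]) := isUnit_C.mpr (IsUnit.mk0 a ha)
    have := (isCoprime_mul_unit_left_right hu (cyclotomic m κ) 1).mpr isCoprime_one_right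
    rwa [mul_one] at this
  · set r : κ := -a / b with hr
    have h1 : (C a + C b * X : κ[X]) = C b * (X - C r) := by
      rw [hr, mul_sub, ← C_mul]
      have : b * (-a / b) = -a := by field_simp
      rw [this, C_neg]
      ring
    rw [h1]
    have hu : IsUnit (C b : κ[X]) := isUnit_C.mpr (IsUnit.mk0 b hb)
    rw [isCoprime_mul_unit_left_right hu]
    rw [isCoprime_comm]
    rw [(irreducible_X_sub_C r).coprime_iff_not_dvd, dvd_iff_isRoot, isRoot_cyclotomic_iff]
    exact not_isPrimitiveRoot_of_card_le hm r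

end Cyclo

/-! ### Finite type from the coordinate form -/

section FiniteType

variable {R B : Type*} [CommRing R] [CommRing B] [Algebra R B]

/-- A ring spanned by `b_j` over `R[s]` is an `R`-algebra of finite type. -/
theorem finiteType_of_coords {n : ℕ} {s : B} {b : Fin n → B}
    (hb : Function.Surjective fun p : Fin n → R[X] => ∑ j, aeval s (p j) * b j) :
    Algebra.FiniteType R B := by
  classical
  refine ⟨⟨insert s (Finset.univ.image b), ?_⟩⟩
  rw [eq_top_iff]
  intro x _
  obtain ⟨p, rfl⟩ := hb x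
  refine Subalgebra.sum_mem _ fun j _ => Subalgebra.mul_mem _ ?_ ?_
  · have h1 : Algebra.adjoin R {s} ≤
        Algebra.adjoin R (↑(insert s (Finset.univ.image b)) : Set B) :=
      Algebra.adjoin_mono (by
        intro y hy
        rw [Set.mem_singleton_iff] at hy
        rw [Finset.coe_insert, hy]
        exact Set.mem_insert _ _)
    apply h1
    rw [Algebra.adjoin_singleton_eq_range_aeval]
    exact ⟨p j, rfl⟩
  · apply Algebra.subset_adjoin
    rw [Finset.coe_insert, Finset.coe_image]
    exact Set.mem_insert_of_mem _ ⟨j, by simp, rfl⟩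

end FiniteType

/-! ### The bad locus and the transfer of (LOC) to the coordinate `s = 1 - t⁻¹` -/

section Loc

variable {R F : Type*} [CommRing R] [Field F] [Algebra R F]

/-- The bad locus of the chart `B₁ = chart R t⁻¹` in the coordinate `s = 1 - t⁻¹`: the polynomial
`1 - X` (`= t⁻¹`) and the polynomials `(1 - c) + c X` (`= 1 - c t⁻¹`), `c ∈ S`. -/
def Bad (S : Set R) : Set R[X] :=
  {p | p = C 1 + C (-1) * X ∨ ∃ c ∈ S, p = C (1 - c) + C c * X}

variable [IsLocalRing R]

/-- **(LOC) on `B₁` in the coordinate `s`**, in the shape of `SupplyCore39.supplyCore`, from the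
polynomial-uniformiser form of purity on `B₀ = chart R t` away from the values `c ∈ S`. -/
theorem hLOC_of_locPoly [Finite (IsLocalRing.ResidueField R)] (π : R)
    (hπ : IsLocalRing.maximalIdeal R = Ideal.span {π}) {t : F} (ht : t ≠ 0) (S : Set R)
    (h0 : ∀ x : Ideal (chart R t), x.IsMaximal → algebraMap R (chart R t) π ∈ x →
      (∀ c ∈ S, tch R t - algebraMap R (chart R t) c ∉ x) → LocPoly π t x)
    [Algebra.FiniteType R (chart R t⁻¹)]
    (s : chart R t⁻¹) (hs : s = 1 - tch R t⁻¹)
    (x : Ideal (chart R t⁻¹)) (hx : x.IsMaximal)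
    (hp : ∀ r ∈ IsLocalRing.maximalIdeal R, algebraMap R (chart R t⁻¹) r ∈ x)
    (hbad : ∀ p ∈ Bad S, aeval s p ∉ x) :
    ∃ f : R[X], aeval s f ∈ x ∧ ∀ y ∈ x, ∃ d, d ∉ x ∧
      d * y ∈ Ideal.map (algebraMap R (chart R t⁻¹)) (IsLocalRing.maximalIdeal R) ⊔
        Ideal.span {aeval s f} := by
  haveI := hx
  have hπmem : π ∈ IsLocalRing.maximalIdeal R := by
    rw [hπ]; exact Ideal.subset_span rfl
  have hπx : algebraMap R (chart R t⁻¹) π ∈ x := hp π hπmem
  have hπmax : (Ideal.span {π} : Ideal R).IsMaximal := hπ ▸ IsLocalRing.maximalIdeal.isMaximal R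
  haveI : Finite (R ⧸ (Ideal.span {π} : Ideal R)) := by
    rw [← hπ]
    exact inferInstanceAs (Finite (IsLocalRing.ResidueField R))
  have h1s : (1 : chart R t⁻¹) - s = tch R t⁻¹ := by rw [hs]; ring
  -- `t⁻¹ ∉ x`
  have htx : (⟨t⁻¹, self_mem_chart t⁻¹⟩ : chart R t⁻¹) ∉ x := by
    have h1 := hbad (C 1 + C (-1) * X) (Or.inl rfl)
    have h2 : aeval s (C 1 + C (-1) * X : R[X]) = tch R t⁻¹ := by
      rw [← h1s]
      simp only [map_add, map_mul, aeval_X, map_one, map_neg]
      ring
    rwa [h2] at h1
  -- torsion residue field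
  have hfin : ∀ b : chart R t⁻¹, b ∉ x → ∃ n : ℕ, 0 < n ∧ b ^ n - 1 ∈ x := by
    intro b hb
    haveI : Finite ((chart R t⁻¹) ⧸ x) := finite_quotient_of_finiteType π hπmax x hπx
    exact exists_pow_sub_one_mem_of_finite x b hb
  -- (LOC-poly) at `x` in the coordinate `t⁻¹`
  have hloc : LocPoly π t⁻¹ x := by
    refine locPoly_chart_inv π ht hx hπx htx hfin ?_
    intro hmax hπc
    refine h0 _ hmax hπc ?_
    intro c hc hmem
    rw [sub_mem_contractIdeal_iff ht hx.isPrime htx] at hmem
    have h1 := hbad (C (1 - c) + C c * X) (Or.inr ⟨c, hc, rfl⟩)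
    apply h1
    have h2 : aeval s (C (1 - c) + C c * X : R[X]) =
        1 - algebraMap R (chart R t⁻¹) c * tch R t⁻¹ := by
      rw [← h1s]
      simp only [map_add, map_mul, aeval_C, aeval_X, map_one, map_sub]
      ring
    rw [h2]
    exact hmem
  obtain ⟨f, hfx, hgen⟩ := hloc
  have hcomp : aeval s (f.comp (C 1 - X)) = aeval (tch R t⁻¹) f := by
    rw [aeval_comp]
    congr 1
    rw [← h1s]
    simp only [map_sub, aeval_X, map_one]
  refine ⟨f.comp (C 1 - X), by rw [hcomp]; exact hfx, ?_⟩
  intro y hy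
  obtain ⟨d, hd, hdy⟩ := hgen y hy
  refine ⟨d, hd, ?_⟩
  rw [hcomp, hπ, Ideal.map_span, Set.image_singleton, ← Ideal.span_insert]
  exact hdy

end Loc

/-! ### One point with values in a field unramified at the place `A` -/

section Point

variable {R B : Type*} [CommRing R] [IsDomain R] [IsLocalRing R] [CommRing B] [Algebra R B]
  [Algebra R Qbar]

omit [IsDomain R] [IsLocalRing R] [Algebra R Qbar] in
/-- Every element of `ℚ̄` is integral over `ℚ` (for the algebra structure used by
`IntermediateField ℚ Qbar`). -/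
theorem isIntegral_rat (x : Qbar) : IsIntegral ℚ x := by
  obtain ⟨p, hp, hpx⟩ := ((AlgebraicClosure.isAlgebraic ℚ).isAlgebraic x).isIntegral
  refine ⟨p, hp, ?_⟩
  have h : (algebraMap ℚ Qbar) =
      (@algebraMap ℚ (AlgebraicClosure ℚ) _ _ (AlgebraicClosure.instAlgebra ℚ)) :=
    Subsingleton.elim _ _
  rw [h]
  exact hpx

omit [IsDomain R] [IsLocalRing R] in
/-- An element of `ℚ̄` integral over a ring mapping into the valuation ring `A` lies in `A`. -/
theorem mem_of_isIntegral (A : ValuationSubring Qbar) (hjA : ∀ r : R, algebraMap R Qbar r ∈ A)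
    {z : Qbar} (hz : IsIntegral R z) : z ∈ A := by
  let φ : R →+* A := (algebraMap R Qbar).codRestrict A.toSubring hjA
  have h1 : IsIntegral A z := by
    have := IsIntegral.map_of_comp_eq φ (RingHom.id Qbar) (by ext r; rfl) hz
    simpa using this
  obtain ⟨y, hy⟩ := IsIntegrallyClosed.isIntegral_iff.mp h1
  rw [← hy]
  exact y.2

/-- **One point of SUPPLY.**  In the setting of `SupplyCore39.supplyCore` with `Ω = ℚ̄`, `R` mapping
into `A ∩ K` with `K` unramified at the place `A`: there is a point `φ : B[1/s] → ℚ̄` with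
`g(φ s) = 0`, values in `A`, and values in a number field `K' ⊇ K` unramified at the place `A`. -/
theorem exists_point [PerfectField (IsLocalRing.ResidueField R)]
    (A : ValuationSubring Qbar) {K : IntermediateField ℚ Qbar} [FiniteDimensional ℚ K]
    (hK : UnramAtPlace A K)
    (hj : Function.Injective (algebraMap R Qbar)) (hjK : ∀ r : R, algebraMap R Qbar r ∈ K)
    (hjA : ∀ r : R, algebraMap R Qbar r ∈ A)
    {n : ℕ} (hn : n ≠ 0) {s : B} {b : Fin n → B}
    (hb : Function.Bijective fun p : Fin n → R[X] => ∑ j, aeval s (p j) * b j)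
    (Bad : Set R[X])
    (hLOC : ∀ x : Ideal B, x.IsMaximal →
      (∀ r ∈ IsLocalRing.maximalIdeal R, algebraMap R B r ∈ x) →
      (∀ p ∈ Bad, aeval s p ∉ x) →
      ∃ f : R[X], aeval s f ∈ x ∧ ∀ y ∈ x, ∃ d, d ∉ x ∧
        d * y ∈ Ideal.map (algebraMap R B) (IsLocalRing.maximalIdeal R) ⊔
          Ideal.span {aeval s f})
    (g : R[X]) (hg : g.Monic) (hgd : g.natDegree ≠ 0)
    (hsep : (g.map (IsLocalRing.residue R)).Separable)
    (hcop : ∀ p ∈ Bad,
      IsCoprime (g.map (IsLocalRing.residue R)) (p.map (IsLocalRing.residue R)))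
    (hg0 : IsUnit (g.coeff 0))
    (B01 : Type*) [CommRing B01] [Algebra B B01] [Algebra R B01] [IsScalarTower R B B01]
    [IsLocalization.Away s B01] :
    ∃ φ : B01 →ₐ[R] Qbar, aeval (φ (algebraMap B B01 s)) g = 0 ∧ (∀ z, φ z ∈ A) ∧
      ∃ K' : IntermediateField ℚ Qbar, FiniteDimensional ℚ K' ∧ K ≤ K' ∧ UnramAtPlace A K' ∧
        ∀ z, φ z ∈ K' := by
  classical
  obtain ⟨hfin, hfree, hdisc, ε, φ, hφε, hroot, hint⟩ :=
    supplyCore hj hn hb Bad hLOC g hg hgd hsep hcop hg0 B01
  haveI := hfin
  haveI := hfree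
  refine ⟨φ, hroot, fun z => mem_of_isIntegral A hjA (hint z), ?_⟩
  let e := Module.finBasis R (fibreG s g)
  have hU := Fermat.Agent.FFJ.Alg.UnramPlace92.unramAtPlace_of_isUnit_discr A hK e (hdisc e)
    (algebraMap R Qbar) hjK hjA (ε : fibreG s g →+* Qbar) (fun r => ε.commutes r)
  set K' : IntermediateField ℚ Qbar :=
    K ⊔ IntermediateField.adjoin ℚ (Set.range (ε : fibreG s g →+* Qbar)) with hK'
  refine ⟨K', ?_, le_sup_left, hU, ?_⟩
  · -- finite dimensional
    let T : Set Qbar := Set.range fun i => ε (e i)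
    haveI : Finite T := Set.finite_range _
    haveI : FiniteDimensional ℚ (IntermediateField.adjoin ℚ T) :=
      IntermediateField.finiteDimensional_adjoin fun x _ => isIntegral_rat x
    have hle : K' ≤ K ⊔ IntermediateField.adjoin ℚ T := by
      refine sup_le le_sup_left ?_
      rw [IntermediateField.adjoin_le_iff]
      rintro _ ⟨z, rfl⟩
      have hz : z = ∑ i, e.repr z i • e i := (e.sum_repr z).symm
      show (ε z : Qbar) ∈ _
      rw [hz, map_sum]
      refine sum_mem fun i _ => ?_
      rw [map_smul, Algebra.smul_def]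
      exact mul_mem ((le_sup_left : K ≤ K ⊔ IntermediateField.adjoin ℚ T) (hjK _))
        ((le_sup_right : IntermediateField.adjoin ℚ T ≤ K ⊔ IntermediateField.adjoin ℚ T)
          (IntermediateField.subset_adjoin ℚ T ⟨i, rfl⟩))
    exact FiniteDimensional.of_injective (IntermediateField.inclusion hle).toLinearMap
      (IntermediateField.inclusion_injective hle)
  · -- values
    have hB : ∀ x : B, φ (algebraMap B B01 x) ∈ K' := fun x => by
      rw [hφε]
      exact (le_sup_right : IntermediateField.adjoin ℚ _ ≤ K')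
        (IntermediateField.subset_adjoin ℚ _ ⟨_, rfl⟩)
    intro z
    obtain ⟨⟨x, ⟨_, k, rfl⟩⟩, hx⟩ := IsLocalization.surj (Submonoid.powers s) z
    have hx' : z * algebraMap B B01 (s ^ k) = algebraMap B B01 x := hx
    have hs0 : φ (algebraMap B B01 s) ≠ 0 :=
      ((IsLocalization.Away.algebraMap_isUnit (S := B01) s).map φ).ne_zero
    have h1 := congrArg φ hx'
    rw [map_mul, map_pow, map_pow] at h1
    have h2 : φ z = φ (algebraMap B B01 x) * (φ (algebraMap B B01 s) ^ k)⁻¹ := by
      rw [← h1, mul_assoc, mul_inv_cancel₀ (pow_ne_zero k hs0), mul_one]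
    rw [h2]
    exact mul_mem (hB x) (inv_mem (pow_mem (hB s) k))

end Point

/-! ### The supply -/

section Supply

variable {R F : Type*} [CommRing R] [IsDomain R] [IsLocalRing R] [Field F] [Algebra R F]
  [Algebra R Qbar]

/-- there are infinitely many primes above any bound. -/
theorem infinite_setOf_prime_gt (N : ℕ) : {p : ℕ | p.Prime ∧ N < p}.Infinite := by
  apply Set.infinite_of_not_bddAbove
  rintro ⟨M, hM⟩
  obtain ⟨p, hp, hpp⟩ := Nat.exists_infinite_primes (max M N + 1)
  have h1 : p ≤ M := hM ⟨hpp, by omega⟩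
  omega

/-- **(D3) SUPPLY, abstract form.**  See the file header. -/
theorem supply [Finite (IsLocalRing.ResidueField R)]
    {l : ℕ} (hl : l.Prime) [CharP (IsLocalRing.ResidueField R) l]
    (A : ValuationSubring Qbar) (hA : A.LiesOverPrime l)
    {K : IntermediateField ℚ Qbar} [FiniteDimensional ℚ K] (hK : UnramAtPlace A K)
    (hj : Function.Injective (algebraMap R Qbar)) (hjK : ∀ r : R, algebraMap R Qbar r ∈ K)
    (hjA : ∀ r : R, algebraMap R Qbar r ∈ A)
    (π : R) (hπ : IsLocalRing.maximalIdeal R = Ideal.span {π}) {t : F} (ht : t ≠ 0) (S : Set R)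
    (h0 : ∀ x : Ideal (chart R t), x.IsMaximal → algebraMap R (chart R t) π ∈ x →
      (∀ c ∈ S, tch R t - algebraMap R (chart R t) c ∉ x) → LocPoly π t x)
    (s : chart R t⁻¹) (hs : s = 1 - tch R t⁻¹)
    {n : ℕ} (hn : n ≠ 0) {b : Fin n → chart R t⁻¹}
    (hb : Function.Bijective fun p : Fin n → R[X] => ∑ j, aeval s (p j) * b j)
    (B01 : Type*) [CommRing B01] [Algebra (chart R t⁻¹) B01] [Algebra R B01]
    [IsScalarTower R (chart R t⁻¹) B01] [IsLocalization.Away s B01] :
    ∃ (m : ℕ → ℕ) (P : ℕ → (B01 →ₐ[R] Qbar)), StrictMono m ∧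
      (∀ i, (m i).Prime ∧ m i ≠ l ∧
        IsPrimitiveRoot (P i (algebraMap (chart R t⁻¹) B01 s)) (m i)) ∧
      (∀ i z, P i z ∈ A) ∧
      (∀ i, ∃ K' : IntermediateField ℚ Qbar, FiniteDimensional ℚ K' ∧ K ≤ K' ∧
        UnramAtPlace A K' ∧ ∀ z, P i z ∈ K') ∧
      ∀ i j, i ≠ j → P i (algebraMap (chart R t⁻¹) B01 s) -
        P j (algebraMap (chart R t⁻¹) B01 s) ∉ A.nonunits := by
  classical
  set κ := IsLocalRing.ResidueField R with hκ
  set N : ℕ := max (Nat.card κ) l with hN
  have hinf := infinite_setOf_prime_gt N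
  set m : ℕ → ℕ := Nat.nth (fun p => p.Prime ∧ N < p) with hm
  have hmP : ∀ i, (m i).Prime ∧ N < m i := fun i => Nat.nth_mem_of_infinite hinf i
  have hmono : StrictMono m := Nat.nth_strictMono hinf
  haveI : Algebra.FiniteType R (chart R t⁻¹) := finiteType_of_coords hb.surjective
  -- one point for every `i`
  have key : ∀ i, ∃ φ : B01 →ₐ[R] Qbar,
      IsPrimitiveRoot (φ (algebraMap (chart R t⁻¹) B01 s)) (m i) ∧ (∀ z, φ z ∈ A) ∧
      ∃ K' : IntermediateField ℚ Qbar, FiniteDimensional ℚ K' ∧ K ≤ K' ∧ UnramAtPlace A K' ∧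
        ∀ z, φ z ∈ K' := by
    intro i
    obtain ⟨hp, hNp⟩ := hmP i
    have hql : Nat.card κ ≤ m i := le_trans (le_max_left _ _) hNp.le
    have hml : m i ≠ l := fun h => by
      have : l ≤ N := le_max_right _ _
      omega
    haveI : NeZero ((m i : ℕ) : κ) := ⟨by
      rw [Ne, CharP.cast_eq_zero_iff κ l]
      intro hdvd
      exact hml ((Nat.prime_dvd_prime_iff_eq hl hp).mp hdvd).symm⟩
    have hmap : (cyclotomic (m i) R).map (IsLocalRing.residue R) = cyclotomic (m i) κ :=
      map_cyclotomic (m i) (IsLocalRing.residue R)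
    obtain ⟨φ, hroot, hφA, hK'⟩ := exists_point A hK hj hjK hjA hn hb (Bad S)
      (fun x hx hp' hbad => hLOC_of_locPoly π hπ ht S h0 s hs x hx hp' hbad)
      (cyclotomic (m i) R) (cyclotomic.monic (m i) R)
      (by
        rw [natDegree_cyclotomic]
        exact (Nat.totient_pos.mpr hp.pos).ne')
      (by
        rw [hmap]
        exact separable_cyclotomic (m i) κ)
      (by
        intro p hpB
        rw [hmap]
        rcases hpB with rfl | ⟨c, -, rfl⟩
        · have h1 : (C 1 + C (-1) * X : R[X]).map (IsLocalRing.residue R) =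
              C (1 : κ) + C (-1 : κ) * X := by
            simp
          rw [h1]
          exact isCoprime_cyclotomic_linear hql 1 (-1) (Or.inl one_ne_zero)
        · have h1 : (C (1 - c) + C c * X : R[X]).map (IsLocalRing.residue R) =
              C (IsLocalRing.residue R (1 - c)) + C (IsLocalRing.residue R c) * X := by
            simp only [Polynomial.map_add, Polynomial.map_mul, map_C, map_X]
          rw [h1]
          refine isCoprime_cyclotomic_linear hql _ _ ?_
          by_contra hcon
          rw [not_or, not_not, not_not] at hcon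
          have h2 : IsLocalRing.residue R (1 : R) = 0 := by
            have : (1 : R) = (1 - c) + c := by ring
            rw [this, map_add, hcon.1, hcon.2, add_zero]
          rw [map_one] at h2
          exact one_ne_zero h2)
      (by
        rw [cyclotomic_coeff_zero R hp.one_lt]
        exact isUnit_one)
      B01
    refine ⟨φ, ?_, hφA, hK'⟩
    haveI : NeZero ((m i : ℕ) : Qbar) := ⟨Nat.cast_ne_zero.mpr hp.ne_zero⟩
    rw [← isRoot_cyclotomic_iff, IsRoot.def, ← map_cyclotomic (m i) (algebraMap R Qbar), eval_map,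
      ← aeval_def]
    exact hroot
  choose P hP using key
  refine ⟨m, P, hmono, fun i => ⟨(hmP i).1, ?_, (hP i).1⟩, fun i => (hP i).2.1,
    fun i => (hP i).2.2, ?_⟩
  · intro h
    have h1 : l ≤ N := le_max_right _ _
    have h2 := (hmP i).2
    omega
  · intro i j hij
    have hli : m i ≠ l := fun h => by
      have h1 : l ≤ N := le_max_right _ _
      have h2 := (hmP i).2
      omega
    have hlj : m j ≠ l := fun h => by
      have h1 : l ≤ N := le_max_right _ _
      have h2 := (hmP j).2
      omega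
    have hmij : m i ≠ m j := fun h => hij (hmono.injective h)
    exact Fermat.Agent.FFJ.Model.RootsAvoid64.sub_not_mem_nonunits_of_ne hl hA (hmP i).1 (hmP j).1
      hli hlj hmij ((hP i).1.pow_eq_one) ((hP i).1.ne_one (hmP i).1.one_lt)
      ((hP j).1.pow_eq_one) ((hP j).1.ne_one (hmP j).1.one_lt)

end Supply

end Fermat.Agent.FFJ.Model.Supply39
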