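/-
Programme FFJ (S19), chapter CURVE/PIC-D, brick (D3) SUPPLY: the ABSTRACT ASSEMBLY (helper64;
partner of helper39, who owns the RED input `hpoly` and the instantiation at CurveOut17).

Setting: `A` a valuation subring of `Qbar`, `K₁` a number field unramified at the place `A`,
`R` a local domain with FINITE residue field mapping injectively into `A ∩ K₁` (application:
`R = A ∩ K₁`), `B` an `R`-algebra finite free over `R[X]` (`X ↦ t`, coordinate form `hb`),
`B01 = B[1/t]`, and the RED input `hpoly`: at every maximal ideal `x ∋ 𝔪_R` of `B` whose `t`-value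
avoids a set `S ⊂ R` (ANY set of `R`-values; a `Finset` may be passed as `↑S`) there is a POLYNOMIAL
local parameter `f(t)`.

* `gpoly R p = Φ_p(1 - X)`: monic of degree `p - 1` (`p` odd), constant term `p`, separable reduction;
* `supply_of_prime` / `supply_core` / `supply`: for every prime `p > max (#κ(R)) 2` a point
  `φ : B01 →ₐ[R] Qbar` with values in `A ∩ K'`, `K' ⊇ K₁` a number field with `UnramAtPlace A K'`,
  and `1 - φ(t)` a primitive `p`-th root of unity
  [closed subscheme `g_p(t) = 0`: `FibreG39.isUnit_discr_fibreG` + `exists_algHom_awayG` +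
  `UnramPlace92.unramAtPlace_of_isUnit_discr` + `Patch92.finiteDimensional_sup_adjoin_range`;
  the points `t = c` (`c ∈ S`, in fact any `c ∈ R`) are avoided because `Φ_p` has no root in a
  finite field with fewer than `p` elements];
* `supply_infinite`: the residues in `κ(A)` of the `t`-coordinates of such points form an infinite
  set (`RootsAvoid64.sub_not_mem_nonunits_of_ne`; needs `A` over a prime `l`);
* `codRestrictA`, `supply_set`: the exit shape of the D8 consumer: a set of `R`-algebra maps `B01 → ↥A` with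
  infinitely many residues of `P t` and of `P u`, `u = t⁻¹`.
-/
import Mathlib
import Fermat.Agent.FFJ.Model.FibreG39
import Fermat.Agent.FFJ.Model.RootsAvoid64
import Fermat.Agent.FFJ.Alg.UnramPlace92
import Fermat.Agent.FFJ.Alg.Patch92

set_option autoImplicit false
set_option linter.style.haveILetI false

open Polynomial

namespace Fermat.Agent.FFJ.Model.SupplyAbs64

open Fermat.Agent.FFJ.Alg.Spec78 Fermat.Agent.FFJ.Alg.SpecLocal78
open Fermat.Agent.FFJ.Model.FibreG39

section Poly

variable (R : Type*) [CommRing R]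

/-- `g_p(X) := Φ_p(1 - X)`. -/
noncomputable def gpoly (p : ℕ) : R[X] := (cyclotomic p R).comp (C 1 - X)

variable {R}

theorem gpoly_map {R' : Type*} [CommRing R'] (f : R →+* R') (p : ℕ) :
    (gpoly R p).map f = gpoly R' p := by
  rw [gpoly, gpoly, Polynomial.map_comp, map_cyclotomic]
  simp

theorem c_one_sub_X_eq : (C 1 - X : R[X]) = -(X - C 1) := by ring

theorem natDegree_c_one_sub_X [Nontrivial R] : (C 1 - X : R[X]).natDegree = 1 := by
  rw [c_one_sub_X_eq, natDegree_neg, natDegree_X_sub_C]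

theorem leadingCoeff_c_one_sub_X [Nontrivial R] : (C 1 - X : R[X]).leadingCoeff = -1 := by
  rw [c_one_sub_X_eq, leadingCoeff_neg, leadingCoeff_X_sub_C]

theorem natDegree_gpoly [IsDomain R] {p : ℕ} (hp : p.Prime) :
    (gpoly R p).natDegree = p - 1 := by
  rw [gpoly, natDegree_comp, natDegree_c_one_sub_X, mul_one, natDegree_cyclotomic,
    Nat.totient_prime hp]

theorem monic_gpoly [IsDomain R] {p : ℕ} (hp : p.Prime) (hp2 : p ≠ 2) : (gpoly R p).Monic := by
  rw [Monic, gpoly, leadingCoeff_comp (by rw [natDegree_c_one_sub_X]; exact one_ne_zero),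
    leadingCoeff_c_one_sub_X, natDegree_cyclotomic, Nat.totient_prime hp,
    (cyclotomic.monic p R).leadingCoeff, one_mul]
  exact (hp.even_sub_one hp2).neg_one_pow

theorem coeff_zero_gpoly {p : ℕ} (hp : p.Prime) : (gpoly R p).coeff 0 = (p : R) := by
  haveI : Fact p.Prime := ⟨hp⟩
  rw [coeff_zero_eq_eval_zero, gpoly, eval_comp]
  simp [eval_one_cyclotomic_prime]

theorem separable_comp_c_one_sub_X {f : R[X]} (hf : f.Separable) :
    (f.comp (C 1 - X)).Separable := by
  obtain ⟨a, b, hab⟩ := hf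
  refine ⟨a.comp (C 1 - X), -(b.comp (C 1 - X)), ?_⟩
  have h1 := congrArg (fun q : R[X] => q.comp (C 1 - X)) hab
  simp only [add_comp, mul_comp, one_comp] at h1
  rw [derivative_comp]
  have h2 : derivative (C 1 - X : R[X]) = -1 := by simp
  rw [h2]
  linear_combination h1

theorem separable_gpoly {κ : Type*} [Field κ] {p : ℕ} (hp : (p : κ) ≠ 0) :
    (gpoly κ p).Separable := by
  haveI : NeZero (p : κ) := ⟨hp⟩
  exact separable_comp_c_one_sub_X (separable_cyclotomic p κ)

theorem aeval_gpoly {Ω : Type*} [CommRing Ω] [Algebra R Ω] (p : ℕ) (x : Ω) :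
    aeval x (gpoly R p) = (cyclotomic p Ω).eval (1 - x) := by
  rw [gpoly, aeval_comp, aeval_def, eval₂_eq_eval_map, map_cyclotomic]
  simp

theorem eval_gpoly (p : ℕ) (x : R) : (gpoly R p).eval x = (cyclotomic p R).eval (1 - x) := by
  rw [gpoly, eval_comp]
  simp

end Poly

section Finite

variable {κ : Type*} [Field κ] [Finite κ]

/-- a prime larger than the cardinality of a finite field is nonzero in it. -/
theorem natCast_ne_zero_of_card_lt {p : ℕ} (hp : p.Prime) (hcard : Nat.card κ < p) :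
    (p : κ) ≠ 0 := by
  intro h0
  have h1 : addOrderOf (1 : κ) ∣ p := by
    rw [addOrderOf_dvd_iff_nsmul_eq_zero, nsmul_eq_mul, mul_one]
    exact h0
  have h2 : addOrderOf (1 : κ) ∣ Nat.card κ := addOrderOf_dvd_natCard 1
  rcases (Nat.dvd_prime hp).mp h1 with h3 | h3
  · rw [AddMonoid.addOrderOf_eq_one_iff] at h3
    exact one_ne_zero h3
  · rw [h3] at h2
    have := Nat.le_of_dvd Nat.card_pos h2
    omega

/-- no element of a finite field has multiplicative order a prime larger than the cardinality. -/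
theorem eval_cyclotomic_ne_zero_of_card_lt {p : ℕ} (hp : p.Prime) (hcard : Nat.card κ < p)
    (μ : κ) : (cyclotomic p κ).eval μ ≠ 0 := by
  classical
  haveI := Fintype.ofFinite κ
  intro h0
  haveI : NeZero (p : κ) := ⟨natCast_ne_zero_of_card_lt hp hcard⟩
  have hprim : IsPrimitiveRoot μ p := (isRoot_cyclotomic_iff).mp h0
  have hμ0 : μ ≠ 0 := hprim.ne_zero hp.ne_zero
  have h1 : μ ^ (Fintype.card κ - 1) = 1 := FiniteField.pow_card_sub_one_eq_one μ hμ0
  have h2 : p ∣ Fintype.card κ - 1 := hprim.dvd_of_pow_eq_one _ h1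
  rw [Nat.card_eq_fintype_card] at hcard
  have h3 : 1 < Fintype.card κ := Fintype.one_lt_card
  have := Nat.le_of_dvd (by omega) h2
  omega

end Finite

section Local

variable {R B : Type*} [CommRing R] [IsLocalRing R] [Finite (IsLocalRing.ResidueField R)]
  [CommRing B] [Algebra R B]

/-- for `p` a prime larger than the residue field, `p` is a unit of `R`. -/
theorem isUnit_natCast_of_card_lt {p : ℕ} (hp : p.Prime)
    (hcard : Nat.card (IsLocalRing.ResidueField R) < p) : IsUnit (p : R) := by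
  by_contra h
  have h1 : (p : R) ∈ IsLocalRing.maximalIdeal R := (IsLocalRing.mem_maximalIdeal _).mpr h
  have h2 : IsLocalRing.residue R (p : R) = 0 := (IsLocalRing.residue_eq_zero_iff _).mpr h1
  rw [map_natCast] at h2
  exact natCast_ne_zero_of_card_lt hp hcard h2

/-- `g_p(c)` is a unit of `R` for every `c : R`, when `p` is larger than the residue field. -/
theorem isUnit_eval_gpoly {p : ℕ} (hp : p.Prime)
    (hcard : Nat.card (IsLocalRing.ResidueField R) < p) (c : R) :
    IsUnit ((gpoly R p).eval c) := by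
  by_contra h
  have h1 : (gpoly R p).eval c ∈ IsLocalRing.maximalIdeal R :=
    (IsLocalRing.mem_maximalIdeal _).mpr h
  have h2 : IsLocalRing.residue R ((gpoly R p).eval c) = 0 :=
    (IsLocalRing.residue_eq_zero_iff _).mpr h1
  have h3 : IsLocalRing.residue R ((gpoly R p).eval c) =
      ((gpoly R p).map (IsLocalRing.residue R)).eval (IsLocalRing.residue R c) := by
    rw [eval_map, eval₂_hom]
  rw [h3, gpoly_map, eval_gpoly] at h2
  exact eval_cyclotomic_ne_zero_of_card_lt hp hcard _ h2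

/-- a maximal ideal containing `g_p(t)` contains no `t - c`. -/
theorem sub_notMem_of_aeval_gpoly_mem {p : ℕ} (hp : p.Prime)
    (hcard : Nat.card (IsLocalRing.ResidueField R) < p) (t : B) (x : Ideal B) (hx : x.IsMaximal)
    (hgx : aeval t (gpoly R p) ∈ x) (c : R) : t - algebraMap R B c ∉ x := by
  intro hc
  have h1 : aeval t (gpoly R p) - algebraMap R B ((gpoly R p).eval c) ∈ x := by
    have := EtaleFibre39.aeval_sub_eval_mem t c (gpoly R p)
    rw [EtaleFibre39.fibreIdeal, Ideal.mem_span_singleton'] at this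
    obtain ⟨a, ha⟩ := this
    rw [← ha]
    exact Ideal.mul_mem_left _ _ hc
  have h2 : algebraMap R B ((gpoly R p).eval c) ∈ x := by
    have := x.sub_mem hgx h1
    rwa [sub_sub_cancel] at this
  have h3 : IsUnit (algebraMap R B ((gpoly R p).eval c)) :=
    (isUnit_eval_gpoly hp hcard c).map _
  exact hx.ne_top (Ideal.eq_top_of_isUnit_mem _ h2 h3)

end Local


section Supply

variable (A : ValuationSubring Qbar) (K₁ : IntermediateField ℚ Qbar) [FiniteDimensional ℚ K₁]
  (hK₁ : UnramAtPlace A K₁)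
  {R B B01 : Type*} [CommRing R] [IsDomain R] [IsLocalRing R]
  [Finite (IsLocalRing.ResidueField R)] [Algebra R Qbar]
  (hj : Function.Injective (algebraMap R Qbar))
  (hjK : ∀ r, algebraMap R Qbar r ∈ K₁) (hjA : ∀ r, algebraMap R Qbar r ∈ A)
  [CommRing B] [Algebra R B] (t : B) {n : ℕ} (hn : n ≠ 0) (b : Fin n → B)
  (hb : Function.Bijective fun p : Fin n → R[X] => ∑ j, aeval t (p j) * b j)
  [CommRing B01] [Algebra B B01] [Algebra R B01] [IsScalarTower R B B01]
  [IsLocalization.Away t B01]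
  (S : Set R)
  (hpoly : ∀ x : Ideal B, x.IsMaximal →
    (∀ r ∈ IsLocalRing.maximalIdeal R, algebraMap R B r ∈ x) →
    (∀ c ∈ S, t - algebraMap R B c ∉ x) →
    ∃ f : R[X], aeval t f ∈ x ∧ ∀ y ∈ x, ∃ d, d ∉ x ∧
      d * y ∈ Ideal.map (algebraMap R B) (IsLocalRing.maximalIdeal R) ⊔
        Ideal.span {aeval t f})

include hK₁ hj hjK hjA hn hb hpoly in
/-- **One point per large prime** (core form: no hypothesis on the residue characteristic). -/
theorem supply_of_prime {p : ℕ} (hp : p.Prime) (hp2 : p ≠ 2)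
    (hcard : Nat.card (IsLocalRing.ResidueField R) < p) :
    ∃ (φ : B01 →ₐ[R] Qbar) (K' : IntermediateField ℚ Qbar),
      FiniteDimensional ℚ K' ∧ K₁ ≤ K' ∧ UnramAtPlace A K' ∧ (∀ z, φ z ∈ K') ∧ (∀ z, φ z ∈ A) ∧
      (1 - φ (algebraMap B B01 t)) ^ p = 1 ∧ 1 - φ (algebraMap B B01 t) ≠ 1 := by
  classical
  set g : R[X] := gpoly R p with hgdef
  have hg : g.Monic := monic_gpoly hp hp2
  have hgd : g.natDegree ≠ 0 := by
    rw [hgdef, natDegree_gpoly hp]
    have := hp.two_le
    omega
  have hg0 : IsUnit (g.coeff 0) := by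
    rw [hgdef, coeff_zero_gpoly hp]
    exact isUnit_natCast_of_card_lt hp hcard
  have hsep : (g.map (IsLocalRing.residue R)).Separable := by
    rw [hgdef, gpoly_map]
    exact separable_gpoly (natCast_ne_zero_of_card_lt hp hcard)
  haveI := finite_fibreG hg hb
  haveI := free_fibreG hg hb
  have hloc : ∀ x : Ideal B, x.IsMaximal →
      (∀ r ∈ IsLocalRing.maximalIdeal R, algebraMap R B r ∈ x) → aeval t g ∈ x →
      ∃ f : R[X], aeval t f ∈ x ∧ ∀ y ∈ x, ∃ d, d ∉ x ∧
        d * y ∈ Ideal.map (algebraMap R B) (IsLocalRing.maximalIdeal R) ⊔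
          Ideal.span {aeval t f} := by
    intro x hx hm hgx
    exact hpoly x hx hm fun c _ => sub_notMem_of_aeval_gpoly_mem hp hcard t x hx hgx c
  set b' := Module.Free.chooseBasis R (fibreG t g) with hb'
  have hdisc : IsUnit (Algebra.discr R b') := isUnit_discr_fibreG hg hsep hb hloc b'
  obtain ⟨ε, φ, hφε, hφt, hφint⟩ :=
    exists_algHom_awayG (Ω := Qbar) hj hg hn hgd hb hg0 B01
  have hε : ∀ r, (ε : fibreG t g →+* Qbar) (algebraMap R (fibreG t g) r) = algebraMap R Qbar r :=
    fun r => ε.commutes r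
  set K' : IntermediateField ℚ Qbar :=
    K₁ ⊔ IntermediateField.adjoin ℚ (Set.range (ε : fibreG t g →+* Qbar)) with hK'
  have hfin : FiniteDimensional ℚ K' :=
    Fermat.Agent.FFJ.Alg.Patch92.finiteDimensional_sup_adjoin_range K₁ b' (algebraMap R Qbar) hjK
      (ε : fibreG t g →+* Qbar) hε
  have hunr : UnramAtPlace A K' :=
    Fermat.Agent.FFJ.Alg.UnramPlace92.unramAtPlace_of_isUnit_discr A hK₁ b' hdisc
      (algebraMap R Qbar) hjK hjA (ε : fibreG t g →+* Qbar) hε
  -- the root of unity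
  have hroot : (cyclotomic p Qbar).eval (1 - φ (algebraMap B B01 t)) = 0 := by
    rw [← aeval_gpoly (R := R)]
    exact hφt
  haveI : NeZero (p : Qbar) := ⟨Nat.cast_ne_zero.mpr hp.ne_zero⟩
  have hprim : IsPrimitiveRoot (1 - φ (algebraMap B B01 t)) p := isRoot_cyclotomic_iff.mp hroot
  -- values on `B`
  have hB : ∀ x : B, φ (algebraMap B B01 x) ∈ K' := by
    intro x
    rw [hφε]
    exact (le_sup_right : IntermediateField.adjoin ℚ (Set.range (ε : fibreG t g →+* Qbar)) ≤ K')
      (IntermediateField.subset_adjoin ℚ _ ⟨_, rfl⟩)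
  have ht0 : φ (algebraMap B B01 t) ≠ 0 := by
    have hu : IsUnit (algebraMap B B01 t) := IsLocalization.Away.algebraMap_isUnit t
    exact (hu.map φ).ne_zero
  refine ⟨φ, K', hfin, le_sup_left, hunr, fun z => ?_, fun z => ?_, hprim.pow_eq_one,
    hprim.ne_one hp.one_lt⟩
  · obtain ⟨k, x, hx⟩ := IsLocalization.Away.surj t z
    have h1 : φ z * φ (algebraMap B B01 t) ^ k = φ (algebraMap B B01 x) := by
      rw [← map_pow, ← map_mul, hx]
    have h2 : φ z = φ (algebraMap B B01 x) / φ (algebraMap B B01 t) ^ k := by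
      rw [eq_div_iff (pow_ne_zero k ht0), h1]
    rw [h2]
    exact div_mem (hB x) (pow_mem (hB t) k)
  · obtain ⟨P, hP, hPz⟩ := hφint z
    refine Fermat.Agent.FFJ.Alg.TDIn92.mem_of_root A (f := P.map (algebraMap R Qbar))
      (hP.map _) (fun i => ?_) ?_
    · rw [coeff_map]
      exact hjA _
    · rw [eval_map]
      exact hPz


include hK₁ hj hjK hjA hn hb hpoly in
/-- **(D3) SUPPLY, abstract form**: for every large prime `p` a point `φ` of the overlap `B01`
defined over a number field `K' ⊇ K₁` unramified at the place `A`, integral at `A`, with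
`1 - φ(t)` a primitive `p`-th root of unity. -/
theorem supply_core :
    ∃ N₀ : ℕ, ∀ p : ℕ, p.Prime → N₀ < p →
      ∃ (φ : B01 →ₐ[R] Qbar) (K' : IntermediateField ℚ Qbar),
        FiniteDimensional ℚ K' ∧ K₁ ≤ K' ∧ UnramAtPlace A K' ∧ (∀ z, φ z ∈ K') ∧
        (∀ z, φ z ∈ A) ∧
        (1 - φ (algebraMap B B01 t)) ^ p = 1 ∧ 1 - φ (algebraMap B B01 t) ≠ 1 := by
  refine ⟨max (Nat.card (IsLocalRing.ResidueField R)) 2, fun p hp hN => ?_⟩
  have h1 : Nat.card (IsLocalRing.ResidueField R) < p := lt_of_le_of_lt (le_max_left _ _) hN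
  have h2 : 2 < p := lt_of_le_of_lt (le_max_right _ _) hN
  exact supply_of_prime A K₁ hK₁ hj hjK hjA t hn b hb S hpoly hp (by omega) h1

variable (l : ℕ) (hl : l.Prime) (hA : A.LiesOverPrime l)
  (hjm : ∀ r ∈ IsLocalRing.maximalIdeal R, algebraMap R Qbar r ∈ A.nonunits)

include hK₁ hj hjK hjA hn hb hpoly in
/-- **(D3) SUPPLY** in the announced literal shape (the hypotheses `hl hA hjm` are not used). -/
theorem supply (_hl : l.Prime) (_hA : A.LiesOverPrime l)
    (_hjm : ∀ r ∈ IsLocalRing.maximalIdeal R, algebraMap R Qbar r ∈ A.nonunits) :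
    ∃ N₀ : ℕ, ∀ p : ℕ, p.Prime → N₀ < p →
      ∃ (φ : B01 →ₐ[R] Qbar) (K' : IntermediateField ℚ Qbar),
        FiniteDimensional ℚ K' ∧ K₁ ≤ K' ∧ UnramAtPlace A K' ∧ (∀ z, φ z ∈ K') ∧
        (∀ z, φ z ∈ A) ∧
        (1 - φ (algebraMap B B01 t)) ^ p = 1 ∧ 1 - φ (algebraMap B B01 t) ≠ 1 :=
  supply_core A K₁ hK₁ hj hjK hjA t hn b hb S hpoly

include hK₁ hj hjK hjA hn hb hpoly hl hA in
/-- **(D3) SUPPLY, infinitely many residues**: the residues in `κ(A)` of the `t`-coordinates of
the points of `B01` which are integral at `A` and defined over number fields `K' ⊇ K₁` unramified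
at `A` form an infinite set. -/
theorem supply_infinite :
    {z : IsLocalRing.ResidueField ↥A | ∃ (φ : B01 →ₐ[R] Qbar) (K' : IntermediateField ℚ Qbar)
      (hφA : ∀ z, φ z ∈ A), FiniteDimensional ℚ K' ∧ K₁ ≤ K' ∧ UnramAtPlace A K' ∧
      (∀ z, φ z ∈ K') ∧
      IsLocalRing.residue ↥A ⟨φ (algebraMap B B01 t), hφA _⟩ = z}.Infinite := by
  classical
  obtain ⟨N₀, hN₀⟩ := supply_core A K₁ hK₁ hj hjK hjA t hn b hb S hpoly (B01 := B01)
  set N := max N₀ l with hN
  -- the index set: primes `> N`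
  have hinf : {p : ℕ | p.Prime ∧ N < p}.Infinite := by
    refine Set.infinite_of_forall_exists_gt fun a => ?_
    obtain ⟨p, hp1, hp2⟩ := Nat.exists_infinite_primes (max a N + 1)
    exact ⟨p, ⟨hp2, by have := le_max_right a N; omega⟩, by have := le_max_left a N; omega⟩
  haveI : Infinite {p : ℕ | p.Prime ∧ N < p} := hinf.to_subtype
  have hex : ∀ q : {p : ℕ | p.Prime ∧ N < p},
      ∃ (φ : B01 →ₐ[R] Qbar) (K' : IntermediateField ℚ Qbar),
        FiniteDimensional ℚ K' ∧ K₁ ≤ K' ∧ UnramAtPlace A K' ∧ (∀ z, φ z ∈ K') ∧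
        (∀ z, φ z ∈ A) ∧
        (1 - φ (algebraMap B B01 t)) ^ (q : ℕ) = 1 ∧ 1 - φ (algebraMap B B01 t) ≠ 1 :=
    fun q => hN₀ q q.2.1 (lt_of_le_of_lt (le_max_left _ _) q.2.2)
  choose φ K' hfin hle hunr hK' hφA hpow hne using hex
  refine Set.infinite_of_injective_forall_mem
    (f := fun q : {p : ℕ | p.Prime ∧ N < p} =>
      IsLocalRing.residue ↥A ⟨φ q (algebraMap B B01 t), hφA q _⟩) ?_ ?_
  · intro q q' hqq
    by_contra hne'
    have hpp : (q : ℕ) ≠ (q' : ℕ) := fun h => hne' (Subtype.ext h)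
    have hql : (q : ℕ) ≠ l := by
      have := lt_of_le_of_lt (le_max_right N₀ l) q.2.2
      omega
    have hql' : (q' : ℕ) ≠ l := by
      have := lt_of_le_of_lt (le_max_right N₀ l) q'.2.2
      omega
    have h1 := RootsAvoid64.sub_not_mem_nonunits_of_ne (A := A) hl hA q.2.1 q'.2.1 hql hql' hpp
      (hpow q) (hne q) (hpow q') (hne q')
    apply h1
    have hmem : (1 - φ q (algebraMap B B01 t)) - (1 - φ q' (algebraMap B B01 t)) ∈ A :=
      sub_mem (sub_mem A.one_mem (hφA q _)) (sub_mem A.one_mem (hφA q' _))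
    rw [RootsAvoid64.mem_nonunits_iff_residue A hmem]
    have h2 : (⟨(1 - φ q (algebraMap B B01 t)) - (1 - φ q' (algebraMap B B01 t)), hmem⟩ : ↥A) =
        ⟨φ q' (algebraMap B B01 t), hφA q' _⟩ - ⟨φ q (algebraMap B B01 t), hφA q _⟩ := by
      apply Subtype.ext
      show _ = φ q' (algebraMap B B01 t) - φ q (algebraMap B B01 t)
      ring
    rw [h2, map_sub, sub_eq_zero]
    exact hqq.symm
  · intro q
    exact ⟨φ q, K' q, hφA q, hfin q, hle q, hunr q, hK' q, rfl⟩


/-! ### The points as `R`-algebra maps into the valuation ring -/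

omit [FiniteDimensional ℚ K₁] [IsDomain R] [IsLocalRing R] [Finite (IsLocalRing.ResidueField R)]
  [CommRing B] [Algebra R B] [Algebra B B01] [IsScalarTower R B B01] [IsLocalization.Away t B01] in
/-- codomain restriction of an `A`-integral point to the valuation ring `A`. -/
noncomputable def codRestrictA [Algebra R ↥A] [IsScalarTower R ↥A Qbar] (φ : B01 →ₐ[R] Qbar)
    (hφ : ∀ z, φ z ∈ A) : B01 →ₐ[R] ↥A :=
  { (φ : B01 →+* Qbar).codRestrict A.toSubring hφ with
    commutes' := fun r => Subtype.ext (by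
      show φ (algebraMap R B01 r) = ((algebraMap R ↥A r : ↥A) : Qbar)
      rw [φ.commutes, IsScalarTower.algebraMap_apply R ↥A Qbar]
      rfl) }

omit [FiniteDimensional ℚ K₁] [IsDomain R] [IsLocalRing R] [Finite (IsLocalRing.ResidueField R)]
  [CommRing B] [Algebra R B] [Algebra B B01] [IsScalarTower R B B01] [IsLocalization.Away t B01] in
@[simp] theorem coe_codRestrictA [Algebra R ↥A] [IsScalarTower R ↥A Qbar] (φ : B01 →ₐ[R] Qbar)
    (hφ : ∀ z, φ z ∈ A) (z : B01) : ((codRestrictA A φ hφ z : ↥A) : Qbar) = φ z := rfl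

include hK₁ hj hjK hn hb hpoly hl hA in
/-- **(D3) SUPPLY, exit shape** (`#1697`, with `UnramAtPlace`): a set `T` of `R`-algebra maps
`B01 → A` whose `t`-coordinates (and the coordinates `u = t⁻¹`) have infinitely many residues, each
defined over a number field `K' ⊇ K₁` unramified at the place `A`. -/
theorem supply_set [Algebra R ↥A] [IsScalarTower R ↥A Qbar] (u : B01)
    (hu : u * algebraMap B B01 t = 1) :
    ∃ T : Set (B01 →ₐ[R] ↥A),
      ((fun P : B01 →ₐ[R] ↥A => IsLocalRing.residue ↥A (P (algebraMap B B01 t))) '' T).Infinite ∧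
      ((fun P : B01 →ₐ[R] ↥A => IsLocalRing.residue ↥A (P u)) '' T).Infinite ∧
      ∀ P ∈ T, ∃ K' : IntermediateField ℚ Qbar, FiniteDimensional ℚ K' ∧ K₁ ≤ K' ∧
        UnramAtPlace A K' ∧ ∀ a, ((P a : ↥A) : Qbar) ∈ K' := by
  have hjA : ∀ r, algebraMap R Qbar r ∈ A := by
    intro r
    rw [IsScalarTower.algebraMap_apply R ↥A Qbar]
    exact (algebraMap R ↥A r).2
  set T : Set (B01 →ₐ[R] ↥A) := {P | ∃ K' : IntermediateField ℚ Qbar, FiniteDimensional ℚ K' ∧
    K₁ ≤ K' ∧ UnramAtPlace A K' ∧ ∀ a, ((P a : ↥A) : Qbar) ∈ K'} with hT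
  have h1 : ((fun P : B01 →ₐ[R] ↥A =>
      IsLocalRing.residue ↥A (P (algebraMap B B01 t))) '' T).Infinite := by
    refine (supply_infinite A K₁ hK₁ hj hjK hjA t hn b hb S hpoly l hl hA (B01 := B01)).mono ?_
    rintro z ⟨φ, K', hφA, hfin, hle, hunr, hK', rfl⟩
    exact ⟨codRestrictA A φ hφA, ⟨K', hfin, hle, hunr, fun a => hK' a⟩, rfl⟩
  refine ⟨T, h1, ?_, fun P hP => hP⟩
  have h2 : (fun P : B01 →ₐ[R] ↥A => IsLocalRing.residue ↥A (P u)) '' T =
      (fun z : IsLocalRing.ResidueField ↥A => z⁻¹) ''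
        ((fun P : B01 →ₐ[R] ↥A => IsLocalRing.residue ↥A (P (algebraMap B B01 t))) '' T) := by
    rw [Set.image_image]
    refine Set.image_congr fun P _ => ?_
    have h3 : IsLocalRing.residue ↥A (P u) * IsLocalRing.residue ↥A (P (algebraMap B B01 t)) = 1 := by
      rw [← map_mul, ← map_mul, hu, map_one, map_one]
    exact eq_inv_of_mul_eq_one_left h3
  rw [h2]
  exact h1.image (inv_injective.injOn)

end Supply

end Fermat.Agent.FFJ.Model.SupplyAbs64
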