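/-
Programme FFJ (S19), chapter CURVE/PIC-D, brick (D3) SUPPLY.  Owner: helper39.

**SUPPLY in the Set form consumed by (D8-TOP)** (`FFJ/Spec/GeoTwoLevel77.geoInputNN_of_two_level`,
hypotheses `S`, `hSinf`, `hSunr`): from the sequence of `Supply39.supply`, a set `T` of points
`B₀₁ →ₐ[R] ↥A` (codomain the valuation ring `A` itself) such that

* the residues of the `s`-coordinates `P s` are infinitely many,
* the residues of the coordinates `P u`, `u = s⁻¹` (the coordinate `t'` of the first chart of the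
  Möbius model: the one `SpecD35.FibStatement` uses), are infinitely many,
* every `P ∈ T` has its values in a number field `K' ⊇ K` unramified at the place `A`.

`R` is abstract as in `Supply39`; the `R`-algebra structure of `↥A` is an instance argument
(`GeoWireOne77.algebraOKA K A` in the application, with `GeoWireOne77.isScalarTower_OKA`).
-/
import Mathlib
import Fermat.Agent.FFJ.Model.Supply39

set_option autoImplicit false
set_option linter.unusedSectionVars false
set_option linter.style.haveILetI false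

open Polynomial

namespace Fermat.Agent.FFJ.Model.SupplySet39

open Fermat.Agent.FFJ.Alg.Spec78 Fermat.Agent.FFJ.Alg.SpecLocal78
open Fermat.Agent.FFJ.Model.PolyTransfer39 Fermat.Agent.FFJ.Model.Supply39
open Fermat.Agent.RED.PUR.ChartGeneric22

section CodRestrict

variable {R B : Type*} [CommRing R] [CommRing B] [Algebra R B] [Algebra R Qbar]
  (A : ValuationSubring Qbar) [Algebra R ↥A] [IsScalarTower R ↥A Qbar]

/-- A `ℚ̄`-valued point with values in `A`, as an `A`-valued point. -/
noncomputable def codA (φ : B →ₐ[R] Qbar) (hφ : ∀ z, φ z ∈ A) : B →ₐ[R] ↥A :=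
  { (φ : B →+* Qbar).codRestrict A.toSubring hφ with
    commutes' := fun r => Subtype.ext (by
      show φ (algebraMap R B r) = ((algebraMap R ↥A r : ↥A) : Qbar)
      rw [φ.commutes]
      exact IsScalarTower.algebraMap_apply R ↥A Qbar r) }

@[simp] theorem coe_codA (φ : B →ₐ[R] Qbar) (hφ : ∀ z, φ z ∈ A) (z : B) :
    ((codA A φ hφ z : ↥A) : Qbar) = φ z := rfl

end CodRestrict

section Set

variable {R F : Type*} [CommRing R] [IsDomain R] [IsLocalRing R] [Field F] [Algebra R F]
  [Algebra R Qbar]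

/-- **(D3) SUPPLY, Set form** (the hypotheses `S`, `hSinf`, `hSunr` of
`GeoTwoLevel77.geoInputNN_of_two_level`, for both coordinates `s` and `u = s⁻¹`). -/
theorem supply_set [Finite (IsLocalRing.ResidueField R)]
    {l : ℕ} (hl : l.Prime) [CharP (IsLocalRing.ResidueField R) l]
    (A : ValuationSubring Qbar) (hA : A.LiesOverPrime l)
    [Algebra R ↥A] [IsScalarTower R ↥A Qbar]
    {K : IntermediateField ℚ Qbar} [FiniteDimensional ℚ K] (hK : UnramAtPlace A K)
    (hj : Function.Injective (algebraMap R Qbar)) (hjK : ∀ r : R, algebraMap R Qbar r ∈ K)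
    (π : R) (hπ : IsLocalRing.maximalIdeal R = Ideal.span {π}) {t : F} (ht : t ≠ 0) (S : Set R)
    (h0 : ∀ x : Ideal (chart R t), x.IsMaximal → algebraMap R (chart R t) π ∈ x →
      (∀ c ∈ S, tch R t - algebraMap R (chart R t) c ∉ x) → LocPoly π t x)
    (s : chart R t⁻¹) (hs : s = 1 - tch R t⁻¹)
    {n : ℕ} (hn : n ≠ 0) {b : Fin n → chart R t⁻¹}
    (hb : Function.Bijective fun p : Fin n → R[X] => ∑ j, aeval s (p j) * b j)
    (B01 : Type*) [CommRing B01] [Algebra (chart R t⁻¹) B01] [Algebra R B01]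
    [IsScalarTower R (chart R t⁻¹) B01] [IsLocalization.Away s B01]
    (u : B01) (hu : u * algebraMap (chart R t⁻¹) B01 s = 1) :
    ∃ T : Set (B01 →ₐ[R] ↥A),
      ((fun P : B01 →ₐ[R] ↥A =>
        IsLocalRing.residue ↥A (P (algebraMap (chart R t⁻¹) B01 s))) '' T).Infinite ∧
      ((fun P : B01 →ₐ[R] ↥A => IsLocalRing.residue ↥A (P u)) '' T).Infinite ∧
      ∀ P ∈ T, ∃ K' : IntermediateField ℚ Qbar, FiniteDimensional ℚ K' ∧ K ≤ K' ∧
        UnramAtPlace A K' ∧ ∀ a, ((P a : ↥A) : Qbar) ∈ K' := by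
  have hjA : ∀ r : R, algebraMap R Qbar r ∈ A := fun r => by
    rw [IsScalarTower.algebraMap_apply R ↥A Qbar r]
    exact (algebraMap R ↥A r).2
  obtain ⟨m, P, -, -, hPA, hPK, hdiff⟩ :=
    supply hl A hA hK hj hjK hjA π hπ ht S h0 s hs hn hb B01
  set Q : ℕ → (B01 →ₐ[R] ↥A) := fun i => codA A (P i) (hPA i) with hQ
  set σ : B01 := algebraMap (chart R t⁻¹) B01 s with hσ
  -- the residues of the `s`-coordinates are pairwise different
  have hinj : Function.Injective fun i => IsLocalRing.residue ↥A (Q i σ) := by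
    intro i j hij
    by_contra hne
    apply hdiff i j hne
    have hmem : P i σ - P j σ ∈ A := sub_mem (hPA i σ) (hPA j σ)
    rw [Fermat.Agent.FFJ.Model.RootsAvoid64.mem_nonunits_iff_residue A hmem]
    have h1 : (⟨P i σ - P j σ, hmem⟩ : ↥A) = Q i σ - Q j σ := Subtype.ext rfl
    rw [h1, map_sub, sub_eq_zero]
    exact hij
  -- `u`-coordinates: inverse residues
  have hinv : ∀ i, IsLocalRing.residue ↥A (Q i u) * IsLocalRing.residue ↥A (Q i σ) = 1 := by
    intro i
    rw [← map_mul, ← map_mul, hu, map_one, map_one]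
  have hinju : Function.Injective fun i => IsLocalRing.residue ↥A (Q i u) := by
    intro i j hij
    apply hinj
    show IsLocalRing.residue ↥A (Q i σ) = IsLocalRing.residue ↥A (Q j σ)
    have h1 := hinv i
    have h2 := hinv j
    have hij' : IsLocalRing.residue ↥A (Q i u) = IsLocalRing.residue ↥A (Q j u) := hij
    rw [hij'] at h1
    have hne : IsLocalRing.residue ↥A (Q j u) ≠ 0 := left_ne_zero_of_mul_eq_one h2
    exact mul_left_cancel₀ hne (h1.trans h2.symm)
  refine ⟨Set.range Q, ?_, ?_, ?_⟩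
  · exact Set.infinite_of_injective_forall_mem hinj fun i => ⟨Q i, ⟨i, rfl⟩, rfl⟩
  · exact Set.infinite_of_injective_forall_mem hinju fun i => ⟨Q i, ⟨i, rfl⟩, rfl⟩
  · rintro _ ⟨i, rfl⟩
    obtain ⟨K', hfd, hle, hun, hval⟩ := hPK i
    exact ⟨K', hfd, hle, hun, fun a => hval a⟩

end Set

end Fermat.Agent.FFJ.Model.SupplySet39
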