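/-
Programme FFJ (S19), chapter CURVE/PIC-D, brick (D3) SUPPLY.  Owner: helper39.

**SUPPLY at a GIVEN number field `K`** (pointwise in `K`: no `∃ K₀` wrapper).  `K ⊂ ℚ̄` a number
field containing the finite cusp values of the Hauptmodul `t = tq K n e` (`hS`) and unramified at
the place `A` (`hK`).  Then, for the second chart `B₁ = chart (AK A K) t⁻¹` of RED's model, the
coordinate `s = 1 - t⁻¹` (`= (mob t)⁻¹`, the coordinate of CURVE's Möbius model), ANY coordinate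
form `hb'` of "`B₁` is finite free over `(AK A K)[s]`" (`ChartFree17.free`) and ANY localization
`B₀₁ = B₁[1/s]` (`ChartBridge17.overlap`):

* `supply_at`     : the sequence form (`Supply39.supply`);
* `supply_set_at` : the Set form consumed by `GeoTwoLevel77.geoInputNN_of_two_level`
                    (`SupplySet39.supply_set`), for both coordinates `s` and `u = s⁻¹`.

RED inputs, pointwise: `hunrOff_at` (first third of `HorizConcrete26.hH_all` at a given `K`) and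
`smoothOffPoly_at` (`SmoothOffPoly39.offTargetPoly_of_hunr` at a given `K`, with
`SharpTargets23.jqModC_mem_adjoin` for `j ∈ K(t)`).
-/
import Fermat.Agent.FFJ.Model.SmoothOffPoly39
import Fermat.Agent.FFJ.Model.SharpTargets23
import Fermat.Agent.FFJ.Model.SupplySet39

set_option autoImplicit false
set_option linter.unusedSectionVars false
set_option linter.unusedVariables false
set_option linter.style.haveILetI false

noncomputable section

namespace Fermat.Agent.FFJ.Model.SupplyAt39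

open HahnSeries ModularCurve IntermediateField
open scoped MatrixGroups

open Fermat.Agent.X0 Fermat.Agent.X0.FF AlgebraicCurve
open Fermat.Agent.RED.Interface4 Fermat.Agent.RED.ModelTargets4
open Fermat.Agent.RED.BASE Fermat.Agent.RED.BASE.Interface12 Fermat.Agent.RED.BASE.EtaQuot12
open Fermat.Agent.RED.BASE.Hauptmodul12
open Fermat.Agent.RED.CUSP.PolyToPS16 Fermat.Agent.RED.CUSP.CuspIface23
open Fermat.Agent.RED.CUSP.HunrGeneric26 Fermat.Agent.RED.CUSP.HorizConcrete26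
open Fermat.Agent.RED.PUR.OffIface4
open Fermat.Agent.RED.DESC.PlaceExtend27 Fermat.Agent.RED.DESC.NumberFieldDVR27
open Fermat.Agent.RED.NumInst4
open Fermat.Agent.RED.PUR.GaussGen8 Fermat.Agent.RED.PUR.KtGauss8 Fermat.Agent.RED.PUR.G1Package8
open Fermat.Agent.RED.ModelIface4
open Fermat.Agent.FFJ.Model.SmoothOffPoly39

variable {n e : ℕ} [NeZero n] {M : ℕ} [NeZero M] {A : ValuationSubring Qbar}

/-- **The horizontal input off the cusp values at a given number field `K`** containing the finite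
cusp values (pointwise form of `HorizConcrete26.hH_off`). -/
theorem hunrOff_at (hb : BaseHyp n e) (hnM : n ∣ M) {ℓ : ℕ} [Fact ℓ.Prime] (hℓM : ¬ ℓ ∣ M)
    (hA : A.LiesOverPrime ℓ) (cv : SL(2, ℤ) → Option Kbar)
    (hcv : MainCusp12.CuspExports n e M cv)
    (K : IntermediateField ℚ Qbar) [FiniteDimensional ℚ K]
    (hS : ∀ (γ : SL(2, ℤ)) (c : Kbar), cv γ = some c → c ∈ K)
    (ϖ : ↥(AK A K)) (hϖ : Irreducible ϖ) (t : ↥(FK M K))
    (htq : (t : LaurentSeries K) = tq K n e) :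
    HUNROff (AK A K) (FK M K) ϖ t (cuspSet A K cv) := by
  classical
  have hℓ : ℓ.Prime := Fact.out
  have hB := Main12.baseExports hb M hnM
  have hdvr : IsDiscreteValuationRing ↥(AK A K) := isDiscreteValuationRing_AK A K hℓ.ne_zero hA
  have hn0 : n ≠ 0 := NeZero.ne n
  have hℓn : ¬ ℓ ∣ n := fun h => hℓM (h.trans hnM)
  have hnA : ((n : Qbar))⁻¹ ∈ A := inv_natCast_mem hℓ hA n hℓn
  have h : TMem n e M := hB.mem
  obtain ⟨_, hU⟩ := hB.unbranched
  obtain ⟨_, hC⟩ := hcv.cuspExp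
  have hconst : ∀ c : Kbar, tF M h ≠ algebraMap Kbar (FF M) c := tF_ne_const h
  have hcvA : ∀ γ c, cv γ = some c → ∃ a : ↥(AK A K), algebraMap ↥K Kbar (a : ↥K) = c := by
    intro γ c hγ
    have hcK : c ∈ K := hS γ c hγ
    have hcA : c ∈ A := (isIntAway_of_cv cv h hC γ c hγ).mem_of_inv_mem A hnA hn0
    exact ⟨⟨⟨c, hcK⟩, (mem_AK_iff A K _).mpr hcA⟩, rfl⟩
  have hbc : ∀ a : ↥K, baseChangeHom M K (algebraMap ↥K ↥(FK M K) a) =
      algebraMap Kbar (FF M) (algebraMap ↥K Kbar a) := fun a => baseChangeHom_algebraMap M K a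
  have ht : baseChangeHom M K t = tF M h :=
    Fermat.Agent.RED.CUSP.RankConcrete16.baseChangeHom_eq_tF M K h t htq
  have hExt : ∀ w : Place ↥K ↥(FK M K), ∃ (v : Place Kbar (FF M)) (d : ℕ), 0 < d ∧
      ∀ f : ↥(FK M K), v.ord (baseChangeHom M K f) = (d : ℤ) * w.ord f :=
    fun w => exists_place_above M K w
  have hπ0 : ϖ ≠ 0 := hϖ.ne_zero
  haveI : Algebra.IsAlgebraic ↥K Kbar := isAlgebraic_Qbar_over K
  have hK : ∀ a : ↥K, ∃ (r : ↥(AK A K)) (k : ℕ), a * (ϖ : ↥K) ^ k = (r : ↥K) :=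
    hK_of_irreducible (AK A K) hϖ
  exact hunrOff_of_horiz n e M cv h hU hC hconst hcvA (baseChangeHom M K) hbc t ht hExt ϖ hπ0 hK
    (cuspSet A K cv) (fun a ha => ha)

/-- The package of facts about `t = tq K n e ∈ FK M K` over `AK A K`, at a given `K`. -/
theorem smoothOffPoly_at_aux (hb : BaseHyp n e) (hnM : n ∣ M) {ℓ : ℕ} [Fact ℓ.Prime]
    (hℓM : ¬ ℓ ∣ M) (hA : A.LiesOverPrime ℓ) (cv : SL(2, ℤ) → Option Kbar)
    (K : IntermediateField ℚ Qbar) [FiniteDimensional ℚ K]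
    (ϖ : ↥(AK A K)) (hϖ : Irreducible ϖ) (t : ↥(FK M K))
    (htq : (t : LaurentSeries K) = tq K n e)
    (hH : HUNROff (AK A K) (FK M K) ϖ t (cuspSet A K cv)) :
    SmoothOffPoly (AK A K) (FK M K) ϖ t (cuspSet A K cv) ∧ Transcendental K t := by
  have hℓ : ℓ.Prime := Fact.out
  have hB := Main12.baseExports hb M hnM
  have hdvr : IsDiscreteValuationRing ↥(AK A K) := isDiscreteValuationRing_AK A K hℓ.ne_zero hA
  have hchar : CharP (Res (AK A K)) ℓ := charP_residueField_AK A K hℓ hA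
  have hfinres : Finite (Res (AK A K)) := finite_residueField_AK A K hℓ.ne_zero hA
  have hE : FK M K ≤ fracField (AK A K) :=
    Fermat.Agent.RED.PUR.GaussBridge10.FK_le_fracField A K M
  have ht : ((t : ↥(FK M K)) : LaurentSeries K) ∈ gaussRing (AK A K) := by
    rw [htq]; exact tq_mem_gaussRing (AK A K) n e
  have htr : Transcendental (Res (AK A K))
      (gaussRed (AK A K) ⟨((t : ↥(FK M K)) : LaurentSeries K), ht⟩) := by
    have h1 : (⟨((t : ↥(FK M K)) : LaurentSeries K), ht⟩ : gaussRing (AK A K)) =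
        ⟨tq K n e, tq_mem_gaussRing (AK A K) n e⟩ := Subtype.ext htq
    rw [h1]
    exact transcendental_gaussRed_tq (AK A K) n e
  have hjt : jqModC K ∈ Kt (AK A K) ⟨((t : ↥(FK M K)) : LaurentSeries K), ht⟩ := by
    show jqModC K ∈ IntermediateField.adjoin K {((t : ↥(FK M K)) : LaurentSeries K)}
    rw [htq]
    exact Fermat.Agent.FFJ.Model.SharpTargets23.jqModC_mem_adjoin n e hB.genBase K
  have htE' : ((t : ↥(FK M K)) : LaurentSeries K) ∈ FK M K := t.2
  obtain ⟨nn, -, hdeg, hirr⟩ := Fermat.Agent.RED.PUR.GaussInst25.exists_degLe_irr_FK A K hϖ ℓ M hℓM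
    ⟨((t : ↥(FK M K)) : LaurentSeries K), ht⟩ htE' hjt
  have hn : relfinrank (Kt (AK A K) ⟨((t : ↥(FK M K)) : LaurentSeries K), ht⟩) (FK M K) ≠ 0 :=
    Fermat.Agent.RED.ModelMain4.relfinrank_ne_zero (AK A K) M _ htE' hjt
  have hfd : FiniteDimensional ↥(IntermediateField.adjoin K {t}) ↥(FK M K) :=
    Fermat.Agent.RED.ModelAsm4.finiteDimensional_adjoin t hn
  have htrK : Transcendental K t :=
    Fermat.Agent.RED.ModelAsm4.transcendental_of_coe t
      (transcendental_t (tG := ⟨((t : ↥(FK M K)) : LaurentSeries K), ht⟩) hϖ htr)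
  have hord := Fermat.Agent.RED.PUR.TqOrder26.isCoprime_order_gaussRed (AK A K) n e t ht htq (ℓ : ℤ)
  exact ⟨smoothOffPoly_of_hunrOff hϖ hE t ht htr hdeg hirr ℓ hord htrK (cuspSet A K cv) hH, htrK⟩

/-- **The polynomial-uniformiser form of purity at a given number field `K`** containing the finite
cusp values. -/
theorem smoothOffPoly_at (hb : BaseHyp n e) (hnM : n ∣ M) {ℓ : ℕ} [Fact ℓ.Prime]
    (hℓM : ¬ ℓ ∣ M) (hA : A.LiesOverPrime ℓ) (cv : SL(2, ℤ) → Option Kbar)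
    (hcv : MainCusp12.CuspExports n e M cv)
    (K : IntermediateField ℚ Qbar) [FiniteDimensional ℚ K]
    (hS : ∀ (γ : SL(2, ℤ)) (c : Kbar), cv γ = some c → c ∈ K)
    (ϖ : ↥(AK A K)) (hϖ : Irreducible ϖ) (t : ↥(FK M K))
    (htq : (t : LaurentSeries K) = tq K n e) :
    SmoothOffPoly (AK A K) (FK M K) ϖ t (cuspSet A K cv) :=
  (smoothOffPoly_at_aux hb hnM hℓM hA cv K ϖ hϖ t htq
    (hunrOff_at hb hnM hℓM hA cv hcv K hS ϖ hϖ t htq)).1

section Supply

open Polynomial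
open Fermat.Agent.FFJ.Alg.SpecLocal78
open Fermat.Agent.FFJ.Model.PolyTransfer39 Fermat.Agent.FFJ.Model.Supply39
open Fermat.Agent.FFJ.Model.SupplySet39
open Fermat.Agent.RED.PUR.ChartGeneric22

/-- **(D3) SUPPLY at a given number field `K`, sequence form.** -/
theorem supply_at (hb : BaseHyp n e) (hnM : n ∣ M) {ℓ : ℕ} [Fact ℓ.Prime]
    (hℓM : ¬ ℓ ∣ M) (hA : A.LiesOverPrime ℓ) (cv : SL(2, ℤ) → Option Kbar)
    (hcv : MainCusp12.CuspExports n e M cv)
    (K : IntermediateField ℚ Qbar) [FiniteDimensional ℚ K] (hK : UnramAtPlace A K)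
    (hS : ∀ (γ : SL(2, ℤ)) (c : Kbar), cv γ = some c → c ∈ K)
    (ϖ : ↥(AK A K)) (hϖ : Irreducible ϖ) (t : ↥(FK M K))
    (htq : (t : LaurentSeries K) = tq K n e)
    (s : chart ↥(AK A K) t⁻¹) (hs : s = 1 - tch ↥(AK A K) t⁻¹)
    {r : ℕ} (hr : r ≠ 0) {b : Fin r → chart ↥(AK A K) t⁻¹}
    (hb' : Function.Bijective fun p : Fin r → (↥(AK A K))[X] => ∑ j, aeval s (p j) * b j)
    (B01 : Type*) [CommRing B01] [Algebra (chart ↥(AK A K) t⁻¹) B01] [Algebra ↥(AK A K) B01]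
    [IsScalarTower ↥(AK A K) (chart ↥(AK A K) t⁻¹) B01] [IsLocalization.Away s B01] :
    ∃ (m : ℕ → ℕ) (P : ℕ → (B01 →ₐ[↥(AK A K)] Qbar)), StrictMono m ∧
      (∀ i, (m i).Prime ∧ m i ≠ ℓ ∧
        IsPrimitiveRoot (P i (algebraMap (chart ↥(AK A K) t⁻¹) B01 s)) (m i)) ∧
      (∀ i z, P i z ∈ A) ∧
      (∀ i, ∃ K' : IntermediateField ℚ Qbar, FiniteDimensional ℚ K' ∧ K ≤ K' ∧
        UnramAtPlace A K' ∧ ∀ z, P i z ∈ K') ∧
      ∀ i j, i ≠ j → P i (algebraMap (chart ↥(AK A K) t⁻¹) B01 s) -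
        P j (algebraMap (chart ↥(AK A K) t⁻¹) B01 s) ∉ A.nonunits := by
  have hℓ : ℓ.Prime := Fact.out
  haveI hdvr : IsDiscreteValuationRing ↥(AK A K) :=
    isDiscreteValuationRing_AK A K hℓ.ne_zero hA
  haveI hchar : CharP (IsLocalRing.ResidueField ↥(AK A K)) ℓ := charP_residueField_AK A K hℓ hA
  haveI hfinres : Finite (IsLocalRing.ResidueField ↥(AK A K)) :=
    finite_residueField_AK A K hℓ.ne_zero hA
  obtain ⟨h0, htrK⟩ := smoothOffPoly_at_aux hb hnM hℓM hA cv K ϖ hϖ t htq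
    (hunrOff_at hb hnM hℓM hA cv hcv K hS ϖ hϖ t htq)
  have ht0 : t ≠ 0 := fun h => htrK (h ▸ isAlgebraic_zero)
  refine supply hℓ A hA hK ?_ ?_ ?_ ϖ hϖ.maximalIdeal_eq ht0 (cuspSet A K cv) ?_ s hs hr hb' B01
  · exact (algebraMap ↥K Qbar).injective.comp Subtype.val_injective
  · intro x
    exact (x : ↥K).2
  · intro x
    exact (mem_AK_iff A K _).mp x.2
  · intro x hx hπx hSx
    exact h0 x hx hπx hSx

/-- **(D3) SUPPLY at a given number field `K`, Set form** = the hypotheses `S`, `hSinf`, `hSunr`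
of `GeoTwoLevel77.geoInputNN_of_two_level` (`[Algebra ↥(AK A K) ↥A]` := `GeoWireOne77.algebraOKA`,
tower := `GeoWireOne77.isScalarTower_OKA`; `u` := the image of the coordinate of the first chart). -/
theorem supply_set_at (hb : BaseHyp n e) (hnM : n ∣ M) {ℓ : ℕ} [Fact ℓ.Prime]
    (hℓM : ¬ ℓ ∣ M) (hA : A.LiesOverPrime ℓ) (cv : SL(2, ℤ) → Option Kbar)
    (hcv : MainCusp12.CuspExports n e M cv)
    (K : IntermediateField ℚ Qbar) [FiniteDimensional ℚ K] (hK : UnramAtPlace A K)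
    (hS : ∀ (γ : SL(2, ℤ)) (c : Kbar), cv γ = some c → c ∈ K)
    [Algebra ↥(AK A K) ↥A] [IsScalarTower ↥(AK A K) ↥A Qbar]
    (ϖ : ↥(AK A K)) (hϖ : Irreducible ϖ) (t : ↥(FK M K))
    (htq : (t : LaurentSeries K) = tq K n e)
    (s : chart ↥(AK A K) t⁻¹) (hs : s = 1 - tch ↥(AK A K) t⁻¹)
    {r : ℕ} (hr : r ≠ 0) {b : Fin r → chart ↥(AK A K) t⁻¹}
    (hb' : Function.Bijective fun p : Fin r → (↥(AK A K))[X] => ∑ j, aeval s (p j) * b j)
    (B01 : Type*) [CommRing B01] [Algebra (chart ↥(AK A K) t⁻¹) B01] [Algebra ↥(AK A K) B01]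
    [IsScalarTower ↥(AK A K) (chart ↥(AK A K) t⁻¹) B01] [IsLocalization.Away s B01]
    (u : B01) (hu : u * algebraMap (chart ↥(AK A K) t⁻¹) B01 s = 1) :
    ∃ T : Set (B01 →ₐ[↥(AK A K)] ↥A),
      ((fun P : B01 →ₐ[↥(AK A K)] ↥A =>
        IsLocalRing.residue ↥A (P (algebraMap (chart ↥(AK A K) t⁻¹) B01 s))) '' T).Infinite ∧
      ((fun P : B01 →ₐ[↥(AK A K)] ↥A => IsLocalRing.residue ↥A (P u)) '' T).Infinite ∧
      ∀ P ∈ T, ∃ K' : IntermediateField ℚ Qbar, FiniteDimensional ℚ K' ∧ K ≤ K' ∧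
        UnramAtPlace A K' ∧ ∀ a, ((P a : ↥A) : Qbar) ∈ K' := by
  have hℓ : ℓ.Prime := Fact.out
  haveI hdvr : IsDiscreteValuationRing ↥(AK A K) :=
    isDiscreteValuationRing_AK A K hℓ.ne_zero hA
  haveI hchar : CharP (IsLocalRing.ResidueField ↥(AK A K)) ℓ := charP_residueField_AK A K hℓ hA
  haveI hfinres : Finite (IsLocalRing.ResidueField ↥(AK A K)) :=
    finite_residueField_AK A K hℓ.ne_zero hA
  obtain ⟨h0, htrK⟩ := smoothOffPoly_at_aux hb hnM hℓM hA cv K ϖ hϖ t htq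
    (hunrOff_at hb hnM hℓM hA cv hcv K hS ϖ hϖ t htq)
  have ht0 : t ≠ 0 := fun h => htrK (h ▸ isAlgebraic_zero)
  refine supply_set hℓ A hA hK ?_ ?_ ϖ hϖ.maximalIdeal_eq ht0 (cuspSet A K cv) ?_ s hs hr hb' B01
    u hu
  · exact (algebraMap ↥K Qbar).injective.comp Subtype.val_injective
  · intro x
    exact (x : ↥K).2
  · intro x hx hπx hSx
    exact h0 x hx hπx hSx

end Supply

end Fermat.Agent.FFJ.Model.SupplyAt39
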