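/-
Programme FFJ (S19), chapter CURVE/PIC-D, brick (D3) SUPPLY: the exit in the literal shape of the
D8 consumer (`GeoTwoLevel77.geoInputNN_of_two_level`, helper77 #2017), from the CURVE data
`H₁ : CurveHypR (OK K₁ A) A0 A1 A01 t s` and the RED input `hpoly` on the chart `(A1, s)`
(helper39's polynomial local parameters, off a finite set of `s`-values).   helper64.

* `supply_of_curveHypR`: a set `S` of `O₁`-algebra maps `A01 → ↥A` (`O₁ = OK K₁ A = A ∩ K₁`, the
  `O₁`-algebra structure of `↥A` being `GeoWireOne77.algebraOKA K₁ A`) such that the residues of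
  `P (algebraMap A0 A01 t)` (and those of `P (algebraMap A1 A01 s)`) form an infinite set and each
  `P ∈ S` has its values in a number field `K' ⊇ K₁` with `UnramAtPlace A K'`.
-/
import Mathlib
import Fermat.Agent.FFJ.Model.SupplyAbs64
import Fermat.Agent.FFJ.Order.GeoWireOne77
import Fermat.Agent.FFJ.Pic.ChartDefR35
import Fermat.Agent.RED.DESC.NumberFieldDVR27

set_option autoImplicit false
set_option linter.style.haveILetI false

open Polynomial

namespace Fermat.Agent.FFJ.Model.SupplyCurve64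

open Fermat.Agent.FFJ.Alg.Spec78 Fermat.Agent.FFJ.Alg.SpecLocal78
open Fermat.Agent.FFJ.Order.GeoWire77 Fermat.Agent.FFJ.Order.GeoWireOne77
open Fermat.Agent.FFJ.Pic.ChartDefR35

/-- **(D3) SUPPLY in the shape consumed by D8-TOP.** -/
theorem supply_of_curveHypR (l : ℕ) (hl : l.Prime)
    (K₁ : IntermediateField ℚ Qbar) [FiniteDimensional ℚ K₁] (A : ValuationSubring Qbar)
    (hA : A.LiesOverPrime l) (hunr : UnramAtPlace A K₁)
    (A0 A1 A01 : Type) [CommRing A0] [CommRing A1] [CommRing A01]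
    [Algebra (OK K₁ A) A0] [Algebra (OK K₁ A) A1] [Algebra (OK K₁ A) A01] [Algebra A0 A01]
    [Algebra A1 A01] [IsScalarTower (OK K₁ A) A0 A01] [IsScalarTower (OK K₁ A) A1 A01]
    (t : A0) (s : A1) [IsLocalization.Away t A01] [IsLocalization.Away s A01]
    (H₁ : CurveHypR (OK K₁ A) A0 A1 A01 t s)
    (S₀ : Set (OK K₁ A))
    (hpoly : ∀ x : Ideal A1, x.IsMaximal →
      (∀ r ∈ IsLocalRing.maximalIdeal (OK K₁ A), algebraMap (OK K₁ A) A1 r ∈ x) →
      (∀ c ∈ S₀, s - algebraMap (OK K₁ A) A1 c ∉ x) →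
      ∃ f : (OK K₁ A)[X], aeval s f ∈ x ∧ ∀ y ∈ x, ∃ d, d ∉ x ∧
        d * y ∈ Ideal.map (algebraMap (OK K₁ A) A1) (IsLocalRing.maximalIdeal (OK K₁ A)) ⊔
          Ideal.span {aeval s f}) :
    letI := algebraOKA K₁ A
    ∃ S : Set (A01 →ₐ[OK K₁ A] ↥A),
      ((fun P : A01 →ₐ[OK K₁ A] ↥A =>
        IsLocalRing.residue ↥A (P (algebraMap A0 A01 t))) '' S).Infinite ∧
      ((fun P : A01 →ₐ[OK K₁ A] ↥A =>
        IsLocalRing.residue ↥A (P (algebraMap A1 A01 s))) '' S).Infinite ∧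
      ∀ P ∈ S, ∃ K' : IntermediateField ℚ Qbar, FiniteDimensional ℚ K' ∧ K₁ ≤ K' ∧
        UnramAtPlace A K' ∧ ∀ a, ((P a : ↥A) : Qbar) ∈ K' := by
  letI := algebraOKA K₁ A
  haveI := isScalarTower_OKA K₁ A
  haveI : Finite (IsLocalRing.ResidueField (OK K₁ A)) :=
    Fermat.Agent.RED.DESC.NumberFieldDVR27.finite_residueField_AK (K := K₁) (A := A) hl.ne_zero hA
  haveI : Nontrivial A1 := by
    by_contra h
    rw [not_nontrivial_iff_subsingleton] at h
    haveI := h
    haveI := H₁.dedekind1 Qbar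
    have h10 : (1 : TensorProduct (OK K₁ A) Qbar A1) = 0 := by
      rw [Algebra.TensorProduct.one_def, Subsingleton.elim (1 : A1) 0, TensorProduct.tmul_zero]
    exact one_ne_zero h10
  obtain ⟨n, b, hb⟩ := H₁.coords1
  have hn : n ≠ 0 := by
    rintro rfl
    obtain ⟨p, hp⟩ := hb.2 (1 : A1)
    have h0 : (∑ j : Fin 0, aeval s (p j) * b j) = 0 := Finset.sum_empty
    exact one_ne_zero (α := A1) (by rw [← hp]; exact h0)
  have hj : Function.Injective (algebraMap (OK K₁ A) Qbar) := by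
    intro x y hxy
    apply Subtype.ext
    exact (algebraMap K₁ Qbar).injective hxy
  have hjK : ∀ r, algebraMap (OK K₁ A) Qbar r ∈ K₁ := fun r => (r : K₁).2
  have hu : algebraMap A0 A01 t * algebraMap A1 A01 s = 1 := H₁.hts
  obtain ⟨T, hT1, hT2, hT3⟩ :=
    SupplyAbs64.supply_set A K₁ hunr hj hjK s hn b hb S₀ hpoly l hl hA (B01 := A01)
      (algebraMap A0 A01 t) hu
  exact ⟨T, hT2, hT1, hT3⟩

end Fermat.Agent.FFJ.Model.SupplyCurve64
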