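/-
Programme FFJ (S19), chapter CURVE/PIC-D, brick (D3) SUPPLY: the BRIDGE between helper39's RED exit
(`Supply39.hLOC_of_locPoly`: (LOC) on the second chart off the bad LOCUS `Supply39.Bad S`, a set of
linear polynomials) and the value-set form consumed by `SupplyAbs64` /
`SupplyCurve64.supply_of_curveHypR` (off a set of `s`-VALUES).   helper64.

* `badValues S = {1} ∪ {1 - c⁻¹ | c ∈ S a unit}` and `aeval_notMem_of_badValues`;
* `hpoly_of_h0`   : the hypothesis `hpoly` of `SupplyAbs64`/`SupplyCurve64` for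
  `(B, t) := (chart R t⁻¹, s = 1 - t⁻¹)` from `h0` = `SmoothOffPoly39.SmoothOffPoly` unfolded;
* `supply_of_h0`  : the exit `(S, hSinf, hSinf_s, hSunr)` of D8-TOP from `h0` and
  `H₁ : CurveHypR (OK K₁ A) A0 ↥(chart (OK K₁ A) t⁻¹) A01 t' s`.
-/
import Mathlib
import Fermat.Agent.FFJ.Model.Supply39
import Fermat.Agent.FFJ.Model.SupplyAbs64
import Fermat.Agent.FFJ.Model.SupplyCurve64

set_option autoImplicit false
set_option linter.style.haveILetI false

open Polynomial

namespace Fermat.Agent.FFJ.Model.SupplyBridge64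

open Fermat.Agent.FFJ.Model.Supply39 Fermat.Agent.FFJ.Model.PolyTransfer39
open Fermat.Agent.RED.PUR.ChartGeneric22

section Values

variable {R B : Type*} [CommRing R] [IsLocalRing R] [CommRing B] [Algebra R B]

/-- The `s`-values (`s = 1 - t⁻¹`) of the bad locus `Supply39.Bad S`: `s = 1` (`t = ∞`) and
`s = 1 - c⁻¹` for the units `c ∈ S` (`t = c`). -/
def badValues (S : Set R) : Set R :=
  {c₀ | c₀ = 1 ∨ ∃ c ∈ S, ∃ u : R, c * u = 1 ∧ c₀ = 1 - u}

/-- a maximal ideal over the closed point of `R` avoiding the bad VALUES avoids the bad locus. -/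
theorem aeval_notMem_of_badValues (S : Set R) (s : B) (x : Ideal B) (hx : x.IsMaximal)
    (hp : ∀ r ∈ IsLocalRing.maximalIdeal R, algebraMap R B r ∈ x)
    (h : ∀ c₀ ∈ badValues S, s - algebraMap R B c₀ ∉ x) : ∀ p ∈ Bad S, aeval s p ∉ x := by
  rintro p (rfl | ⟨c, hc, rfl⟩) hmem
  · have h1 : aeval s (C 1 + C (-1) * X : R[X]) = -(s - algebraMap R B 1) := by
      simp only [map_add, map_mul, aeval_X, map_one, map_neg]
      ring
    rw [h1, Ideal.neg_mem_iff] at hmem
    exact h 1 (Or.inl rfl) hmem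
  · have h1 : aeval s (C (1 - c) + C c * X : R[X]) =
        1 - algebraMap R B c + algebraMap R B c * s := by
      simp only [map_add, map_mul, aeval_C, aeval_X, map_one, map_sub]
    rw [h1] at hmem
    by_cases hcu : IsUnit c
    · obtain ⟨u, hu⟩ := hcu.exists_right_inv
      apply h (1 - u) (Or.inr ⟨c, hc, u, hu, rfl⟩)
      have hu' : algebraMap R B c * algebraMap R B u = 1 := by rw [← map_mul, hu, map_one]
      have h2 : s - algebraMap R B (1 - u) =
          algebraMap R B u * (1 - algebraMap R B c + algebraMap R B c * s) := by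
        rw [map_sub, map_one]
        linear_combination ((1 : B) - s) * hu'
      rw [h2]
      exact Ideal.mul_mem_left _ _ hmem
    · have hcm : algebraMap R B c ∈ x := hp c ((IsLocalRing.mem_maximalIdeal c).mpr hcu)
      have h2 : (1 : B) = (1 - algebraMap R B c + algebraMap R B c * s) +
          algebraMap R B c * (1 - s) := by ring
      apply hx.ne_top
      rw [Ideal.eq_top_iff_one, h2]
      exact Ideal.add_mem _ hmem (Ideal.mul_mem_right _ _ hcm)

end Values

section Chart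

variable {R F : Type*} [CommRing R] [IsLocalRing R] [Field F] [Algebra R F]

/-- **`hpoly` for the second chart** (`B₁ = chart R t⁻¹`, coordinate `s = 1 - t⁻¹`), in the shape
consumed by `SupplyAbs64` / `SupplyCurve64.supply_of_curveHypR`, from the polynomial form `h0` of
purity on `B₀ = chart R t` off the values `c ∈ S` (`= SmoothOffPoly39.SmoothOffPoly`, unfolded). -/
theorem hpoly_of_h0 [Finite (IsLocalRing.ResidueField R)] (π : R)
    (hπ : IsLocalRing.maximalIdeal R = Ideal.span {π}) {t : F} (ht : t ≠ 0) (S : Set R)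
    (h0 : ∀ x : Ideal (chart R t), x.IsMaximal → algebraMap R (chart R t) π ∈ x →
      (∀ c ∈ S, tch R t - algebraMap R (chart R t) c ∉ x) → LocPoly π t x)
    (s : chart R t⁻¹) (hs : s = 1 - tch R t⁻¹)
    {n : ℕ} {b : Fin n → chart R t⁻¹}
    (hb : Function.Surjective fun p : Fin n → R[X] => ∑ j, aeval s (p j) * b j) :
    ∀ x : Ideal (chart R t⁻¹), x.IsMaximal →
      (∀ r ∈ IsLocalRing.maximalIdeal R, algebraMap R (chart R t⁻¹) r ∈ x) →
      (∀ c ∈ badValues S, s - algebraMap R (chart R t⁻¹) c ∉ x) →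
      ∃ f : R[X], aeval s f ∈ x ∧ ∀ y ∈ x, ∃ d, d ∉ x ∧
        d * y ∈ Ideal.map (algebraMap R (chart R t⁻¹)) (IsLocalRing.maximalIdeal R) ⊔
          Ideal.span {aeval s f} := by
  intro x hx hp hval
  haveI : Algebra.FiniteType R (chart R t⁻¹) := finiteType_of_coords hb
  exact hLOC_of_locPoly π hπ ht S h0 s hs x hx hp
    (aeval_notMem_of_badValues S s x hx hp hval)

end Chart

section Curve

open Fermat.Agent.FFJ.Alg.Spec78 Fermat.Agent.FFJ.Alg.SpecLocal78
open Fermat.Agent.FFJ.Order.GeoWire77 Fermat.Agent.FFJ.Order.GeoWireOne77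
open Fermat.Agent.FFJ.Pic.ChartDefR35

/-- **(D3) SUPPLY from the polynomial form of purity on the first chart**, in the exit shape of
D8-TOP; second chart `A1 = chart O₁ t⁻¹` with coordinate `s = 1 - t⁻¹` (CurveOut17's `s'`). -/
theorem supply_of_h0 (l : ℕ) (hl : l.Prime)
    (K₁ : IntermediateField ℚ Qbar) [FiniteDimensional ℚ K₁] (A : ValuationSubring Qbar)
    (hA : A.LiesOverPrime l) (hunr : UnramAtPlace A K₁)
    {F : Type} [Field F] [Algebra (OK K₁ A) F] (π : OK K₁ A)
    (hπ : IsLocalRing.maximalIdeal (OK K₁ A) = Ideal.span {π}) {t : F} (ht : t ≠ 0)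
    (S : Set (OK K₁ A))
    (h0 : ∀ x : Ideal (chart (OK K₁ A) t), x.IsMaximal →
      algebraMap (OK K₁ A) (chart (OK K₁ A) t) π ∈ x →
      (∀ c ∈ S, tch (OK K₁ A) t - algebraMap (OK K₁ A) (chart (OK K₁ A) t) c ∉ x) →
      LocPoly π t x)
    (A0 A01 : Type) [CommRing A0] [CommRing A01]
    [Algebra (OK K₁ A) A0] [Algebra (OK K₁ A) A01] [Algebra A0 A01]
    [Algebra (chart (OK K₁ A) t⁻¹) A01] [IsScalarTower (OK K₁ A) A0 A01]
    [IsScalarTower (OK K₁ A) (chart (OK K₁ A) t⁻¹) A01]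
    (t' : A0) (s : chart (OK K₁ A) t⁻¹) (hs : s = 1 - tch (OK K₁ A) t⁻¹)
    [IsLocalization.Away t' A01] [IsLocalization.Away s A01]
    (H₁ : CurveHypR (OK K₁ A) A0 (chart (OK K₁ A) t⁻¹) A01 t' s) :
    letI := algebraOKA K₁ A
    ∃ T : Set (A01 →ₐ[OK K₁ A] ↥A),
      ((fun P : A01 →ₐ[OK K₁ A] ↥A =>
        IsLocalRing.residue ↥A (P (algebraMap A0 A01 t'))) '' T).Infinite ∧
      ((fun P : A01 →ₐ[OK K₁ A] ↥A =>
        IsLocalRing.residue ↥A (P (algebraMap (chart (OK K₁ A) t⁻¹) A01 s))) '' T).Infinite ∧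
      ∀ P ∈ T, ∃ K' : IntermediateField ℚ Qbar, FiniteDimensional ℚ K' ∧ K₁ ≤ K' ∧
        UnramAtPlace A K' ∧ ∀ a, ((P a : ↥A) : Qbar) ∈ K' := by
  haveI : Finite (IsLocalRing.ResidueField (OK K₁ A)) :=
    Fermat.Agent.RED.DESC.NumberFieldDVR27.finite_residueField_AK (K := K₁) (A := A) hl.ne_zero hA
  obtain ⟨n, b, hb⟩ := H₁.coords1
  exact SupplyCurve64.supply_of_curveHypR l hl K₁ A hA hunr A0 (chart (OK K₁ A) t⁻¹) A01 t' s H₁
    (badValues S) (hpoly_of_h0 π hπ ht S h0 s hs hb.2)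

end Curve

end Fermat.Agent.FFJ.Model.SupplyBridge64
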