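/-
Programme FFJ (S19), chapter CURVE/PIC-D, brick (D3) SUPPLY.  Owner: helper39.

**The abstract core of SUPPLY.**  `R` a local domain with perfect residue field, `Ω ⊇ R`
algebraically closed, `B` an `R`-algebra, finite free of positive rank over `R[s]` (coordinate form),
`B01 = B[1/s]`.  Assume the coordinate `s` is étale over `R` at the closed points of `B` outside a
bad locus (`hLOC`: polynomial local parameter, the conclusion of RED's purity theorem).  Then for
every monic `g ∈ R[X]` of positive degree with unit constant term whose reduction is separable and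
prime to the bad locus:

* `B ⧸ (g(s))` is finite free over `R` with unit discriminant (for every basis), and
* there is an `R`-algebra map `φ : B01 → Ω` with `g(φ s) = 0` and integral values, factoring on `B`
  through `B ⧸ (g(s))`.

This is `supplyCore`.  The unramifiedness of the field generated by the values of `φ` is then
`FFJ/Alg/UnramEtale92.unramAt_of_isUnit_discr` (or its local twin `tdIn_of_isUnit_discr`).
-/
import Mathlib
import Fermat.Agent.FFJ.Model.FibreG39

set_option autoImplicit false
set_option linter.style.haveILetI false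

open Polynomial

namespace Fermat.Agent.FFJ.Model.SupplyCore39

open Fermat.Agent.FFJ.Model.FibreG39

variable {R B : Type*} [CommRing R] [CommRing B] [Algebra R B] [IsLocalRing R]

/-- If the reductions of `g` and `p` are coprime and `g(s) ∈ x`, then `p(s) ∉ x`. -/
theorem aeval_notMem_of_isCoprime (s : B) (x : Ideal B) [hx : x.IsMaximal]
    (hp : ∀ r ∈ IsLocalRing.maximalIdeal R, algebraMap R B r ∈ x)
    (g p : R[X])
    (hcop : IsCoprime (g.map (IsLocalRing.residue R)) (p.map (IsLocalRing.residue R)))
    (hgx : aeval s g ∈ x) : aeval s p ∉ x := by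
  intro hpx
  obtain ⟨ab, bb, hab⟩ := hcop
  obtain ⟨a, ha⟩ := Polynomial.map_surjective (IsLocalRing.residue R)
    IsLocalRing.residue_surjective ab
  obtain ⟨b, hb⟩ := Polynomial.map_surjective (IsLocalRing.residue R)
    IsLocalRing.residue_surjective bb
  have hker : a * g + b * p - 1 ∈ Ideal.map (C : R →+* R[X]) (IsLocalRing.maximalIdeal R) := by
    have h1 : (a * g + b * p - 1).map (IsLocalRing.residue R) = 0 := by
      rw [Polynomial.map_sub, Polynomial.map_add, Polynomial.map_mul, Polynomial.map_mul, ha, hb,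
        Polynomial.map_one, hab, sub_self]
    have h2 : a * g + b * p - 1 ∈ RingHom.ker (mapRingHom (IsLocalRing.residue R)) := by
      rw [RingHom.mem_ker]
      exact h1
    rw [ker_mapRingHom, IsLocalRing.ker_residue] at h2
    exact h2
  have h3 : aeval s (a * g + b * p - 1) ∈ x := by
    have h4 := Ideal.mem_map_of_mem (aeval s : R[X] →ₐ[R] B).toRingHom hker
    rw [Ideal.map_map] at h4
    have h5 : ((aeval s : R[X] →ₐ[R] B).toRingHom).comp (C : R →+* R[X]) = algebraMap R B := by
      ext r
      simp
    rw [h5] at h4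
    refine (Ideal.map_le_iff_le_comap.mpr ?_) h4
    intro r hr
    exact hp r hr
  have h6 : (1 : B) = aeval s a * aeval s g + aeval s b * aeval s p -
      aeval s (a * g + b * p - 1) := by
    simp only [map_sub, map_add, map_mul, map_one]
    ring
  apply hx.ne_top
  rw [Ideal.eq_top_iff_one, h6]
  exact x.sub_mem (x.add_mem (x.mul_mem_left _ hgx) (x.mul_mem_left _ hpx)) h3

variable {Ω : Type*} [Field Ω] [IsAlgClosed Ω] [Algebra R Ω]
  {n : ℕ} {s : B} {b : Fin n → B}

/-- **The abstract core of SUPPLY.** -/
theorem supplyCore [IsDomain R] [PerfectField (IsLocalRing.ResidueField R)]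
    (hj : Function.Injective (algebraMap R Ω)) (hn : n ≠ 0)
    (hb : Function.Bijective fun p : Fin n → R[X] => ∑ j, aeval s (p j) * b j)
    (Bad : Set R[X])
    (hLOC : ∀ x : Ideal B, x.IsMaximal →
      (∀ r ∈ IsLocalRing.maximalIdeal R, algebraMap R B r ∈ x) →
      (∀ p ∈ Bad, aeval s p ∉ x) →
      ∃ f : R[X], aeval s f ∈ x ∧ ∀ y ∈ x, ∃ d, d ∉ x ∧
        d * y ∈ Ideal.map (algebraMap R B) (IsLocalRing.maximalIdeal R) ⊔
          Ideal.span {aeval s f})
    (g : R[X]) (hg : g.Monic) (hgd : g.natDegree ≠ 0)
    (hsep : (g.map (IsLocalRing.residue R)).Separable)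
    (hcop : ∀ p ∈ Bad,
      IsCoprime (g.map (IsLocalRing.residue R)) (p.map (IsLocalRing.residue R)))
    (hg0 : IsUnit (g.coeff 0))
    (B01 : Type*) [CommRing B01] [Algebra B B01] [Algebra R B01] [IsScalarTower R B B01]
    [IsLocalization.Away s B01] :
    Module.Finite R (fibreG s g) ∧ Module.Free R (fibreG s g) ∧
    (∀ {ι : Type} [Fintype ι] [DecidableEq ι] (b' : Module.Basis ι R (fibreG s g)),
      IsUnit (Algebra.discr R b')) ∧
    ∃ (ε : fibreG s g →ₐ[R] Ω) (φ : B01 →ₐ[R] Ω),
      (∀ x : B, φ (algebraMap B B01 x) = ε (Ideal.Quotient.mk (fibreGIdeal s g) x)) ∧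
      aeval (φ (algebraMap B B01 s)) g = 0 ∧ ∀ z, IsIntegral R (φ z) := by
  refine ⟨finite_fibreG hg hb, free_fibreG hg hb, ?_, ?_⟩
  · intro ι _ _ b'
    refine isUnit_discr_fibreG hg hsep hb ?_ b'
    intro x hx hp hgx
    haveI := hx
    exact hLOC x hx hp (fun p hpB => aeval_notMem_of_isCoprime s x hp g p (hcop p hpB) hgx)
  · exact exists_algHom_awayG hj hg hn hgd hb hg0 B01

end Fermat.Agent.FFJ.Model.SupplyCore39
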